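/-
GATE-L / H5 ARM (helper11): the hypotheses `hunif0`, `hunif1` of `H5Typed.h5_typed` /
`H5TypeI.hallj_typed` / `hallji_typed` / helper47 `LocTypeIq.exists_locAt_q` over `K₀(X₀(N))`:
**`q` is a uniformiser of `w₁` and of `w₂`** (`e₁ = e₂ = 1`, helper26 `exists_eq_q_mul₁`,
`exists_eq_q_mul₂Q`), on ANY frame `Bf` and for ANY presentation `qB : Bf` of `q`.

* `coe_q0` / `algebraMap_q0` : `(q0 A q : K₀) = q`, `algebraMap K₀ F₀ (q0 A q) = q`;
* `div_mem_of_dvd` : `∀ x ∈ 𝔪_V, ∃ y ∈ V, x = ϖ y` ⟹ `∀ x ∈ 𝔪_V, x / ϖ ∈ V`;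
* `hunif_W1` : `V1 F₀ 𝔭₀ = RwK0 A N` ⟹ `∀ x ∈ (V1 F₀ 𝔭₀).nonunits, x / qB ∈ V1 F₀ 𝔭₀`;
* `hunif_W2` : the same for `V1 F₀ 𝔭₀ = (redData2QK0 A N h).Rw`.
-/
import Fermat.Agent.GL.Val.SecondK0Hall
import Fermat.Agent.GL.Frame.HeightOneFrame

set_option autoImplicit false
set_option linter.unusedSectionVars false

noncomputable section

namespace Fermat.Agent.GL.Final.H5UnifK0

open ModularCurve
open Fermat.Agent.GL.Frame.HeightOne
open Fermat.Agent.GL.Val.GaussK0 Fermat.Agent.GL.Val.SecondK0 Fermat.Agent.GL.Val.SecondK0Hall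
open Fermat.Agent.Common_helper32 Fermat.Agent.GK.AL Fermat.Agent.GL.AL

/-- `∀ x ∈ 𝔪_V, ∃ y ∈ V, x = ϖ y` ⟹ `∀ x ∈ 𝔪_V, x / ϖ ∈ V`. -/
theorem div_mem_of_dvd {F : Type*} [Field F] (V : ValuationSubring F) {ϖ : F} (hϖ : ϖ ≠ 0)
    (hdvd : ∀ x ∈ V.nonunits, ∃ y ∈ V, x = ϖ * y) : ∀ x ∈ V.nonunits, x / ϖ ∈ V := by
  intro x hx
  obtain ⟨y, hy, rfl⟩ := hdvd x hx
  rw [mul_div_cancel_left₀ _ hϖ]
  exact hy

variable (A : ValuationSubring Qb) (N : ℕ) [NeZero N] {q : ℕ} (hq : q.Prime)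
  (hA : (q : Qb) ∈ A.nonunits)

/-- `(q0 A q : K₀) = q`. -/
theorem coe_q0 : ((q0 A q : R0 A) : K0 A) = (q : K0 A) := by
  apply ι0_injective A
  rw [ι0_q0, map_natCast]

/-- `algebraMap K₀ F₀ (q0 A q) = q`. -/
theorem algebraMap_q0 :
    algebraMap (K0 A) (modularFunctionFieldFullC (K0 A) N) ((q0 A q : R0 A) : K0 A) =
      (q : modularFunctionFieldFullC (K0 A) N) := by
  rw [coe_q0, map_natCast]

include hq in
theorem natCast_ne_zero' : (q : modularFunctionFieldFullC (K0 A) N) ≠ 0 :=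
  Nat.cast_ne_zero.mpr hq.ne_zero

include hq hA in
/-- **`q` uniformises `w₁`** on any frame: `hunif0` of `h5_typed`. -/
theorem hunif_W1 {Bf : Subring (modularFunctionFieldFullC (K0 A) N)}
    [IsFractionRing Bf (modularFunctionFieldFullC (K0 A) N)] [IsNoetherianRing Bf]
    [IsIntegrallyClosed Bf] (𝔭₀ : HtOne Bf)
    (hW : (V1 (modularFunctionFieldFullC (K0 A) N) 𝔭₀ :
      ValuationSubring (modularFunctionFieldFullC (K0 A) N)) = RwK0 A N)
    {qB : Bf}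
    (hqB : (qB : modularFunctionFieldFullC (K0 A) N) = (q : modularFunctionFieldFullC (K0 A) N)) :
    ∀ x : modularFunctionFieldFullC (K0 A) N,
      x ∈ (V1 (modularFunctionFieldFullC (K0 A) N) 𝔭₀).nonunits →
        x / (qB : modularFunctionFieldFullC (K0 A) N) ∈
          V1 (modularFunctionFieldFullC (K0 A) N) 𝔭₀ := by
  rw [hW, hqB]
  refine div_mem_of_dvd (RwK0 A N) (natCast_ne_zero' A N hq) ?_
  intro x hx
  obtain ⟨y, hy, hxy⟩ := exists_eq_q_mul₁ A N hq hA x hx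
  exact ⟨y, hy, by rw [hxy, algebraMap_q0]⟩

include hq hA in
/-- **`q` uniformises `w₂`** on any frame: `hunif1` of `h5_typed`. -/
theorem hunif_W2 {Q : ℕ} (h : HallDvd Q N)
    {Bf : Subring (modularFunctionFieldFullC (K0 A) N)}
    [IsFractionRing Bf (modularFunctionFieldFullC (K0 A) N)] [IsNoetherianRing Bf]
    [IsIntegrallyClosed Bf] (𝔭₀ : HtOne Bf)
    (hW : (V1 (modularFunctionFieldFullC (K0 A) N) 𝔭₀ :
      ValuationSubring (modularFunctionFieldFullC (K0 A) N)) = (redData2QK0 A N h).Rw)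
    {qB : Bf}
    (hqB : (qB : modularFunctionFieldFullC (K0 A) N) = (q : modularFunctionFieldFullC (K0 A) N)) :
    ∀ x : modularFunctionFieldFullC (K0 A) N,
      x ∈ (V1 (modularFunctionFieldFullC (K0 A) N) 𝔭₀).nonunits →
        x / (qB : modularFunctionFieldFullC (K0 A) N) ∈
          V1 (modularFunctionFieldFullC (K0 A) N) 𝔭₀ := by
  rw [hW, hqB]
  refine div_mem_of_dvd (redData2QK0 A N h).Rw (natCast_ne_zero' A N hq) ?_
  intro x hx
  obtain ⟨y, hy, hxy⟩ := exists_eq_q_mul₂Q A N h hq hA x hx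
  exact ⟨y, hy, by rw [hxy, algebraMap_q0]⟩

end Fermat.Agent.GL.Final.H5UnifK0
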