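/-
GATE-L / L-INT (helper39): light facts on helper46's `H4OfXi.TripleSetup` (imports `H4OfXi` only).

* `rd_eq_zero_iff`, `rd_eq_zero_iff_valuation` : the reductions `rd_i` of `TripleSetup` have kernel
  EXACTLY the maximal ideal (`rd_i` is a ring homomorphism from a local ring to a field which kills
  the non-units) — the `hker` shape of helper66's `exists_normalised`.
* `U2_iff` : helper46's `H4OfXi.U2 S x` is the canonical statement `x ≡ 1` modulo the three
  maximal ideals: `x - 1 ∈ (S.W i).nonunits`, `i = 1, 2, 3` (no residue field chosen).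
* `U2.ne_zero`, `U3.toU2`.
-/
import Fermat.Agent.GL.Gate.H4OfXi

set_option autoImplicit false
set_option linter.unusedSectionVars false

noncomputable section

namespace Fermat.Agent.GL.Final.U2Facts

open Fermat.Agent.GL.H4OfXi

/-! ### kernels of the reductions -/

section Ker

variable {F κ : Type*} [Field F] [Field κ]

/-- a ring homomorphism from a valuation ring to a field which kills the non-units has kernel
exactly the set of non-units -/
theorem rd_eq_zero_iff (W : ValuationSubring F) (rd : W →+* κ)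
    (hr : ∀ z : W, ¬ IsUnit z → rd z = 0) (z : W) : rd z = 0 ↔ ¬ IsUnit z := by
  refine ⟨fun h hu => ?_, hr z⟩
  obtain ⟨u, rfl⟩ := hu
  have h1 : rd (u : W) * rd ((u⁻¹ : Wˣ) : W) = 1 := by
    rw [← map_mul, Units.mul_inv, map_one]
  rw [h, zero_mul] at h1
  exact zero_ne_one h1

/-- the same in valuation form (the `hker` shape of helper66's `exists_normalised`) -/
theorem rd_eq_zero_iff_valuation (W : ValuationSubring F) (rd : W →+* κ)
    (hr : ∀ z : W, ¬ IsUnit z → rd z = 0) (z : W) :
    rd z = 0 ↔ W.valuation (z : F) < 1 := by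
  rw [rd_eq_zero_iff W rd hr z]
  constructor
  · intro h
    refine lt_of_le_of_ne ((W.valuation_le_one_iff _).mpr z.2) fun h1 => h ?_
    exact (W.valuation_eq_one_iff z).mpr h1
  · intro h hu
    exact ne_of_lt h ((W.valuation_eq_one_iff z).mp hu)

/-- `x ∈ W` with `rd x = 1` iff `x - 1` is in the maximal ideal -/
theorem exists_rd_eq_one_iff (W : ValuationSubring F) (rd : W →+* κ)
    (hr : ∀ z : W, ¬ IsUnit z → rd z = 0) (x : F) :
    (∃ h : x ∈ W, rd ⟨x, h⟩ = 1) ↔ x - 1 ∈ W.nonunits := by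
  constructor
  · rintro ⟨h, h1⟩
    have hmem : x - 1 ∈ W := sub_mem h W.one_mem
    have h0 : rd ⟨x - 1, hmem⟩ = 0 := by
      have : (⟨x - 1, hmem⟩ : W) = ⟨x, h⟩ - 1 := rfl
      rw [this, map_sub, h1, map_one, sub_self]
    have hnu := (rd_eq_zero_iff_valuation W rd hr ⟨x - 1, hmem⟩).mp h0
    exact W.mem_nonunits_iff.mpr hnu
  · intro h
    have hlt : W.valuation (x - 1) < 1 := W.mem_nonunits_iff.mp h
    have hmem : x - 1 ∈ W := (W.valuation_le_one_iff _).mp hlt.le
    have hx : x ∈ W := by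
      have : x = (x - 1) + 1 := by ring
      rw [this]
      exact W.add_mem _ _ hmem W.one_mem
    refine ⟨hx, ?_⟩
    have h0 : rd ⟨x - 1, hmem⟩ = 0 :=
      (rd_eq_zero_iff_valuation W rd hr ⟨x - 1, hmem⟩).mpr hlt
    have : (⟨x, hx⟩ : W) = ⟨x - 1, hmem⟩ + 1 := Subtype.ext (by simp)
    rw [this, map_add, h0, map_one, zero_add]

end Ker

section U2

variable {F E k k1 k2 k3 k1' k2' B T T' : Type*} [Field F] [Field E] [Field k]
  [Field k1] [Field k2] [Field k3] [Field k1'] [Field k2'] [CommRing B] [Algebra B F]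
  (S : TripleSetup F E k k1 k2 k3 k1' k2' B T T')

/-- **helper46's `U2` is `x ≡ 1` modulo the three maximal ideals.** -/
theorem U2_iff (x : F) :
    U2 S x ↔ x - 1 ∈ S.W1.nonunits ∧ x - 1 ∈ S.W2.nonunits ∧ x - 1 ∈ S.W3.nonunits := by
  unfold U2
  rw [exists_rd_eq_one_iff S.W1 S.rd1 S.hr1, exists_rd_eq_one_iff S.W2 S.rd2 S.hr2,
    exists_rd_eq_one_iff S.W3 S.rd3 S.hr3]

theorem U2.ne_zero {x : F} (hx : U2 S x) : x ≠ 0 := by
  rintro rfl
  have h := ((U2_iff S 0).mp hx).1
  rw [zero_sub, S.W1.mem_nonunits_iff, Valuation.map_neg, map_one] at h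
  exact lt_irrefl _ h

/-- `U3` implies `U2` -/
theorem U3.toU2 {m : ℕ} {x : F} (hx : U3 S m x) : U2 S x := hx.1

end U2

end Fermat.Agent.GL.Final.U2Facts
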