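/-
GATE-L / L-INT (helper39): the top of the concrete layer below `GL/Gate/ChainAbs.lean`.

* (the light facts `rd_eq_zero_iff`, `U2_iff`, … are in `GL/Final/U2Facts.lean`.)
* `k0UnitGateQ_of_arms` : helper24's `k0UnitGateQ_of_chain'` at `U2 := H4OfXi.U2 S`,
  `U3 := H4OfXi.U3 S m1` — the ONE place where the three arms (H3 `GL/Final/H3Inst.lean`,
  H4 `GL/Final/H4Inst.lean`, H5 `GL/Final/H5Inst.lean`) meet.
-/
import Fermat.Agent.GL.Gate.ChainAbs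
import Fermat.Agent.GL.Gate.H4OfXi
import Fermat.Agent.GL.Final.U2Facts

set_option autoImplicit false
set_option linter.unusedSectionVars false

noncomputable section

namespace Fermat.Agent.GL.Final.GeomChain

open Fermat.Agent.GL.H4OfXi Fermat.Agent.GL.Gate Fermat.Agent.GL.Chain AlgebraicCurve
open Fermat.Agent.GJ.KumGroup

/-! ### the three arms meet -/

section Arms

variable {N0 q : ℕ} [NeZero N0] [NeZero q]
variable {K0' F0 F0' : Type*} [Field K0'] [Field F0] [Field F0'] [Algebra K0' F0] [Algebra K0' F0']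
variable {k k1 k2 k3 k1' k2' B T T' : Type*} [Field k]
  [Field k1] [Field k2] [Field k3] [Field k1'] [Field k2'] [CommRing B] [Algebra B F0]
  (S : TripleSetup F0 F0' k k1 k2 k3 k1' k2' B T T')

/-- **The three arms meet**: helper24's chain at `U2 := H4OfXi.U2 S`, `U3 := H4OfXi.U3 S m1`. -/
theorem k0UnitGateQ_of_arms (ι : K0' →+* Kb) (τ : F0 →+* FK (N0 * q))
    (hτ : ∀ a : K0', τ (algebraMap K0' F0 a) = algebraMap Kb (FK (N0 * q)) (ι a))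
    (NmA NmB : F0 →* F0') (qq m m1 : ℕ)
    (H3 : ∀ x : F0, x ≠ 0 → IsCstPow K0' m (NmA x) → IsCstPow K0' m (NmB x) →
      ∃ (cst : K0') (g u2 : F0), cst ≠ 0 ∧ g ≠ 0 ∧
        x ^ (qq - 1) = algebraMap K0' F0 cst * g ^ m1 * u2 ∧ U2 S u2 ∧
        IsCstPow K0' m1 (NmA u2) ∧ IsCstPow K0' m1 (NmB u2))
    (H4 : ∀ u2 : F0, u2 ≠ 0 → U2 S u2 →
      (∀ P : Place Kb (FK (N0 * q)), (m1 : ℤ) ∣ P.ord (τ u2)) →
      IsCstPow K0' m1 (NmA u2) → IsCstPow K0' m1 (NmB u2) →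
      ∃ f0 : F0, f0 ≠ 0 ∧ U3 S m1 (u2 ^ (qq ^ 2 - 1) * f0 ^ m1))
    (H5 : ∀ u3 : F0, u3 ≠ 0 → U3 S m1 u3 →
      (∀ P : Place Kb (FK (N0 * q)), (m1 : ℤ) ∣ P.ord (τ u3)) →
      ∃ w : FK (N0 * q), w ≠ 0 ∧ τ u3 = w ^ m1)
    (hm1 : m1 ∣ m) (hm10 : m1 ≠ 0) :
    K0UnitGateQ K0' τ NmA NmB m m1 ((qq - 1) * (qq ^ 2 - 1)) :=
  k0UnitGateQ_of_chain' ι τ hτ NmA NmB qq m m1 (U2 S) (U3 S m1) H3 H4 H5 hm1 hm10

end Arms

end Fermat.Agent.GL.Final.GeomChain
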