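/-
GATE-L / L12 ASSEMBLY (helper64): **the frozen statement S36 from the HECKE-FREE geometric gate**.

`s36_of_geom : S36GeomGate → (frozen S36)`, where

* `S36GeomGate` : for every level `M`, primes `q ≠ lam` (`lam ≠ 2`) with `q² ∥ M`
  (`M.factorization q = 2`): a proper divisor `N'` of `M` (the blueprint takes `N' = M / q`), ONE
  place `P | q` of `ℚ̄` and ONE constant `C ≠ 0` such that for every `k` helper24's
  `GL.Hecke.GeomInv M N' (lam ^ k) P C` holds: two Galois-equivariant `ℤ/lam^k`-linear maps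
  `f₁ f₂ : Kum_{lam^k}(F_M) → Kum_{lam^k}(F_{N'})` (the degeneracy norms `π_*`, `π'_*`) such that
  every `I(P)`-invariant class `y` with `f₁ y = 0 = f₂ y` satisfies `C • y = 0`.
  No newform, no Hecke operator, no lattice, no representation in the contract.

Chain: `S36GeomGate` ⟹ (helper24 `inv36Gate_of_geom`: old-killer) `S36Final.S36Gate`
⟹ (helper64 `S36Final.s36_of_gate`: Tate module, eigen-sublattice, Kolchin) frozen S36.
`Fermat/Agent/S36.lean` is then the one-liner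
`s36_of_geom <geometry> hg lam S O' hlamO' hlam2 chig hchig iota hlamS hMS hres`.
-/
import Mathlib
import Fermat.Agent.GK.S36.S36Final
import Fermat.Agent.GL.Hecke.InvGateOfGeom

set_option autoImplicit false

open CuspForm Polynomial

namespace Fermat.Agent.GL.Final

open Fermat.Agent.GK.S36.S36Top Fermat.Agent.GK.S36.S36Final Fermat.Agent.GL.Hecke

/-- **The Hecke-free geometric gate of S36** (the contract of the geometry stack L1–L11). -/
def S36GeomGate : Prop :=
  ∀ (M : ℕ) [NeZero M] (lam : ℕ) [Fact lam.Prime] (q : ℕ), q.Prime → q ≠ lam → lam ≠ 2 →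
    M.factorization q = 2 →
      ∃ (N' : ℕ) (_ : NeZero N'), N' ∣ M ∧ N' ≠ M ∧
        ∃ P : ValuationSubring (AlgebraicClosure ℚ), P.LiesOverPrime q ∧
          ∃ C : ℕ, C ≠ 0 ∧ ∀ k : ℕ, GeomInv M N' (lam ^ k) P C

/-- the geometric gate implies the Tate-side gate -/
theorem s36Gate_of_geom (hG : S36GeomGate) : S36Gate := by
  intro M _ g hg lam _ S O' _ _ _ _ _ _ hlamO' hlam2 chig hchig iota hlamS hMS hres q hq hqlam hq2
  obtain ⟨N', hN', hN'M, hne, P, hP, C, hC, hgeom⟩ := hG M lam q hq hqlam hlam2 hq2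
  exact inv36Gate_of_geom hN'M hne hg lam S chig hchig hlamS hMS q P hP C hC hgeom

/-- **The frozen statement S36 from the Hecke-free geometric gate.** -/
theorem s36_of_geom (hG : S36GeomGate)
    {M : ℕ} [NeZero M] {g : CuspForm (CongruenceSubgroup.Gamma0 M) 2} (hg : g.IsNewform)
    (lam : ℕ) [Fact lam.Prime]
    (S : Finset ℕ)
    (O' : Type) [CommRing O'] [IsDomain O'] [IsDiscreteValuationRing O']
    [IsAdicComplete (IsLocalRing.maximalIdeal O') O'] [Finite (IsLocalRing.ResidueField O')]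
    [CharZero O'] (hlamO' : (lam : O') ∈ IsLocalRing.maximalIdeal O')
    (hlam2 : lam ≠ 2)
    (chig : CuspForm.heckeAlgebra M 2 (↑S : Set ℕ) →+* ℂ)
    (hchig : ∀ (ℓ : ℕ) (hℓ : ℓ.Prime) (hℓM : ¬ ℓ ∣ M) (hℓS : ℓ ∉ (↑S : Set ℕ)),
      chig (CuspForm.heckeAlgebra.T hℓ hℓM hℓS) = ModularFormClass.qCoeff g ℓ)
    (iota : chig.range →+* O')
    (hlamS : lam ∈ S) (hMS : ∀ q : ℕ, q.Prime → q ∣ M → q ∈ S)
    (hres : ∀ (O'' : Type) [CommRing O''] [IsDomain O''] [IsDiscreteValuationRing O'']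
      [IsAdicComplete (IsLocalRing.maximalIdeal O'') O''] [Finite (IsLocalRing.ResidueField O'')] [CharZero O'']
      [Algebra O' O''] [Module.Finite O' O''] [IsLocalHom (algebraMap O' O'')],
      Function.Injective (algebraMap O' O'') → ∀ (ρ : GaloisRepAdic O''),
      (∀ (ℓ : ℕ) (hℓ : ℓ.Prime) (_ : ℓ ≠ lam) (hℓM : ¬ ℓ ∣ M) (hℓS : ℓ ∉ (↑S : Set ℕ)),
        ∀ A : ValuationSubring (AlgebraicClosure ℚ), A.LiesOverPrime ℓ →
          ∀ σ : AlgebraicClosure ℚ ≃ₐ[ℚ] AlgebraicClosure ℚ, A.IsFrobeniusAt σ ℓ →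
            LinearMap.charpoly (ρ.ρ σ) =
              X ^ 2 - C (algebraMap O' O'' ((iota.comp chig.rangeRestrict) (CuspForm.heckeAlgebra.T hℓ hℓM hℓS))) * X
                + C ((ℓ : O'')))
      → ρ.residual.IsAbsolutelyIrreducible ∧ ρ.residual.IsOdd)
    :
    ∃ (O'' : Type) (_ : CommRing O'') (_ : IsDomain O'') (_ : IsDiscreteValuationRing O'')
      (_ : IsAdicComplete (IsLocalRing.maximalIdeal O'') O'') (_ : Finite (IsLocalRing.ResidueField O''))
      (_ : CharZero O'') (_ : Algebra O' O'') (_ : Module.Finite O' O'') (_ : IsLocalHom (algebraMap O' O'')),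
      Function.Injective (algebraMap O' O'') ∧
      ∃ ρ : GaloisRepAdic O'',
        (∀ (ℓ : ℕ) (hℓ : ℓ.Prime) (hℓM : ¬ ℓ ∣ M) (hℓS : ℓ ∉ (↑S : Set ℕ)),
          ∀ A : ValuationSubring (AlgebraicClosure ℚ), A.LiesOverPrime ℓ →
            ∀ σ : AlgebraicClosure ℚ ≃ₐ[ℚ] AlgebraicClosure ℚ, A.IsFrobeniusAt σ ℓ →
              LinearMap.charpoly (ρ.ρ σ) =
                X ^ 2 - C (algebraMap O' O'' ((iota.comp chig.rangeRestrict) (CuspForm.heckeAlgebra.T hℓ hℓM hℓS))) * X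
                  + C ((ℓ : O''))) ∧
        (∀ q : ℕ, q.Prime → q ≠ lam → M.factorization q = 2 → ¬ ρ.IsUnipotentOnInertiaAt q) :=
  s36_of_gate (s36Gate_of_geom hG) hg lam S O' hlamO' hlam2 chig hchig iota hlamS hMS hres

end Fermat.Agent.GL.Final
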