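/-
GATE-L / TOP ASSEMBLY (helper48, tech lead): `S36GeomGate` from the geometry in UNIT form at the
GOOD auxiliary levels.

Everything below the line `GoodAuxLevel` is bookkeeping on landed contracts:

* helper64 `GL/Final/S36OfGeom.lean`      : `S36GeomGate`, `s36_of_geom : S36GeomGate → frozen S36`;
* helper17 `GL/Descent/GeomInvAux.lean`   : `GeomKill`, `s36GeomGate_of_geomKill_aux`;
* helper24 `GL/Hecke/GeomGateAB.lean`     : `UnitGateAB`, `geomInvAB_of_unitGate`;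
* helper2  `GL/AuxLevel/AuxProduct.lean`  : `exists_aux_level` (`r = r₁ r₂`).

What the geometric stack (BLUEPRINT v2: chain (V4) + CECH-KUMMER) owes is `UnitGeom`:
for every level `L'` with `q ∥ L'`, divisible by a prime `≡ 11 mod 12` different from `q`
(no elliptic points), by `3` if `q = 2` and by `2` if `q = 3`, ONE place `P ∣ q`, a level loss `c`
and a constant `C' ≠ 0` with `UnitGateAB L' q (lam ^ k) (lam ^ (k - c)) P C'` for all `k ≥ c`.
What the descent layer owes is `AuxSquares`: the two norm squares along `F_{N' q} ⊆ F_{N' r q}`.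
-/
import Mathlib
import Fermat.Agent.GL.Hecke.GeomGateAB
import Fermat.Agent.GL.AuxLevel.AuxProduct

set_option autoImplicit false
set_option linter.unusedSectionVars false

noncomputable section

namespace Fermat.Agent.GL.Final.GeomGate

open AlgebraicCurve ModularCurve
open Fermat.Agent.S24 Fermat.Agent.S24_helper82
open Fermat.Agent.GJ Fermat.Agent.GJ.KumGroup Fermat.Agent.GJ.Kum.KumType Fermat.Agent.GJ.KumTower
open Fermat.Agent.GK.UTr Fermat.Agent.GL.Descent.KumIncl Fermat.Agent.GL.Descent.GeomInvAux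
open Fermat.Agent.GL.Hecke Fermat.Agent.GL.Final

/-- **The levels at which the geometry is run**: `q ∥ L'`, some prime `r₂ ≡ 11 mod 12`, `r₂ ≠ q`,
divides `L'` (so that `X₀(L')`, `X₀(L' q)`, `X₀(L'/q)` have no elliptic points), `3 ∣ L'` if
`q = 2` and `2 ∣ L'` if `q = 3` (the tame-chart condition of the good-reduction package). -/
def GoodAuxLevel (L' q : ℕ) : Prop :=
  q ∣ L' ∧ ¬ q ^ 2 ∣ L' ∧
    (∃ r₂ : ℕ, r₂.Prime ∧ r₂ % 12 = 11 ∧ r₂ ≠ q ∧ r₂ ∣ L' ∧
      ∀ N'' : ℕ, r₂ ∣ N'' → nuTwo N'' = 0 ∧ nuThree N'' = 0) ∧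
    (q = 2 → 3 ∣ L') ∧ (q = 3 → 2 ∣ L')

/-- **What the geometric stack owes** (BLUEPRINT v2): the unit gate at every good level, with a
level loss `c` and a constant `C'` independent of `k`. -/
def UnitGeom : Prop :=
  ∀ (L' : ℕ) [NeZero L'] (lam : ℕ) [Fact lam.Prime] (q : ℕ) [NeZero q], q.Prime → q ≠ lam →
    lam ≠ 2 → GoodAuxLevel L' q →
      ∃ P : ValuationSubring (AlgebraicClosure ℚ), P.LiesOverPrime q ∧
        ∃ c C' : ℕ, C' ≠ 0 ∧ ∀ k : ℕ, c ≤ k → UnitGateAB L' q (lam ^ k) (lam ^ (k - c)) P C'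

/-- **What the descent layer owes**: the `α`- and the `β`-square along `F_{N' q} ⊆ F_{N' r q}` for
every auxiliary factor `r` prime to `N' q` (helper17 `aLow_kumIncl_of_coprime`, helper62 `SupAll`,
helper12 `NormBCModular`). -/
def AuxSquares : Prop :=
  ∀ (N' : ℕ) [NeZero N'] (q : ℕ) [NeZero q] (r : ℕ) [NeZero r], q.Prime → q ∣ N' →
    Nat.Coprime r N' → Nat.Coprime r q → ∀ (m : ℕ) (x : Additive (Kum Kb (FK (N' * q)) m)),
      aLow (N' * r) q m (kumIncl m (dvd_aux N' q r) x) =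
          kumIncl m (Dvd.intro r rfl : N' ∣ N' * r) (aLow N' q m x) ∧
        betaLow (N' * r) q m (kumIncl m (dvd_aux N' q r) x) =
          kumIncl m (Dvd.intro r rfl : N' ∣ N' * r) (betaLow N' q m x)

/-- the auxiliary level produced by `exists_aux_level` is good -/
theorem goodAuxLevel_of_aux {N' q r₁ r₂ : ℕ} (_hq : q.Prime) (hqN' : q ∣ N') (hq2 : ¬ q ^ 2 ∣ N')
    (hr₂ : r₂.Prime) (hmod : r₂ % 12 = 11) (hr₂q : r₂ ≠ q)
    (hcopq : Nat.Coprime (r₁ * r₂) q)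
    (h2 : q = 2 → 3 ∣ N' * r₁) (h3 : q = 3 → 2 ∣ N' * r₁)
    (hnu : ∀ N'' : ℕ, r₂ ∣ N'' → nuTwo N'' = 0 ∧ nuThree N'' = 0) :
    GoodAuxLevel (N' * (r₁ * r₂)) q := by
  refine ⟨hqN'.mul_right _, ?_, ⟨r₂, hr₂, hmod, hr₂q, ?_, hnu⟩, ?_, ?_⟩
  · intro h
    -- `q² ∣ N' (r₁ r₂)` with `(r₁ r₂, q) = 1` forces `q² ∣ N'`
    have hcop : Nat.Coprime (q ^ 2) (r₁ * r₂) := (Nat.Coprime.pow_right 2 hcopq).symm
    exact hq2 (hcop.dvd_of_dvd_mul_right h)
  · exact Dvd.intro_left (N' * r₁) (by ring)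
  · intro hq2'
    obtain ⟨d, hd⟩ := h2 hq2'
    exact ⟨d * r₂, by rw [← mul_assoc, hd]; ring⟩
  · intro hq3
    obtain ⟨d, hd⟩ := h3 hq3
    exact ⟨d * r₂, by rw [← mul_assoc, hd]; ring⟩

/-- **`S36GeomGate` from the unit gate at the good auxiliary levels and the two norm squares.** -/
theorem s36GeomGate_of_unitGeom (hsq : AuxSquares) (hgeom : UnitGeom) : S36GeomGate := by
  refine s36GeomGate_of_geomKill_aux fun N' _ lam _ q _ hq hqlam hlam2 hqN' hq2N' => ?_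
  obtain ⟨r₁, r₂, -, -, hr₂, -, hmod, -, hr₂q, -, hcopN, hcopq, -, h2, h3, -, hnu⟩ :=
    AuxProduct.exists_aux_level (N := N') (q := q) (NeZero.ne N') hq hqN'
  have hr0 : r₁ * r₂ ≠ 0 := by
    intro h0
    rw [h0] at hcopq
    have : q = 1 := by simpa using hcopq
    exact hq.one_lt.ne' this
  have : NeZero (r₁ * r₂) := ⟨hr0⟩
  have hgood : GoodAuxLevel (N' * (r₁ * r₂)) q :=
    goodAuxLevel_of_aux hq hqN' hq2N' hr₂ hmod hr₂q hcopq h2 h3 hnu
  obtain ⟨P, hP, c, C', hC', hU⟩ := hgeom (N' * (r₁ * r₂)) lam q hq hqlam hlam2 hgood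
  refine ⟨r₁ * r₂, inferInstance, fun k x => (hsq N' q (r₁ * r₂) hq hqN' hcopN hcopq _ x).1,
    fun k x => (hsq N' q (r₁ * r₂) hq hqN' hcopN hcopq _ x).2, P, hP, C' * lam ^ c, ?_, ?_⟩
  · exact Nat.mul_ne_zero hC' (pow_ne_zero _ (Fact.out : lam.Prime).ne_zero)
  · intro k
    exact geomInvAB_iff_geomKill.mp (geomInvAB_of_unitGate lam c C' hU k)

end Fermat.Agent.GL.Final.GeomGate
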