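/-
GATE-L / L10 FUNNEL (helper24): helper64's `S36GeomGate` from the canonical geometric statement
`GeomKill` (helper17) at auxiliary levels, with the two base-change squares DISCHARGED by helper12's
`AuxSquares.aLow_kumIncl_all` / `betaLow_kumIncl_all` (every aux factor `r` prime to `q`).

* `s36GeomGate_of_geomKill` : for every `N'` with `q ∥ N'`, `q ≠ lam`, `lam ≠ 2`: SOME `r ≥ 1` prime
  to `q`, ONE place `P | q`, ONE constant `C ≠ 0` with `GeomKill (N' r) q (lam ^ k) P C` for all `k`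
  ⟹ `S36GeomGate`.
* `s36GeomGate_of_invUnitGate` : the same from helper24's `Gate.InvUnitGateAB` at the level
  `(N' r) q` with a bounded level loss `lam ^ c` (`k ≥ c`).
-/
import Mathlib
import Fermat.Agent.GL.Descent.GeomInvAux
import Fermat.Agent.GL.AuxLevel.AuxSquares
import Fermat.Agent.GL.Gate.ChainAbs

set_option autoImplicit false

noncomputable section

namespace Fermat.Agent.GL.Final

open Fermat.Agent.GJ.KumGroup Fermat.Agent.GJ.Kum.KumType
open Fermat.Agent.GK.UTr Fermat.Agent.GL.Descent.KumIncl Fermat.Agent.GL.Descent.GeomInvAux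
open Fermat.Agent.GL.AuxLevel Fermat.Agent.GL.Hecke Fermat.Agent.GL.Gate

/-- **`S36GeomGate` from `GeomKill` at auxiliary levels** (squares discharged). -/
theorem s36GeomGate_of_geomKill
    (h : ∀ (N' : ℕ) [NeZero N'] (lam : ℕ) [Fact lam.Prime] (q : ℕ) [NeZero q], q.Prime → q ≠ lam →
      lam ≠ 2 → q ∣ N' → ¬ q ^ 2 ∣ N' →
        ∃ (r : ℕ) (_ : NeZero r), Nat.Coprime r q ∧
          ∃ P : ValuationSubring (AlgebraicClosure ℚ), P.LiesOverPrime q ∧
            ∃ C : ℕ, C ≠ 0 ∧ ∀ k : ℕ, GeomKill (N' * r) q (lam ^ k) P C) :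
    S36GeomGate := by
  refine s36GeomGate_of_geomKill_aux fun N' _ lam _ q _ hq hqlam hlam2 hqN' hq2N' => ?_
  obtain ⟨r, hr, hqr, P, hP, C, hC, hgeom⟩ := h N' lam q hq hqlam hlam2 hqN' hq2N'
  exact ⟨r, hr, fun k x => aLow_kumIncl_all (lam ^ k) hq hqN' hqr (dvd_aux N' q r) x,
    fun k x => betaLow_kumIncl_all (lam ^ k) hq hqN' (dvd_aux N' q r) x, P, hP, C, hC, hgeom⟩

/-- **`S36GeomGate` from the gate for invariant units at auxiliary levels**, with a bounded level
loss `lam ^ c`. -/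
theorem s36GeomGate_of_invUnitGate
    (h : ∀ (N' : ℕ) [NeZero N'] (lam : ℕ) [Fact lam.Prime] (q : ℕ) [NeZero q], q.Prime → q ≠ lam →
      lam ≠ 2 → q ∣ N' → ¬ q ^ 2 ∣ N' →
        ∃ (r : ℕ) (_ : NeZero r), Nat.Coprime r q ∧
          ∃ P : ValuationSubring (AlgebraicClosure ℚ), P.LiesOverPrime q ∧
            ∃ c C' : ℕ, C' ≠ 0 ∧
              ∀ k : ℕ, c ≤ k → InvUnitGateAB (N' * r) q (lam ^ k) (lam ^ (k - c)) P C') :
    S36GeomGate := by
  refine s36GeomGate_of_geomKill fun N' _ lam _ q _ hq hqlam hlam2 hqN' hq2N' => ?_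
  obtain ⟨r, hr, hqr, P, hP, c, C', hC', hgate⟩ := h N' lam q hq hqlam hlam2 hqN' hq2N'
  refine ⟨r, hr, hqr, P, hP, C' * lam ^ c,
    Nat.mul_ne_zero hC' (pow_ne_zero _ (Fact.out : lam.Prime).ne_zero), fun k => ?_⟩
  exact geomInvAB_iff_geomKill.mp (geomInvAB_of_invUnitGate lam c C' hgate k)

end Fermat.Agent.GL.Final
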