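/-
GATE-L / TOP ASSEMBLY, part 2 (helper48, tech lead): the L10 funnel at the GOOD auxiliary levels.

helper24's `GeomGateOfKill.lean` asks the supplier for SOME auxiliary factor `r` prime to `q`; the
geometric stack needs more about the level `L' = N' r` than `(r, q) = 1`:
`GoodAuxLevel L' q` (`GL/Final/GeomGate.lean`) = `q ∥ L'`, a prime `r₂ ≡ 11 mod 12`, `r₂ ≠ q`,
divides `L'` (no elliptic points: `nuTwo = nuThree = 0` at every multiple of `r₂`), `3 ∣ L'` if
`q = 2`, `2 ∣ L'` if `q = 3`.  This file makes the choice `r = r₁ r₂` (helper2 `exists_aux_level`)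
ONCE, so that the integration layer (helper39 `GeomChain` / `GeomFacts`) owes its statement only at
levels `L'` with `GoodAuxLevel L' q` as a HYPOTHESIS:

* `auxSquares`                          : `AuxSquares` (helper12 `aLow_kumIncl_all` / `betaLow_kumIncl_all`);
* `s36GeomGate_of_unitGeom'`            : `UnitGeom → S36GeomGate` (no other hypothesis);
* `s36GeomGate_of_geomKill_good`        : from `GeomKill L' q (lam ^ k) P C` at the good levels;
* `s36GeomGate_of_invUnitGate_good`     : from helper24's `InvUnitGateAB` at the good levels, with a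
  bounded level loss `lam ^ c`.
-/
import Mathlib
import Fermat.Agent.GL.Final.GeomGate
import Fermat.Agent.GL.Final.GeomGateOfKill

set_option autoImplicit false
set_option linter.unusedSectionVars false

noncomputable section

namespace Fermat.Agent.GL.Final.GeomGate

open Fermat.Agent.GJ.KumGroup Fermat.Agent.GJ.Kum.KumType
open Fermat.Agent.GK.UTr Fermat.Agent.GL.Descent.KumIncl Fermat.Agent.GL.Descent.GeomInvAux
open Fermat.Agent.GL.AuxLevel Fermat.Agent.GL.Hecke Fermat.Agent.GL.Gate Fermat.Agent.GL.Final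

/-- the two norm squares hold for every auxiliary factor prime to `q` (helper12) -/
theorem auxSquares : AuxSquares := by
  intro N' _ q _ r _ hq hqN' _ hcopq m x
  exact ⟨aLow_kumIncl_all m hq hqN' hcopq (dvd_aux N' q r) x,
    betaLow_kumIncl_all m hq hqN' (dvd_aux N' q r) x⟩

/-- **`S36GeomGate` from the unit gate at the good auxiliary levels** (squares discharged). -/
theorem s36GeomGate_of_unitGeom' (hgeom : UnitGeom) : S36GeomGate :=
  s36GeomGate_of_unitGeom auxSquares hgeom

/-- the auxiliary factor of `exists_aux_level`, packaged: nonzero, prime to `q`, good level -/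
theorem exists_good_aux {N' q : ℕ} (hN' : N' ≠ 0) (hq : q.Prime) (hqN' : q ∣ N')
    (hq2 : ¬ q ^ 2 ∣ N') :
    ∃ r : ℕ, r ≠ 0 ∧ Nat.Coprime r q ∧ Nat.Coprime r N' ∧ GoodAuxLevel (N' * r) q := by
  obtain ⟨r₁, r₂, -, -, hr₂, -, hmod, -, hr₂q, -, hcopN, hcopq, -, h2, h3, -, hnu⟩ :=
    AuxProduct.exists_aux_level (N := N') (q := q) hN' hq hqN'
  refine ⟨r₁ * r₂, ?_, hcopq, hcopN,
    goodAuxLevel_of_aux hq hqN' hq2 hr₂ hmod hr₂q hcopq h2 h3 hnu⟩
  intro h0
  rw [h0] at hcopq
  have : q = 1 := by simpa using hcopq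
  exact hq.one_lt.ne' this

/-- **`S36GeomGate` from `GeomKill` at the good auxiliary levels.** -/
theorem s36GeomGate_of_geomKill_good
    (h : ∀ (L' : ℕ) [NeZero L'] (lam : ℕ) [Fact lam.Prime] (q : ℕ) [NeZero q], q.Prime → q ≠ lam →
      lam ≠ 2 → GoodAuxLevel L' q →
        ∃ P : ValuationSubring (AlgebraicClosure ℚ), P.LiesOverPrime q ∧
          ∃ C : ℕ, C ≠ 0 ∧ ∀ k : ℕ, GeomKill L' q (lam ^ k) P C) :
    S36GeomGate := by
  refine s36GeomGate_of_geomKill fun N' _ lam _ q _ hq hqlam hlam2 hqN' hq2N' => ?_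
  obtain ⟨r, hr0, hcopq, -, hgood⟩ := exists_good_aux (NeZero.ne N') hq hqN' hq2N'
  have : NeZero r := ⟨hr0⟩
  exact ⟨r, inferInstance, hcopq, h (N' * r) lam q hq hqlam hlam2 hgood⟩

/-- **`S36GeomGate` from helper24's gate for invariant units at the good auxiliary levels**, with a
bounded level loss `lam ^ c`. -/
theorem s36GeomGate_of_invUnitGate_good
    (h : ∀ (L' : ℕ) [NeZero L'] (lam : ℕ) [Fact lam.Prime] (q : ℕ) [NeZero q], q.Prime → q ≠ lam →
      lam ≠ 2 → GoodAuxLevel L' q →
        ∃ P : ValuationSubring (AlgebraicClosure ℚ), P.LiesOverPrime q ∧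
          ∃ c C' : ℕ, C' ≠ 0 ∧
            ∀ k : ℕ, c ≤ k → InvUnitGateAB L' q (lam ^ k) (lam ^ (k - c)) P C') :
    S36GeomGate := by
  refine s36GeomGate_of_invUnitGate fun N' _ lam _ q _ hq hqlam hlam2 hqN' hq2N' => ?_
  obtain ⟨r, hr0, hcopq, -, hgood⟩ := exists_good_aux (NeZero.ne N') hq hqN' hq2N'
  have : NeZero r := ⟨hr0⟩
  exact ⟨r, inferInstance, hcopq, h (N' * r) lam q hq hqlam hlam2 hgood⟩

end Fermat.Agent.GL.Final.GeomGate
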