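/-
GATE-L / L-INT block D "TOP" (helper82): **the CONCRETE INSTANCE of helper24's transport
`ChainAbs.geomInvAB_of_K0Q`** at the inertia field `K₀ = K0 A` (helper45 `GL/Val/GaussK0`):

* `K0' := K0 A`, `F0 := K₀(X₀(N0 q)) = modularFunctionFieldFullC (K0 A) (N0 * q)`,
  `F0' := K₀(X₀(N0))`, `ι := ι0 A`, `τ := toFN0 A (N0 * q)`, `τ' := toFN0 A N0` (helper26);
* `normK0A`, `normK0B : F0 →* F0'` : the norms along helper67's degeneracy maps `alphaK0`,
  `betaK0` (`GL/Table/DegenK0`);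
* `NormSquareA`, `NormSquareB` : the two NORM BASE CHANGE squares
  `τ' (normK0A x) = normAlong (alphaB N0 q) (τ x)` (resp. `betaB`) — helper17's leaf, here as Props;
* `tau_algebraMap` (`hτ`), `exists_tau_eq_of_fixed` (`hsurj`, `hsurj'`: helper80
  `exists_fullC_inertiaField_of_fixed`), `exists_iota_eq_of_fixed` (`hι`: helper45
  `mem_range_ι0_iff`);
* **`geomInvAB_of_K0Q_inst`** : squares + `∀ k ≥ c, K0UnitGateQ (K0 A) τ NmA NmB (p^k) (p^(k-c)) C'`
  ⟹ `∀ k, GeomInvAB N0 q (p ^ k) A (C' * p ^ c)`;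
* **`s36GeomGate_of_K0Q`** : the same at the auxiliary levels `N0 = N' r` ⟹ helper64's `S36GeomGate`
  (through helper24 `s36GeomGate_of_geomKill`), i.e. frozen S36 and (with the S35 gate) frozen S58.
-/
import Fermat.Agent.GL.Final.GeomGateOfKill
import Fermat.Agent.GL.Table.DegenK0
import Fermat.Agent.GL.Base.RatDescentFullC

set_option autoImplicit false
set_option linter.unusedSectionVars false

noncomputable section

namespace Fermat.Agent.GL.Final.TopInst

open AlgebraicCurve ModularCurve IntermediateField HahnSeries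
open Fermat.Agent.S24 Fermat.Agent.S24_helper82
open Fermat.Agent.GJ Fermat.Agent.GJ.HN Fermat.Agent.GJ.HInputs
open Fermat.Agent.GJ.KumGroup Fermat.Agent.GJ.Kum.KumType
open Fermat.Agent.GK.UTr Fermat.Agent.GL.Hecke Fermat.Agent.GL.Gate
open Fermat.Agent.GL.Val.GaussK0 Fermat.Agent.GL.Val.CuspK0 Fermat.Agent.GL.Val.CuspCoeff
open Fermat.Agent.GL.Table.K0 Fermat.Agent.GL.Descent.GeomInvAux
open Fermat.Agent.Common_helper32

variable (A : ValuationSubring Qb)

/-! ### The base extension `τ = toFN0` -/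

section Tau

variable (N : ℕ) [NeZero N]

/-- `hτ` : `τ` on constants -/
theorem tau_algebraMap (a : K0 A) :
    toFN0 A N (algebraMap (K0 A) (modularFunctionFieldFullC (K0 A) N) a) =
      algebraMap Kb (FK N) (ι0 A a) :=
  toFN_algebraMap N (ι0 A) a

/-- `hsurj` : an `I_A`-fixed unit of `F_N` is in the image of `τ`
(helper80 `exists_fullC_inertiaField_of_fixed`) -/
theorem exists_tau_eq_of_fixed (u : (FK N)ˣ)
    (hu : ∀ σ ∈ A.inertiaSubgroupIn ℚ, galUnits N σ u = u) :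
    ∃ x : modularFunctionFieldFullC (K0 A) N, toFN0 A N x = (u : FK N) := by
  obtain ⟨y, hy, hyx⟩ :=
    Fermat.Agent.GL.Base.RatDescent.exists_fullC_inertiaField_of_fixed A N (u : FK N)
      (fun σ hσ => by
        have h := congrArg (fun w : (FK N)ˣ => (w : FK N)) (hu σ hσ)
        simpa using h)
  refine ⟨⟨y, hy⟩, Subtype.ext ?_⟩
  rw [coe_toFN]
  exact hyx

/-- `hι` : an `I_A`-fixed constant is in the image of `ι` (helper45 `mem_range_ι0_iff`) -/
theorem exists_iota_eq_of_fixed (a : Kb) (ha : ∀ σ ∈ A.inertiaSubgroupIn ℚ, σ a = a) :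
    ∃ a0 : K0 A, ι0 A a0 = a :=
  (mem_range_ι0_iff A a).2 ha

end Tau

/-! ### The two degeneracy norms over `K₀` and the norm squares -/

section Norms

variable (N0 q : ℕ) [NeZero N0] [NeZero q]

/-- the norm `K₀(X₀(N0 q)) → K₀(X₀(N0))` along `π^* = alphaK0` -/
def normK0A : modularFunctionFieldFullC (K0 A) (N0 * q) →* modularFunctionFieldFullC (K0 A) N0 :=
  @Algebra.norm (modularFunctionFieldFullC (K0 A) N0) (modularFunctionFieldFullC (K0 A) (N0 * q))
    _ _ (alphaK0 A N0 q).toRingHom.toAlgebra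

/-- the norm `K₀(X₀(N0 q)) → K₀(X₀(N0))` along `π'^* = betaK0` -/
def normK0B : modularFunctionFieldFullC (K0 A) (N0 * q) →* modularFunctionFieldFullC (K0 A) N0 :=
  @Algebra.norm (modularFunctionFieldFullC (K0 A) N0) (modularFunctionFieldFullC (K0 A) (N0 * q))
    _ _ (betaK0 A N0 q).toRingHom.toAlgebra

theorem normK0A_apply (x : modularFunctionFieldFullC (K0 A) (N0 * q)) :
    normK0A A N0 q x =
      @Algebra.norm (modularFunctionFieldFullC (K0 A) N0)
        (modularFunctionFieldFullC (K0 A) (N0 * q)) _ _ (alphaK0 A N0 q).toRingHom.toAlgebra x :=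
  rfl

theorem normK0B_apply (x : modularFunctionFieldFullC (K0 A) (N0 * q)) :
    normK0B A N0 q x =
      @Algebra.norm (modularFunctionFieldFullC (K0 A) N0)
        (modularFunctionFieldFullC (K0 A) (N0 * q)) _ _ (betaK0 A N0 q).toRingHom.toAlgebra x :=
  rfl

/-- **NORM BASE CHANGE `K₀ → ℚ̄` along `π`** (helper17's leaf `hA`) -/
def NormSquareA : Prop :=
  ∀ x : modularFunctionFieldFullC (K0 A) (N0 * q),
    toFN0 A N0 (normK0A A N0 q x) = normAlong (alphaB N0 q) (toFN0 A (N0 * q) x)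

/-- **NORM BASE CHANGE `K₀ → ℚ̄` along `π'`** (helper17's leaf `hB`) -/
def NormSquareB : Prop :=
  ∀ x : modularFunctionFieldFullC (K0 A) (N0 * q),
    toFN0 A N0 (normK0B A N0 q x) = normAlong (betaB N0 q) (toFN0 A (N0 * q) x)

/-- **Block D, one level**: helper24's transport `geomInvAB_of_K0Q` at the concrete objects. -/
theorem geomInvAB_of_K0Q_inst (hA : NormSquareA A N0 q) (hB : NormSquareB A N0 q)
    (p : ℕ) [Fact p.Prime] (c C' : ℕ)
    (h : ∀ k, c ≤ k → K0UnitGateQ (K0 A) (toFN0 A (N0 * q)) (normK0A A N0 q) (normK0B A N0 q)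
      (p ^ k) (p ^ (k - c)) C') (k : ℕ) :
    GeomInvAB N0 q (p ^ k) A (C' * p ^ c) :=
  geomInvAB_of_K0Q (ι0 A) (toFN0 A (N0 * q)) (toFN0 A N0) (tau_algebraMap A N0)
    (normK0A A N0 q) (normK0B A N0 q) hA hB A (exists_tau_eq_of_fixed A (N0 * q))
    (exists_tau_eq_of_fixed A N0) (exists_iota_eq_of_fixed A) p c C' h k

/-- the same with helper17's `GeomKill` as conclusion -/
theorem geomKill_of_K0Q_inst (hA : NormSquareA A N0 q) (hB : NormSquareB A N0 q)
    (p : ℕ) [Fact p.Prime] (c C' : ℕ)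
    (h : ∀ k, c ≤ k → K0UnitGateQ (K0 A) (toFN0 A (N0 * q)) (normK0A A N0 q) (normK0B A N0 q)
      (p ^ k) (p ^ (k - c)) C') (k : ℕ) :
    GeomKill N0 q (p ^ k) A (C' * p ^ c) :=
  geomInvAB_iff_geomKill.mp (geomInvAB_of_K0Q_inst A N0 q hA hB p c C' h k)

end Norms

/-! ### The top of the L stack -/

/-- **Block D**: `S36GeomGate` from the two norm squares and the geometric gate `K0UnitGateQ` over
`K₀(X₀(N' r q))`, `K₀ = ℚ̄^{I_P}`, at SOME auxiliary `r` prime to `q` and SOME place `P | q`, with a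
bounded level loss `lam ^ c`. -/
theorem s36GeomGate_of_K0Q
    (hsqA : ∀ (P : ValuationSubring Qb) (N0 q : ℕ) [NeZero N0] [NeZero q], q.Prime → q ∣ N0 →
      NormSquareA P N0 q)
    (hsqB : ∀ (P : ValuationSubring Qb) (N0 q : ℕ) [NeZero N0] [NeZero q], q.Prime → q ∣ N0 →
      NormSquareB P N0 q)
    (h : ∀ (N' : ℕ) [NeZero N'] (lam : ℕ) [Fact lam.Prime] (q : ℕ) [NeZero q], q.Prime → q ≠ lam →
      lam ≠ 2 → q ∣ N' → ¬ q ^ 2 ∣ N' →
        ∃ (r : ℕ) (_ : NeZero r), Nat.Coprime r q ∧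
          ∃ P : ValuationSubring Qb, P.LiesOverPrime q ∧
            ∃ c C' : ℕ, C' ≠ 0 ∧
              ∀ k : ℕ, c ≤ k →
                K0UnitGateQ (K0 P) (toFN0 P (N' * r * q)) (normK0A P (N' * r) q)
                  (normK0B P (N' * r) q) (lam ^ k) (lam ^ (k - c)) C') :
    S36GeomGate := by
  refine s36GeomGate_of_geomKill fun N' _ lam _ q _ hq hqlam hlam2 hqN' hq2N' => ?_
  obtain ⟨r, hr, hqr, P, hP, c, C', hC', hgate⟩ := h N' lam q hq hqlam hlam2 hqN' hq2N'
  refine ⟨r, hr, hqr, P, hP, C' * lam ^ c,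
    Nat.mul_ne_zero hC' (pow_ne_zero _ (Fact.out : lam.Prime).ne_zero), fun k => ?_⟩
  exact geomKill_of_K0Q_inst P (N' * r) q (hsqA P (N' * r) q hq (Dvd.dvd.mul_right hqN' r))
    (hsqB P (N' * r) q hq (Dvd.dvd.mul_right hqN' r)) lam c C' hgate k

end Fermat.Agent.GL.Final.TopInst
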