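/-
GATE-L / L-INT block D "TOP", part 2 (helper82): `TopInst.s36GeomGate_of_K0Q` at helper48's GOOD
auxiliary levels (`GL/Final/GeomGateGood.lean`): the integration layer owes the geometric gate
`K0UnitGateQ` over `K₀(X₀(L' q))` only at levels `L'` with `GoodAuxLevel L' q` as a HYPOTHESIS
(`q ∥ L'`, a prime `≡ 11 mod 12` different from `q` divides `L'`, `3 ∣ L'` if `q = 2`, `2 ∣ L'` if
`q = 3`), for ONE place `P ∣ q`, with a bounded level loss `lam ^ c`.

* `invUnitGateAB_of_K0Q_inst` : one level, helper24's `InvUnitGateAB` as conclusion;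
* **`s36GeomGate_of_K0Q_good`** : squares + `K0UnitGateQ` at the good levels ⟹ `S36GeomGate`.
-/
import Fermat.Agent.GL.Final.TopInst
import Fermat.Agent.GL.Final.GeomGateGood

set_option autoImplicit false
set_option linter.unusedSectionVars false

noncomputable section

namespace Fermat.Agent.GL.Final.TopInst

open AlgebraicCurve ModularCurve
open Fermat.Agent.S24 Fermat.Agent.S24_helper82
open Fermat.Agent.GJ.KumGroup Fermat.Agent.GJ.Kum.KumType
open Fermat.Agent.GK.UTr Fermat.Agent.GL.Hecke Fermat.Agent.GL.Gate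
open Fermat.Agent.GL.Val.GaussK0 Fermat.Agent.GL.Val.CuspK0
open Fermat.Agent.GL.Final.GeomGate
open Fermat.Agent.Common_helper32

/-- **Block D, one level, `InvUnitGateAB` form**: helper24's `invUnitGateAB_of_K0Q` at the concrete
objects. -/
theorem invUnitGateAB_of_K0Q_inst (A : ValuationSubring Qb) (N0 q : ℕ) [NeZero N0] [NeZero q]
    (hA : NormSquareA A N0 q) (hB : NormSquareB A N0 q) {m m1 C : ℕ}
    (h : K0UnitGateQ (K0 A) (toFN0 A (N0 * q)) (normK0A A N0 q) (normK0B A N0 q) m m1 C) :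
    InvUnitGateAB N0 q m m1 A C :=
  invUnitGateAB_of_K0Q (ι0 A) (toFN0 A (N0 * q)) (toFN0 A N0) (tau_algebraMap A N0)
    (normK0A A N0 q) (normK0B A N0 q) hA hB A (exists_tau_eq_of_fixed A (N0 * q))
    (exists_tau_eq_of_fixed A N0) (exists_iota_eq_of_fixed A) h

/-- **Block D at the good auxiliary levels**: `S36GeomGate` from the two norm squares and the
geometric gate `K0UnitGateQ` over `K₀(X₀(L' q))`, `K₀ = ℚ̄^{I_P}`, at every GOOD level `L'`. -/
theorem s36GeomGate_of_K0Q_good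
    (hsqA : ∀ (P : ValuationSubring Qb) (N0 q : ℕ) [NeZero N0] [NeZero q], q.Prime → q ∣ N0 →
      NormSquareA P N0 q)
    (hsqB : ∀ (P : ValuationSubring Qb) (N0 q : ℕ) [NeZero N0] [NeZero q], q.Prime → q ∣ N0 →
      NormSquareB P N0 q)
    (h : ∀ (L' : ℕ) [NeZero L'] (lam : ℕ) [Fact lam.Prime] (q : ℕ) [NeZero q], q.Prime → q ≠ lam →
      lam ≠ 2 → GoodAuxLevel L' q →
        ∃ P : ValuationSubring Qb, P.LiesOverPrime q ∧
          ∃ c C' : ℕ, C' ≠ 0 ∧
            ∀ k : ℕ, c ≤ k →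
              K0UnitGateQ (K0 P) (toFN0 P (L' * q)) (normK0A P L' q) (normK0B P L' q)
                (lam ^ k) (lam ^ (k - c)) C') :
    S36GeomGate := by
  refine s36GeomGate_of_invUnitGate_good fun L' _ lam _ q _ hq hqlam hlam2 hgood => ?_
  obtain ⟨P, hP, c, C', hC', hgate⟩ := h L' lam q hq hqlam hlam2 hgood
  exact ⟨P, hP, c, C', hC', fun k hk =>
    invUnitGateAB_of_K0Q_inst P L' q (hsqA P L' q hq hgood.1) (hsqB P L' q hq hgood.1)
      (hgate k hk)⟩

end Fermat.Agent.GL.Final.TopInst
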