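/-
GATE-L / L-INT (helper39): **`S36GeomGate` from the three arms at the good auxiliary levels.**

`LevelPkg A L' q m m1` = ONE `TripleSetup` `S` over `F0 = K₀(X₀(L' q))`, `F0' = K₀(X₀(L'))`
(`K₀ = K0 A`) with `S.q = q`, together with the three arms (H3) (H4) (H5) in the binder shapes of
helper24's `k0UnitGateQ_of_chain'` at `τ := toFN0 A (L' * q)`, `NmA := normK0A A L' q`,
`NmB := normK0B A L' q` (helper82 `TopInst`), `U2 := H4OfXi.U2 S`, `U3 := H4OfXi.U3 S m1`.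
The arms are produced by `GL/Final/H3Inst.lean` (helper44), `GL/Final/H4Inst.lean` (helper46),
`GL/Final/H5Inst.lean` (helper56) from the concrete `S` (`GL/Final/TripleInst.lean` /
`TripleBuild.lean`).

* `k0UnitGateQ_of_pkg` : a package ⟹ `K0UnitGateQ` at that level (`GeomChain.k0UnitGateQ_of_arms`);
* **`s36GeomGate_of_pkg`** : the two norm squares (helper17/helper62) + a package at every GOOD
  auxiliary level (`GoodAuxLevel L' q`) for `m = lam ^ k`, `m1 = lam ^ (k - c)`, `k ≥ c`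
  ⟹ helper64's `S36GeomGate` (through helper82 `s36GeomGate_of_K0Q_good`).
-/
import Fermat.Agent.GL.Final.GeomChain
import Fermat.Agent.GL.Final.TopInstGood

set_option autoImplicit false
set_option linter.unusedSectionVars false
set_option linter.style.haveILetI false

noncomputable section

namespace Fermat.Agent.GL.Final.GeomFacts

open AlgebraicCurve ModularCurve
open Fermat.Agent.GJ.KumGroup
open Fermat.Agent.GL.H4OfXi Fermat.Agent.GL.Gate Fermat.Agent.GL.Chain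
open Fermat.Agent.GL.Val.GaussK0 Fermat.Agent.GL.Val.CuspK0
open Fermat.Agent.GL.Final.GeomGate Fermat.Agent.GL.Final.TopInst Fermat.Agent.GL.Final.GeomChain
open Fermat.Agent.Common_helper32

/-- **the three arms at one level**, for one `TripleSetup`. -/
structure LevelPkg (A : ValuationSubring Qb) (L' q : ℕ) [NeZero L'] [NeZero q] (m m1 : ℕ) :
    Type 1 where
  k : Type
  k1 : Type
  k2 : Type
  k3 : Type
  k1' : Type
  k2' : Type
  B : Type
  T : Type
  T' : Type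
  [fk : Field k]
  [fk1 : Field k1]
  [fk2 : Field k2]
  [fk3 : Field k3]
  [fk1' : Field k1']
  [fk2' : Field k2']
  [rB : CommRing B]
  [aB : Algebra B (modularFunctionFieldFullC (K0 A) (L' * q))]
  S : TripleSetup (modularFunctionFieldFullC (K0 A) (L' * q))
    (modularFunctionFieldFullC (K0 A) L') k k1 k2 k3 k1' k2' B T T'
  hq : S.q = q
  H3 : ∀ x : modularFunctionFieldFullC (K0 A) (L' * q), x ≠ 0 →
    IsCstPow (K0 A) m (normK0A A L' q x) → IsCstPow (K0 A) m (normK0B A L' q x) →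
    ∃ (cst : K0 A) (g u2 : modularFunctionFieldFullC (K0 A) (L' * q)), cst ≠ 0 ∧ g ≠ 0 ∧
      x ^ (q - 1) =
        algebraMap (K0 A) (modularFunctionFieldFullC (K0 A) (L' * q)) cst * g ^ m1 * u2 ∧
      U2 S u2 ∧ IsCstPow (K0 A) m1 (normK0A A L' q u2) ∧ IsCstPow (K0 A) m1 (normK0B A L' q u2)
  H4 : ∀ u2 : modularFunctionFieldFullC (K0 A) (L' * q), u2 ≠ 0 → U2 S u2 →
    (∀ P : Place Kb (FK (L' * q)), (m1 : ℤ) ∣ P.ord (toFN0 A (L' * q) u2)) →
    IsCstPow (K0 A) m1 (normK0A A L' q u2) → IsCstPow (K0 A) m1 (normK0B A L' q u2) →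
    ∃ f0 : modularFunctionFieldFullC (K0 A) (L' * q), f0 ≠ 0 ∧
      U3 S m1 (u2 ^ (S.q ^ 2 - 1) * f0 ^ m1)
  H5 : ∀ u3 : modularFunctionFieldFullC (K0 A) (L' * q), u3 ≠ 0 → U3 S m1 u3 →
    (∀ P : Place Kb (FK (L' * q)), (m1 : ℤ) ∣ P.ord (toFN0 A (L' * q) u3)) →
    ∃ w : FK (L' * q), w ≠ 0 ∧ toFN0 A (L' * q) u3 = w ^ m1

/-- **One level**: a package gives helper24's gate `K0UnitGateQ` with the constant
`(q - 1) (q² - 1)`. -/
theorem k0UnitGateQ_of_pkg (A : ValuationSubring Qb) (L' q : ℕ) [NeZero L'] [NeZero q]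
    {m m1 : ℕ} (pkg : LevelPkg A L' q m m1) (hm1 : m1 ∣ m) (hm10 : m1 ≠ 0) :
    K0UnitGateQ (K0 A) (toFN0 A (L' * q)) (normK0A A L' q) (normK0B A L' q) m m1
      ((q - 1) * (q ^ 2 - 1)) := by
  letI := pkg.fk
  letI := pkg.fk1
  letI := pkg.fk2
  letI := pkg.fk3
  letI := pkg.fk1'
  letI := pkg.fk2'
  letI := pkg.rB
  letI := pkg.aB
  have H4 := pkg.H4
  rw [pkg.hq] at H4
  exact k0UnitGateQ_of_arms pkg.S (ι0 A) (toFN0 A (L' * q)) (tau_algebraMap A (L' * q))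
    (normK0A A L' q) (normK0B A L' q) q m m1 pkg.H3 H4 pkg.H5 hm1 hm10

/-- **`S36GeomGate` from the arms at the good auxiliary levels.** -/
theorem s36GeomGate_of_pkg
    (hsqA : ∀ (P : ValuationSubring Qb) (N0 q : ℕ) [NeZero N0] [NeZero q], q.Prime → q ∣ N0 →
      NormSquareA P N0 q)
    (hsqB : ∀ (P : ValuationSubring Qb) (N0 q : ℕ) [NeZero N0] [NeZero q], q.Prime → q ∣ N0 →
      NormSquareB P N0 q)
    (h : ∀ (L' : ℕ) [NeZero L'] (lam : ℕ) [Fact lam.Prime] (q : ℕ) [NeZero q], q.Prime → q ≠ lam →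
      lam ≠ 2 → GoodAuxLevel L' q →
        ∃ P : ValuationSubring Qb, P.LiesOverPrime q ∧
          ∃ c : ℕ, ∀ k : ℕ, c ≤ k → Nonempty (LevelPkg P L' q (lam ^ k) (lam ^ (k - c)))) :
    S36GeomGate := by
  refine s36GeomGate_of_K0Q_good hsqA hsqB fun L' _ lam _ q _ hq hqlam hlam2 hgood => ?_
  obtain ⟨P, hP, c, hpkg⟩ := h L' lam q hq hqlam hlam2 hgood
  have hC : (q - 1) * (q ^ 2 - 1) ≠ 0 := by
    have h2 : 2 ≤ q := hq.two_le
    have h4 : 4 ≤ q ^ 2 := by nlinarith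
    exact Nat.mul_ne_zero (by omega) (by omega)
  refine ⟨P, hP, c, (q - 1) * (q ^ 2 - 1), hC, fun k hk => ?_⟩
  obtain ⟨pkg⟩ := hpkg k hk
  exact k0UnitGateQ_of_pkg P L' q pkg (pow_dvd_pow lam (Nat.sub_le k c))
    (pow_ne_zero _ (Fact.out : lam.Prime).ne_zero)

/-- **`S36GeomGate` from the arms, final consumer form**: the package is owed for EVERY place
`A ∣ q`, with `c = v_lam (q + 1)` (`q + 1 = lam ^ c * r`, `lam ∤ r`: the level loss of (H3)). -/
theorem s36GeomGate_of_pkg'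
    (hsqA : ∀ (P : ValuationSubring Qb) (N0 q : ℕ) [NeZero N0] [NeZero q], q.Prime → q ∣ N0 →
      NormSquareA P N0 q)
    (hsqB : ∀ (P : ValuationSubring Qb) (N0 q : ℕ) [NeZero N0] [NeZero q], q.Prime → q ∣ N0 →
      NormSquareB P N0 q)
    (h : ∀ (L' : ℕ) [NeZero L'] (lam : ℕ) [Fact lam.Prime] (q : ℕ) [NeZero q], q.Prime → q ≠ lam →
      lam ≠ 2 → GoodAuxLevel L' q → ∀ A : ValuationSubring Qb, A.LiesOverPrime q →
        ∀ c r : ℕ, q + 1 = lam ^ c * r → ¬ lam ∣ r → ∀ k : ℕ, c ≤ k →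
          Nonempty (LevelPkg A L' q (lam ^ k) (lam ^ (k - c)))) :
    S36GeomGate := by
  refine s36GeomGate_of_pkg hsqA hsqB fun L' _ lam _ q _ hq hqlam hlam2 hgood => ?_
  obtain ⟨A, hA⟩ := exists_liesOverPrime q hq
  obtain ⟨c, r, hr, hq1⟩ :=
    Nat.exists_eq_pow_mul_and_not_dvd (Nat.succ_ne_zero q) lam (Fact.out : lam.Prime).ne_one
  exact ⟨A, hA, c, fun k hk => h L' lam q hq hqlam hlam2 hgood A hA c r hq1 hr k hk⟩

end Fermat.Agent.GL.Final.GeomFacts
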