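/-
GATE-L / L-INT block D "TOP", the two NORM SQUARES (helper17): helper82's `TopInst.NormSquareA`,
`TopInst.NormSquareB` (norm base change `K₀ → ℚ̄` along helper67's `alphaK0`, `betaK0`) are
THEOREMS, by `K0Bridge.normAlong_toFN0` (`GL/Gate/NormConst`: constants stay linearly disjoint, so
the degrees over `K₀` and over `ℚ̄` agree and the norm commutes with the extension of constants).

* `normSquareA A N0 q : NormSquareA A N0 q`, `normSquareB A N0 q : NormSquareB A N0 q`
  (every `A`, `N0`, `q`);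
* `s36GeomGate_of_K0Q_inst`, **`s36GeomGate_of_K0Q_good_inst`** : helper82's two tops with the
  square hypotheses discharged — `S36GeomGate` from the geometric gate `K0UnitGateQ` ALONE.
-/
import Fermat.Agent.GL.Final.TopInstGood
import Fermat.Agent.GL.Gate.UnitGateK0

set_option autoImplicit false
set_option linter.unusedSectionVars false

noncomputable section

namespace Fermat.Agent.GL.Final.TopInst

open AlgebraicCurve ModularCurve
open Fermat.Agent.S24 Fermat.Agent.S24_helper82
open Fermat.Agent.GJ Fermat.Agent.GJ.HN Fermat.Agent.GJ.HInputs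
open Fermat.Agent.GK.UTr Fermat.Agent.GL.Hecke Fermat.Agent.GL.Gate
open Fermat.Agent.GL.Val.GaussK0 Fermat.Agent.GL.Val.CuspK0 Fermat.Agent.GL.Val.CuspCoeff
open Fermat.Agent.GL.Table.K0 Fermat.Agent.GL.Final.GeomGate
open Fermat.Agent.GL.Gate.K0Bridge
open Fermat.Agent.Common_helper32

variable (A : ValuationSubring Qb) (N0 q : ℕ) [NeZero N0] [NeZero q]

/-- **NORM BASE CHANGE `K₀ → ℚ̄` along `π = alphaK0`** -/
theorem normSquareA : NormSquareA A N0 q := by
  intro x
  obtain ⟨-, -, -, hfinα, -, -⟩ := Fermat.Agent.GJ.HInputs.heckeInputsAlong_bar N0 q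
  exact (normAlong_toFN0 A (alphaK0 A N0 q) (alphaB N0 q)
    (fun y => toFN_alphaC (ι0 A) N0 q y) hfinα x).symm

/-- **NORM BASE CHANGE `K₀ → ℚ̄` along `π' = betaK0`** -/
theorem normSquareB : NormSquareB A N0 q := by
  intro x
  exact (normAlong_toFN0 A (betaK0 A N0 q) (betaB N0 q)
    (fun y => toFN_betaC (ι0 A) N0 q y) (finiteAlong_betaB_all N0 q) x).symm

/-- helper82's `s36GeomGate_of_K0Q` with the two squares discharged -/
theorem s36GeomGate_of_K0Q_inst
    (h : ∀ (N' : ℕ) [NeZero N'] (lam : ℕ) [Fact lam.Prime] (q : ℕ) [NeZero q], q.Prime → q ≠ lam →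
      lam ≠ 2 → q ∣ N' → ¬ q ^ 2 ∣ N' →
        ∃ (r : ℕ) (_ : NeZero r), Nat.Coprime r q ∧
          ∃ P : ValuationSubring Qb, P.LiesOverPrime q ∧
            ∃ c C' : ℕ, C' ≠ 0 ∧
              ∀ k : ℕ, c ≤ k →
                K0UnitGateQ (K0 P) (toFN0 P (N' * r * q)) (normK0A P (N' * r) q)
                  (normK0B P (N' * r) q) (lam ^ k) (lam ^ (k - c)) C') :
    S36GeomGate :=
  s36GeomGate_of_K0Q (fun P N0 q _ _ _ _ => normSquareA P N0 q)
    (fun P N0 q _ _ _ _ => normSquareB P N0 q) h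

/-- **helper82's `s36GeomGate_of_K0Q_good` with the two squares discharged**: `S36GeomGate` (hence
frozen S36, and with the S35 gate frozen S58) from the geometric gate `K0UnitGateQ` over
`K₀(X₀(L' q))` at the good auxiliary levels ALONE. -/
theorem s36GeomGate_of_K0Q_good_inst
    (h : ∀ (L' : ℕ) [NeZero L'] (lam : ℕ) [Fact lam.Prime] (q : ℕ) [NeZero q], q.Prime → q ≠ lam →
      lam ≠ 2 → GoodAuxLevel L' q →
        ∃ P : ValuationSubring Qb, P.LiesOverPrime q ∧
          ∃ c C' : ℕ, C' ≠ 0 ∧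
            ∀ k : ℕ, c ≤ k →
              K0UnitGateQ (K0 P) (toFN0 P (L' * q)) (normK0A P L' q) (normK0B P L' q)
                (lam ^ k) (lam ^ (k - c)) C') :
    S36GeomGate :=
  s36GeomGate_of_K0Q_good (fun P N0 q _ _ _ _ => normSquareA P N0 q)
    (fun P N0 q _ _ _ _ => normSquareB P N0 q) h

end Fermat.Agent.GL.Final.TopInst
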