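/-
GATE-L / L-INT (helper39): **`S36GeomGate` from the (H4) and (H5) arms alone.**

The top (helper82 `TopInst`, helper48 `GeomGateGood`), the two norm squares (helper17
`NormSquareInst`) and the (H3) arm (helper44 `H3Final.h3Inst` on helper66 `PlugK0.h3_K0`) are
THEOREMS.  What is left of `GeomFacts.LevelPkg` is

`ArmPkg A L' q m1` = ONE `TripleSetup` `S` over `F0 = K₀(X₀(L' q))`, `F0' = K₀(X₀(L'))` whose three
vertical valuations are `w1 = RwK0`, `w2 = (redData2QK0 ..).Rw`, `w3 = Rw3K0` (`hW1 hW2 hW3`), with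
`S.q = q`, and the two arms (H4) (H5) at `τ := toFN0 A (L' * q)`, `NmA := normK0A A L' q`,
`NmB := normK0B A L' q`, modulus `m1`.

* `LevelPkg.ofArmPkg` : (H3) added;
* **`s36GeomGate_of_armPkg`** : an `ArmPkg A L' q (lam ^ (k - c))` at every GOOD level `L'`, every
  place `A ∣ q`, `q + 1 = lam ^ c * r`, `lam ∤ r`, `k ≥ c` ⟹ helper64's `S36GeomGate`.
-/
import Fermat.Agent.GL.Final.GeomFacts
import Fermat.Agent.GL.Final.NormSquareInst
import Fermat.Agent.GL.Final.H3Final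

set_option autoImplicit false
set_option linter.unusedSectionVars false
set_option linter.style.haveILetI false

noncomputable section

namespace Fermat.Agent.GL.Final.GeomFacts

open AlgebraicCurve ModularCurve
open Fermat.Agent.GJ.KumGroup
open Fermat.Agent.GL.H4OfXi Fermat.Agent.GL.Gate Fermat.Agent.GL.Chain
open Fermat.Agent.GK.AL Fermat.Agent.GL.AL
open Fermat.Agent.GL.Val.GaussK0 Fermat.Agent.GL.Val.CuspK0
open Fermat.Agent.GL.Val.SecondK0 Fermat.Agent.GL.Val.SecondK0Hall Fermat.Agent.GL.Val.ThirdK0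
open Fermat.Agent.GL.Final.GeomGate Fermat.Agent.GL.Final.TopInst Fermat.Agent.GL.Final.GeomChain
open Fermat.Agent.Common_helper32

/-- **the arms (H4) (H5) at one level**, for one `TripleSetup` tied to `w1 w2 w3`. -/
structure ArmPkg (A : ValuationSubring Qb) (L' q : ℕ) [NeZero L'] [NeZero q] (m1 : ℕ) :
    Type 1 where
  k : Type
  k1 : Type
  k2 : Type
  k3 : Type
  k1' : Type
  k2' : Type
  B : Type
  T : Type
  T' : Type
  [fk : Field k]
  [fk1 : Field k1]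
  [fk2 : Field k2]
  [fk3 : Field k3]
  [fk1' : Field k1']
  [fk2' : Field k2']
  [rB : CommRing B]
  [aB : Algebra B (modularFunctionFieldFullC (K0 A) (L' * q))]
  S : TripleSetup (modularFunctionFieldFullC (K0 A) (L' * q))
    (modularFunctionFieldFullC (K0 A) L') k k1 k2 k3 k1' k2' B T T'
  hq : S.q = q
  hQ : HallDvd (q ^ 2) (L' * q)
  hW1 : S.W1 = RwK0 A (L' * q)
  hW2 : S.W2 = (redData2QK0 A (L' * q) hQ).Rw
  hW3 : S.W3 = Rw3K0 A (L' * q) q
  H4 : ∀ u2 : modularFunctionFieldFullC (K0 A) (L' * q), u2 ≠ 0 → U2 S u2 →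
    (∀ P : Place Kb (FK (L' * q)), (m1 : ℤ) ∣ P.ord (toFN0 A (L' * q) u2)) →
    IsCstPow (K0 A) m1 (normK0A A L' q u2) → IsCstPow (K0 A) m1 (normK0B A L' q u2) →
    ∃ f0 : modularFunctionFieldFullC (K0 A) (L' * q), f0 ≠ 0 ∧
      U3 S m1 (u2 ^ (S.q ^ 2 - 1) * f0 ^ m1)
  H5 : ∀ u3 : modularFunctionFieldFullC (K0 A) (L' * q), u3 ≠ 0 → U3 S m1 u3 →
    (∀ P : Place Kb (FK (L' * q)), (m1 : ℤ) ∣ P.ord (toFN0 A (L' * q) u3)) →
    ∃ w : FK (L' * q), w ≠ 0 ∧ toFN0 A (L' * q) u3 = w ^ m1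

/-- **(H3) added**: an `ArmPkg` at modulus `lam ^ (k - c)` is a `LevelPkg` at
`(lam ^ k, lam ^ (k - c))`. -/
def LevelPkg.ofArmPkg (A : ValuationSubring Qb) (L' q : ℕ) [NeZero L'] [NeZero q]
    (hq : q.Prime) (hA : A.LiesOverPrime q) (hqL : q ∣ L') (hq2 : ¬ q ^ 2 ∣ L')
    {lam c r : ℕ} (hlam : lam.Prime) (hlamq : lam ≠ q) (hq1 : q + 1 = lam ^ c * r)
    (hr : ¬ lam ∣ r) (k : ℕ) (pkg : ArmPkg A L' q (lam ^ (k - c))) :
    LevelPkg A L' q (lam ^ k) (lam ^ (k - c)) :=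
  letI := pkg.fk
  letI := pkg.fk1
  letI := pkg.fk2
  letI := pkg.fk3
  letI := pkg.fk1'
  letI := pkg.fk2'
  letI := pkg.rB
  letI := pkg.aB
  { k := pkg.k, k1 := pkg.k1, k2 := pkg.k2, k3 := pkg.k3, k1' := pkg.k1', k2' := pkg.k2',
    B := pkg.B, T := pkg.T, T' := pkg.T'
    S := pkg.S
    hq := pkg.hq
    H3 := H3.h3Inst A hq hA hqL hq2 pkg.hQ pkg.S pkg.hW1 pkg.hW2 pkg.hW3 hlam hlamq hq1 hr k
    H4 := pkg.H4
    H5 := pkg.H5 }

/-- **`S36GeomGate` from the (H4) and (H5) arms at the good auxiliary levels.** -/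
theorem s36GeomGate_of_armPkg
    (h : ∀ (L' : ℕ) [NeZero L'] (lam : ℕ) [Fact lam.Prime] (q : ℕ) [NeZero q], q.Prime → q ≠ lam →
      lam ≠ 2 → GoodAuxLevel L' q → ∀ A : ValuationSubring Qb, A.LiesOverPrime q →
        ∀ c r : ℕ, q + 1 = lam ^ c * r → ¬ lam ∣ r → ∀ k : ℕ, c ≤ k →
          Nonempty (ArmPkg A L' q (lam ^ (k - c)))) :
    S36GeomGate := by
  refine s36GeomGate_of_pkg' (fun P N0 q _ _ _ _ => normSquareA P N0 q)
    (fun P N0 q _ _ _ _ => normSquareB P N0 q)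
    fun L' _ lam _ q _ hq hqlam hlam2 hgood A hA c r hq1 hr k hk => ?_
  obtain ⟨pkg⟩ := h L' lam q hq hqlam hlam2 hgood A hA c r hq1 hr k hk
  exact ⟨LevelPkg.ofArmPkg A L' q hq hA hgood.1 hgood.2.1 (Fact.out : lam.Prime)
    (fun e => hqlam e.symm) hq1 hr k pkg⟩

end Fermat.Agent.GL.Final.GeomFacts
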