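/-
GATE-L / TRIPLE-BUILD, route (β) (helper40): helper46's `H4OfXi.TripleSetup` BUILT from chart-level
data, with the branch places UPSTAIRS obtained by CHEVALLEY EXTENSION (`GL/Alg/Chevalley.lean`) —
no "`rd_i(B)` localised at the triple point is a valuation ring" input at the level `q² ∣ N`.

`BuildData` = what a concrete owner has to supply:
* the valuation data `W_i, rd_i, hr_i` (`i = 1,2,3`), `A_j, rd_j', hr_j'` (`j = 1,2`), the norms with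
  their four rows, the six residue embeddings — EXACTLY the fields of `TripleSetup`;
* the chart rings `B` (`Algebra B F`), `B'` (`Algebra B' E`), inside the vertical valuation rings
  (`hBW_i`, `hBA_j`); hence the reductions `ρ_i : B →+* k_i`, `ρ_j' : B' →+* k_j'` (`BuildData.rho_i`);
* the triple points `P n` with residue characters `χ n : B ↠ k`, lying on the three components
  (`hker_i : ρ_i b = 0 → χ n b = 0`); the nodes below with characters `χ' n' : B' →+* k` on the two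
  components (`hker_j'`);
* the two pull-backs `φ1 φ2 : B' →+* B` (`π^*`, `π'^*`) with the six chart-level squares
  `ρ_i (φ b) = j (ρ_j' b)` and `χ n ∘ φ1 = χ' (p1 n)`, `χ n ∘ φ2 = χ' (p2 n)`;
* **the ONLY non-formal input**: `hval_j'` (`j = 1,2`) — the image of `B'` in `k_j'`, localised at the
  node branch, is a valuation ring (helper90 `BranchPoint.locVal`; from helper35
  `hval_of_dedekind` + GATE-K `CRing` Dedekind at the level `q ∥ N0`).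

`BuildData.toSetup : TripleSetup …` : `U_j' n' := locVal ρ_j' (χ' n')`, `e_j' n' := evalHom …`
(helper90), and UPSTAIRS `(U_i n, e_i n) :=` Chevalley extension of `(locSub ρ_i (χ n), ev)`.
All the fields shared with `TripleSetup` are definitional projections.

Side facts for helper46's `H4Arm.h4_arm` : `heu1' heu2' hB1' hB2' hχ1' hχ2'` (`toSetup_heu1'` …),
`hconst_i`, `hconst_j'` (`toSetup_hconst1` …, from lifts of the constants to the chart rings).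
-/
import Fermat.Agent.GL.Alg.Chevalley
import Fermat.Agent.GL.Frame.BranchPoint
import Fermat.Agent.GL.Gate.H4OfXi

set_option autoImplicit false
set_option linter.unusedSectionVars false

namespace Fermat.Agent.GL.TripleBuild

open Fermat.Agent.GL Fermat.Agent.GL.CompBranch Fermat.Agent.GL.H4OfXi
open Fermat.Agent.GL.BranchPoint

/-! ### The Chevalley branch of a chart ring at a point -/

section Chev

variable {B κ k : Type*} [CommRing B] [Field κ] [Field k]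

/-- the evaluation as a ring homomorphism on the subring `locSub ρ χ` (no valuation-ring
hypothesis). -/
noncomputable def evSub (ρ : B →+* κ) (χ : B →+* k) (hker : ∀ b, ρ b = 0 → χ b = 0) :
    locSub ρ χ →+* k where
  toFun y := ev ρ χ (y : κ)
  map_one' := ev_one hker
  map_mul' y₁ y₂ := ev_mul hker y₁.2 y₂.2
  map_zero' := ev_zero hker
  map_add' y₁ y₂ := ev_add hker y₁.2 y₂.2

variable [IsAlgClosed k] (ρ : B →+* κ) (χ : B →+* k) (hker : ∀ b, ρ b = 0 → χ b = 0)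

/-- the Chevalley valuation subring dominating `locSub ρ χ`. -/
noncomputable def chevU : ValuationSubring κ :=
  (Chevalley.exists_valuationSubring_extension (locSub ρ χ) (evSub ρ χ hker)).choose

/-- its evaluation. -/
noncomputable def chevE : chevU ρ χ hker →+* k :=
  (Chevalley.exists_valuationSubring_extension (locSub ρ χ) (evSub ρ χ hker)).choose_spec.choose

theorem le_chevU {y : κ} (hy : y ∈ locSub ρ χ) : y ∈ chevU ρ χ hker :=
  (Chevalley.exists_valuationSubring_extension (locSub ρ χ)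
    (evSub ρ χ hker)).choose_spec.choose_spec.choose y hy

theorem chevE_of_mem {y : κ} (hy : y ∈ locSub ρ χ) :
    chevE ρ χ hker ⟨y, le_chevU ρ χ hker hy⟩ = ev ρ χ y :=
  (Chevalley.exists_valuationSubring_extension (locSub ρ χ)
    (evSub ρ χ hker)).choose_spec.choose_spec.choose_spec.1 y hy

theorem chev_heu (y : κ) (hy : y ∈ chevU ρ χ hker) (h : chevE ρ χ hker ⟨y, hy⟩ ≠ 0) :
    y⁻¹ ∈ chevU ρ χ hker :=
  (Chevalley.exists_valuationSubring_extension (locSub ρ χ)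
    (evSub ρ χ hker)).choose_spec.choose_spec.choose_spec.2 y hy h

theorem map_mem_chevU (b : B) : ρ b ∈ chevU ρ χ hker := le_chevU ρ χ hker (map_mem ρ χ b)

theorem chevE_map (b : B) (h : ρ b ∈ chevU ρ χ hker) : chevE ρ χ hker ⟨ρ b, h⟩ = χ b := by
  have := chevE_of_mem ρ χ hker (map_mem ρ χ b)
  rw [ev_map hker] at this
  exact this

/-! functoriality: a valuation branch below, a Chevalley branch above -/

variable {B' κ' : Type*} [CommRing B'] [Field κ'] {ρ' : B' →+* κ'} {χ' : B' →+* k}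
  (φ : B' →+* B) (j : κ' →+* κ) (hρ : ∀ b, ρ (φ b) = j (ρ' b)) (hχ : ∀ b, χ (φ b) = χ' b)
  (hker' : ∀ b, ρ' b = 0 → χ' b = 0)
  (hval' : ∀ y : κ', y ∈ locSub ρ' χ' ∨ y⁻¹ ∈ locSub ρ' χ')

include hρ hχ hker' in
theorem chevE_map_hom {y : κ'} (hy : y ∈ locSub ρ' χ') (hy' : j y ∈ chevU ρ χ hker) :
    chevE ρ χ hker ⟨j y, hy'⟩ = ev ρ' χ' y := by
  have h1 := chevE_of_mem ρ χ hker (map_hom_mem φ j hρ hχ hy)
  rw [ev_map_hom φ j hρ hχ hker hker' hy] at h1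
  exact h1

include hρ hχ hker' hval' in
/-- **`c**`** : `y ∈ U' ↔ j y ∈ U` for a valuation branch `U'` below and the Chevalley branch `U`
above. -/
theorem mem_locVal_iff_map_mem_chevU (y : κ') :
    y ∈ locVal ρ' χ' hval' ↔ j y ∈ chevU ρ χ hker := by
  refine ⟨fun h => le_chevU ρ χ hker (map_hom_mem φ j hρ hχ h), fun h => ?_⟩
  by_contra hy
  have hy' : y ∉ locSub ρ' χ' := hy
  have hyi : y⁻¹ ∈ locSub ρ' χ' := (hval' y).resolve_left hy'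
  have hy0 : y ≠ 0 := by
    rintro rfl
    exact hy' (Subring.zero_mem _)
  have h1 : ev ρ' χ' y⁻¹ = 0 :=
    ev_eq_zero_of_inv_not_mem hker' hyi (by rwa [inv_inv])
  have hji : j y⁻¹ ∈ chevU ρ χ hker := le_chevU ρ χ hker (map_hom_mem φ j hρ hχ hyi)
  have h2 : chevE ρ χ hker ⟨j y⁻¹, hji⟩ = 0 := by
    rw [chevE_map_hom ρ χ hker φ j hρ hχ hker' hyi hji, h1]
  have h3 : chevE ρ χ hker (⟨j y, h⟩ * ⟨j y⁻¹, hji⟩) = 1 := by
    have : (⟨j y, h⟩ * ⟨j y⁻¹, hji⟩ : chevU ρ χ hker) = 1 := by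
      apply Subtype.ext
      show j y * j y⁻¹ = 1
      rw [← map_mul, mul_inv_cancel₀ hy0, map_one]
    rw [this, map_one]
  rw [map_mul, h2, mul_zero] at h3
  exact zero_ne_one h3

end Chev

/-! ### The chart-level data -/

/-- chart-level data at the triple points (see the file header). -/
structure BuildData (F E k k1 k2 k3 k1' k2' B B' T T' : Type*) [Field F] [Field E] [Field k]
    [Field k1] [Field k2] [Field k3] [Field k1'] [Field k2'] [CommRing B] [Algebra B F]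
    [CommRing B'] [Algebra B' E] where
  W1 : ValuationSubring F
  W2 : ValuationSubring F
  W3 : ValuationSubring F
  A1 : ValuationSubring E
  A2 : ValuationSubring E
  rd1 : W1 →+* k1
  rd2 : W2 →+* k2
  rd3 : W3 →+* k3
  rd1' : A1 →+* k1'
  rd2' : A2 →+* k2'
  hr1 : ∀ z : W1, ¬ IsUnit z → rd1 z = 0
  hr2 : ∀ z : W2, ¬ IsUnit z → rd2 z = 0
  hr3 : ∀ z : W3, ¬ IsUnit z → rd3 z = 0
  hr1' : ∀ z : A1, ¬ IsUnit z → rd1' z = 0
  hr2' : ∀ z : A2, ¬ IsUnit z → rd2' z = 0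
  p1 : T → T'
  p2 : T → T'
  Nm : F →* E
  Nm' : F →* E
  q : ℕ
  hq : 1 ≤ q
  j11 : k1' →+* k1
  j13 : k1' →+* k3
  j22 : k2' →+* k2
  j11' : k1' →+* k1
  j22' : k2' →+* k2
  j23' : k2' →+* k3
  hπ13 : ∀ (u : F) (h1 : u ∈ W1) (h3 : u ∈ W3), ∃ hN : Nm u ∈ A1, ∃ y1 y3 : k1',
    j11 y1 = rd1 ⟨u, h1⟩ ∧ j13 y3 = rd3 ⟨u, h3⟩ ∧ rd1' ⟨Nm u, hN⟩ = y1 * y3 ^ (q - 1)
  hπ2 : ∀ (u : F) (h2 : u ∈ W2), ∃ hN : Nm u ∈ A2, j22 (rd2' ⟨Nm u, hN⟩) = rd2 ⟨u, h2⟩ ^ q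
  hπ'1 : ∀ (u : F) (h1 : u ∈ W1), ∃ hN : Nm' u ∈ A1,
    j11' (rd1' ⟨Nm' u, hN⟩) = rd1 ⟨u, h1⟩ ^ q
  hπ'23 : ∀ (u : F) (h2 : u ∈ W2) (h3 : u ∈ W3), ∃ hN : Nm' u ∈ A2, ∃ y2 y3 : k2',
    j22' y2 = rd2 ⟨u, h2⟩ ∧ j23' y3 = rd3 ⟨u, h3⟩ ∧ rd2' ⟨Nm' u, hN⟩ = y2 * y3 ^ (q - 1)
  /-- the chart rings lie in the vertical valuation rings -/
  hBW1 : ∀ b : B, algebraMap B F b ∈ W1
  hBW2 : ∀ b : B, algebraMap B F b ∈ W2
  hBW3 : ∀ b : B, algebraMap B F b ∈ W3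
  hBA1 : ∀ b : B', algebraMap B' E b ∈ A1
  hBA2 : ∀ b : B', algebraMap B' E b ∈ A2
  /-- the triple points -/
  P : T → Ideal B
  hmax : ∀ n, (P n).IsMaximal
  hinj : Function.Injective P
  χ : T → (B →+* k)
  hχker : ∀ n b, χ n b = 0 ↔ b ∈ P n
  hχsurj : ∀ n, Function.Surjective (χ n)
  /-- the node characters below -/
  χ' : T' → (B' →+* k)
  /-- the points lie on the components -/
  hker1 : ∀ n (b : B), rd1 ⟨algebraMap B F b, hBW1 b⟩ = 0 → χ n b = 0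
  hker2 : ∀ n (b : B), rd2 ⟨algebraMap B F b, hBW2 b⟩ = 0 → χ n b = 0
  hker3 : ∀ n (b : B), rd3 ⟨algebraMap B F b, hBW3 b⟩ = 0 → χ n b = 0
  hker1' : ∀ n' (b : B'), rd1' ⟨algebraMap B' E b, hBA1 b⟩ = 0 → χ' n' b = 0
  hker2' : ∀ n' (b : B'), rd2' ⟨algebraMap B' E b, hBA2 b⟩ = 0 → χ' n' b = 0
  /-- the two pull-backs on the chart rings -/
  φ1 : B' →+* B
  φ2 : B' →+* B
  hρ11 : ∀ b : B', rd1 ⟨algebraMap B F (φ1 b), hBW1 _⟩ = j11 (rd1' ⟨algebraMap B' E b, hBA1 b⟩)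
  hρ13 : ∀ b : B', rd3 ⟨algebraMap B F (φ1 b), hBW3 _⟩ = j13 (rd1' ⟨algebraMap B' E b, hBA1 b⟩)
  hρ22 : ∀ b : B', rd2 ⟨algebraMap B F (φ1 b), hBW2 _⟩ = j22 (rd2' ⟨algebraMap B' E b, hBA2 b⟩)
  hρ11' : ∀ b : B', rd1 ⟨algebraMap B F (φ2 b), hBW1 _⟩ = j11' (rd1' ⟨algebraMap B' E b, hBA1 b⟩)
  hρ22' : ∀ b : B', rd2 ⟨algebraMap B F (φ2 b), hBW2 _⟩ = j22' (rd2' ⟨algebraMap B' E b, hBA2 b⟩)
  hρ23' : ∀ b : B', rd3 ⟨algebraMap B F (φ2 b), hBW3 _⟩ = j23' (rd2' ⟨algebraMap B' E b, hBA2 b⟩)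
  hχ1 : ∀ n (b : B'), χ n (φ1 b) = χ' (p1 n) b
  hχ2 : ∀ n (b : B'), χ n (φ2 b) = χ' (p2 n) b

section Build

variable {F E k k1 k2 k3 k1' k2' B B' T T' : Type*} [Field F] [Field E] [Field k]
  [Field k1] [Field k2] [Field k3] [Field k1'] [Field k2'] [CommRing B] [Algebra B F]
  [CommRing B'] [Algebra B' E]
  (D : BuildData F E k k1 k2 k3 k1' k2' B B' T T')

/-- the reduction of the chart ring along a vertical valuation ring. -/
def rhoOf {F κ B : Type*} [Field F] [Field κ] [CommRing B] [Algebra B F]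
    (W : ValuationSubring F) (rd : W →+* κ) (hBW : ∀ b : B, algebraMap B F b ∈ W) : B →+* κ :=
  rd.comp ((algebraMap B F).codRestrict W hBW)

@[simp] theorem rhoOf_apply {F κ B : Type*} [Field F] [Field κ] [CommRing B] [Algebra B F]
    (W : ValuationSubring F) (rd : W →+* κ) (hBW : ∀ b : B, algebraMap B F b ∈ W) (b : B) :
    rhoOf W rd hBW b = rd ⟨algebraMap B F b, hBW b⟩ := rfl

namespace BuildData

/-- `ρ_1 : B →+* k1` -/
def rho1 : B →+* k1 := rhoOf D.W1 D.rd1 D.hBW1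
/-- `ρ_2 : B →+* k2` -/
def rho2 : B →+* k2 := rhoOf D.W2 D.rd2 D.hBW2
/-- `ρ_3 : B →+* k3` -/
def rho3 : B →+* k3 := rhoOf D.W3 D.rd3 D.hBW3
/-- `ρ_1' : B' →+* k1'` -/
def rho1' : B' →+* k1' := rhoOf D.A1 D.rd1' D.hBA1
/-- `ρ_2' : B' →+* k2'` -/
def rho2' : B' →+* k2' := rhoOf D.A2 D.rd2' D.hBA2

theorem rho11 (b : B') : D.rho1 (D.φ1 b) = D.j11 (D.rho1' b) := D.hρ11 b
theorem rho13 (b : B') : D.rho3 (D.φ1 b) = D.j13 (D.rho1' b) := D.hρ13 b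
theorem rho22 (b : B') : D.rho2 (D.φ1 b) = D.j22 (D.rho2' b) := D.hρ22 b
theorem rho11' (b : B') : D.rho1 (D.φ2 b) = D.j11' (D.rho1' b) := D.hρ11' b
theorem rho22' (b : B') : D.rho2 (D.φ2 b) = D.j22' (D.rho2' b) := D.hρ22' b
theorem rho23' (b : B') : D.rho3 (D.φ2 b) = D.j23' (D.rho2' b) := D.hρ23' b

/-- the two lower valuation-ring hypotheses (the ONLY non-formal input). -/
structure Hval : Prop where
  h1 : ∀ n' (y : k1'), y ∈ locSub D.rho1' (D.χ' n') ∨ y⁻¹ ∈ locSub D.rho1' (D.χ' n')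
  h2 : ∀ n' (y : k2'), y ∈ locSub D.rho2' (D.χ' n') ∨ y⁻¹ ∈ locSub D.rho2' (D.χ' n')

variable [IsAlgClosed k] (hv : D.Hval)

/-- **the `TripleSetup`**, route (β). -/
noncomputable def toSetup : TripleSetup F E k k1 k2 k3 k1' k2' B T T' where
  W1 := D.W1
  W2 := D.W2
  W3 := D.W3
  A1 := D.A1
  A2 := D.A2
  rd1 := D.rd1
  rd2 := D.rd2
  rd3 := D.rd3
  rd1' := D.rd1'
  rd2' := D.rd2'
  hr1 := D.hr1
  hr2 := D.hr2
  hr3 := D.hr3
  hr1' := D.hr1'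
  hr2' := D.hr2'
  U1 := fun n => chevU D.rho1 (D.χ n) (D.hker1 n)
  U2 := fun n => chevU D.rho2 (D.χ n) (D.hker2 n)
  U3 := fun n => chevU D.rho3 (D.χ n) (D.hker3 n)
  e1 := fun n => chevE D.rho1 (D.χ n) (D.hker1 n)
  e2 := fun n => chevE D.rho2 (D.χ n) (D.hker2 n)
  e3 := fun n => chevE D.rho3 (D.χ n) (D.hker3 n)
  U1' := fun n' => locVal D.rho1' (D.χ' n') (hv.h1 n')
  U2' := fun n' => locVal D.rho2' (D.χ' n') (hv.h2 n')
  e1' := fun n' => evalHom D.rho1' (D.χ' n') (D.hker1' n') (hv.h1 n')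
  e2' := fun n' => evalHom D.rho2' (D.χ' n') (D.hker2' n') (hv.h2 n')
  heu1 := fun n => chev_heu D.rho1 (D.χ n) (D.hker1 n)
  heu2 := fun n => chev_heu D.rho2 (D.χ n) (D.hker2 n)
  heu3 := fun n => chev_heu D.rho3 (D.χ n) (D.hker3 n)
  p1 := D.p1
  p2 := D.p2
  Nm := D.Nm
  Nm' := D.Nm'
  q := D.q
  hq := D.hq
  j11 := D.j11
  j13 := D.j13
  j22 := D.j22
  j11' := D.j11'
  j22' := D.j22'
  j23' := D.j23'
  hπ13 := D.hπ13
  hπ2 := D.hπ2
  hπ'1 := D.hπ'1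
  hπ'23 := D.hπ'23
  c11 := fun n y => mem_locVal_iff_map_mem_chevU D.rho1 (D.χ n) (D.hker1 n) D.φ1 D.j11
    D.rho11 (D.hχ1 n) (D.hker1' _) (hv.h1 _) y
  c11e := fun n y hy hy' => chevE_map_hom D.rho1 (D.χ n) (D.hker1 n) D.φ1 D.j11
    D.rho11 (D.hχ1 n) (D.hker1' _) hy hy'
  c13 := fun n y => mem_locVal_iff_map_mem_chevU D.rho3 (D.χ n) (D.hker3 n) D.φ1 D.j13
    D.rho13 (D.hχ1 n) (D.hker1' _) (hv.h1 _) y
  c13e := fun n y hy hy' => chevE_map_hom D.rho3 (D.χ n) (D.hker3 n) D.φ1 D.j13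
    D.rho13 (D.hχ1 n) (D.hker1' _) hy hy'
  c22 := fun n y => mem_locVal_iff_map_mem_chevU D.rho2 (D.χ n) (D.hker2 n) D.φ1 D.j22
    D.rho22 (D.hχ1 n) (D.hker2' _) (hv.h2 _) y
  c22e := fun n y hy hy' => chevE_map_hom D.rho2 (D.χ n) (D.hker2 n) D.φ1 D.j22
    D.rho22 (D.hχ1 n) (D.hker2' _) hy hy'
  c11' := fun n y => mem_locVal_iff_map_mem_chevU D.rho1 (D.χ n) (D.hker1 n) D.φ2 D.j11'
    D.rho11' (D.hχ2 n) (D.hker1' _) (hv.h1 _) y
  c11e' := fun n y hy hy' => chevE_map_hom D.rho1 (D.χ n) (D.hker1 n) D.φ2 D.j11'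
    D.rho11' (D.hχ2 n) (D.hker1' _) hy hy'
  c22' := fun n y => mem_locVal_iff_map_mem_chevU D.rho2 (D.χ n) (D.hker2 n) D.φ2 D.j22'
    D.rho22' (D.hχ2 n) (D.hker2' _) (hv.h2 _) y
  c22e' := fun n y hy hy' => chevE_map_hom D.rho2 (D.χ n) (D.hker2 n) D.φ2 D.j22'
    D.rho22' (D.hχ2 n) (D.hker2' _) hy hy'
  c23' := fun n y => mem_locVal_iff_map_mem_chevU D.rho3 (D.χ n) (D.hker3 n) D.φ2 D.j23'
    D.rho23' (D.hχ2 n) (D.hker2' _) (hv.h2 _) y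
  c23e' := fun n y hy hy' => chevE_map_hom D.rho3 (D.χ n) (D.hker3 n) D.φ2 D.j23'
    D.rho23' (D.hχ2 n) (D.hker2' _) hy hy'
  P := D.P
  hmax := D.hmax
  hinj := D.hinj
  χ := D.χ
  hχker := D.hχker
  hχsurj := D.hχsurj
  hB1 := fun n b => (mem_comp D.W1 D.rd1 D.hr1 _).mpr
    ⟨D.hBW1 b, map_mem_chevU D.rho1 (D.χ n) (D.hker1 n) b⟩
  hB2 := fun n b => (mem_comp D.W2 D.rd2 D.hr2 _).mpr
    ⟨D.hBW2 b, map_mem_chevU D.rho2 (D.χ n) (D.hker2 n) b⟩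
  hB3 := fun n b => (mem_comp D.W3 D.rd3 D.hr3 _).mpr
    ⟨D.hBW3 b, map_mem_chevU D.rho3 (D.χ n) (D.hker3 n) b⟩
  hχ1 := fun n b => by
    rw [branch_ev D.W1 D.rd1 D.hr1 _ _ (D.hBW1 b) (map_mem_chevU D.rho1 (D.χ n) (D.hker1 n) b)]
    exact chevE_map D.rho1 (D.χ n) (D.hker1 n) b _
  hχ2 := fun n b => by
    rw [branch_ev D.W2 D.rd2 D.hr2 _ _ (D.hBW2 b) (map_mem_chevU D.rho2 (D.χ n) (D.hker2 n) b)]
    exact chevE_map D.rho2 (D.χ n) (D.hker2 n) b _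
  hχ3 := fun n b => by
    rw [branch_ev D.W3 D.rd3 D.hr3 _ _ (D.hBW3 b) (map_mem_chevU D.rho3 (D.χ n) (D.hker3 n) b)]
    exact chevE_map D.rho3 (D.χ n) (D.hker3 n) b _

/-! ### Side facts for `H4Arm.h4_arm` -/

theorem toSetup_heu1' : ∀ n' (y : k1') (hy : y ∈ (D.toSetup hv).U1' n'),
    (D.toSetup hv).e1' n' ⟨y, hy⟩ ≠ 0 → y⁻¹ ∈ (D.toSetup hv).U1' n' :=
  fun n' _ hy h => inv_mem_of_ev_ne_zero (ρ := D.rho1') (χ := D.χ' n') (D.hker1' n') hy h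

theorem toSetup_heu2' : ∀ n' (y : k2') (hy : y ∈ (D.toSetup hv).U2' n'),
    (D.toSetup hv).e2' n' ⟨y, hy⟩ ≠ 0 → y⁻¹ ∈ (D.toSetup hv).U2' n' :=
  fun n' _ hy h => inv_mem_of_ev_ne_zero (ρ := D.rho2') (χ := D.χ' n') (D.hker2' n') hy h

theorem toSetup_hB1' : ∀ n' (b : B'), algebraMap B' E b ∈
    comp (D.toSetup hv).A1 (D.toSetup hv).rd1' (D.toSetup hv).hr1' ((D.toSetup hv).U1' n') :=
  fun n' b => (mem_comp D.A1 D.rd1' D.hr1' _).mpr ⟨D.hBA1 b, map_mem D.rho1' (D.χ' n') b⟩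

theorem toSetup_hB2' : ∀ n' (b : B'), algebraMap B' E b ∈
    comp (D.toSetup hv).A2 (D.toSetup hv).rd2' (D.toSetup hv).hr2' ((D.toSetup hv).U2' n') :=
  fun n' b => (mem_comp D.A2 D.rd2' D.hr2' _).mpr ⟨D.hBA2 b, map_mem D.rho2' (D.χ' n') b⟩

theorem toSetup_hχ1' : ∀ n' (b : B'),
    (branch (D.toSetup hv).A1 (D.toSetup hv).rd1' (D.toSetup hv).hr1' ((D.toSetup hv).U1' n')
      ((D.toSetup hv).e1' n')).ev (algebraMap B' E b) = D.χ' n' b := by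
  intro n' b
  have h := branch_ev D.A1 D.rd1' D.hr1' (locVal D.rho1' (D.χ' n') (hv.h1 n'))
    (evalHom D.rho1' (D.χ' n') (D.hker1' n') (hv.h1 n')) (D.hBA1 b)
    (map_mem D.rho1' (D.χ' n') b)
  refine h.trans ?_
  exact ev_map (ρ := D.rho1') (χ := D.χ' n') (D.hker1' n') b

theorem toSetup_hχ2' : ∀ n' (b : B'),
    (branch (D.toSetup hv).A2 (D.toSetup hv).rd2' (D.toSetup hv).hr2' ((D.toSetup hv).U2' n')
      ((D.toSetup hv).e2' n')).ev (algebraMap B' E b) = D.χ' n' b := by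
  intro n' b
  have h := branch_ev D.A2 D.rd2' D.hr2' (locVal D.rho2' (D.χ' n') (hv.h2 n'))
    (evalHom D.rho2' (D.χ' n') (D.hker2' n') (hv.h2 n')) (D.hBA2 b)
    (map_mem D.rho2' (D.χ' n') b)
  refine h.trans ?_
  exact ev_map (ρ := D.rho2') (χ := D.χ' n') (D.hker2' n') b

/-- constants at the branch points, upstairs (`hconst_i` of `h4_arm`), from lifts of the constants
to the chart ring. -/
theorem toSetup_hconst1 [Algebra k k1]
    (hc : ∀ a : k, ∃ b : B, D.rho1 b = algebraMap k k1 a ∧ ∀ n, D.χ n b = a) :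
    ∀ n (a : k), ∃ ha : algebraMap k k1 a ∈ (D.toSetup hv).U1 n,
      (D.toSetup hv).e1 n ⟨algebraMap k k1 a, ha⟩ = a := by
  intro n a
  obtain ⟨b, hb, hχb⟩ := hc a
  have hm := map_mem_chevU D.rho1 (D.χ n) (D.hker1 n) b
  have he := chevE_map D.rho1 (D.χ n) (D.hker1 n) b hm
  rw [hχb n] at he
  have hm' : algebraMap k k1 a ∈ chevU D.rho1 (D.χ n) (D.hker1 n) := hb ▸ hm
  refine ⟨hm', ?_⟩
  have : (⟨algebraMap k k1 a, hm'⟩ : chevU D.rho1 (D.χ n) (D.hker1 n)) = ⟨D.rho1 b, hm⟩ :=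
    Subtype.ext hb.symm
  show chevE D.rho1 (D.χ n) (D.hker1 n) ⟨algebraMap k k1 a, hm'⟩ = a
  rw [this, he]

theorem toSetup_hconst2 [Algebra k k2]
    (hc : ∀ a : k, ∃ b : B, D.rho2 b = algebraMap k k2 a ∧ ∀ n, D.χ n b = a) :
    ∀ n (a : k), ∃ ha : algebraMap k k2 a ∈ (D.toSetup hv).U2 n,
      (D.toSetup hv).e2 n ⟨algebraMap k k2 a, ha⟩ = a := by
  intro n a
  obtain ⟨b, hb, hχb⟩ := hc a
  have hm := map_mem_chevU D.rho2 (D.χ n) (D.hker2 n) b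
  have he := chevE_map D.rho2 (D.χ n) (D.hker2 n) b hm
  rw [hχb n] at he
  have hm' : algebraMap k k2 a ∈ chevU D.rho2 (D.χ n) (D.hker2 n) := hb ▸ hm
  refine ⟨hm', ?_⟩
  have : (⟨algebraMap k k2 a, hm'⟩ : chevU D.rho2 (D.χ n) (D.hker2 n)) = ⟨D.rho2 b, hm⟩ :=
    Subtype.ext hb.symm
  show chevE D.rho2 (D.χ n) (D.hker2 n) ⟨algebraMap k k2 a, hm'⟩ = a
  rw [this, he]

theorem toSetup_hconst3 [Algebra k k3]
    (hc : ∀ a : k, ∃ b : B, D.rho3 b = algebraMap k k3 a ∧ ∀ n, D.χ n b = a) :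
    ∀ n (a : k), ∃ ha : algebraMap k k3 a ∈ (D.toSetup hv).U3 n,
      (D.toSetup hv).e3 n ⟨algebraMap k k3 a, ha⟩ = a := by
  intro n a
  obtain ⟨b, hb, hχb⟩ := hc a
  have hm := map_mem_chevU D.rho3 (D.χ n) (D.hker3 n) b
  have he := chevE_map D.rho3 (D.χ n) (D.hker3 n) b hm
  rw [hχb n] at he
  have hm' : algebraMap k k3 a ∈ chevU D.rho3 (D.χ n) (D.hker3 n) := hb ▸ hm
  refine ⟨hm', ?_⟩
  have : (⟨algebraMap k k3 a, hm'⟩ : chevU D.rho3 (D.χ n) (D.hker3 n)) = ⟨D.rho3 b, hm⟩ :=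
    Subtype.ext hb.symm
  show chevE D.rho3 (D.χ n) (D.hker3 n) ⟨algebraMap k k3 a, hm'⟩ = a
  rw [this, he]

/-- constants at the node branches, downstairs (`hconst_j'` of `h4_arm`). -/
theorem toSetup_hconst1' [Algebra k k1']
    (hc : ∀ a : k, ∃ b : B', D.rho1' b = algebraMap k k1' a ∧ ∀ n', D.χ' n' b = a) :
    ∀ n' (a : k), ∃ ha : algebraMap k k1' a ∈ (D.toSetup hv).U1' n',
      (D.toSetup hv).e1' n' ⟨algebraMap k k1' a, ha⟩ = a := by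
  intro n' a
  obtain ⟨b, hb, hχb⟩ := hc a
  have hm : algebraMap k k1' a ∈ locSub D.rho1' (D.χ' n') := hb ▸ map_mem D.rho1' (D.χ' n') b
  refine ⟨hm, ?_⟩
  show ev D.rho1' (D.χ' n') (algebraMap k k1' a) = a
  rw [← hb, ev_map (ρ := D.rho1') (χ := D.χ' n') (D.hker1' n'), hχb n']

theorem toSetup_hconst2' [Algebra k k2']
    (hc : ∀ a : k, ∃ b : B', D.rho2' b = algebraMap k k2' a ∧ ∀ n', D.χ' n' b = a) :
    ∀ n' (a : k), ∃ ha : algebraMap k k2' a ∈ (D.toSetup hv).U2' n',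
      (D.toSetup hv).e2' n' ⟨algebraMap k k2' a, ha⟩ = a := by
  intro n' a
  obtain ⟨b, hb, hχb⟩ := hc a
  have hm : algebraMap k k2' a ∈ locSub D.rho2' (D.χ' n') := hb ▸ map_mem D.rho2' (D.χ' n') b
  refine ⟨hm, ?_⟩
  show ev D.rho2' (D.χ' n') (algebraMap k k2' a) = a
  rw [← hb, ev_map (ρ := D.rho2') (χ := D.χ' n') (D.hker2' n'), hχb n']

end BuildData

end Build

end Fermat.Agent.GL.TripleBuild
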