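/-
GATE-L / BUILD-INST (helper40): feeders (ii)+(v) of the concrete `TripleBuild.BuildData` at the
`K₀` objects (helper31 GRAPH RULING 4).

GENERIC (`R` any ring, `F` a field over `R`; `icRing`/`chartRing` of helper80 `FrameInst`):
* `baseHomIc`, `algIcRing` : `icRing R S` as an `R`-algebra (a `@[reducible] def`; activate with
  `attribute [local instance] algIcRing`); `genB t : chartRing R t`; `valB`;
* `isIntegral_adjoin_genB` : every `b : chartRing R t` is integral over `R[genB t] ⊆ chartRing R t`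
  (`hint` of helper31 `ResChar.exists_char`);
* `chartHom f hf ht : chartRing R t' →+* chartRing R t` for a ring hom `f : E →+* F` over `R` with
  `f t'` integral over `R[t]`; `coe_chartHom`, `algebraMap_chartHom`, `chartHom_algebraMap`
  (`hφ` of `ResChar.char_comp`), `chartHom_injective`, `chartHom_genB`;
* `finite_aeval_genB(_of_charZero)` : `R[X] → chartRing R t` is finite (`hfin` of
  `ResCharFin.finite_pointType`) under the FRAME package hypotheses of helper80;
* `mem_Rw_of_mem_icRing`, `algebraMap_chartRing_mem_Rw` : `chartRing D.A s ⊆ D.Rw` for a reduction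
  datum `D` with `s ∈ D.Rw`; `rhoOf_algebraMap` : the constants, `ρ (a) = algebraMap k Ft (res a)`;
* `hconst_of_base`, `hconst_of_redData` : the hypothesis `hc` of `TripleBuild.toSetup_hconst*`.

CONCRETE (`A : ValuationSubring ℚ̄`, `R₀ = R0 A`, `K₀ = K0 A`, any level `N`):
* `BK0 A N := chartRing (R0 A) (jC N (K0 A))`  (`B := BK0 A (M' * q * q)`, `B' := BK0 A (M' * q)`),
  `jB A N : BK0 A N`, `BK0_eq_chartRing_jK0`; instance shortcuts `instAlgR0FullC`,
  `instAlgBK0FullC`, `instAlgR0BK0` (reducible defs: `attribute [local instance 2000] …`);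
* `hBW1 hBW2 hBW3 hBA1 hBA2` := `algebraMap_BK0_mem_RwK0`, `algebraMap_BK0_mem_Rw2QK0`,
  `algebraMap_BK0_mem_Rw3K0` (`…_RwCuspK0`), `algebraMap_BK0_mem_RwK0`, `algebraMap_BK0_mem_Rw2K0`;
* constants: `rho_const_RwK0`, `rho_const_Rw2QK0`, `rho_const_Rw2K0`, `rho_const_RwCuspK0`, and the
  hypotheses `hc` of `toSetup_hconst*` VERBATIM: `hc_RwK0`, `hc_Rw2QK0`, `hc_Rw2K0`, `hc_RwCuspK0`
  (input: `χ n (algebraMap r) = residue r`, the third conjunct of `ResChar.exists_char`);
* `isIntegral_adjoin_jB` (`hint`), `finite_aeval_jB` (`hfin`) for `ResChar` / `ResCharFin`;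
* `φ₁ := phiAlpha A N ℓ`, `φ₂ := phiBeta A N ℓ : BK0 A N →+* BK0 A (N * ℓ)` (restrictions of
  helper67 `alphaK0`, `betaK0`; integrality of `π'^* j = j(q^ℓ)` over `R₀[j]` = helper87 ARITH-INT),
  `algebraMap_phiAlpha`, `algebraMap_phiBeta` (the defining equations, `rfl`),
  `phiAlpha_algebraMap`, `phiBeta_algebraMap` (`hφ`), injectivity, `phiAlpha_jB`.
-/
import Fermat.Agent.GL.Final.TripleBuild
import Fermat.Agent.GL.Frame.FrameInst
import Fermat.Agent.GL.Frame.ArithInt
import Fermat.Agent.GL.Frame.ChartInstK0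
import Fermat.Agent.GL.Val.ThirdK0Red
import Fermat.Agent.GL.Table.RowsK0W3
import Fermat.Agent.GL.Val.OrthK0

set_option autoImplicit false

noncomputable section

namespace Fermat.Agent.GL.BuildInst

open Polynomial
open Fermat.Agent.GJ.J1
open Fermat.Agent.GL.Frame.Inst
open Fermat.Agent.GL.TripleBuild

/-! ### Generic part -/

section Generic

variable {R : Type*} [CommRing R] {F : Type*} [Field F] [Algebra R F]

/-- the structure map `R → icRing R S`. -/
def baseHomIc (S : Set F) : R →+* icRing R S where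
  toFun r := ⟨algebraMap R F r, algebraMap_mem_icRing R S r⟩
  map_one' := Subtype.ext (map_one _)
  map_mul' _ _ := Subtype.ext (map_mul _ _ _)
  map_zero' := Subtype.ext (map_zero _)
  map_add' _ _ := Subtype.ext (map_add _ _ _)

@[simp] theorem coe_baseHomIc (S : Set F) (r : R) :
    ((baseHomIc S r : icRing R S) : F) = algebraMap R F r := rfl

/-- `icRing R S` as an `R`-algebra. -/
@[reducible] def algIcRing (S : Set F) : Algebra R (icRing R S) := (baseHomIc S).toAlgebra

attribute [local instance] algIcRing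

theorem algebraMap_icRing_apply (S : Set F) (r : R) :
    algebraMap R (icRing R S) r = baseHomIc S r := rfl

theorem coe_algebraMap_icRing (S : Set F) (r : R) :
    ((algebraMap R (icRing R S) r : icRing R S) : F) = algebraMap R F r := rfl

theorem isScalarTower_icRing (S : Set F) : IsScalarTower R (icRing R S) F :=
  IsScalarTower.of_algebraMap_eq fun _ => rfl

/-- the chart parameter as an element of the chart ring. -/
def genB (t : F) : chartRing R t := ⟨t, subset_icRing R {t} rfl⟩

@[simp] theorem coe_genB (t : F) : ((genB (R := R) t : chartRing R t) : F) = t := rfl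

/-- the inclusion `chartRing R t → F` as an `R`-algebra hom. -/
def valB (S : Set F) : icRing R S →ₐ[R] F where
  toFun b := (b : F)
  map_one' := rfl
  map_mul' _ _ := rfl
  map_zero' := rfl
  map_add' _ _ := rfl
  commutes' _ := rfl

@[simp] theorem valB_apply (S : Set F) (b : icRing R S) : valB S b = (b : F) := rfl

theorem valB_injective (S : Set F) : Function.Injective (valB (R := R) S) :=
  fun _ _ h => Subtype.ext h

/-- elements of `R[t] ⊆ F` lift to `R[genB t] ⊆ chartRing R t`. -/
theorem exists_mem_adjoin_genB (t : F) {a : F} (ha : a ∈ Algebra.adjoin R {t}) :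
    ∃ a' : chartRing R t, a' ∈ Algebra.adjoin R {genB (R := R) t} ∧ (a' : F) = a := by
  have h : (Algebra.adjoin R {genB (R := R) t}).map (valB {t}) = Algebra.adjoin R {t} := by
    rw [AlgHom.map_adjoin, Set.image_singleton, valB_apply, coe_genB]
  rw [← h] at ha
  obtain ⟨a', ha', rfl⟩ := ha
  exact ⟨a', ha', rfl⟩

/-- **`hint` of `ResChar.exists_char`**: the chart ring is integral over `R[t]`, inside the chart
ring. -/
theorem isIntegral_adjoin_genB (t : F) (b : chartRing R t) :
    IsIntegral (Algebra.adjoin R {genB (R := R) t}) b := by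
  have hb : IsIntegral (Algebra.adjoin R {t}) (b : F) := b.2
  -- the ring hom `R[t] → R[genB t]`
  let φ : Algebra.adjoin R {t} →+* Algebra.adjoin R {genB (R := R) t} :=
    { toFun := fun a => ⟨⟨a.1, adjoin_le_icRing R {t} a.2⟩, by
        obtain ⟨a', ha', h⟩ := exists_mem_adjoin_genB t a.2
        have : (⟨a.1, adjoin_le_icRing R {t} a.2⟩ : chartRing R t) = a' := Subtype.ext h.symm
        rw [this]; exact ha'⟩
      map_one' := rfl
      map_mul' := fun _ _ => rfl
      map_zero' := rfl
      map_add' := fun _ _ => rfl }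
  have := isScalarTower_icRing (R := R) ({t} : Set F)
  -- `b` is integral over `R[genB t]` as an element of `F`
  have h1 : IsIntegral (Algebra.adjoin R {genB (R := R) t}) (algebraMap (chartRing R t) F b) :=
    IsIntegral.map_of_comp_eq φ (RingHom.id F) (RingHom.ext fun a => rfl) hb
  exact (isIntegral_algebraMap_iff (A := chartRing R t) (B := F)
    (fun x y h => Subtype.ext h)).1 h1

end Generic

/-! ### Restriction of a ring hom to chart rings -/

section Hom

variable {R : Type*} [CommRing R] {E F : Type*} [Field E] [Field F] [Algebra R E] [Algebra R F]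

attribute [local instance] algIcRing

/-- a ring hom over `R` with `f t'` integral over `R[t]` maps the chart ring of `t'` into the chart
ring of `t`. -/
theorem map_mem_chartRing (f : E →+* F) (hf : ∀ r, f (algebraMap R E r) = algebraMap R F r)
    {t' : E} {t : F} (ht : IsIntegral (Algebra.adjoin R {t}) (f t')) {z : E}
    (hz : z ∈ chartRing R t') : f z ∈ chartRing R t := by
  have hle : ∀ a ∈ Algebra.adjoin R {t'}, f a ∈ chartRing R t := by
    intro a ha
    induction ha using Algebra.adjoin_induction with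
    | mem x hx =>
      rw [Set.mem_singleton_iff] at hx
      rw [hx]
      exact ht
    | algebraMap r =>
      rw [hf]
      exact algebraMap_mem_icRing R {t} r
    | add x y _ _ hx hy =>
      rw [map_add]
      exact (chartRing R t).add_mem hx hy
    | mul x y _ _ hx hy =>
      rw [map_mul]
      exact (chartRing R t).mul_mem hx hy
  let φ : Algebra.adjoin R {t'} →+* chartRing R t :=
    { toFun := fun a => ⟨f a.1, hle a.1 a.2⟩
      map_one' := Subtype.ext (map_one f)
      map_mul' := fun _ _ => Subtype.ext (map_mul f _ _)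
      map_zero' := Subtype.ext (map_zero f)
      map_add' := fun _ _ => Subtype.ext (map_add f _ _) }
  have h1 : IsIntegral (chartRing R t) (f z) :=
    IsIntegral.map_of_comp_eq φ f (RingHom.ext fun a => rfl) hz
  exact mem_icRing_of_isIntegral R {t} h1

/-- **the restriction of `f` to the chart rings.** -/
def chartHom (f : E →+* F) (hf : ∀ r, f (algebraMap R E r) = algebraMap R F r)
    {t' : E} {t : F} (ht : IsIntegral (Algebra.adjoin R {t}) (f t')) :
    chartRing R t' →+* chartRing R t where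
  toFun b := ⟨f b.1, map_mem_chartRing f hf ht b.2⟩
  map_one' := Subtype.ext (map_one f)
  map_mul' _ _ := Subtype.ext (map_mul f _ _)
  map_zero' := Subtype.ext (map_zero f)
  map_add' _ _ := Subtype.ext (map_add f _ _)

@[simp] theorem coe_chartHom (f : E →+* F) (hf : ∀ r, f (algebraMap R E r) = algebraMap R F r)
    {t' : E} {t : F} (ht : IsIntegral (Algebra.adjoin R {t}) (f t')) (b : chartRing R t') :
    ((chartHom f hf ht b : chartRing R t) : F) = f (b : E) := rfl

/-- the defining equation in the shape of `BuildData` (`algebraMap B F (φ b) = f (algebraMap B' E b)`). -/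
theorem algebraMap_chartHom (f : E →+* F) (hf : ∀ r, f (algebraMap R E r) = algebraMap R F r)
    {t' : E} {t : F} (ht : IsIntegral (Algebra.adjoin R {t}) (f t')) (b : chartRing R t') :
    algebraMap (chartRing R t) F (chartHom f hf ht b) = f (algebraMap (chartRing R t') E b) := rfl

/-- **`hφ` of `ResChar.char_comp`**: the restriction is a hom over `R`. -/
theorem chartHom_algebraMap (f : E →+* F) (hf : ∀ r, f (algebraMap R E r) = algebraMap R F r)
    {t' : E} {t : F} (ht : IsIntegral (Algebra.adjoin R {t}) (f t')) (r : R) :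
    chartHom f hf ht (algebraMap R (chartRing R t') r) = algebraMap R (chartRing R t) r :=
  Subtype.ext (hf r)

theorem chartHom_injective (f : E →+* F) (hf : ∀ r, f (algebraMap R E r) = algebraMap R F r)
    {t' : E} {t : F} (ht : IsIntegral (Algebra.adjoin R {t}) (f t')) :
    Function.Injective (chartHom f hf ht) := fun _ _ h =>
  Subtype.ext (f.injective (congrArg (fun z : chartRing R t => (z : F)) h))

theorem chartHom_genB (f : E →+* F) (hf : ∀ r, f (algebraMap R E r) = algebraMap R F r)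
    {t' : E} {t : F} (ht : IsIntegral (Algebra.adjoin R {t}) (f t')) (h : f t' = t) :
    chartHom f hf ht (genB (R := R) t') = genB (R := R) t := Subtype.ext h

end Hom

/-! ### Finiteness of the chart ring over `R[X]` -/

section Finite

variable {R K F : Type*} [CommRing R] [IsDomain R] [Field K] [Field F]
  [Algebra R K] [IsFractionRing R K] [Algebra K F] [Algebra R F] [IsScalarTower R K F]
  [IsNoetherianRing R] [UniqueFactorizationMonoid R]
  (t : F) (ht : Transcendental R t)
  [FiniteDimensional (IntermediateField.adjoin K {t}) F]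
  [Algebra.IsSeparable (IntermediateField.adjoin K {t}) F]

attribute [local instance] algAdjoinK algIcRing

include K ht in
/-- the integral closure of `R[t]` in `F` is a finite `R[t]`-module. -/
theorem finite_integralClosure_adjoin :
    Module.Finite (Algebra.adjoin R {t}) (integralClosure (Algebra.adjoin R {t}) F) := by
  have h1 := isNoetherianRing_adjoin t ht
  have h2 := isIntegrallyClosed_adjoin t ht
  have h3 := isFractionRing_adjoinK (R := R) (K := K) t
  have h4 := isScalarTower_adjoinK (R := R) (K := K) t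
  exact (Fermat.Agent.GL.KrullHeightOne.integralClosure_package (Algebra.adjoin R {t})
    (IntermediateField.adjoin K {t}) F).2.1

include K ht in
/-- **`hfin` of `ResCharFin.finite_pointType`**: `R[X] → chartRing R t`, `X ↦ t`, is finite. -/
theorem finite_aeval_genB : (aeval (R := R) (genB (R := R) t)).toRingHom.Finite := by
  classical
  have hfin := finite_integralClosure_adjoin (K := K) t ht
  -- `R[X] → R[t]`, surjective
  let g : R[X] →ₐ[R] Algebra.adjoin R {t} :=
    (aeval (R := R) t).codRestrict (Algebra.adjoin R {t})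
      (fun p => aeval_mem_adjoin_singleton R t)
  have hg : Function.Surjective g := by
    rintro ⟨a, ha⟩
    have ha' := ha
    rw [Algebra.adjoin_singleton_eq_range_aeval] at ha'
    obtain ⟨p, hp⟩ := ha'
    exact ⟨p, Subtype.ext hp⟩
  have h1 : g.toRingHom.Finite := RingHom.Finite.of_surjective _ hg
  have h2 : (algebraMap (Algebra.adjoin R {t}) (integralClosure (Algebra.adjoin R {t}) F)).Finite :=
    RingHom.finite_algebraMap.2 hfin
  -- the identity `integralClosure R[t] F → chartRing R t`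
  let ι : integralClosure (Algebra.adjoin R {t}) F →+* chartRing R t :=
    { toFun := fun c => ⟨c.1, c.2⟩
      map_one' := rfl
      map_mul' := fun _ _ => rfl
      map_zero' := rfl
      map_add' := fun _ _ => rfl }
  have h3 : ι.Finite := RingHom.Finite.of_surjective _ (fun b => ⟨⟨b.1, b.2⟩, rfl⟩)
  have h4 := h3.comp (h2.comp h1)
  have heq : ι.comp ((algebraMap (Algebra.adjoin R {t})
      (integralClosure (Algebra.adjoin R {t}) F)).comp g.toRingHom) =
      (aeval (R := R) (genB (R := R) t)).toRingHom := by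
    refine RingHom.ext fun p => Subtype.ext ?_
    show aeval t p = ((aeval (R := R) (genB (R := R) t) p : chartRing R t) : F)
    have := Polynomial.aeval_algHom_apply (valB (R := R) ({t} : Set F)) (genB (R := R) t) p
    rw [valB_apply, valB_apply, coe_genB] at this
    exact this
  rw [← heq]
  exact h4

end Finite

section FiniteCharZero

variable {R K F : Type*} [CommRing R] [IsDomain R] [Field K] [Field F]
  [Algebra R K] [IsFractionRing R K] [Algebra K F] [Algebra R F] [IsScalarTower R K F]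
  [IsNoetherianRing R] [UniqueFactorizationMonoid R] [CharZero K]
  (t : F) (ht : Transcendental R t) [FiniteDimensional (IntermediateField.adjoin K {t}) F]

attribute [local instance] algIcRing

include K ht in
/-- `finite_aeval_genB` in characteristic zero (separability is automatic). -/
theorem finite_aeval_genB_of_charZero : (aeval (R := R) (genB (R := R) t)).toRingHom.Finite := by
  have h5 : CharZero (IntermediateField.adjoin K {t}) :=
    charZero_of_injective_algebraMap (algebraMap K (IntermediateField.adjoin K {t})).injective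
  have h6 : Algebra.IsSeparable (IntermediateField.adjoin K {t}) F :=
    Algebra.IsAlgebraic.isSeparable_of_perfectField
  exact finite_aeval_genB (K := K) t ht

end FiniteCharZero

/-! ### Chart rings inside the valuation ring of a reduction datum -/

section Red

variable {K F k Ft : Type*} [Field K] [Field F] [Algebra K F] [Field k] [Field Ft] [Algebra k Ft]
  (D : RedData K F k Ft)

attribute [local instance] algIcRing

/-- the base ring lies in the valuation ring. -/
theorem algebraMap_mem_Rw (a : D.A) : algebraMap D.A F a ∈ D.Rw := (D.mem_A_iff a).1 a.2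

/-- **`icRing D.A S ⊆ D.Rw`** as soon as `S ⊆ D.Rw`. -/
theorem mem_Rw_of_mem_icRing (S : Set F) (hS : ∀ x ∈ S, x ∈ D.Rw) {z : F}
    (hz : z ∈ icRing D.A S) : z ∈ D.Rw :=
  mem_valuationSubring_of_mem_icRing D.A S D.Rw (algebraMap_mem_Rw D) hS hz

/-- the chart ring of a parameter `s ∈ D.Rw` lies in `D.Rw` (`hBW` of `BuildData`). -/
theorem algebraMap_chartRing_mem_Rw {s : F} (hs : s ∈ D.Rw) (b : chartRing D.A s) :
    algebraMap (chartRing D.A s) F b ∈ D.Rw :=
  mem_Rw_of_mem_icRing D {s} (fun x hx => by rw [Set.mem_singleton_iff.1 hx]; exact hs) b.2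

/-- **constants**: the reduction of a constant of the chart ring is the constant `res a`. -/
theorem rhoOf_algebraMap {s : F} (hBW : ∀ b : chartRing D.A s, algebraMap (chartRing D.A s) F b ∈ D.Rw)
    (a : D.A) :
    rhoOf D.Rw D.red hBW (algebraMap D.A (chartRing D.A s) a) = algebraMap k Ft (D.res a) :=
  D.red_algebraMap a

end Red

/-! ### The hypothesis `hc` of `TripleBuild.toSetup_hconst*` -/

section Const

variable {R B k κ T : Type*} [CommRing R] [CommRing B] [Algebra R B] [Field k] [Field κ]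
  [Algebra k κ]

/-- constants lift to the chart ring, compatibly with a reduction `ρ` and with all the residue
characters `χ n`. -/
theorem hconst_of_base (res : R →+* k) (hres : Function.Surjective res) (ρ : B →+* κ)
    (χ : T → (B →+* k)) (hρ : ∀ r, ρ (algebraMap R B r) = algebraMap k κ (res r))
    (hχ : ∀ n r, χ n (algebraMap R B r) = res r) :
    ∀ a : k, ∃ b : B, ρ b = algebraMap k κ a ∧ ∀ n, χ n b = a := by
  intro a
  obtain ⟨r, rfl⟩ := hres a
  exact ⟨algebraMap R B r, hρ r, fun n => hχ n r⟩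

/-- the same at the chart ring of a reduction datum. -/
theorem hconst_of_redData {K F k Ft : Type*} [Field K] [Field F] [Algebra K F] [Field k] [Field Ft]
    [Algebra k Ft] (D : RedData K F k Ft) {s : F}
    (hBW : ∀ b : chartRing D.A s, algebraMap (chartRing D.A s) F b ∈ D.Rw)
    (χ : T → (chartRing D.A s →+* k))
    (hχ : ∀ n a, χ n (@algebraMap D.A (chartRing D.A s) _ _ (algIcRing {s}) a) = D.res a) :
    ∀ a : k, ∃ b : chartRing D.A s, rhoOf D.Rw D.red hBW b = algebraMap k Ft a ∧ ∀ n, χ n b = a :=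
  letI := algIcRing (R := D.A) ({s} : Set F)
  hconst_of_base D.res D.res_surjective _ χ (rhoOf_algebraMap D hBW) hχ

end Const

/-! ### The concrete chart rings over `K₀` -/

section K0

open HahnSeries ModularCurve IsLocalRing IntermediateField
open Fermat.Agent.S24 Fermat.Agent.S24_helper62
open Fermat.Agent.GJ.J1.Val Fermat.Agent.GK.Val Fermat.Agent.GK.Val.GaussBase
open Fermat.Agent.GL.CuspVal Fermat.Agent.GL.Val.CuspCoeff
open Fermat.Agent.GL.Val.GaussK0 Fermat.Agent.GL.Val.SecondK0 Fermat.Agent.GL.Val.SecondK0Hall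
open Fermat.Agent.GL.Val.ThirdK0 Fermat.Agent.GL.Val.CuspK0 Fermat.Agent.GL.Val.DegBase
open Fermat.Agent.GL.W3
open Fermat.Agent.GL.Table.K0 Fermat.Agent.GK.AL Fermat.Agent.GL.AL
open Fermat.Agent.Common_helper32
open Fermat.Agent.GL.Frame.ChartInstK0

attribute [local instance] algIcRing

variable (A : ValuationSubring Qb)

local notation "k₀" => ResidueField (R0 A)

/-- instance shortcut (THE term found by instance search, which takes 1 s and sometimes times
out); activate with `attribute [local instance 2000] instAlgR0FullC instAlgBK0FullC`. -/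
@[reducible] def instAlgR0FullC (N : ℕ) :
    Algebra (R0 A) (modularFunctionFieldFullC (K0 A) N) := Algebra.ofSubsemiring (R0 A)

attribute [local instance 2000] instAlgR0FullC

/-- **the chart ring of `j` at level `N` over `R₀ = A ∩ K₀`**: the integral closure of `R₀[j]` in
`K₀(X₀(N))` (`B := BK0 A (M' * q * q)`, `B' := BK0 A (M' * q)` in `BuildData`). -/
abbrev BK0 (N : ℕ) [NeZero N] : Subring (modularFunctionFieldFullC (K0 A) N) :=
  chartRing (R0 A) (jC N (K0 A))

/-- instance shortcut (THE term found by instance search, which takes 5 s). -/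
@[reducible] def instAlgBK0FullC (N : ℕ) [NeZero N] :
    Algebra (BK0 A N) (modularFunctionFieldFullC (K0 A) N) := Algebra.ofSubsemiring (BK0 A N)

attribute [local instance 2000] instAlgBK0FullC

/-- `BK0 A N` as an `R₀`-algebra (`= algIcRing`); activate with
`attribute [local instance 2000] instAlgR0BK0`. -/
@[reducible] def instAlgR0BK0 (N : ℕ) [NeZero N] : Algebra (R0 A) (BK0 A N) :=
  algIcRing {jC N (K0 A)}

attribute [local instance 2000] instAlgR0BK0

/-- `j` as an element of the chart ring. -/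
abbrev jB (N : ℕ) [NeZero N] : BK0 A N := genB (R := R0 A) (jC N (K0 A))

section Level

variable (N : ℕ) [NeZero N]

local notation "F₀" => modularFunctionFieldFullC (K0 A) N

/-- the chart ring in helper45's notation `jK0 = genC … (one_dvd N)`. -/
theorem BK0_eq_chartRing_jK0 :
    BK0 A N = chartRing (R0 A) (Fermat.Agent.GL.Val.OrthK0.jK0 A N) := by
  rw [Fermat.Agent.GL.Val.OrthK0.jK0_eq_jC]

theorem jC_mem_RwK0 : jC N (K0 A) ∈ RwK0 A N :=
  (Fermat.Agent.GL.Val.GaussAtK0.isGaussAt_Rw1K0 A N).mem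

theorem jC_mem_Rw2QK0 {Q : ℕ} (h : HallDvd Q N) : jC N (K0 A) ∈ (redData2QK0 A N h).Rw :=
  (Fermat.Agent.GL.Val.GaussAtK0.isGaussAt_Rw2QK0 A h).mem

theorem jC_mem_RwCuspK0 (c : I0 N) : jC N (K0 A) ∈ RwCuspK0 A N c :=
  (Fermat.Agent.GL.Val.GaussAtK0.isGaussAt_RwCuspK0 A c).mem

theorem jC_mem_Rw2K0 {q : ℕ} (h : ExactDvd q N) : jC N (K0 A) ∈ (redData2K0 A N h).Rw := by
  have := (Fermat.Agent.GL.Val.OrthK0.isGaussChart_jK0_2 A N h).1
  rwa [Fermat.Agent.GL.Val.OrthK0.jK0_eq_jC] at this

/-- **`hBW1` / `hBA1`**: the chart ring lies in the valuation ring of `w₁`. -/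
theorem algebraMap_BK0_mem_RwK0 (b : BK0 A N) : algebraMap (BK0 A N) F₀ b ∈ RwK0 A N :=
  algebraMap_chartRing_mem_Rw (redDataK0 A N) (jC_mem_RwK0 A N) b

/-- **`hBW2`**: the chart ring lies in the valuation ring of `w₂ = w₁ ∘ W_Q`. -/
theorem algebraMap_BK0_mem_Rw2QK0 {Q : ℕ} (h : HallDvd Q N) (b : BK0 A N) :
    algebraMap (BK0 A N) F₀ b ∈ (redData2QK0 A N h).Rw :=
  algebraMap_chartRing_mem_Rw (redData2QK0 A N h) (jC_mem_Rw2QK0 A N h) b

/-- **`hBA2`**: the chart ring lies in the valuation ring of `w₂ = w₁ ∘ W_q` (`q ∥ N`). -/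
theorem algebraMap_BK0_mem_Rw2K0 {q : ℕ} (h : ExactDvd q N) (b : BK0 A N) :
    algebraMap (BK0 A N) F₀ b ∈ (redData2K0 A N h).Rw :=
  algebraMap_chartRing_mem_Rw (redData2K0 A N h) (jC_mem_Rw2K0 A N h) b

/-- the chart ring lies in every cusp valuation ring. -/
theorem algebraMap_BK0_mem_RwCuspK0 (c : I0 N) (b : BK0 A N) :
    algebraMap (BK0 A N) F₀ b ∈ RwCuspK0 A N c :=
  mem_valuationSubring_of_mem_icRing (R0 A) {jC N (K0 A)} (RwCuspK0 A N c)
    (fun r => (algebraMap_mem_RwCuspK0_iff A N c (r : K0 A)).2 r.2)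
    (fun x hx => by rw [Set.mem_singleton_iff.1 hx]; exact jC_mem_RwCuspK0 A N c) b.2

/-- **`hBW3`**: the chart ring lies in the valuation ring of `w₃`. -/
theorem algebraMap_BK0_mem_Rw3K0 (q : ℕ) (b : BK0 A N) :
    algebraMap (BK0 A N) F₀ b ∈ Rw3K0 A N q :=
  algebraMap_BK0_mem_RwCuspK0 A N (cusp3 N q) b

/-! #### constants -/

/-- constants along `w₁`. -/
theorem rho_const_RwK0 (hBW : ∀ b : BK0 A N, algebraMap (BK0 A N) F₀ b ∈ RwK0 A N) (r : R0 A) :
    rhoOf (RwK0 A N) (redDataK0 A N).red hBW (algebraMap (R0 A) (BK0 A N) r) =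
      algebraMap k₀ (FresK0 A N) (residue (R0 A) r) :=
  rhoOf_algebraMap (redDataK0 A N) hBW r

/-- constants along `w₂ = w₁ ∘ W_Q`. -/
theorem rho_const_Rw2QK0 {Q : ℕ} (h : HallDvd Q N)
    (hBW : ∀ b : BK0 A N, algebraMap (BK0 A N) F₀ b ∈ (redData2QK0 A N h).Rw) (r : R0 A) :
    rhoOf (redData2QK0 A N h).Rw (redData2QK0 A N h).red hBW (algebraMap (R0 A) (BK0 A N) r) =
      algebraMap k₀ (FresK0 A N) (residue (R0 A) r) :=
  rhoOf_algebraMap (redData2QK0 A N h) hBW r

/-- constants along `w₂ = w₁ ∘ W_q`, `q ∥ N`. -/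
theorem rho_const_Rw2K0 {q : ℕ} (h : ExactDvd q N)
    (hBW : ∀ b : BK0 A N, algebraMap (BK0 A N) F₀ b ∈ (redData2K0 A N h).Rw) (r : R0 A) :
    rhoOf (redData2K0 A N h).Rw (redData2K0 A N h).red hBW (algebraMap (R0 A) (BK0 A N) r) =
      algebraMap k₀ (FresK0 A N) (residue (R0 A) r) :=
  rhoOf_algebraMap (redData2K0 A N h) hBW r

/-- constants along a cusp valuation (`w₃` at `c = cusp3 N q`). -/
theorem rho_const_RwCuspK0 (c : I0 N) {q : ℕ} (hq : q.Prime) (hA : (q : Qb) ∈ A.nonunits)
    (hBW : ∀ b : BK0 A N, algebraMap (BK0 A N) F₀ b ∈ RwCuspK0 A N c) (r : R0 A) :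
    rhoOf (RwCuspK0 A N c) (redDataCuspK0 A N c hq hA).red hBW (algebraMap (R0 A) (BK0 A N) r) =
      algebraMap k₀ (FresCuspK0 A N c hq hA) (residue (R0 A) r) :=
  rhoOf_algebraMap (redDataCuspK0 A N c hq hA) hBW r

/-! #### the hypotheses `hc` of `TripleBuild.toSetup_hconst*` -/

/-- `hc` of `toSetup_hconst1` / `toSetup_hconst1'` (`w₁`). -/
theorem hc_RwK0 {T : Type*} (χ : T → (BK0 A N →+* k₀))
    (hχ : ∀ n r, χ n (algebraMap (R0 A) (BK0 A N) r) = residue (R0 A) r)
    (hBW : ∀ b : BK0 A N, algebraMap (BK0 A N) F₀ b ∈ RwK0 A N) :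
    ∀ a : k₀, ∃ b : BK0 A N, rhoOf (RwK0 A N) (redDataK0 A N).red hBW b =
      algebraMap k₀ (FresK0 A N) a ∧ ∀ n, χ n b = a :=
  hconst_of_redData (redDataK0 A N) hBW χ hχ

/-- `hc` of `toSetup_hconst2` (`w₂ = w₁ ∘ W_Q`). -/
theorem hc_Rw2QK0 {T : Type*} (χ : T → (BK0 A N →+* k₀))
    (hχ : ∀ n r, χ n (algebraMap (R0 A) (BK0 A N) r) = residue (R0 A) r)
    {Q : ℕ} (h : HallDvd Q N)
    (hBW : ∀ b : BK0 A N, algebraMap (BK0 A N) F₀ b ∈ (redData2QK0 A N h).Rw) :
    ∀ a : k₀, ∃ b : BK0 A N, rhoOf (redData2QK0 A N h).Rw (redData2QK0 A N h).red hBW b =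
      algebraMap k₀ (FresK0 A N) a ∧ ∀ n, χ n b = a :=
  hconst_of_redData (redData2QK0 A N h) hBW χ hχ

/-- `hc` of `toSetup_hconst2'` (`w₂ = w₁ ∘ W_q`, `q ∥ N`). -/
theorem hc_Rw2K0 {T : Type*} (χ : T → (BK0 A N →+* k₀))
    (hχ : ∀ n r, χ n (algebraMap (R0 A) (BK0 A N) r) = residue (R0 A) r)
    {q : ℕ} (h : ExactDvd q N)
    (hBW : ∀ b : BK0 A N, algebraMap (BK0 A N) F₀ b ∈ (redData2K0 A N h).Rw) :
    ∀ a : k₀, ∃ b : BK0 A N, rhoOf (redData2K0 A N h).Rw (redData2K0 A N h).red hBW b =
      algebraMap k₀ (FresK0 A N) a ∧ ∀ n, χ n b = a :=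
  hconst_of_redData (redData2K0 A N h) hBW χ hχ

/-- `hc` of `toSetup_hconst3` (`w₃`, `c = cusp3 N q`). -/
theorem hc_RwCuspK0 {T : Type*} (χ : T → (BK0 A N →+* k₀))
    (hχ : ∀ n r, χ n (algebraMap (R0 A) (BK0 A N) r) = residue (R0 A) r)
    (c : I0 N) {q : ℕ} (hq : q.Prime) (hA : (q : Qb) ∈ A.nonunits)
    (hBW : ∀ b : BK0 A N, algebraMap (BK0 A N) F₀ b ∈ RwCuspK0 A N c) :
    ∀ a : k₀, ∃ b : BK0 A N, rhoOf (RwCuspK0 A N c) (redDataCuspK0 A N c hq hA).red hBW b =
      algebraMap k₀ (FresCuspK0 A N c hq hA) a ∧ ∀ n, χ n b = a :=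
  hconst_of_redData (redDataCuspK0 A N c hq hA) hBW χ hχ

/-! #### the inputs of helper31 `ResChar` / `ResCharFin` -/

/-- **`hint` of `ResChar.exists_char`** at `B := BK0 A N`, `t := jB A N`. -/
theorem isIntegral_adjoin_jB (b : BK0 A N) :
    IsIntegral (Algebra.adjoin (R0 A) {jB A N}) b :=
  isIntegral_adjoin_genB (R := R0 A) (jC N (K0 A)) b

/-- **`hfin` of `ResCharFin.finite_pointType`** at `B := BK0 A N`, `t := jB A N`. -/
theorem finite_aeval_jB {q : ℕ} (hq : q.Prime) (hA : (q : Qb) ∈ A.nonunits) :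
    (aeval (R := R0 A) (jB A N)).toRingHom.Finite := by
  have h1 := isDiscreteValuationRing_R0 A hq hA
  have h2 := ufm_R0 A hq hA
  have h3 : FiniteDimensional (K0 A)⟮jC N (K0 A)⟯ F₀ := finiteDimensional_fullC N (K0 A)
  exact finite_aeval_genB_of_charZero (K := K0 A) (jC N (K0 A)) (transcendental_jC_R0 A N)

end Level

/-! #### the two pull-backs `φ₁ = π^*`, `φ₂ = π'^*` on the chart rings -/

section Phi

variable (N ℓ : ℕ) [NeZero N] [NeZero ℓ]

theorem alphaK0_algebraMap_R0 (r : R0 A) :
    (alphaK0 A N ℓ).toRingHom (algebraMap (R0 A) (modularFunctionFieldFullC (K0 A) N) r) =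
      algebraMap (R0 A) (modularFunctionFieldFullC (K0 A) (N * ℓ)) r :=
  (alphaK0 A N ℓ).commutes (r : K0 A)

theorem betaK0_algebraMap_R0 (r : R0 A) :
    (betaK0 A N ℓ).toRingHom (algebraMap (R0 A) (modularFunctionFieldFullC (K0 A) N) r) =
      algebraMap (R0 A) (modularFunctionFieldFullC (K0 A) (N * ℓ)) r :=
  (betaK0 A N ℓ).commutes (r : K0 A)

theorem alphaK0_jC : alphaK0 A N ℓ (jC N (K0 A)) = jC (N * ℓ) (K0 A) :=
  Subtype.ext (by rw [coe_alphaC]; rfl)

/-- `π'^* j = j(q^ℓ)` -/
theorem betaK0_jC :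
    betaK0 A N ℓ (jC N (K0 A)) = genC (K0 A) (R0 A) (N * ℓ) (Dvd.intro_left N rfl) :=
  Subtype.ext (by rw [coe_betaC, coe_jC, coe_genC])

theorem isIntegral_alphaK0_jC :
    IsIntegral (Algebra.adjoin (R0 A) {jC (N * ℓ) (K0 A)})
      ((alphaK0 A N ℓ).toRingHom (jC N (K0 A))) := by
  have h : (alphaK0 A N ℓ).toRingHom (jC N (K0 A)) = jC (N * ℓ) (K0 A) := alphaK0_jC A N ℓ
  rw [h]
  exact subset_icRing (R0 A) {jC (N * ℓ) (K0 A)} rfl

/-- **ARITH-INT** (helper87): `j(q^ℓ)` is integral over `R₀[j]`. -/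
theorem isIntegral_betaK0_jC :
    IsIntegral (Algebra.adjoin (R0 A) {jC (N * ℓ) (K0 A)})
      ((betaK0 A N ℓ).toRingHom (jC N (K0 A))) := by
  have h : (betaK0 A N ℓ).toRingHom (jC N (K0 A)) =
      genC (K0 A) (R0 A) (N * ℓ) (Dvd.intro_left N rfl) := betaK0_jC A N ℓ
  rw [h, ← genC_one_eq_jC (N * ℓ) (K0 A) (R0 A)]
  refine (Fermat.Agent.GL.Frame.ArithInt.isIntegral_adjoin_genC_iff (N * ℓ) (R0 A)
    (Dvd.intro_left N rfl) (one_dvd (N * ℓ)) (R0 A) _).1 ?_
  exact subset_icRing (R0 A) {genC (K0 A) (R0 A) (N * ℓ) (Dvd.intro_left N rfl)} rfl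

/-- **`φ₁ = π^*`** on the chart rings. -/
def phiAlpha : BK0 A N →+* BK0 A (N * ℓ) :=
  chartHom (alphaK0 A N ℓ).toRingHom (alphaK0_algebraMap_R0 A N ℓ) (isIntegral_alphaK0_jC A N ℓ)

/-- **`φ₂ = π'^*`** on the chart rings. -/
def phiBeta : BK0 A N →+* BK0 A (N * ℓ) :=
  chartHom (betaK0 A N ℓ).toRingHom (betaK0_algebraMap_R0 A N ℓ) (isIntegral_betaK0_jC A N ℓ)

/-- the defining equation of `φ₁` (helper67 `RowsInst`'s hypothesis on the variable `φ1`). -/
theorem algebraMap_phiAlpha (b : BK0 A N) :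
    algebraMap (BK0 A (N * ℓ)) (modularFunctionFieldFullC (K0 A) (N * ℓ)) (phiAlpha A N ℓ b) =
      alphaK0 A N ℓ (algebraMap (BK0 A N) (modularFunctionFieldFullC (K0 A) N) b) := rfl

/-- the defining equation of `φ₂`. -/
theorem algebraMap_phiBeta (b : BK0 A N) :
    algebraMap (BK0 A (N * ℓ)) (modularFunctionFieldFullC (K0 A) (N * ℓ)) (phiBeta A N ℓ b) =
      betaK0 A N ℓ (algebraMap (BK0 A N) (modularFunctionFieldFullC (K0 A) N) b) := rfl

@[simp] theorem coe_phiAlpha (b : BK0 A N) :
    ((phiAlpha A N ℓ b : BK0 A (N * ℓ)) : modularFunctionFieldFullC (K0 A) (N * ℓ)) =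
      alphaK0 A N ℓ (b : modularFunctionFieldFullC (K0 A) N) := rfl

@[simp] theorem coe_phiBeta (b : BK0 A N) :
    ((phiBeta A N ℓ b : BK0 A (N * ℓ)) : modularFunctionFieldFullC (K0 A) (N * ℓ)) =
      betaK0 A N ℓ (b : modularFunctionFieldFullC (K0 A) N) := rfl

/-- **`hφ` of `ResChar.char_comp` / `comap_isMaximal`** for `φ₁`. -/
theorem phiAlpha_algebraMap (r : R0 A) :
    phiAlpha A N ℓ (algebraMap (R0 A) (BK0 A N) r) = algebraMap (R0 A) (BK0 A (N * ℓ)) r :=
  chartHom_algebraMap _ _ _ r

/-- **`hφ` of `ResChar.char_comp` / `comap_isMaximal`** for `φ₂`. -/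
theorem phiBeta_algebraMap (r : R0 A) :
    phiBeta A N ℓ (algebraMap (R0 A) (BK0 A N) r) = algebraMap (R0 A) (BK0 A (N * ℓ)) r :=
  chartHom_algebraMap _ _ _ r

theorem phiAlpha_injective : Function.Injective (phiAlpha A N ℓ) := chartHom_injective _ _ _

theorem phiBeta_injective : Function.Injective (phiBeta A N ℓ) := chartHom_injective _ _ _

/-- `φ₁ j' = j`. -/
theorem phiAlpha_jB : phiAlpha A N ℓ (jB A N) = jB A (N * ℓ) :=
  Subtype.ext (alphaK0_jC A N ℓ)

end Phi

end K0

end Fermat.Agent.GL.BuildInst
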