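/-
GATE-L / ROWS-INST (helper67): the four reduction rows `hπ13 hπ2 hπ'1 hπ'23` of
`H4OfXi.TripleSetup` (and the vertical rows `hN1 hN2 hN'1 hN'2` of `Chain.exists_normalised`)
CONCRETELY at `K₀(X₀(M' q q)) / K₀(X₀(M' q))`, with EXPLICIT residue models.

Levels `N₀ = M' q`, `N = M' q q`, `q ∤ M'`, `A` a valuation subring of `ℚ̄` over `q`.

* upper valuations  `W₁ = RwK0 A N`, `W₂ = (redData2QK0 A N _).Rw`, `W₃ = Rw3K0 A N q`,
  reductions `(redDataK0 A N).red`, `(redData2QK0 A N _).red`, `(redData3K0 A N q hq hA).red`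
  into `FresK0 A N`, `FresK0 A N`, `Fres3K0 A N q hq hA`  (all inside `k₀((t))`);
* lower valuations  `A₁ = RwK0 A N₀`, `A₂ = (redData2K0 A N₀ _).Rw`, reductions into `FresK0 A N₀`;
* `Nm = normAlphaK0 A M' q`, `Nm' = normBetaK0 A M' q` : `Algebra.norm` along `alphaK0`, `betaK0`
  (definitionally helper82's `TopInst.normK0A / normK0B`);
* the six residue embeddings are THREE explicit series maps:
  `j₁₁ = j₂₂' = fresInclC` (`y ↦ y`), `j₂₂ = j₁₁' = fresBetaC` (`y(t) ↦ y(t^q)`),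
  `j₁₃ = j₂₃' = fres3Old` (`y(t) ↦ y(t^N)`).

Engine: helper66 `GL/Chain/RelRed.lean` (`split_rows_abs`, `insep_rows_abs`); the hypothesis `hpow`
of the inseparable rows is derived from ONE witness (`pow_mem_range_of_finrank_eq`).
-/
import Fermat.Agent.GL.Chain.RelRed
import Fermat.Agent.GL.Table.DegK0
import Fermat.Agent.GL.Val.ThirdK0Red
import Fermat.Agent.GL.Val.ThirdK0Ne
import Fermat.Agent.GL.Val.RamK0
import Fermat.Agent.GL.Val.GaussAtK0
import Fermat.Agent.GL.Val.OrthK0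
import Fermat.Agent.GL.AL.WHallRealize

set_option autoImplicit false

noncomputable section

open Module IsLocalRing ModularCurve AlgebraicCurve HahnSeries

namespace Fermat.Agent.GL.Final.RowsInst

open Fermat.Agent.GJ.J1 Fermat.Agent.GJ.J1.Val Fermat.Agent.GL.Chain Fermat.Agent.GK.MultiVal
open Fermat.Agent.GL.MultiVal Fermat.Agent.GK.Val.GaussBase
open Fermat.Agent.GL.Val.GaussK0 Fermat.Agent.GL.Val.SecondK0 Fermat.Agent.GL.Val.SecondK0Hall
open Fermat.Agent.GL.Val.ThirdK0 Fermat.Agent.GL.Val.CuspK0 Fermat.Agent.GL.Table.K0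
open Fermat.Agent.GL.W3Table Fermat.Agent.GL.W3 Fermat.Agent.GL.Val.RamK0
open Fermat.Agent.GL.Val.GaussAtK0 Fermat.Agent.GK.AL
open Fermat.Agent.Common_helper32

/-! ### Abstract complements to `RelRed` -/

section Abstract

/-- a residue extension of prime degree `p` in characteristic `p` with ONE witness `x₀ ∉ k'`,
`x₀^p ∈ k'` is purely inseparable of exponent one: `x^p ∈ k'` for every `x`. -/
theorem pow_mem_range_of_finrank_eq {k' κ : Type*} [Field k'] [Field κ] [Algebra k' κ] (p : ℕ)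
    [hp : Fact p.Prime] [CharP k' p] (hf : finrank k' κ = p) (x0 : κ)
    (hx0 : x0 ∉ (algebraMap k' κ).range) (hx0p : x0 ^ p ∈ (algebraMap k' κ).range) (x : κ) :
    x ^ p ∈ (algebraMap k' κ).range := by
  have : CharP κ p := charP_of_injective_algebraMap (algebraMap k' κ).injective p
  have : FiniteDimensional k' κ := FiniteDimensional.of_finrank_pos (by rw [hf]; exact hp.out.pos)
  let S0 : Subfield κ := (algebraMap k' κ).fieldRange.comap (frobenius κ p)
  have hS0 : ∀ y : κ, y ∈ S0 ↔ y ^ p ∈ (algebraMap k' κ).range := fun y => by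
    show frobenius κ p y ∈ (algebraMap k' κ).fieldRange ↔ _
    rw [frobenius_def, RingHom.mem_fieldRange, RingHom.mem_range]
  let S : IntermediateField k' κ := S0.toIntermediateField (fun a => by
    rw [hS0]
    exact ⟨a ^ p, by rw [map_pow]⟩)
  have hS : ∀ y : κ, y ∈ S ↔ y ^ p ∈ (algebraMap k' κ).range := hS0
  have hdvd : finrank k' S ∣ p := by
    rw [← hf]
    exact ⟨finrank S κ, (Module.finrank_mul_finrank k' S κ).symm⟩
  have hx0S : x0 ∈ S := (hS x0).2 hx0p
  rcases (Nat.dvd_prime hp.out).1 hdvd with h1 | h1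
  · exfalso
    rw [IntermediateField.finrank_eq_one_iff] at h1
    rw [h1, IntermediateField.mem_bot] at hx0S
    exact hx0 hx0S
  · have htop : S = ⊤ := by
      apply IntermediateField.eq_of_le_of_finrank_eq le_top
      rw [h1, IntermediateField.finrank_top', hf]
    rw [← hS, htop]
    exact IntermediateField.mem_top

variable {L E F k : Type*} [Field L] [Field E] [Field F] [Algebra L E] [Algebra L F]
  [Algebra E F] [IsScalarTower L E F] [FiniteDimensional E F] [Field k]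
  {k' κy : Type*} [Field k'] [Field κy] [Algebra k k'] [Algebra k κy]
  (R' : RedData L E k k') (Ry : RedData L F k κy)
  (hmy : ∀ a : E, a ∈ R'.Rw ↔ algebraMap E F a ∈ Ry.Rw) {q0 : L} {ϖy : F}

/-- **`insep_rows_abs` from ONE witness**: `hpow` is replaced by `x₀^p ∈ k'`. -/
theorem insep_rows_of_witness (p : ℕ) [hp : Fact p.Prime] [CharP k' p] (hby : SameBase R' Ry)
    (hq : IsUnif R'.A q0) (hR' : IsRamified R'.A q0 R'.Rw (algebraMap L E q0) 1)
    (hRy : IsRamified Ry.A q0 Ry.Rw ϖy 1) (hdeg : finrank E F ≤ p)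
    (x0 : κy) (hx0 : ∀ y : k', relResHom R' Ry hmy hby y ≠ x0)
    (hx0p : ∃ y : k', relResHom R' Ry hmy hby y = x0 ^ p) :
    (∀ x : κy, ∃ y : k', relResHom R' Ry hmy hby y = x ^ p) ∧
    (∀ (u : F) (a : ℤ), Ry.Rw.valuation u = Ry.Rw.valuation ϖy ^ a →
      R'.Rw.valuation (Algebra.norm E u)
        = R'.Rw.valuation (algebraMap L E q0) ^ ((p : ℤ) * a)) ∧
    (∀ (u : F) (h2 : u ∈ Ry.Rw), ∃ hN : Algebra.norm E u ∈ R'.Rw,
      relResHom R' Ry hmy hby (R'.red ⟨Algebra.norm E u, hN⟩) = Ry.red ⟨u, h2⟩ ^ p) := by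
  have hpow : ∀ x : κy, ∃ y : k', relResHom R' Ry hmy hby y = x ^ p := by
    let algy : Algebra k' κy := (relResMap R' Ry hmy).toAlgebra
    set Rely : RedData E F k' κy := relRedData R' Ry hmy (fun _ => rfl) with hRely
    have hqE : IsUnif Rely.A (algebraMap L E q0) := isUnif_of_isRamified_one R' hq hR'
    have hy : IsRamified Rely.A (algebraMap L E q0) Rely.Rw ϖy 1 := isRamified_rel hRy hmy
    have hx0p' : x0 ^ p ∈ (algebraMap k' κy).range := hx0p
    have hx0' : x0 ∉ (algebraMap k' κy).range := fun ⟨y, hy⟩ => hx0 y hy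
    have hf : finrank k' κy = p := finrank_eq_of_insep p hqE hy hdeg x0 hx0' hx0p'
    intro x
    exact pow_mem_range_of_finrank_eq p hf x0 hx0' hx0p' x
  exact ⟨hpow, insep_rows_abs R' Ry hmy p hby hq hR' hRy hdeg x0 hx0 hpow⟩

omit [Algebra E F] [IsScalarTower L E F] [FiniteDimensional E F] in
/-- two Gauss reduction data over the same base valuation ring have the same base -/
theorem sameBase_gauss {L : Type*} [Field L] (A : ValuationSubring L)
    (F F' : IntermediateField L (LaurentSeries L)) (hGF : HasGaussFrac A F)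
    (hGF' : HasGaussFrac A F') :
    SameBase (redData A F hGF) (redData A F' hGF') := ⟨rfl, fun _ _ _ => rfl⟩

omit [Algebra E F] [IsScalarTower L E F] [FiniteDimensional E F] in
theorem sameBase_comap {κ : Type*} [Field κ] [Algebra k κ]
    {R' : RedData L E k k'} {R : RedData L F k κ} (hb : SameBase R' R) (e' : E ≃ₐ[L] E)
    (e : F ≃ₐ[L] F) : SameBase (R'.comapAlgEquiv e') (R.comapAlgEquiv e) :=
  ⟨hb.A_eq, hb.res_eq⟩

omit [Algebra E F] [IsScalarTower L E F] [FiniteDimensional E F] in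
theorem sameBase_comap_left {κ : Type*} [Field κ] [Algebra k κ]
    {R' : RedData L E k k'} {R : RedData L F k κ} (hb : SameBase R' R) (e' : E ≃ₐ[L] E) :
    SameBase (R'.comapAlgEquiv e') R :=
  ⟨hb.A_eq, hb.res_eq⟩

/-- the reduction kills non-units (the `hr` fields of `TripleSetup`) -/
theorem red_eq_zero_of_not_isUnit {K F k Ft : Type*} [Field K] [Field F] [Algebra K F] [Field k]
    [Field Ft] [Algebra k Ft] (R : RedData K F k Ft) (z : R.Rw) (hz : ¬ IsUnit z) :
    R.red z = 0 :=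
  (R.red_eq_zero_iff z).2 ((IsLocalRing.mem_maximalIdeal z).2 hz)

end Abstract

/-! ### The concrete data -/

section Data

variable (A : ValuationSubring Qb) (M' q : ℕ) [NeZero q] [NeZero M']

/-- the norm along `π = alphaK0` (`= TopInst.normK0A A (M' * q) q`, definitionally) -/
def normAlphaK0 : modularFunctionFieldFullC (K0 A) (M' * q * q) →*
    modularFunctionFieldFullC (K0 A) (M' * q) :=
  @Algebra.norm (modularFunctionFieldFullC (K0 A) (M' * q))
    (modularFunctionFieldFullC (K0 A) (M' * q * q)) _ _ (algebraAlong (alphaK0 A (M' * q) q))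

/-- the norm along `π' = betaK0` (`= TopInst.normK0B A (M' * q) q`, definitionally) -/
def normBetaK0 : modularFunctionFieldFullC (K0 A) (M' * q * q) →*
    modularFunctionFieldFullC (K0 A) (M' * q) :=
  @Algebra.norm (modularFunctionFieldFullC (K0 A) (M' * q))
    (modularFunctionFieldFullC (K0 A) (M' * q * q)) _ _ (algebraAlong (betaK0 A (M' * q) q))

/-- the reduction of `j` at `w₁`: the witness of the inseparable rows -/
def jRes (N : ℕ) [NeZero N] : FresK0 A N :=
  (redDataK0 A N).red ⟨genC (K0 A) (R0 A) N (one_dvd N), genC_mem_RwC (K0 A) (R0 A) N (one_dvd N)⟩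

theorem coe_jRes (N : ℕ) [NeZero N] :
    ((jRes A N : FresK0 A N) : LaurentSeries (ResidueField (R0 A))) =
      jqModC (ResidueField (R0 A)) := by
  rw [jRes, coe_red_genC, qExpand_one_apply]

omit [NeZero q] [NeZero M'] in
theorem sameBase_11 : SameBase (redDataK0 A (M' * q)) (redDataK0 A (M' * q * q)) :=
  sameBase_gauss (R0 A) _ _ _ _

variable {M' q} (hq : q.Prime) (hqM : ¬ q ∣ M') (hA : (q : Qb) ∈ A.nonunits)

theorem sameBase_22 : SameBase (redData2K0 A (M' * q) (exactDvd_level hq hqM))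
    (redData2QK0 A (M' * q * q) (Fermat.Agent.GL.AL.hallDvd_sq M' hq hqM)) :=
  sameBase_comap (sameBase_11 A M' q) _ _

variable (M') in
theorem sameBase_13 :
    SameBase (redDataK0 A (M' * q)) (redData3K0 A (M' * q * q) q hq hA) :=
  ⟨rfl, fun _ _ _ => rfl⟩

theorem sameBase_23 : SameBase (redData2K0 A (M' * q) (exactDvd_level hq hqM))
    (redData3K0 A (M' * q * q) q hq hA) :=
  sameBase_comap_left (sameBase_13 A M' hq hA) _

omit [NeZero q] in
include hq hA in
/-- the residue fields `FresK0 A N` have characteristic `q` -/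
theorem charP_FresK0 (N : ℕ) [NeZero N] : CharP (FresK0 A N) q :=
  haveI := Fermat.Agent.GL.Val.OrthK0.charP_k0 A hq hA
  charP_of_injective_algebraMap (algebraMap (ResidueField (R0 A)) (FresK0 A N)).injective q

include hq in
/-- the witness: `j~` is not of the form `y(t^q)` -/
theorem fresBetaC_ne_jRes (y : FresK0 A (M' * q)) :
    fresBetaC (R0 A) (M' * q) q y ≠ jRes A (M' * q * q) := by
  intro h
  have h1 := congrArg (fun z : FresK0 A (M' * q * q) =>
    (z : LaurentSeries (ResidueField (R0 A))).coeff (-1)) h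
  simp only [coe_fresBetaC, coe_jRes] at h1
  rw [ModularCurve.coeff_jqModC_neg_one, qExpand_coeff_of_not_dvd] at h1
  · exact zero_ne_one h1
  · intro hdvd
    have h2 : (q : ℤ) ∣ 1 := dvd_neg.mp hdvd
    have h3 : q ∣ 1 := by exact_mod_cast h2
    exact hq.one_lt.ne' (Nat.dvd_one.mp h3)

include hq hA in
/-- the witness: `j~^q = j~(t^q)` -/
theorem fresBetaC_jRes :
    fresBetaC (R0 A) (M' * q) q (jRes A (M' * q)) = jRes A (M' * q * q) ^ q := by
  have : Fact q.Prime := ⟨hq⟩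
  have := Fermat.Agent.GL.Val.OrthK0.charP_k0 A hq hA
  apply Subtype.ext
  rw [coe_fresBetaC, coe_jRes]
  push_cast
  rw [coe_jRes]
  exact Fermat.Agent.GJ.J3.QS.qExpand_jqModC_char q

end Data

/-! ### The rows along `π = alphaK0` -/

section Alpha

variable (A : ValuationSubring Qb) {M' q : ℕ} [NeZero q] [NeZero M']

/-- `K₀(X₀(M' q q))` as an algebra over `K₀(X₀(M' q))` along `π` (local to this section) -/
local instance algAlpha : Algebra (modularFunctionFieldFullC (K0 A) (M' * q))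
    (modularFunctionFieldFullC (K0 A) (M' * q * q)) := algebraAlong (alphaK0 A (M' * q) q)

local instance towerAlpha : IsScalarTower (K0 A) (modularFunctionFieldFullC (K0 A) (M' * q))
    (modularFunctionFieldFullC (K0 A) (M' * q * q)) := isScalarTower_along (alphaK0 A (M' * q) q)

theorem algebraMap_alpha (a : modularFunctionFieldFullC (K0 A) (M' * q)) :
    algebraMap (modularFunctionFieldFullC (K0 A) (M' * q))
      (modularFunctionFieldFullC (K0 A) (M' * q * q)) a = alphaK0 A (M' * q) q a := rfl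

theorem hmem_a11 (a : modularFunctionFieldFullC (K0 A) (M' * q)) :
    a ∈ (redDataK0 A (M' * q)).Rw ↔
      algebraMap (modularFunctionFieldFullC (K0 A) (M' * q))
        (modularFunctionFieldFullC (K0 A) (M' * q * q)) a ∈ (redDataK0 A (M' * q * q)).Rw :=
  (alphaK0_mem_RwK0_iff A (M' * q) q a).symm

variable (hq : q.Prime) (hqM : ¬ q ∣ M') (hA : (q : Qb) ∈ A.nonunits)

theorem hmem_a13 (a : modularFunctionFieldFullC (K0 A) (M' * q)) :
    a ∈ (redDataK0 A (M' * q)).Rw ↔
      algebraMap (modularFunctionFieldFullC (K0 A) (M' * q))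
        (modularFunctionFieldFullC (K0 A) (M' * q * q)) a ∈
          (redData3K0 A (M' * q * q) q hq hA).Rw :=
  (alphaK0_mem_Rw3K0_iff A hq a).symm

theorem hmem_a22 (a : modularFunctionFieldFullC (K0 A) (M' * q)) :
    a ∈ (redData2K0 A (M' * q) (exactDvd_level hq hqM)).Rw ↔
      algebraMap (modularFunctionFieldFullC (K0 A) (M' * q))
        (modularFunctionFieldFullC (K0 A) (M' * q * q)) a ∈
          (redData2QK0 A (M' * q * q) (Fermat.Agent.GL.AL.hallDvd_sq M' hq hqM)).Rw :=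
  (alphaK0_mem_Rw2QK0_iff A M' _ _ a).symm

/-- `j₁₁ = fresInclC` : `y ↦ y` -/
theorem relResHom_a11 :
    relResHom (redDataK0 A (M' * q)) (redDataK0 A (M' * q * q)) (hmem_a11 A)
      (sameBase_11 A M' q) = fresInclC (R0 A) (dvd_mul_right (M' * q) q) := by
  apply AlgHom.ext
  intro y
  obtain ⟨⟨a, ha⟩, rfl⟩ := (redDataK0 A (M' * q)).red_surjective y
  rw [relResHom_red]
  exact red_inclC (R0 A) (dvd_mul_right (M' * q) q) ⟨a, ha⟩

/-- `j₁₃ = fres3Old` : `y(t) ↦ y(t^N)` -/
theorem relResHom_a13 :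
    relResHom (redDataK0 A (M' * q)) (redData3K0 A (M' * q * q) q hq hA) (hmem_a13 A hq hA)
      (sameBase_13 A M' hq hA) = fres3Old A hq hA := by
  apply AlgHom.ext
  intro y
  obtain ⟨⟨a, ha⟩, rfl⟩ := (redDataK0 A (M' * q)).red_surjective y
  rw [relResHom_red]
  exact red3K0_alphaK0 A hq hA ⟨a, ha⟩

/-- `j₂₂ = fresBetaC` : `y(t) ↦ y(t^q)` -/
theorem relResHom_a22 :
    relResHom (redData2K0 A (M' * q) (exactDvd_level hq hqM))
      (redData2QK0 A (M' * q * q) (Fermat.Agent.GL.AL.hallDvd_sq M' hq hqM))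
      (hmem_a22 A hq hqM) (sameBase_22 A hq hqM) = fresBetaC (R0 A) (M' * q) q := by
  apply AlgHom.ext
  intro y
  obtain ⟨⟨a, ha⟩, rfl⟩ := (redData2K0 A (M' * q) (exactDvd_level hq hqM)).red_surjective y
  rw [relResHom_red]
  apply Subtype.ext
  rw [coe_fresBetaC]
  exact coe_red2QK0_alphaK0 A M' _ _ a ha _

include hq hqM hA in
/-- `w₃` is ramified of index `q - 1` over `R₀`, with the uniformiser `q0 A q` of `R₀` -/
theorem isRamified_R3 :
    IsRamified (R0 A) ((q0 A q : R0 A) : K0 A) (Rw3K0 A (M' * q * q) q)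
      (y3K0 A (M' * q * q) q (d' := 1) (by rw [mul_one]; exact ⟨M', by ring⟩) (one_dvd _))
      (q - 1) := by
  rw [coe_q0_eq_natCast]
  exact isRamified_Rw3K0 A hq level_eq hqM hA (one_dvd M') _ _

include hq in
theorem finrank_alpha_le :
    finrank (modularFunctionFieldFullC (K0 A) (M' * q))
      (modularFunctionFieldFullC (K0 A) (M' * q * q)) ≤ q :=
  (finrank_alphaK0 A hq (dvd_mul_left q M')).le

include hqM in
/-- **the split row of `π`** (`w₁' ← {w₁ (e = 1), w₃ (e = q - 1)}`), all four outputs of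
`split_rows_abs` with the explicit residue maps -/
theorem pi_split :
    Function.Bijective (fresInclC (R0 A) (dvd_mul_right (M' * q) q)) ∧
    Function.Bijective (fres3Old (M' := M') A hq hA) ∧
    (∀ (u : modularFunctionFieldFullC (K0 A) (M' * q * q)) (a b : ℤ),
      (RwK0 A (M' * q * q)).valuation u =
        (RwK0 A (M' * q * q)).valuation (algebraMap (K0 A) _ ((q0 A q : R0 A) : K0 A)) ^ a →
      (Rw3K0 A (M' * q * q) q).valuation u =
        (Rw3K0 A (M' * q * q) q).valuation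
          (y3K0 A (M' * q * q) q (d' := 1) (by rw [mul_one]; exact ⟨M', by ring⟩) (one_dvd _)) ^ b →
      (RwK0 A (M' * q)).valuation (normAlphaK0 A M' q u) =
        (RwK0 A (M' * q)).valuation (algebraMap (K0 A) _ ((q0 A q : R0 A) : K0 A)) ^ (a + b)) ∧
    (∀ (u : modularFunctionFieldFullC (K0 A) (M' * q * q)) (h1 : u ∈ RwK0 A (M' * q * q))
      (h3 : u ∈ Rw3K0 A (M' * q * q) q), ∃ hN : normAlphaK0 A M' q u ∈ RwK0 A (M' * q),
      ∃ y1 y3 : FresK0 A (M' * q),
        fresInclC (R0 A) (dvd_mul_right (M' * q) q) y1 = (redDataK0 A (M' * q * q)).red ⟨u, h1⟩ ∧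
        fres3Old A hq hA y3 = (redData3K0 A (M' * q * q) q hq hA).red ⟨u, h3⟩ ∧
        (redDataK0 A (M' * q)).red ⟨normAlphaK0 A M' q u, hN⟩ = y1 * y3 ^ (q - 1)) := by
  have : FiniteDimensional (modularFunctionFieldFullC (K0 A) (M' * q))
      (modularFunctionFieldFullC (K0 A) (M' * q * q)) :=
    finiteDimensional_alphaK0 A hq (dvd_mul_left q M')
  have hne : (redDataK0 A (M' * q * q)).Rw ≠ (redData3K0 A (M' * q * q) q hq hA).Rw := fun h =>
    not_Rw1K0_le_Rw3K0 A hq level_eq hqM hA (le_of_eq h)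
  have hdeg : finrank (modularFunctionFieldFullC (K0 A) (M' * q))
      (modularFunctionFieldFullC (K0 A) (M' * q * q)) ≤ 1 + (q - 1) := by
    have := finrank_alpha_le A (M' := M') hq
    have := hq.pos
    omega
  have key := split_rows_abs (redDataK0 A (M' * q)) (redDataK0 A (M' * q * q))
    (redData3K0 A (M' * q * q) q hq hA) (hmem_a11 A) (hmem_a13 A hq hA) (sameBase_11 A M' q)
    (sameBase_13 A M' hq hA) hne (isUnif_R0 A hq hA) (isRamified_Rw1K0 A (M' * q) hq hA)
    (isRamified_Rw1K0 A (M' * q * q) hq hA) (isRamified_R3 A hq hqM hA) hdeg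
  rw [relResHom_a11 A, relResHom_a13 A hq hA] at key
  exact key

include hqM hA in
/-- **the inseparable row of `π`** (`w₂' ← w₂`, `e = 1`, `f = q`) -/
theorem pi_insep :
    (∀ x : FresK0 A (M' * q * q), ∃ y : FresK0 A (M' * q),
      fresBetaC (R0 A) (M' * q) q y = x ^ q) ∧
    (∀ (u : modularFunctionFieldFullC (K0 A) (M' * q * q)) (a : ℤ),
      (redData2QK0 A (M' * q * q) (Fermat.Agent.GL.AL.hallDvd_sq M' hq hqM)).Rw.valuation u =
        (redData2QK0 A (M' * q * q) (Fermat.Agent.GL.AL.hallDvd_sq M' hq hqM)).Rw.valuation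
          (algebraMap (K0 A) _ ((q0 A q : R0 A) : K0 A)) ^ a →
      (redData2K0 A (M' * q) (exactDvd_level hq hqM)).Rw.valuation (normAlphaK0 A M' q u) =
        (redData2K0 A (M' * q) (exactDvd_level hq hqM)).Rw.valuation
          (algebraMap (K0 A) _ ((q0 A q : R0 A) : K0 A)) ^ ((q : ℤ) * a)) ∧
    (∀ (u : modularFunctionFieldFullC (K0 A) (M' * q * q))
      (h2 : u ∈ (redData2QK0 A (M' * q * q) (Fermat.Agent.GL.AL.hallDvd_sq M' hq hqM)).Rw),
      ∃ hN : normAlphaK0 A M' q u ∈ (redData2K0 A (M' * q) (exactDvd_level hq hqM)).Rw,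
        fresBetaC (R0 A) (M' * q) q
          ((redData2K0 A (M' * q) (exactDvd_level hq hqM)).red ⟨normAlphaK0 A M' q u, hN⟩) =
        (redData2QK0 A (M' * q * q) (Fermat.Agent.GL.AL.hallDvd_sq M' hq hqM)).red ⟨u, h2⟩ ^ q) := by
  have : FiniteDimensional (modularFunctionFieldFullC (K0 A) (M' * q))
      (modularFunctionFieldFullC (K0 A) (M' * q * q)) :=
    finiteDimensional_alphaK0 A hq (dvd_mul_left q M')
  have : Fact q.Prime := ⟨hq⟩
  have : CharP (FresK0 A (M' * q)) q := charP_FresK0 A hq hA (M' * q)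
  have key := insep_rows_of_witness (redData2K0 A (M' * q) (exactDvd_level hq hqM))
    (redData2QK0 A (M' * q * q) (Fermat.Agent.GL.AL.hallDvd_sq M' hq hqM)) (hmem_a22 A hq hqM) q
    (sameBase_22 A hq hqM) (isUnif_R0 A hq hA) (isRamified_Rw2K0 A (M' * q) hq hA _)
    (isRamified_Rw2QK0 A (M' * q * q) _ hq hA) (finrank_alpha_le A hq) (jRes A (M' * q * q))
    (by rw [relResHom_a22 A hq hqM]; exact fresBetaC_ne_jRes A hq)
    (by rw [relResHom_a22 A hq hqM]; exact ⟨jRes A (M' * q), fresBetaC_jRes A hq hA⟩)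
  rw [relResHom_a22 A hq hqM] at key
  exact key

end Alpha

/-! ### The rows along `π' = betaK0` -/

section Beta

variable (A : ValuationSubring Qb) {M' q : ℕ} [NeZero q] [NeZero M']

/-- `K₀(X₀(M' q q))` as an algebra over `K₀(X₀(M' q))` along `π'` (local to this section) -/
local instance algBeta : Algebra (modularFunctionFieldFullC (K0 A) (M' * q))
    (modularFunctionFieldFullC (K0 A) (M' * q * q)) := algebraAlong (betaK0 A (M' * q) q)

local instance towerBeta : IsScalarTower (K0 A) (modularFunctionFieldFullC (K0 A) (M' * q))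
    (modularFunctionFieldFullC (K0 A) (M' * q * q)) := isScalarTower_along (betaK0 A (M' * q) q)

theorem algebraMap_beta (a : modularFunctionFieldFullC (K0 A) (M' * q)) :
    algebraMap (modularFunctionFieldFullC (K0 A) (M' * q))
      (modularFunctionFieldFullC (K0 A) (M' * q * q)) a = betaK0 A (M' * q) q a := rfl

theorem hmem_b11 (a : modularFunctionFieldFullC (K0 A) (M' * q)) :
    a ∈ (redDataK0 A (M' * q)).Rw ↔
      algebraMap (modularFunctionFieldFullC (K0 A) (M' * q))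
        (modularFunctionFieldFullC (K0 A) (M' * q * q)) a ∈ (redDataK0 A (M' * q * q)).Rw :=
  (betaK0_mem_RwK0_iff A (M' * q) q a).symm

variable (hq : q.Prime) (hqM : ¬ q ∣ M') (hA : (q : Qb) ∈ A.nonunits)

theorem hmem_b23 (a : modularFunctionFieldFullC (K0 A) (M' * q)) :
    a ∈ (redData2K0 A (M' * q) (exactDvd_level hq hqM)).Rw ↔
      algebraMap (modularFunctionFieldFullC (K0 A) (M' * q))
        (modularFunctionFieldFullC (K0 A) (M' * q * q)) a ∈
          (redData3K0 A (M' * q * q) q hq hA).Rw :=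
  (betaK0_mem_Rw3K0_iff A hq hqM a).symm

theorem hmem_b22 (a : modularFunctionFieldFullC (K0 A) (M' * q)) :
    a ∈ (redData2K0 A (M' * q) (exactDvd_level hq hqM)).Rw ↔
      algebraMap (modularFunctionFieldFullC (K0 A) (M' * q))
        (modularFunctionFieldFullC (K0 A) (M' * q * q)) a ∈
          (redData2QK0 A (M' * q * q) (Fermat.Agent.GL.AL.hallDvd_sq M' hq hqM)).Rw :=
  (betaK0_mem_Rw2QK0_iff A M' _ _ a).symm

/-- `j₁₁' = fresBetaC` : `y(t) ↦ y(t^q)` -/
theorem relResHom_b11 :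
    relResHom (redDataK0 A (M' * q)) (redDataK0 A (M' * q * q)) (hmem_b11 A)
      (sameBase_11 A M' q) = fresBetaC (R0 A) (M' * q) q := by
  apply AlgHom.ext
  intro y
  obtain ⟨⟨a, ha⟩, rfl⟩ := (redDataK0 A (M' * q)).red_surjective y
  rw [relResHom_red]
  exact red_betaC (R0 A) (M' * q) q ⟨a, ha⟩

/-- `j₂₃' = fres3Old` : `y(t) ↦ y(t^N)` -/
theorem relResHom_b23 :
    relResHom (redData2K0 A (M' * q) (exactDvd_level hq hqM))
      (redData3K0 A (M' * q * q) q hq hA) (hmem_b23 A hq hqM hA)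
      (sameBase_23 A hq hqM hA) = fres3Old A hq hA := by
  apply AlgHom.ext
  intro y
  obtain ⟨⟨a, ha⟩, rfl⟩ := (redData2K0 A (M' * q) (exactDvd_level hq hqM)).red_surjective y
  rw [relResHom_red]
  exact red3K0_betaK0 A hq hqM hA ⟨a, ha⟩

/-- `j₂₂' = fresInclC` : `y ↦ y` -/
theorem relResHom_b22 :
    relResHom (redData2K0 A (M' * q) (exactDvd_level hq hqM))
      (redData2QK0 A (M' * q * q) (Fermat.Agent.GL.AL.hallDvd_sq M' hq hqM))
      (hmem_b22 A hq hqM) (sameBase_22 A hq hqM) =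
        fresInclC (R0 A) (dvd_mul_right (M' * q) q) := by
  apply AlgHom.ext
  intro y
  obtain ⟨⟨a, ha⟩, rfl⟩ := (redData2K0 A (M' * q) (exactDvd_level hq hqM)).red_surjective y
  rw [relResHom_red]
  apply Subtype.ext
  rw [coe_fresInclC]
  exact coe_red2QK0_betaK0 A M' _ _ a ha _

include hq in
theorem finrank_beta_le :
    finrank (modularFunctionFieldFullC (K0 A) (M' * q))
      (modularFunctionFieldFullC (K0 A) (M' * q * q)) ≤ q :=
  (finrank_betaK0 A hq (dvd_mul_left q M')).le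

include hqM in
/-- **the split row of `π'`** (`w₂' ← {w₂ (e = 1), w₃ (e = q - 1)}`) -/
theorem pi'_split :
    Function.Bijective (fresInclC (R0 A) (dvd_mul_right (M' * q) q)) ∧
    Function.Bijective (fres3Old (M' := M') A hq hA) ∧
    (∀ (u : modularFunctionFieldFullC (K0 A) (M' * q * q)) (a b : ℤ),
      (redData2QK0 A (M' * q * q) (Fermat.Agent.GL.AL.hallDvd_sq M' hq hqM)).Rw.valuation u =
        (redData2QK0 A (M' * q * q) (Fermat.Agent.GL.AL.hallDvd_sq M' hq hqM)).Rw.valuation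
          (algebraMap (K0 A) _ ((q0 A q : R0 A) : K0 A)) ^ a →
      (Rw3K0 A (M' * q * q) q).valuation u =
        (Rw3K0 A (M' * q * q) q).valuation
          (y3K0 A (M' * q * q) q (d' := 1) (by rw [mul_one]; exact ⟨M', by ring⟩) (one_dvd _)) ^ b →
      (redData2K0 A (M' * q) (exactDvd_level hq hqM)).Rw.valuation (normBetaK0 A M' q u) =
        (redData2K0 A (M' * q) (exactDvd_level hq hqM)).Rw.valuation
          (algebraMap (K0 A) _ ((q0 A q : R0 A) : K0 A)) ^ (a + b)) ∧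
    (∀ (u : modularFunctionFieldFullC (K0 A) (M' * q * q))
      (h2 : u ∈ (redData2QK0 A (M' * q * q) (Fermat.Agent.GL.AL.hallDvd_sq M' hq hqM)).Rw)
      (h3 : u ∈ Rw3K0 A (M' * q * q) q),
      ∃ hN : normBetaK0 A M' q u ∈ (redData2K0 A (M' * q) (exactDvd_level hq hqM)).Rw,
      ∃ y2 y3 : FresK0 A (M' * q),
        fresInclC (R0 A) (dvd_mul_right (M' * q) q) y2 =
          (redData2QK0 A (M' * q * q) (Fermat.Agent.GL.AL.hallDvd_sq M' hq hqM)).red ⟨u, h2⟩ ∧
        fres3Old A hq hA y3 = (redData3K0 A (M' * q * q) q hq hA).red ⟨u, h3⟩ ∧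
        (redData2K0 A (M' * q) (exactDvd_level hq hqM)).red ⟨normBetaK0 A M' q u, hN⟩ =
          y2 * y3 ^ (q - 1)) := by
  have : FiniteDimensional (modularFunctionFieldFullC (K0 A) (M' * q))
      (modularFunctionFieldFullC (K0 A) (M' * q * q)) :=
    finiteDimensional_betaK0 A hq (dvd_mul_left q M')
  have hne : (redData2QK0 A (M' * q * q) (Fermat.Agent.GL.AL.hallDvd_sq M' hq hqM)).Rw ≠
      (redData3K0 A (M' * q * q) q hq hA).Rw := fun h =>
    not_Rw2K0_le_Rw3K0 A hq level_eq hqM hA _ (le_of_eq h)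
  have hdeg : finrank (modularFunctionFieldFullC (K0 A) (M' * q))
      (modularFunctionFieldFullC (K0 A) (M' * q * q)) ≤ 1 + (q - 1) := by
    have := finrank_beta_le A (M' := M') hq
    have := hq.pos
    omega
  have key := split_rows_abs (redData2K0 A (M' * q) (exactDvd_level hq hqM))
    (redData2QK0 A (M' * q * q) (Fermat.Agent.GL.AL.hallDvd_sq M' hq hqM))
    (redData3K0 A (M' * q * q) q hq hA) (hmem_b22 A hq hqM) (hmem_b23 A hq hqM hA)
    (sameBase_22 A hq hqM) (sameBase_23 A hq hqM hA) hne (isUnif_R0 A hq hA)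
    (isRamified_Rw2K0 A (M' * q) hq hA _) (isRamified_Rw2QK0 A (M' * q * q) _ hq hA)
    (isRamified_R3 A hq hqM hA) hdeg
  rw [relResHom_b22 A hq hqM, relResHom_b23 A hq hqM hA] at key
  exact key

include hq hA in
/-- **the inseparable row of `π'`** (`w₁' ← w₁`, `e = 1`, `f = q`) -/
theorem pi'_insep :
    (∀ x : FresK0 A (M' * q * q), ∃ y : FresK0 A (M' * q),
      fresBetaC (R0 A) (M' * q) q y = x ^ q) ∧
    (∀ (u : modularFunctionFieldFullC (K0 A) (M' * q * q)) (a : ℤ),
      (RwK0 A (M' * q * q)).valuation u =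
        (RwK0 A (M' * q * q)).valuation (algebraMap (K0 A) _ ((q0 A q : R0 A) : K0 A)) ^ a →
      (RwK0 A (M' * q)).valuation (normBetaK0 A M' q u) =
        (RwK0 A (M' * q)).valuation
          (algebraMap (K0 A) _ ((q0 A q : R0 A) : K0 A)) ^ ((q : ℤ) * a)) ∧
    (∀ (u : modularFunctionFieldFullC (K0 A) (M' * q * q)) (h1 : u ∈ RwK0 A (M' * q * q)),
      ∃ hN : normBetaK0 A M' q u ∈ RwK0 A (M' * q),
        fresBetaC (R0 A) (M' * q) q ((redDataK0 A (M' * q)).red ⟨normBetaK0 A M' q u, hN⟩) =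
        (redDataK0 A (M' * q * q)).red ⟨u, h1⟩ ^ q) := by
  have : FiniteDimensional (modularFunctionFieldFullC (K0 A) (M' * q))
      (modularFunctionFieldFullC (K0 A) (M' * q * q)) :=
    finiteDimensional_betaK0 A hq (dvd_mul_left q M')
  have : Fact q.Prime := ⟨hq⟩
  have : CharP (FresK0 A (M' * q)) q := charP_FresK0 A hq hA (M' * q)
  have key := insep_rows_of_witness (redDataK0 A (M' * q)) (redDataK0 A (M' * q * q))
    (hmem_b11 A) q (sameBase_11 A M' q) (isUnif_R0 A hq hA) (isRamified_Rw1K0 A (M' * q) hq hA)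
    (isRamified_Rw1K0 A (M' * q * q) hq hA) (finrank_beta_le A hq) (jRes A (M' * q * q))
    (by rw [relResHom_b11 A]; exact fresBetaC_ne_jRes A hq)
    (by rw [relResHom_b11 A]; exact ⟨jRes A (M' * q), fresBetaC_jRes A hq hA⟩)
  rw [relResHom_b11 A] at key
  exact key

end Beta

/-! ### Export in the field shapes of `H4OfXi.TripleSetup`

`F := K₀(X₀(M' q q))`, `E := K₀(X₀(M' q))`, `k1 = k2 := FresK0 A (M' q q)`,
`k3 := Fres3K0 A (M' q q) q hq hA`, `k1' = k2' := FresK0 A (M' q)`;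
`W_i := (R_i).Rw`, `rd_i := (R_i).red`, `A_j := (R_j').Rw`, `rd_j' := (R_j').red`,
`Nm := normAlphaK0 A M' q`, `Nm' := normBetaK0 A M' q`, `q := q`. -/

section Export

variable (A : ValuationSubring Qb) (M' q : ℕ) [NeZero q] [NeZero M']

/-- the lower datum `w₁'` -/
abbrev R1' : RedData (K0 A) (modularFunctionFieldFullC (K0 A) (M' * q)) (ResidueField (R0 A))
    (FresK0 A (M' * q)) := redDataK0 A (M' * q)

/-- the upper datum `w₁` -/
abbrev R1 : RedData (K0 A) (modularFunctionFieldFullC (K0 A) (M' * q * q)) (ResidueField (R0 A))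
    (FresK0 A (M' * q * q)) := redDataK0 A (M' * q * q)

/-- `j₁₁ : y ↦ y` -/
abbrev j11 : FresK0 A (M' * q) →+* FresK0 A (M' * q * q) :=
  (fresInclC (R0 A) (dvd_mul_right (M' * q) q)).toRingHom

/-- `j₂₂' : y ↦ y` -/
abbrev j22' : FresK0 A (M' * q) →+* FresK0 A (M' * q * q) :=
  (fresInclC (R0 A) (dvd_mul_right (M' * q) q)).toRingHom

/-- `j₂₂ : y(t) ↦ y(t^q)` -/
abbrev j22 : FresK0 A (M' * q) →+* FresK0 A (M' * q * q) :=
  (fresBetaC (R0 A) (M' * q) q).toRingHom

/-- `j₁₁' : y(t) ↦ y(t^q)` -/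
abbrev j11' : FresK0 A (M' * q) →+* FresK0 A (M' * q * q) :=
  (fresBetaC (R0 A) (M' * q) q).toRingHom

variable {q} (hq : q.Prime) (hA : (q : Qb) ∈ A.nonunits)

/-- the upper datum `w₃` -/
abbrev R3 : RedData (K0 A) (modularFunctionFieldFullC (K0 A) (M' * q * q)) (ResidueField (R0 A))
    (Fres3K0 A (M' * q * q) q hq hA) := redData3K0 A (M' * q * q) q hq hA

/-- `j₁₃ : y(t) ↦ y(t^N)` -/
abbrev j13 : FresK0 A (M' * q) →+* Fres3K0 A (M' * q * q) q hq hA :=
  (fres3Old A hq hA).toRingHom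

/-- `j₂₃' : y(t) ↦ y(t^N)` -/
abbrev j23' : FresK0 A (M' * q) →+* Fres3K0 A (M' * q * q) q hq hA :=
  (fres3Old A hq hA).toRingHom

variable {M'} (hqM : ¬ q ∣ M')

/-- the lower datum `w₂'` -/
abbrev R2' : RedData (K0 A) (modularFunctionFieldFullC (K0 A) (M' * q)) (ResidueField (R0 A))
    (FresK0 A (M' * q)) := redData2K0 A (M' * q) (exactDvd_level hq hqM)

/-- the upper datum `w₂` -/
abbrev R2 : RedData (K0 A) (modularFunctionFieldFullC (K0 A) (M' * q * q)) (ResidueField (R0 A))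
    (FresK0 A (M' * q * q)) :=
  redData2QK0 A (M' * q * q) (Fermat.Agent.GL.AL.hallDvd_sq M' hq hqM)

include hqM in
/-- **`hπ13`** of `TripleSetup` -/
theorem hπ13 (u : modularFunctionFieldFullC (K0 A) (M' * q * q)) (h1 : u ∈ (R1 A M' q).Rw)
    (h3 : u ∈ (R3 A M' hq hA).Rw) : ∃ hN : normAlphaK0 A M' q u ∈ (R1' A M' q).Rw,
    ∃ y1 y3 : FresK0 A (M' * q), j11 A M' q y1 = (R1 A M' q).red ⟨u, h1⟩ ∧
      j13 A M' hq hA y3 = (R3 A M' hq hA).red ⟨u, h3⟩ ∧
      (R1' A M' q).red ⟨normAlphaK0 A M' q u, hN⟩ = y1 * y3 ^ (q - 1) :=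
  (pi_split A hq hqM hA).2.2.2 u h1 h3

include hA in
/-- **`hπ2`** of `TripleSetup` -/
theorem hπ2 (u : modularFunctionFieldFullC (K0 A) (M' * q * q)) (h2 : u ∈ (R2 A hq hqM).Rw) :
    ∃ hN : normAlphaK0 A M' q u ∈ (R2' A hq hqM).Rw,
      j22 A M' q ((R2' A hq hqM).red ⟨normAlphaK0 A M' q u, hN⟩) =
        (R2 A hq hqM).red ⟨u, h2⟩ ^ q :=
  (pi_insep A hq hqM hA).2.2 u h2

include hq hA in
/-- **`hπ'1`** of `TripleSetup` -/
theorem hπ'1 (u : modularFunctionFieldFullC (K0 A) (M' * q * q)) (h1 : u ∈ (R1 A M' q).Rw) :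
    ∃ hN : normBetaK0 A M' q u ∈ (R1' A M' q).Rw,
      j11' A M' q ((R1' A M' q).red ⟨normBetaK0 A M' q u, hN⟩) = (R1 A M' q).red ⟨u, h1⟩ ^ q :=
  (pi'_insep A hq hA).2.2 u h1

/-- **`hπ'23`** of `TripleSetup` -/
theorem hπ'23 (u : modularFunctionFieldFullC (K0 A) (M' * q * q)) (h2 : u ∈ (R2 A hq hqM).Rw)
    (h3 : u ∈ (R3 A M' hq hA).Rw) : ∃ hN : normBetaK0 A M' q u ∈ (R2' A hq hqM).Rw,
    ∃ y2 y3 : FresK0 A (M' * q), j22' A M' q y2 = (R2 A hq hqM).red ⟨u, h2⟩ ∧
      j23' A M' hq hA y3 = (R3 A M' hq hA).red ⟨u, h3⟩ ∧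
      (R2' A hq hqM).red ⟨normBetaK0 A M' q u, hN⟩ = y2 * y3 ^ (q - 1) :=
  (pi'_split A hq hqM hA).2.2.2 u h2 h3

end Export

end Fermat.Agent.GL.Final.RowsInst
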