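/-
GATE-L / ROWS-INST, part 2 (helper67): the SIX chart-level squares `rd_i ∘ φ = j ∘ rd_j'` of
helper40 `TripleBuild.BuildData` (`hρ11 hρ13 hρ22 hρ11' hρ22' hρ23'`) = helper36
`TripleInst.ChartData` (`s11 … s23'`), at the concrete data of `RowsInst.lean`.

* element level: `sq11 … sq23'` (`x` in the lower valuation ring, ANY proof of membership of the
  image), and the `_of_eq` forms (`z = alphaK0 x`, resp. `z = betaK0 x`);
* chart level: `hρ11 … hρ23'` VERBATIM in `BuildData`'s field shapes, for arbitrary chart rings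
  `B`, `B'` and `φ1 φ2 : B' →+* B` with `algebraMap B F (φ1 b) = alphaK0 (algebraMap B' E b)`,
  `algebraMap B F (φ2 b) = betaK0 (algebraMap B' E b)`.
-/
import Fermat.Agent.GL.Final.RowsInst

set_option autoImplicit false

noncomputable section

open Module IsLocalRing ModularCurve AlgebraicCurve HahnSeries

namespace Fermat.Agent.GL.Final.RowsInst

open Fermat.Agent.GJ.J1 Fermat.Agent.GJ.J1.Val Fermat.Agent.GK.Val.GaussBase
open Fermat.Agent.GL.Val.GaussK0 Fermat.Agent.GL.Val.SecondK0 Fermat.Agent.GL.Val.SecondK0Hall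
open Fermat.Agent.GL.Val.ThirdK0 Fermat.Agent.GL.Val.CuspK0 Fermat.Agent.GL.Table.K0
open Fermat.Agent.GL.W3Table Fermat.Agent.GL.W3 Fermat.Agent.GK.AL
open Fermat.Agent.Common_helper32

section Elements

variable (A : ValuationSubring Qb) {M' q : ℕ} [NeZero q] [NeZero M']

/-- `rd₁ (α x) = j₁₁ (rd₁' x)` -/
theorem sq11 (x : modularFunctionFieldFullC (K0 A) (M' * q)) (hx : x ∈ (R1' A M' q).Rw)
    (h : alphaK0 A (M' * q) q x ∈ (R1 A M' q).Rw) :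
    (R1 A M' q).red ⟨alphaK0 A (M' * q) q x, h⟩ = j11 A M' q ((R1' A M' q).red ⟨x, hx⟩) :=
  red_inclC (R0 A) (dvd_mul_right (M' * q) q) ⟨x, hx⟩

/-- `rd₁ (β x) = j₁₁' (rd₁' x)` -/
theorem sq11' (x : modularFunctionFieldFullC (K0 A) (M' * q)) (hx : x ∈ (R1' A M' q).Rw)
    (h : betaK0 A (M' * q) q x ∈ (R1 A M' q).Rw) :
    (R1 A M' q).red ⟨betaK0 A (M' * q) q x, h⟩ = j11' A M' q ((R1' A M' q).red ⟨x, hx⟩) :=
  red_betaC (R0 A) (M' * q) q ⟨x, hx⟩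

variable (hq : q.Prime) (hA : (q : Qb) ∈ A.nonunits)

/-- `rd₃ (α x) = j₁₃ (rd₁' x)` -/
theorem sq13 (x : modularFunctionFieldFullC (K0 A) (M' * q)) (hx : x ∈ (R1' A M' q).Rw)
    (h : alphaK0 A (M' * q) q x ∈ (R3 A M' hq hA).Rw) :
    (R3 A M' hq hA).red ⟨alphaK0 A (M' * q) q x, h⟩ =
      j13 A M' hq hA ((R1' A M' q).red ⟨x, hx⟩) :=
  red3K0_alphaK0 A hq hA ⟨x, hx⟩

variable (hqM : ¬ q ∣ M')

/-- `rd₃ (β x) = j₂₃' (rd₂' x)` -/
theorem sq23' (x : modularFunctionFieldFullC (K0 A) (M' * q)) (hx : x ∈ (R2' A hq hqM).Rw)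
    (h : betaK0 A (M' * q) q x ∈ (R3 A M' hq hA).Rw) :
    (R3 A M' hq hA).red ⟨betaK0 A (M' * q) q x, h⟩ =
      j23' A M' hq hA ((R2' A hq hqM).red ⟨x, hx⟩) :=
  red3K0_betaK0 A hq hqM hA ⟨x, hx⟩

/-- `rd₂ (α x) = j₂₂ (rd₂' x)` -/
theorem sq22 (x : modularFunctionFieldFullC (K0 A) (M' * q)) (hx : x ∈ (R2' A hq hqM).Rw)
    (h : alphaK0 A (M' * q) q x ∈ (R2 A hq hqM).Rw) :
    (R2 A hq hqM).red ⟨alphaK0 A (M' * q) q x, h⟩ =
      j22 A M' q ((R2' A hq hqM).red ⟨x, hx⟩) := by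
  apply Subtype.ext
  show _ = ((fresBetaC (R0 A) (M' * q) q ((R2' A hq hqM).red ⟨x, hx⟩) : FresK0 A (M' * q * q)) :
    LaurentSeries (ResidueField (R0 A)))
  rw [coe_fresBetaC]
  exact coe_red2QK0_alphaK0 A M' _ _ x hx h

/-- `rd₂ (β x) = j₂₂' (rd₂' x)` -/
theorem sq22' (x : modularFunctionFieldFullC (K0 A) (M' * q)) (hx : x ∈ (R2' A hq hqM).Rw)
    (h : betaK0 A (M' * q) q x ∈ (R2 A hq hqM).Rw) :
    (R2 A hq hqM).red ⟨betaK0 A (M' * q) q x, h⟩ =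
      j22' A M' q ((R2' A hq hqM).red ⟨x, hx⟩) := by
  apply Subtype.ext
  show _ = ((fresInclC (R0 A) (dvd_mul_right (M' * q) q) ((R2' A hq hqM).red ⟨x, hx⟩) :
    FresK0 A (M' * q * q)) : LaurentSeries (ResidueField (R0 A)))
  rw [coe_fresInclC]
  exact coe_red2QK0_betaK0 A M' _ _ x hx h

end Elements

/-! ### `BuildData` field shapes -/

section Chart

variable (A : ValuationSubring Qb) {M' q : ℕ} [NeZero q] [NeZero M']
  {B B' : Type*} [CommRing B] [Algebra B (modularFunctionFieldFullC (K0 A) (M' * q * q))]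
  [CommRing B'] [Algebra B' (modularFunctionFieldFullC (K0 A) (M' * q))]
  (φ1 φ2 : B' →+* B)
  (hφ1 : ∀ b : B', algebraMap B (modularFunctionFieldFullC (K0 A) (M' * q * q)) (φ1 b) =
    alphaK0 A (M' * q) q (algebraMap B' (modularFunctionFieldFullC (K0 A) (M' * q)) b))
  (hφ2 : ∀ b : B', algebraMap B (modularFunctionFieldFullC (K0 A) (M' * q * q)) (φ2 b) =
    betaK0 A (M' * q) q (algebraMap B' (modularFunctionFieldFullC (K0 A) (M' * q)) b))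

include hφ1 in
/-- **`hρ11`** of `BuildData` -/
theorem hρ11
    (hBW1 : ∀ b : B, algebraMap B (modularFunctionFieldFullC (K0 A) (M' * q * q)) b ∈
      (R1 A M' q).Rw)
    (hBA1 : ∀ b : B', algebraMap B' (modularFunctionFieldFullC (K0 A) (M' * q)) b ∈
      (R1' A M' q).Rw) (b : B') :
    (R1 A M' q).red ⟨algebraMap B _ (φ1 b), hBW1 _⟩ =
      j11 A M' q ((R1' A M' q).red ⟨algebraMap B' _ b, hBA1 b⟩) := by
  have h : alphaK0 A (M' * q) q (algebraMap B' _ b) ∈ (R1 A M' q).Rw := hφ1 b ▸ hBW1 (φ1 b)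
  rw [← sq11 A _ (hBA1 b) h]
  congr 1
  exact Subtype.ext (hφ1 b)

include hφ2 in
/-- **`hρ11'`** of `BuildData` -/
theorem hρ11'
    (hBW1 : ∀ b : B, algebraMap B (modularFunctionFieldFullC (K0 A) (M' * q * q)) b ∈
      (R1 A M' q).Rw)
    (hBA1 : ∀ b : B', algebraMap B' (modularFunctionFieldFullC (K0 A) (M' * q)) b ∈
      (R1' A M' q).Rw) (b : B') :
    (R1 A M' q).red ⟨algebraMap B _ (φ2 b), hBW1 _⟩ =
      j11' A M' q ((R1' A M' q).red ⟨algebraMap B' _ b, hBA1 b⟩) := by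
  have h : betaK0 A (M' * q) q (algebraMap B' _ b) ∈ (R1 A M' q).Rw := hφ2 b ▸ hBW1 (φ2 b)
  rw [← sq11' A _ (hBA1 b) h]
  congr 1
  exact Subtype.ext (hφ2 b)

variable (hq : q.Prime) (hA : (q : Qb) ∈ A.nonunits)

include hφ1 in
/-- **`hρ13`** of `BuildData` -/
theorem hρ13
    (hBW3 : ∀ b : B, algebraMap B (modularFunctionFieldFullC (K0 A) (M' * q * q)) b ∈
      (R3 A M' hq hA).Rw)
    (hBA1 : ∀ b : B', algebraMap B' (modularFunctionFieldFullC (K0 A) (M' * q)) b ∈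
      (R1' A M' q).Rw) (b : B') :
    (R3 A M' hq hA).red ⟨algebraMap B _ (φ1 b), hBW3 _⟩ =
      j13 A M' hq hA ((R1' A M' q).red ⟨algebraMap B' _ b, hBA1 b⟩) := by
  have h : alphaK0 A (M' * q) q (algebraMap B' _ b) ∈ (R3 A M' hq hA).Rw :=
    hφ1 b ▸ hBW3 (φ1 b)
  rw [← sq13 A hq hA _ (hBA1 b) h]
  congr 1
  exact Subtype.ext (hφ1 b)

variable (hqM : ¬ q ∣ M')

include hφ1 in
/-- **`hρ22`** of `BuildData` -/
theorem hρ22
    (hBW2 : ∀ b : B, algebraMap B (modularFunctionFieldFullC (K0 A) (M' * q * q)) b ∈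
      (R2 A hq hqM).Rw)
    (hBA2 : ∀ b : B', algebraMap B' (modularFunctionFieldFullC (K0 A) (M' * q)) b ∈
      (R2' A hq hqM).Rw) (b : B') :
    (R2 A hq hqM).red ⟨algebraMap B _ (φ1 b), hBW2 _⟩ =
      j22 A M' q ((R2' A hq hqM).red ⟨algebraMap B' _ b, hBA2 b⟩) := by
  have h : alphaK0 A (M' * q) q (algebraMap B' _ b) ∈ (R2 A hq hqM).Rw := hφ1 b ▸ hBW2 (φ1 b)
  rw [← sq22 A hq hqM _ (hBA2 b) h]
  congr 1
  exact Subtype.ext (hφ1 b)

include hφ2 in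
/-- **`hρ22'`** of `BuildData` -/
theorem hρ22'
    (hBW2 : ∀ b : B, algebraMap B (modularFunctionFieldFullC (K0 A) (M' * q * q)) b ∈
      (R2 A hq hqM).Rw)
    (hBA2 : ∀ b : B', algebraMap B' (modularFunctionFieldFullC (K0 A) (M' * q)) b ∈
      (R2' A hq hqM).Rw) (b : B') :
    (R2 A hq hqM).red ⟨algebraMap B _ (φ2 b), hBW2 _⟩ =
      j22' A M' q ((R2' A hq hqM).red ⟨algebraMap B' _ b, hBA2 b⟩) := by
  have h : betaK0 A (M' * q) q (algebraMap B' _ b) ∈ (R2 A hq hqM).Rw := hφ2 b ▸ hBW2 (φ2 b)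
  rw [← sq22' A hq hqM _ (hBA2 b) h]
  congr 1
  exact Subtype.ext (hφ2 b)

include hφ2 in
/-- **`hρ23'`** of `BuildData` -/
theorem hρ23'
    (hBW3 : ∀ b : B, algebraMap B (modularFunctionFieldFullC (K0 A) (M' * q * q)) b ∈
      (R3 A M' hq hA).Rw)
    (hBA2 : ∀ b : B', algebraMap B' (modularFunctionFieldFullC (K0 A) (M' * q)) b ∈
      (R2' A hq hqM).Rw) (b : B') :
    (R3 A M' hq hA).red ⟨algebraMap B _ (φ2 b), hBW3 _⟩ =
      j23' A M' hq hA ((R2' A hq hqM).red ⟨algebraMap B' _ b, hBA2 b⟩) := by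
  have h : betaK0 A (M' * q) q (algebraMap B' _ b) ∈ (R3 A M' hq hA).Rw :=
    hφ2 b ▸ hBW3 (φ2 b)
  rw [← sq23' A hq hA hqM _ (hBA2 b) h]
  congr 1
  exact Subtype.ext (hφ2 b)

end Chart

end Fermat.Agent.GL.Final.RowsInst
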