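/-
GATE-L / TRIPLE-POINTS (helper36; helper31 ROUTING NOTE 3136): the index types `T`, `T'`, the
points `P`, the residue characters `χ`, `χ'` and the maps `p1 p2 : T → T'` of helper46's
`H4OfXi.TripleSetup` (= the fields `P hmax hinj χ hχker hχsurj χ' p1 p2 hφ1 hφ2` of
`TripleInst.ChartData`), GENERICALLY from helper31's `GL/Frame/ResChar.lean` + `ResCharFin.lean`.

`R0` a commutative ring, `res : R0 →+* k` surjective onto an algebraically closed field,
`m0 := ker res`; `B` an `R0`-algebra integral over `R0[t]`, `s : R0[X]` (a monic lift of the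
supersingular polynomial).

* `PtType m0 t s` : the closed points `n` of `B` on the special fibre with `s(t) ∈ n`
  (EXACTLY the subtype of `ResChar.finite_pointType`, so `finite_ptType` is that theorem);
* `chi res hres t hint n : B →+* k` the residue character (`chi_eq_zero_iff`, `chi_surjective`,
  `chi_algebraMap`), `ptIdeal`, `ptIdeal_injective`;
* `pmap φ hφs n : PtType m0 t' s'` for a ring hom `φ : B' →+* B` over `R0` with
  `φ (s'(t')) ∈ n` for every point `n`  (`= p1, p2`), and `chi_comp` : `χ_n ∘ φ = χ'_{pmap n}`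
  (`= hφ1, hφ2`);
* `exists_const` : the lifts of the constants needed by `TripleInst.toSetup_hconst_i`.
-/
import Mathlib
import Fermat.Agent.GL.Frame.ResChar
import Fermat.Agent.GL.Frame.ResCharFin

set_option autoImplicit false
set_option linter.unusedSectionVars false
set_option linter.unusedVariables false

namespace Fermat.Agent.GL.Final.TriplePoints

open Polynomial Fermat.Agent.GL.Frame.ResChar

section Points

variable {R0 B : Type*} [CommRing R0] [CommRing B] [Algebra R0 B]

/-- the closed points of `B` over `m0` at which `s(t)` vanishes. -/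
def PtType (m0 : Ideal R0) (t : B) (s : R0[X]) : Type _ :=
  {n : Ideal B // n.IsMaximal ∧ (∀ r ∈ m0, algebraMap R0 B r ∈ n) ∧ aeval t s ∈ n}

/-- the ideal of a point. -/
def ptIdeal {m0 : Ideal R0} {t : B} {s : R0[X]} (n : PtType m0 t s) : Ideal B := n.1

theorem ptIdeal_isMaximal {m0 : Ideal R0} {t : B} {s : R0[X]} (n : PtType m0 t s) :
    (ptIdeal n).IsMaximal := n.2.1

theorem ptIdeal_injective {m0 : Ideal R0} {t : B} {s : R0[X]} :
    Function.Injective (ptIdeal : PtType m0 t s → Ideal B) := Subtype.val_injective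

theorem algebraMap_mem_ptIdeal {m0 : Ideal R0} {t : B} {s : R0[X]} (n : PtType m0 t s)
    {r : R0} (hr : r ∈ m0) : algebraMap R0 B r ∈ ptIdeal n := n.2.2.1 r hr

theorem aeval_mem_ptIdeal {m0 : Ideal R0} {t : B} {s : R0[X]} (n : PtType m0 t s) :
    aeval t s ∈ ptIdeal n := n.2.2.2

/-- `[Finite T]` (helper31 `finite_pointType`). -/
theorem finite_ptType (t : B) (hfin : (aeval (R := R0) t).toRingHom.Finite)
    (s : R0[X]) (hs : s.Monic) (m0 : Ideal R0) [m0.IsMaximal] : Finite (PtType m0 t s) :=
  finite_pointType t hfin s hs m0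

end Points

section Chars

variable {R0 k B : Type*} [CommRing R0] [Field k] [IsAlgClosed k] [CommRing B] [Algebra R0 B]
  (res : R0 →+* k) (hres : Function.Surjective res) (t : B)
  (hint : ∀ b : B, IsIntegral (Algebra.adjoin R0 {t}) b) {s : R0[X]}

/-- the residue character of a point (helper31 `exists_char`). -/
noncomputable def chi (n : PtType (RingHom.ker res) t s) : B →+* k :=
  haveI : (ptIdeal n).IsMaximal := ptIdeal_isMaximal n
  Classical.choose (exists_char res hres t hint (ptIdeal n)
    (fun r hr => algebraMap_mem_ptIdeal n ((RingHom.mem_ker).2 hr)))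

theorem chi_spec (n : PtType (RingHom.ker res) t s) :
    (∀ b, chi res hres t hint n b = 0 ↔ b ∈ ptIdeal n) ∧
      Function.Surjective (chi res hres t hint n) ∧
      ∀ r, chi res hres t hint n (algebraMap R0 B r) = res r :=
  haveI : (ptIdeal n).IsMaximal := ptIdeal_isMaximal n
  Classical.choose_spec (exists_char res hres t hint (ptIdeal n)
    (fun r hr => algebraMap_mem_ptIdeal n ((RingHom.mem_ker).2 hr)))

theorem chi_eq_zero_iff (n : PtType (RingHom.ker res) t s) (b : B) :
    chi res hres t hint n b = 0 ↔ b ∈ ptIdeal n := (chi_spec res hres t hint n).1 b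

theorem chi_surjective (n : PtType (RingHom.ker res) t s) :
    Function.Surjective (chi res hres t hint n) := (chi_spec res hres t hint n).2.1

theorem chi_algebraMap (n : PtType (RingHom.ker res) t s) (r : R0) :
    chi res hres t hint n (algebraMap R0 B r) = res r := (chi_spec res hres t hint n).2.2 r

/-- lifts of the constants (`hc` of `TripleInst.toSetup_hconst_i`). -/
theorem exists_const {κ : Type*} [Field κ] [Algebra k κ] (ρ : B →+* κ)
    (hρ : ∀ r : R0, ρ (algebraMap R0 B r) = algebraMap k κ (res r)) (a : k) :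
    ∃ b : B, ρ b = algebraMap k κ a ∧
      ∀ n : PtType (RingHom.ker res) t s, chi res hres t hint n b = a := by
  obtain ⟨r, rfl⟩ := hres a
  exact ⟨algebraMap R0 B r, hρ r, fun n => chi_algebraMap res hres t hint n r⟩

end Chars

section Maps

variable {R0 k B B' : Type*} [CommRing R0] [Field k] [IsAlgClosed k] [CommRing B] [Algebra R0 B]
  [CommRing B'] [Algebra R0 B']
  (res : R0 →+* k) (hres : Function.Surjective res) (t : B)
  (hint : ∀ b : B, IsIntegral (Algebra.adjoin R0 {t}) b) {s : R0[X]}
  (t' : B') (hint' : ∀ b : B', IsIntegral (Algebra.adjoin R0 {t'}) b) {s' : R0[X]}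
  (φ : B' →+* B) (hφ : ∀ r, φ (algebraMap R0 B' r) = algebraMap R0 B r)
  (hφs : ∀ n : PtType (RingHom.ker res) t s, φ (aeval t' s') ∈ ptIdeal n)

/-- the point below a point along `φ : B' →+* B` (`= p1, p2`). -/
noncomputable def pmap (n : PtType (RingHom.ker res) t s) : PtType (RingHom.ker res) t' s' :=
  ⟨(ptIdeal n).comap φ,
    (comap_isMaximal res hres φ hφ (ptIdeal n) (chi res hres t hint n)
      (chi_eq_zero_iff res hres t hint n) (chi_algebraMap res hres t hint n)).1,
    fun r hr => by
      rw [Ideal.mem_comap, hφ]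
      exact algebraMap_mem_ptIdeal n hr,
    hφs n⟩

theorem ptIdeal_pmap (n : PtType (RingHom.ker res) t s) :
    ptIdeal (pmap res hres t hint t' φ hφ hφs n) = (ptIdeal n).comap φ := rfl

/-- **`χ_n ∘ φ = χ'_{p n}`** (`hφ1`, `hφ2` of `ChartData`). -/
theorem chi_comp (n : PtType (RingHom.ker res) t s) (b : B') :
    chi res hres t hint n (φ b) =
      chi res hres t' hint' (pmap res hres t hint t' φ hφ hφs n) b := by
  have h := char_comp res hres φ hφ (ptIdeal n) (chi res hres t hint n)
    (chi_eq_zero_iff res hres t hint n) (chi_algebraMap res hres t hint n)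
    (ptIdeal (pmap res hres t hint t' φ hφ hφs n))
    (chi res hres t' hint' (pmap res hres t hint t' φ hφ hφs n))
    (chi_eq_zero_iff res hres t' hint' _) (chi_algebraMap res hres t' hint' _)
    (ptIdeal_pmap res hres t hint t' φ hφ hφs n)
  exact congrArg (fun f : B' →+* k => f b) h

end Maps

end Fermat.Agent.GL.Final.TriplePoints
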