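/-
GATE-L / TRIPLE-POINTS, part 2 (helper36; helper31 GRAPH RULING 4 = 3158 (iii)): helper40's
`TripleBuild.BuildData` with ALL its point-level fields

  `T T' P hmax hinj χ hχker hχsurj χ' p1 p2 hχ1 hχ2`

FILLED IN from `GL/Final/TriplePoints.lean` (helper31 `ResChar`):

  `T  := PtType (ker res) t s`   (closed points of `B` on the special fibre with `s(t) ∈ n`),
  `T' := PtType (ker res) t' s`, `P n := ptIdeal n`, `χ n := chi …`, `p_i := pmap φ_i …`.

What remains as INPUT of `buildOfPoints` is exactly the valuation/chart level: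
the five valuations with reductions, norms, residue embeddings, rows, `hBW_i hBA_j`, `φ1 φ2` over
`R0` with the six squares, and

* `hφ1s hφ2s : φ_i (s(t')) ∈ n` for every point `n` (`aeval_map_mem_of_eq` for `φ1 t' = t`;
  `aeval_map_mem_of_frob` for the Frobenius-type `φ2`: `φ2 t' - t ^ q ∈ n`, helper18 `kron_w1_jC`,
  + helper30 `SsFrob.eval_mem_iff_of_congr`);
* `hker_i : rd_i b = 0 → b ∈ n` (the points lie on the components: helper47 `ClassifyK0`).

Also: `exists_monic_lift` (the monic lift `s` of the supersingular polynomial), `finite_T`,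
`hc_of_points` (the constants hypothesis `hc` of `toSetup_hconst_i`).
-/
import Mathlib
import Fermat.Agent.GL.Final.TripleBuild
import Fermat.Agent.GL.Final.TriplePoints
import Fermat.Agent.GL.Frame.SsFrob

set_option autoImplicit false
set_option linter.unusedSectionVars false
set_option linter.unusedVariables false

namespace Fermat.Agent.GL.Final.TripleBuildPoints

open Polynomial Fermat.Agent.GL Fermat.Agent.GL.H4OfXi Fermat.Agent.GL.TripleBuild
open Fermat.Agent.GL.Final.TriplePoints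

/-! ### the monic lift of a monic polynomial -/

/-- a monic polynomial over `k` has a monic lift along a surjection `R0 →+* k`. -/
theorem exists_monic_lift {R0 k : Type*} [CommRing R0] [Field k] (res : R0 →+* k)
    (hres : Function.Surjective res) (p : k[X]) (hp : p.Monic) :
    ∃ s : R0[X], s.Monic ∧ s.map res = p := by
  have hl : p ∈ Polynomial.lifts res := by
    rw [Polynomial.lifts_iff_coeff_lifts]
    intro i
    obtain ⟨r, hr⟩ := hres (p.coeff i)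
    exact ⟨r, hr⟩
  obtain ⟨s, hs, -, hsm⟩ := Polynomial.lifts_and_degree_eq_and_monic hl hp
  exact ⟨s, hsm, hs⟩

/-! ### `φ (s(t')) ∈ n` -/

section Mem

variable {R0 B B' : Type*} [CommRing R0] [CommRing B] [Algebra R0 B] [CommRing B']
  [Algebra R0 B'] (φ : B' →+* B) (hφ : ∀ r, φ (algebraMap R0 B' r) = algebraMap R0 B r)

include hφ in
theorem map_aeval (t' : B') (s : R0[X]) : φ (aeval t' s) = aeval (φ t') s := by
  rw [aeval_def, aeval_def, hom_eval₂]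
  congr 1
  ext r
  exact hφ r

include hφ in
/-- `α`-type maps: `φ t' = t`. -/
theorem aeval_map_mem_of_eq {t : B} {t' : B'} (ht : φ t' = t) (s : R0[X]) (n : Ideal B)
    (hn : aeval t s ∈ n) : φ (aeval t' s) ∈ n := by
  rw [map_aeval φ hφ, ht]
  exact hn

include hφ in
/-- `β`-type (Frobenius) maps: `φ t' ≡ t ^ q` modulo the point, `s` a lift of the supersingular
polynomial. -/
theorem aeval_map_mem_of_frob (q : ℕ) [Fact q.Prime] {k : Type*} [Field k] [CharP k q]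
    (res : R0 →+* k) {t : B} {t' : B'} (s : R0[X])
    (hs : s.map res = Fermat.Agent.GL.SmallQ.ssPolyAll q k) (n : Ideal B) [n.IsPrime]
    (hq : (q : B) ∈ n) (hresn : ∀ r : R0, res r = 0 → algebraMap R0 B r ∈ n)
    (hcong : φ t' - t ^ q ∈ n) (hn : aeval t s ∈ n) : φ (aeval t' s) ∈ n := by
  rw [map_aeval φ hφ]
  have e1 : aeval (φ t') s = (s.map (algebraMap R0 B)).eval (φ t') := by
    rw [eval_map, ← aeval_def]
  have e2 : aeval t s = (s.map (algebraMap R0 B)).eval t := by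
    rw [eval_map, ← aeval_def]
  rw [e1]
  rw [e2] at hn
  exact (Fermat.Agent.GL.Frame.SsFrob.eval_mem_iff_of_congr q n hq (s.map (algebraMap R0 B))
    (Fermat.Agent.GL.Frame.SsFrob.coeff_pow_sub_mem_of_lift q res (algebraMap R0 B) n hresn s hs)
    t (φ t') (Or.inl hcong)).mpr hn

end Mem

/-! ### `BuildData` with the points filled in -/

section Build

variable {R0 k : Type*} [CommRing R0] [Field k] [IsAlgClosed k]
  (res : R0 →+* k) (hres : Function.Surjective res)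
  {F E k1 k2 k3 k1' k2' B B' : Type*} [Field F] [Field E]
  [Field k1] [Field k2] [Field k3] [Field k1'] [Field k2']
  [CommRing B] [Algebra B F] [CommRing B'] [Algebra B' E] [Algebra R0 B] [Algebra R0 B']
  (t : B) (hint : ∀ b : B, IsIntegral (Algebra.adjoin R0 {t}) b)
  (t' : B') (hint' : ∀ b : B', IsIntegral (Algebra.adjoin R0 {t'}) b)
  (s : R0[X])

/-- **`BuildData` from the valuation/chart level, points from `ResChar`.** -/
noncomputable def buildOfPoints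
    (W1 W2 W3 : ValuationSubring F) (A1 A2 : ValuationSubring E)
    (rd1 : W1 →+* k1) (rd2 : W2 →+* k2) (rd3 : W3 →+* k3) (rd1' : A1 →+* k1') (rd2' : A2 →+* k2')
    (hr1 : ∀ z : W1, ¬ IsUnit z → rd1 z = 0) (hr2 : ∀ z : W2, ¬ IsUnit z → rd2 z = 0)
    (hr3 : ∀ z : W3, ¬ IsUnit z → rd3 z = 0) (hr1' : ∀ z : A1, ¬ IsUnit z → rd1' z = 0)
    (hr2' : ∀ z : A2, ¬ IsUnit z → rd2' z = 0)
    (Nm Nm' : F →* E) (q : ℕ) (hq : 1 ≤ q)
    (j11 : k1' →+* k1) (j13 : k1' →+* k3) (j22 : k2' →+* k2)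
    (j11' : k1' →+* k1) (j22' : k2' →+* k2) (j23' : k2' →+* k3)
    (hπ13 : ∀ (u : F) (h1 : u ∈ W1) (h3 : u ∈ W3), ∃ hN : Nm u ∈ A1, ∃ y1 y3 : k1',
      j11 y1 = rd1 ⟨u, h1⟩ ∧ j13 y3 = rd3 ⟨u, h3⟩ ∧ rd1' ⟨Nm u, hN⟩ = y1 * y3 ^ (q - 1))
    (hπ2 : ∀ (u : F) (h2 : u ∈ W2), ∃ hN : Nm u ∈ A2, j22 (rd2' ⟨Nm u, hN⟩) = rd2 ⟨u, h2⟩ ^ q)
    (hπ'1 : ∀ (u : F) (h1 : u ∈ W1), ∃ hN : Nm' u ∈ A1,
      j11' (rd1' ⟨Nm' u, hN⟩) = rd1 ⟨u, h1⟩ ^ q)
    (hπ'23 : ∀ (u : F) (h2 : u ∈ W2) (h3 : u ∈ W3), ∃ hN : Nm' u ∈ A2, ∃ y2 y3 : k2',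
      j22' y2 = rd2 ⟨u, h2⟩ ∧ j23' y3 = rd3 ⟨u, h3⟩ ∧ rd2' ⟨Nm' u, hN⟩ = y2 * y3 ^ (q - 1))
    (hBW1 : ∀ b : B, algebraMap B F b ∈ W1) (hBW2 : ∀ b : B, algebraMap B F b ∈ W2)
    (hBW3 : ∀ b : B, algebraMap B F b ∈ W3)
    (hBA1 : ∀ b : B', algebraMap B' E b ∈ A1) (hBA2 : ∀ b : B', algebraMap B' E b ∈ A2)
    (hker1 : ∀ (n : PtType (RingHom.ker res) t s) (b : B),
      rd1 ⟨algebraMap B F b, hBW1 b⟩ = 0 → b ∈ ptIdeal n)
    (hker2 : ∀ (n : PtType (RingHom.ker res) t s) (b : B),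
      rd2 ⟨algebraMap B F b, hBW2 b⟩ = 0 → b ∈ ptIdeal n)
    (hker3 : ∀ (n : PtType (RingHom.ker res) t s) (b : B),
      rd3 ⟨algebraMap B F b, hBW3 b⟩ = 0 → b ∈ ptIdeal n)
    (hker1' : ∀ (n' : PtType (RingHom.ker res) t' s) (b : B'),
      rd1' ⟨algebraMap B' E b, hBA1 b⟩ = 0 → b ∈ ptIdeal n')
    (hker2' : ∀ (n' : PtType (RingHom.ker res) t' s) (b : B'),
      rd2' ⟨algebraMap B' E b, hBA2 b⟩ = 0 → b ∈ ptIdeal n')
    (φ1 φ2 : B' →+* B)
    (hφ1 : ∀ r, φ1 (algebraMap R0 B' r) = algebraMap R0 B r)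
    (hφ2 : ∀ r, φ2 (algebraMap R0 B' r) = algebraMap R0 B r)
    (hφ1s : ∀ n : PtType (RingHom.ker res) t s, φ1 (aeval t' s) ∈ ptIdeal n)
    (hφ2s : ∀ n : PtType (RingHom.ker res) t s, φ2 (aeval t' s) ∈ ptIdeal n)
    (hρ11 : ∀ b : B', rd1 ⟨algebraMap B F (φ1 b), hBW1 _⟩ =
      j11 (rd1' ⟨algebraMap B' E b, hBA1 b⟩))
    (hρ13 : ∀ b : B', rd3 ⟨algebraMap B F (φ1 b), hBW3 _⟩ =
      j13 (rd1' ⟨algebraMap B' E b, hBA1 b⟩))
    (hρ22 : ∀ b : B', rd2 ⟨algebraMap B F (φ1 b), hBW2 _⟩ =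
      j22 (rd2' ⟨algebraMap B' E b, hBA2 b⟩))
    (hρ11' : ∀ b : B', rd1 ⟨algebraMap B F (φ2 b), hBW1 _⟩ =
      j11' (rd1' ⟨algebraMap B' E b, hBA1 b⟩))
    (hρ22' : ∀ b : B', rd2 ⟨algebraMap B F (φ2 b), hBW2 _⟩ =
      j22' (rd2' ⟨algebraMap B' E b, hBA2 b⟩))
    (hρ23' : ∀ b : B', rd3 ⟨algebraMap B F (φ2 b), hBW3 _⟩ =
      j23' (rd2' ⟨algebraMap B' E b, hBA2 b⟩)) :
    BuildData F E k k1 k2 k3 k1' k2' B B' (PtType (RingHom.ker res) t s)
      (PtType (RingHom.ker res) t' s) where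
  W1 := W1
  W2 := W2
  W3 := W3
  A1 := A1
  A2 := A2
  rd1 := rd1
  rd2 := rd2
  rd3 := rd3
  rd1' := rd1'
  rd2' := rd2'
  hr1 := hr1
  hr2 := hr2
  hr3 := hr3
  hr1' := hr1'
  hr2' := hr2'
  p1 := pmap res hres t hint t' φ1 hφ1 hφ1s
  p2 := pmap res hres t hint t' φ2 hφ2 hφ2s
  Nm := Nm
  Nm' := Nm'
  q := q
  hq := hq
  j11 := j11
  j13 := j13
  j22 := j22
  j11' := j11'
  j22' := j22'
  j23' := j23'
  hπ13 := hπ13
  hπ2 := hπ2
  hπ'1 := hπ'1
  hπ'23 := hπ'23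
  hBW1 := hBW1
  hBW2 := hBW2
  hBW3 := hBW3
  hBA1 := hBA1
  hBA2 := hBA2
  P := ptIdeal
  hmax := ptIdeal_isMaximal
  hinj := ptIdeal_injective
  χ := chi res hres t hint
  hχker := chi_eq_zero_iff res hres t hint
  hχsurj := chi_surjective res hres t hint
  χ' := chi res hres t' hint'
  hker1 := fun n b h => (chi_eq_zero_iff res hres t hint n b).mpr (hker1 n b h)
  hker2 := fun n b h => (chi_eq_zero_iff res hres t hint n b).mpr (hker2 n b h)
  hker3 := fun n b h => (chi_eq_zero_iff res hres t hint n b).mpr (hker3 n b h)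
  hker1' := fun n' b h => (chi_eq_zero_iff res hres t' hint' n' b).mpr (hker1' n' b h)
  hker2' := fun n' b h => (chi_eq_zero_iff res hres t' hint' n' b).mpr (hker2' n' b h)
  φ1 := φ1
  φ2 := φ2
  hρ11 := hρ11
  hρ13 := hρ13
  hρ22 := hρ22
  hρ11' := hρ11'
  hρ22' := hρ22'
  hρ23' := hρ23'
  hχ1 := fun n b => chi_comp res hres t hint t' hint' φ1 hφ1 hφ1s n b
  hχ2 := fun n b => chi_comp res hres t hint t' hint' φ2 hφ2 hφ2s n b

include hres in
/-- `[Finite T]`. -/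
theorem finite_T (hfin : (aeval (R := R0) t).toRingHom.Finite) (hs : s.Monic) :
    Finite (PtType (RingHom.ker res) t s) :=
  haveI : (RingHom.ker res).IsMaximal := RingHom.ker_isMaximal_of_surjective res hres
  finite_ptType t hfin s hs (RingHom.ker res)

/-- the constants hypothesis `hc` of `toSetup_hconst_i` (upper level). -/
theorem hc_of_points {κ : Type*} [Field κ] [Algebra k κ] (ρ : B →+* κ)
    (hρ : ∀ r : R0, ρ (algebraMap R0 B r) = algebraMap k κ (res r)) (a : k) :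
    ∃ b : B, ρ b = algebraMap k κ a ∧
      ∀ n : PtType (RingHom.ker res) t s, chi res hres t hint n b = a :=
  exists_const res hres t hint ρ hρ a

end Build

end Fermat.Agent.GL.Final.TripleBuildPoints
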