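/-
GATE-L / BUILD-INST-PTS (helper40): the CONCRETE call of helper36 `TripleBuildPoints.buildOfPoints`
at the `K₀` objects — helper67 `RowsInst` / `RowsSquares` (valuations, reductions, norms, rows, the
six squares), helper40 `BuildInst` (chart rings `BK0`, `hBW_i hBA_j`, `φ₁ = phiAlpha`,
`φ₂ = phiBeta`), helper31 `ResChar` (points) — leaving as hypothesis ONLY `H : SsPts A hq hqM hA s`:

* `hs : s.map (residue (R0 A)) = ssPolyAll q k₀` (`s` a lift of the supersingular polynomial;
  `TripleBuildPoints.exists_monic_lift`),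
* `hP1 hP2 hP3` : the non-units of `w₁, w₂, w₃` in the upper chart ring lie in every point
  `n : PtType (ker res) j s`, and `hP1' hP2'` : the same below (helper47 `ClassifyK0`: the
  supersingular points lie on all the components).

Contents:
* `hker_of_nonunits` (`rd b = 0 → b ∈ n` from the non-units form), `isSeparable_adjoin_of_charZero`;
* `residue_natCast_eq_zero`, `natCast_mem_ptIdeal`; the FRAME package at the chart ring:
  `isNoetherianRing_BK0`, `isIntegrallyClosed_BK0`, `isFractionRing_BK0`, `finite_ptType_BK0`;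
* `hφ1s_K0`, `phiBeta_jB_sub_pow_mem` (Kronecker: helper18 `kron_w1_jC`), `hφ2s_K0` (Frobenius
  stability of the supersingular polynomial: helper30 `SsFrob`);
* `structure SsPts`, `buildK0 : BuildData …`, `rfl`-lemmas `buildK0_W1 … buildK0_q`,
  `buildK0_rho1'`, `buildK0_rho2'`, `buildK0_χ'` (the objects of helper34's LOWER-HVAL),
  `buildK0_hc1 … buildK0_hc2'` (the constants hypotheses of `h4_arm_of_build`);
* `setupK0Of := (buildK0 …).toSetup hv` for any `hv : (buildK0 …).Hval`, with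
  `setupK0Of_W1 … setupK0Of_q` by `rfl`.
-/
import Fermat.Agent.GL.Final.BuildInst
import Fermat.Agent.GL.Final.TripleBuildPoints
import Fermat.Agent.GL.Final.RowsSquares
import Fermat.Agent.GL.Table.KroneckerK0

set_option autoImplicit false

noncomputable section

namespace Fermat.Agent.GL.BuildInstPts

open Polynomial HahnSeries ModularCurve IsLocalRing
open Fermat.Agent.GJ.J1
open Fermat.Agent.GL.Frame.Inst
open Fermat.Agent.GL.H4OfXi Fermat.Agent.GL.TripleBuild Fermat.Agent.GL.BuildInst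
open Fermat.Agent.GL.Final.TriplePoints Fermat.Agent.GL.Final.TripleBuildPoints
open Fermat.Agent.GL.Final.RowsInst
open Fermat.Agent.GL.Val.GaussK0 Fermat.Agent.GL.Val.SecondK0 Fermat.Agent.GL.Val.SecondK0Hall
open Fermat.Agent.GL.Val.ThirdK0 Fermat.Agent.GL.Val.CuspK0 Fermat.Agent.GL.Val.DegBase
open Fermat.Agent.GL.Val.OrthK0
open Fermat.Agent.GL.Table.K0 Fermat.Agent.GL.Table.KroneckerK0
open Fermat.Agent.GL.SmallQ
open Fermat.Agent.Common_helper32

attribute [local instance 2000] instAlgR0FullC instAlgBK0FullC instAlgR0BK0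

/-! ### generic: `rd b = 0 → b ∈ n` from the non-units form -/

section Generic

variable {K F k Ft : Type*} [Field K] [Field F] [Algebra K F] [Field k] [Field Ft] [Algebra k Ft]

theorem mem_nonunits_of_red_eq_zero (D : RedData K F k Ft) {x : F} (hx : x ∈ D.Rw)
    (h : D.red ⟨x, hx⟩ = 0) : x ∈ D.Rw.nonunits := by
  rw [ValuationSubring.mem_nonunits_iff_exists_mem_maximalIdeal]
  exact ⟨hx, (D.red_eq_zero_iff ⟨x, hx⟩).1 h⟩

/-- the hypotheses `hker_i` of `buildOfPoints` from the non-units form. -/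
theorem hker_of_nonunits (D : RedData K F k Ft) {B : Type*} [CommRing B] [Algebra B F]
    (hBW : ∀ b : B, algebraMap B F b ∈ D.Rw) (n : Ideal B)
    (hP : ∀ b : B, algebraMap B F b ∈ D.Rw.nonunits → b ∈ n) (b : B)
    (h : D.red ⟨algebraMap B F b, hBW b⟩ = 0) : b ∈ n :=
  hP b (mem_nonunits_of_red_eq_zero D (hBW b) h)

/-- separability is automatic in characteristic zero (instance search on the concrete `K₀` objects
times out; this generic form does not). -/
theorem isSeparable_adjoin_of_charZero {K F : Type*} [Field K] [CharZero K] [Field F]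
    [Algebra K F] (t : F) [FiniteDimensional (IntermediateField.adjoin K {t}) F] :
    Algebra.IsSeparable (IntermediateField.adjoin K {t}) F := by
  have h5 : CharZero (IntermediateField.adjoin K {t}) :=
    charZero_of_injective_algebraMap (algebraMap K (IntermediateField.adjoin K {t})).injective
  exact Algebra.IsAlgebraic.isSeparable_of_perfectField

end Generic

/-! ### the points of the concrete chart rings -/

section K0

variable (A : ValuationSubring Qb)

local notation "k₀" => ResidueField (R0 A)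

section Pts

variable {q : ℕ} (hA : (q : Qb) ∈ A.nonunits)

include hA in
/-- `q` dies in the residue field of `R₀`. -/
theorem residue_natCast_eq_zero : residue (R0 A) ((q : ℕ) : R0 A) = 0 := by
  have h := natCast_mem_nonunits_R0 A hA
  rw [ValuationSubring.mem_nonunits_iff_exists_mem_maximalIdeal] at h
  obtain ⟨ha, hm⟩ := h
  have e : (⟨((q : ℕ) : K0 A), ha⟩ : R0 A) = ((q : ℕ) : R0 A) := Subtype.ext (by push_cast; rfl)
  rw [e] at hm
  exact (residue_eq_zero_iff _).2 hm

variable (N : ℕ) [NeZero N] {s : (R0 A)[X]}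

include hA in
/-- `q` lies in every point of the special fibre. -/
theorem natCast_mem_ptIdeal (n : PtType (RingHom.ker (residue (R0 A))) (jB A N) s) :
    ((q : ℕ) : BK0 A N) ∈ ptIdeal n := by
  have h := algebraMap_mem_ptIdeal n
    ((RingHom.mem_ker).2 (residue_natCast_eq_zero A hA))
  rwa [map_natCast] at h

section Package

open Fermat.Agent.GL.Frame.ChartInstK0 IntermediateField

variable (hq : q.Prime)

include hq hA in
/-- **the chart ring is noetherian** (helper80 FRAME (A1) at `R₀`, `j`). -/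
theorem isNoetherianRing_BK0 : IsNoetherianRing (BK0 A N) := by
  have h1 := isDiscreteValuationRing_R0 A hq hA
  have h2 := ufm_R0 A hq hA
  have h3 : FiniteDimensional (K0 A)⟮jC N (K0 A)⟯ (modularFunctionFieldFullC (K0 A) N) :=
    finiteDimensional_fullC N (K0 A)
  have h4 := isSeparable_adjoin_of_charZero (K := K0 A) (jC N (K0 A))
  exact isNoetherianRing_chartRing (K := K0 A) _ (transcendental_jC_R0 A N)

include hq hA in
/-- **the chart ring is integrally closed.** -/
theorem isIntegrallyClosed_BK0 : IsIntegrallyClosed (BK0 A N) := by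
  have h1 := isDiscreteValuationRing_R0 A hq hA
  have h2 := ufm_R0 A hq hA
  have h3 : FiniteDimensional (K0 A)⟮jC N (K0 A)⟯ (modularFunctionFieldFullC (K0 A) N) :=
    finiteDimensional_fullC N (K0 A)
  have h4 := isSeparable_adjoin_of_charZero (K := K0 A) (jC N (K0 A))
  exact isIntegrallyClosed_chartRing (K := K0 A) _ (transcendental_jC_R0 A N)

include hq hA in
/-- **`K₀(X₀(N))` is the fraction field of the chart ring.** -/
theorem isFractionRing_BK0 : IsFractionRing (BK0 A N) (modularFunctionFieldFullC (K0 A) N) := by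
  have h1 := isDiscreteValuationRing_R0 A hq hA
  have h2 := ufm_R0 A hq hA
  have h3 : FiniteDimensional (K0 A)⟮jC N (K0 A)⟯ (modularFunctionFieldFullC (K0 A) N) :=
    finiteDimensional_fullC N (K0 A)
  have h4 := isSeparable_adjoin_of_charZero (K := K0 A) (jC N (K0 A))
  exact isFractionRing_chartRing (K := K0 A) _ (transcendental_jC_R0 A N)

include hq hA in
/-- **`[Finite T]`**: the points over a monic `s` are finitely many. -/
theorem finite_ptType_BK0 (hs : s.Monic) :
    Finite (PtType (RingHom.ker (residue (R0 A))) (jB A N) s) :=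
  haveI : IsAlgClosed (ResidueField (R0 A)) := isAlgClosed_residueField_R0 A hq hA
  finite_T (residue (R0 A)) residue_surjective (jB A N) s (finite_aeval_jB A N hq hA) hs

end Package

end Pts

variable {M' q : ℕ} [NeZero q] [NeZero M']

/-- **`hφ1s`** of `buildOfPoints`: `φ₁ (s(j')) = s(j) ∈ n`. -/
theorem hφ1s_K0 (s : (R0 A)[X])
    (n : PtType (RingHom.ker (residue (R0 A))) (jB A (M' * q * q)) s) :
    phiAlpha A (M' * q) q (aeval (jB A (M' * q)) s) ∈ ptIdeal n :=
  aeval_map_mem_of_eq (phiAlpha A (M' * q) q) (phiAlpha_algebraMap A (M' * q) q)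
    (phiAlpha_jB A (M' * q) q) s (ptIdeal n) (aeval_mem_ptIdeal n)

/-- **Kronecker on the chart ring**: `φ₂ j' − j^q` is a non-unit of `w₁`. -/
theorem phiBeta_jB_sub_pow_mem (hq : q.Prime) (hA : (q : Qb) ∈ A.nonunits) :
    algebraMap (BK0 A (M' * q * q)) (modularFunctionFieldFullC (K0 A) (M' * q * q))
      (phiBeta A (M' * q) q (jB A (M' * q)) - jB A (M' * q * q) ^ q) ∈
        (RwK0 A (M' * q * q)).nonunits :=
  kron_w1_jC A hq hA

/-- **`hφ2s`** of `buildOfPoints`: `φ₂ (s(j')) ∈ n`, `φ₂` being of Frobenius type along `w₁`. -/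
theorem hφ2s_K0 (hq : q.Prime) (hA : (q : Qb) ∈ A.nonunits) [Fact q.Prime] [CharP k₀ q]
    (s : (R0 A)[X]) (hs : s.map (residue (R0 A)) = ssPolyAll q k₀)
    (n : PtType (RingHom.ker (residue (R0 A))) (jB A (M' * q * q)) s)
    (hP1 : ∀ b : BK0 A (M' * q * q),
      algebraMap (BK0 A (M' * q * q)) (modularFunctionFieldFullC (K0 A) (M' * q * q)) b ∈
        (RwK0 A (M' * q * q)).nonunits → b ∈ ptIdeal n) :
    phiBeta A (M' * q) q (aeval (jB A (M' * q)) s) ∈ ptIdeal n := by
  have : (ptIdeal n).IsPrime := (ptIdeal_isMaximal n).isPrime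
  exact aeval_map_mem_of_frob (phiBeta A (M' * q) q) (phiBeta_algebraMap A (M' * q) q) q
    (residue (R0 A)) s hs (ptIdeal n) (natCast_mem_ptIdeal A hA (M' * q * q) n)
    (fun r hr => algebraMap_mem_ptIdeal n ((RingHom.mem_ker).2 hr))
    (hP1 _ (phiBeta_jB_sub_pow_mem A hq hA)) (aeval_mem_ptIdeal n)

/-! ### the concrete `BuildData` -/

section Build

local notation "F₀" => modularFunctionFieldFullC (K0 A) (M' * q * q)
local notation "E₀" => modularFunctionFieldFullC (K0 A) (M' * q)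
local notation "res₀" => residue (R0 A)

/-- **the residual hypotheses of the concrete `TripleSetup`**: `s` lifts the supersingular
polynomial, and the supersingular points lie on all the components (non-units form; upstairs
`hP1 hP2 hP3`, downstairs `hP1' hP2'`). -/
structure SsPts (hq : q.Prime) (hqM : ¬ q ∣ M') (hA : (q : Qb) ∈ A.nonunits)
    (s : (R0 A)[X]) : Prop where
  hs : s.map res₀ = @ssPolyAll q ⟨hq⟩ k₀ _ (charP_k0 A hq hA)
  hP1 : ∀ (n : PtType (RingHom.ker res₀) (jB A (M' * q * q)) s) (b : BK0 A (M' * q * q)),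
    algebraMap (BK0 A (M' * q * q)) F₀ b ∈ (R1 A M' q).Rw.nonunits → b ∈ ptIdeal n
  hP2 : ∀ (n : PtType (RingHom.ker res₀) (jB A (M' * q * q)) s) (b : BK0 A (M' * q * q)),
    algebraMap (BK0 A (M' * q * q)) F₀ b ∈ (R2 A hq hqM).Rw.nonunits → b ∈ ptIdeal n
  hP3 : ∀ (n : PtType (RingHom.ker res₀) (jB A (M' * q * q)) s) (b : BK0 A (M' * q * q)),
    algebraMap (BK0 A (M' * q * q)) F₀ b ∈ (R3 A M' hq hA).Rw.nonunits → b ∈ ptIdeal n
  hP1' : ∀ (n' : PtType (RingHom.ker res₀) (jB A (M' * q)) s) (b : BK0 A (M' * q)),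
    algebraMap (BK0 A (M' * q)) E₀ b ∈ (R1' A M' q).Rw.nonunits → b ∈ ptIdeal n'
  hP2' : ∀ (n' : PtType (RingHom.ker res₀) (jB A (M' * q)) s) (b : BK0 A (M' * q)),
    algebraMap (BK0 A (M' * q)) E₀ b ∈ (R2' A hq hqM).Rw.nonunits → b ∈ ptIdeal n'

variable (hq : q.Prime) (hqM : ¬ q ∣ M') (hA : (q : Qb) ∈ A.nonunits) (s : (R0 A)[X])

/-- **the concrete `BuildData` over `K₀`** (helper31 GRAPH RULING 4): everything plugged except
`H : SsPts A hq hqM hA s`. -/
def buildK0 (H : SsPts A hq hqM hA s) :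
    BuildData F₀ E₀ k₀ (FresK0 A (M' * q * q)) (FresK0 A (M' * q * q))
      (Fres3K0 A (M' * q * q) q hq hA) (FresK0 A (M' * q)) (FresK0 A (M' * q))
      (BK0 A (M' * q * q)) (BK0 A (M' * q))
      (PtType (RingHom.ker res₀) (jB A (M' * q * q)) s)
      (PtType (RingHom.ker res₀) (jB A (M' * q)) s) :=
  haveI : IsAlgClosed k₀ := isAlgClosed_residueField_R0 A hq hA
  haveI : Fact q.Prime := ⟨hq⟩
  haveI : CharP k₀ q := charP_k0 A hq hA
  buildOfPoints res₀ residue_surjective
    (jB A (M' * q * q)) (isIntegral_adjoin_jB A (M' * q * q))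
    (jB A (M' * q)) (isIntegral_adjoin_jB A (M' * q)) s
    (R1 A M' q).Rw (R2 A hq hqM).Rw (R3 A M' hq hA).Rw (R1' A M' q).Rw (R2' A hq hqM).Rw
    (R1 A M' q).red (R2 A hq hqM).red (R3 A M' hq hA).red (R1' A M' q).red (R2' A hq hqM).red
    (red_eq_zero_of_not_isUnit _) (red_eq_zero_of_not_isUnit _) (red_eq_zero_of_not_isUnit _)
    (red_eq_zero_of_not_isUnit _) (red_eq_zero_of_not_isUnit _)
    (normAlphaK0 A M' q) (normBetaK0 A M' q) q hq.pos
    (j11 A M' q) (j13 A M' hq hA) (j22 A M' q) (j11' A M' q) (j22' A M' q) (j23' A M' hq hA)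
    (hπ13 A hq hA hqM) (hπ2 A hq hA hqM) (hπ'1 A hq hA) (hπ'23 A hq hA hqM)
    (algebraMap_BK0_mem_RwK0 A (M' * q * q))
    (algebraMap_BK0_mem_Rw2QK0 A (M' * q * q) _)
    (algebraMap_BK0_mem_Rw3K0 A (M' * q * q) q)
    (algebraMap_BK0_mem_RwK0 A (M' * q))
    (algebraMap_BK0_mem_Rw2K0 A (M' * q) _)
    (fun n => hker_of_nonunits (R1 A M' q) _ (ptIdeal n) (H.hP1 n))
    (fun n => hker_of_nonunits (R2 A hq hqM) _ (ptIdeal n) (H.hP2 n))
    (fun n => hker_of_nonunits (R3 A M' hq hA) _ (ptIdeal n) (H.hP3 n))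
    (fun n' => hker_of_nonunits (R1' A M' q) _ (ptIdeal n') (H.hP1' n'))
    (fun n' => hker_of_nonunits (R2' A hq hqM) _ (ptIdeal n') (H.hP2' n'))
    (phiAlpha A (M' * q) q) (phiBeta A (M' * q) q)
    (phiAlpha_algebraMap A (M' * q) q) (phiBeta_algebraMap A (M' * q) q)
    (hφ1s_K0 A s) (fun n => hφ2s_K0 A hq hA s H.hs n (H.hP1 n))
    (hρ11 A _ (algebraMap_phiAlpha A (M' * q) q) _ _)
    (hρ13 A _ (algebraMap_phiAlpha A (M' * q) q) hq hA _ _)
    (hρ22 A _ (algebraMap_phiAlpha A (M' * q) q) hq hqM _ _)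
    (hρ11' A _ (algebraMap_phiBeta A (M' * q) q) _ _)
    (hρ22' A _ (algebraMap_phiBeta A (M' * q) q) hq hqM _ _)
    (hρ23' A _ (algebraMap_phiBeta A (M' * q) q) hq hA hqM _ _)

variable (H : SsPts A hq hqM hA s)

@[simp] theorem buildK0_W1 : (buildK0 A hq hqM hA s H).W1 = RwK0 A (M' * q * q) := rfl

@[simp] theorem buildK0_W2 : (buildK0 A hq hqM hA s H).W2 =
    (redData2QK0 A (M' * q * q) (Fermat.Agent.GL.AL.hallDvd_sq M' hq hqM)).Rw := rfl

@[simp] theorem buildK0_W3 : (buildK0 A hq hqM hA s H).W3 = Rw3K0 A (M' * q * q) q := rfl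

@[simp] theorem buildK0_A1 : (buildK0 A hq hqM hA s H).A1 = RwK0 A (M' * q) := rfl

@[simp] theorem buildK0_A2 : (buildK0 A hq hqM hA s H).A2 =
    (redData2K0 A (M' * q) (Fermat.Agent.GL.W3Table.exactDvd_level hq hqM)).Rw := rfl

@[simp] theorem buildK0_Nm : (buildK0 A hq hqM hA s H).Nm = normAlphaK0 A M' q := rfl

@[simp] theorem buildK0_Nm' : (buildK0 A hq hqM hA s H).Nm' = normBetaK0 A M' q := rfl

@[simp] theorem buildK0_q : (buildK0 A hq hqM hA s H).q = q := rfl

theorem buildK0_rho1' : (buildK0 A hq hqM hA s H).rho1' =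
    rhoOf (RwK0 A (M' * q)) (redDataK0 A (M' * q)).red (algebraMap_BK0_mem_RwK0 A (M' * q)) :=
  rfl

theorem buildK0_rho2' : (buildK0 A hq hqM hA s H).rho2' =
    rhoOf (redData2K0 A (M' * q) (Fermat.Agent.GL.W3Table.exactDvd_level hq hqM)).Rw
      (redData2K0 A (M' * q) (Fermat.Agent.GL.W3Table.exactDvd_level hq hqM)).red
      (algebraMap_BK0_mem_Rw2K0 A (M' * q) _) := rfl

theorem buildK0_χ' (n' : PtType (RingHom.ker res₀) (jB A (M' * q)) s) :
    (buildK0 A hq hqM hA s H).χ' n' =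
      @chi (R0 A) k₀ (BK0 A (M' * q)) _ _ (isAlgClosed_residueField_R0 A hq hA) _ _ res₀
        residue_surjective (jB A (M' * q)) (isIntegral_adjoin_jB A (M' * q)) s n' := rfl

/-! #### the constants hypotheses `hc` of `TripleBuild.toSetup_hconst*` at `buildK0` -/

theorem buildK0_χ_algebraMap (n : PtType (RingHom.ker res₀) (jB A (M' * q * q)) s) (r : R0 A) :
    (buildK0 A hq hqM hA s H).χ n (algebraMap (R0 A) (BK0 A (M' * q * q)) r) = res₀ r :=
  haveI : IsAlgClosed k₀ := isAlgClosed_residueField_R0 A hq hA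
  chi_algebraMap res₀ residue_surjective (jB A (M' * q * q))
    (isIntegral_adjoin_jB A (M' * q * q)) n r

theorem buildK0_χ'_algebraMap (n' : PtType (RingHom.ker res₀) (jB A (M' * q)) s) (r : R0 A) :
    (buildK0 A hq hqM hA s H).χ' n' (algebraMap (R0 A) (BK0 A (M' * q)) r) = res₀ r :=
  haveI : IsAlgClosed k₀ := isAlgClosed_residueField_R0 A hq hA
  chi_algebraMap res₀ residue_surjective (jB A (M' * q)) (isIntegral_adjoin_jB A (M' * q)) n' r

theorem buildK0_hc1 : ∀ a : k₀, ∃ b : BK0 A (M' * q * q),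
    (buildK0 A hq hqM hA s H).rho1 b = algebraMap k₀ (FresK0 A (M' * q * q)) a ∧
      ∀ n, (buildK0 A hq hqM hA s H).χ n b = a :=
  hc_RwK0 A (M' * q * q) _ (buildK0_χ_algebraMap A hq hqM hA s H) _

theorem buildK0_hc2 : ∀ a : k₀, ∃ b : BK0 A (M' * q * q),
    (buildK0 A hq hqM hA s H).rho2 b = algebraMap k₀ (FresK0 A (M' * q * q)) a ∧
      ∀ n, (buildK0 A hq hqM hA s H).χ n b = a :=
  hc_Rw2QK0 A (M' * q * q) _ (buildK0_χ_algebraMap A hq hqM hA s H) _ _

theorem buildK0_hc3 : ∀ a : k₀, ∃ b : BK0 A (M' * q * q),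
    (buildK0 A hq hqM hA s H).rho3 b = algebraMap k₀ (Fres3K0 A (M' * q * q) q hq hA) a ∧
      ∀ n, (buildK0 A hq hqM hA s H).χ n b = a :=
  hc_RwCuspK0 A (M' * q * q) _ (buildK0_χ_algebraMap A hq hqM hA s H) _ hq hA _

theorem buildK0_hc1' : ∀ a : k₀, ∃ b : BK0 A (M' * q),
    (buildK0 A hq hqM hA s H).rho1' b = algebraMap k₀ (FresK0 A (M' * q)) a ∧
      ∀ n', (buildK0 A hq hqM hA s H).χ' n' b = a :=
  hc_RwK0 A (M' * q) _ (buildK0_χ'_algebraMap A hq hqM hA s H) _

theorem buildK0_hc2' : ∀ a : k₀, ∃ b : BK0 A (M' * q),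
    (buildK0 A hq hqM hA s H).rho2' b = algebraMap k₀ (FresK0 A (M' * q)) a ∧
      ∀ n', (buildK0 A hq hqM hA s H).χ' n' b = a :=
  hc_Rw2K0 A (M' * q) _ (buildK0_χ'_algebraMap A hq hqM hA s H) _ _

/-- **the `TripleSetup` over `K₀`**, for any proof of the two lower valuation-ring hypotheses. -/
def setupK0Of (hv : (buildK0 A hq hqM hA s H).Hval) :
    TripleSetup F₀ E₀ k₀ (FresK0 A (M' * q * q)) (FresK0 A (M' * q * q))
      (Fres3K0 A (M' * q * q) q hq hA) (FresK0 A (M' * q)) (FresK0 A (M' * q))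
      (BK0 A (M' * q * q))
      (PtType (RingHom.ker res₀) (jB A (M' * q * q)) s)
      (PtType (RingHom.ker res₀) (jB A (M' * q)) s) :=
  haveI : IsAlgClosed k₀ := isAlgClosed_residueField_R0 A hq hA
  (buildK0 A hq hqM hA s H).toSetup hv

variable (hv : (buildK0 A hq hqM hA s H).Hval)

@[simp] theorem setupK0Of_W1 : (setupK0Of A hq hqM hA s H hv).W1 = RwK0 A (M' * q * q) := rfl

@[simp] theorem setupK0Of_W2 : (setupK0Of A hq hqM hA s H hv).W2 =
    (redData2QK0 A (M' * q * q) (Fermat.Agent.GL.AL.hallDvd_sq M' hq hqM)).Rw := rfl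

@[simp] theorem setupK0Of_W3 : (setupK0Of A hq hqM hA s H hv).W3 = Rw3K0 A (M' * q * q) q := rfl

@[simp] theorem setupK0Of_A1 : (setupK0Of A hq hqM hA s H hv).A1 = RwK0 A (M' * q) := rfl

@[simp] theorem setupK0Of_A2 : (setupK0Of A hq hqM hA s H hv).A2 =
    (redData2K0 A (M' * q) (Fermat.Agent.GL.W3Table.exactDvd_level hq hqM)).Rw := rfl

@[simp] theorem setupK0Of_Nm : (setupK0Of A hq hqM hA s H hv).Nm = normAlphaK0 A M' q := rfl

@[simp] theorem setupK0Of_Nm' : (setupK0Of A hq hqM hA s H hv).Nm' = normBetaK0 A M' q := rfl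

@[simp] theorem setupK0Of_q : (setupK0Of A hq hqM hA s H hv).q = q := rfl

end Build

end K0

end Fermat.Agent.GL.BuildInstPts
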