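/-
GATE-L / LOWER-HVAL, SERIES form (helper66; hedge of feeder (iv) of GRAPH RULING 4): the lower
`Hval` input of helper40's `TripleBuild.BuildData.toSetup` — `locSub ρ χ` is a valuation subring of
the residue field `κ` — when the image `ρ(B)` is identified with a Dedekind domain `D` INSIDE one
big field `Λ` (`Λ = k((t))`, `θ = coeffMap ∘ coe`, `ψ = cVal`):

* `ρ : B →+* κ`, `χ : B →+* k`, `hker : ρ b = 0 → χ b = 0` (helper90's `BranchPoint` setting);
* `θ : κ →+* Λ`, `ψ : D →+* Λ` injective, `hout : ψ(D) ⊆ θ(ρ(B))` (`θ(ρ(B)) ⊆ ψ(D)` is NOT needed);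
* `hfrac` : every element of `κ` is a quotient of two elements of `D` (inside `Λ`);

(If `χ` is injective on `ρ(B)` the statement still holds: then `locSub ρ χ = κ`.)

No `Algebra D κ`, no `IsFractionRing` instance, no valuation subring in the hypotheses.

CONCRETE (`lowerHval_1`, `lowerHval_2` = `BuildData.Hval.h1/h2` of helper40's `TripleBuild`): level
`N0 = M' q`, `q ∥ N0`, `B'` ANY ring with `Algebra B' K₀(X₀(M' q))` whose image is helper96's
`BRingK0 M' q A h` (= `chartRing (R0 A) j` by `BRingChart`), `ρ_i'` the reductions of `B'` at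
`w₁' = redDataK0`, `w₂' = redData2K0` (helper67 `RowsInst` conventions, residue field
`FresK0 A (M' q)` over `k₀`), `D = CRing M' A`, `θ = coeffMap (resMapK0 A) ∘ coe`, `ψ = cVal`:
`hout` = helper96 `redC1K0_surjective` / helper65 `redC2K0_surjective`, `hfrac` = helper45
`FresK0_eq_fullC_exact` + `HrangeK0.exists_cVal_eq`.
-/
import Fermat.Agent.GL.Frame.BranchPoint
import Fermat.Agent.GL.Frame.HvalOfOldDedekind
import Fermat.Agent.GL.Red.BRingK0
import Fermat.Agent.GL.Frame.NodeSS_K0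
import Fermat.Agent.GL.Val.HrangeK0
import Fermat.Agent.GL.Val.ResK0

set_option autoImplicit false

noncomputable section

namespace Fermat.Agent.GL.Final.LowerHvalS

open HahnSeries ModularCurve IsLocalRing
open Fermat.Agent.GJ.J1 Fermat.Agent.GJ.J1.Val
open Fermat.Agent.GK.AL Fermat.Agent.GK.QS
open Fermat.Agent.GL.Val.GaussK0 Fermat.Agent.GL.Val.SecondK0 Fermat.Agent.GL.Val.OrthK0
open Fermat.Agent.GL.Val.ResK0 Fermat.Agent.GL.Val.HrangeK0
open Fermat.Agent.GL.BRingK0
open Fermat.Agent.Common_helper32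
open Fermat.Agent.GL.BranchPoint Fermat.Agent.GL.Frame.HvalOfOldDedekind

section Generic

variable {B κ k Λ D : Type*} [CommRing B] [Field κ] [Field k] [Field Λ] [CommRing D]
  [IsDedekindDomain D]

/-- **`hval` of `BranchPoint.locVal`, series form**: `ρ(B) ≅ D` Dedekind inside `Λ`. -/
theorem hval_locSub_of_series (ρ : B →+* κ) (χ : B →+* k) (hker : ∀ b, ρ b = 0 → χ b = 0)
    (θ : κ →+* Λ) (ψ : D →+* Λ) (hψ : Function.Injective ψ)
    (hout : ∀ c : D, ∃ b : B, θ (ρ b) = ψ c)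
    (hfrac : ∀ y : κ, ∃ c d : D, d ≠ 0 ∧ θ y * ψ d = ψ c) (y : κ) :
    y ∈ locSub ρ χ ∨ y⁻¹ ∈ locSub ρ χ := by
  have hθ : Function.Injective θ := θ.injective
  -- the prime of `D` cut out by `χ`
  let P : Ideal D :=
    { carrier := {c | ∀ b : B, θ (ρ b) = ψ c → χ b = 0}
      add_mem' := by
        intro c₁ c₂ h₁ h₂ b hb
        obtain ⟨b₁, e₁⟩ := hout c₁
        obtain ⟨b₂, e₂⟩ := hout c₂
        have : ρ (b - (b₁ + b₂)) = 0 := by
          apply hθ
          rw [map_sub, map_add, map_sub, map_add, hb, e₁, e₂, map_add, sub_self, map_zero]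
        have h0 := hker _ this
        rw [map_sub, map_add, h₁ b₁ e₁, h₂ b₂ e₂, add_zero, sub_zero] at h0
        exact h0
      zero_mem' := by
        intro b hb
        apply hker
        apply hθ
        rw [hb, map_zero, map_zero]
      smul_mem' := by
        intro d c hc b hb
        obtain ⟨b₁, e₁⟩ := hout c
        obtain ⟨b₂, e₂⟩ := hout d
        have : ρ (b - b₂ * b₁) = 0 := by
          apply hθ
          rw [map_sub, map_mul, map_sub, map_mul, hb, e₁, e₂, smul_eq_mul, map_mul, sub_self,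
            map_zero]
        have h0 := hker _ this
        rw [map_sub, map_mul, hc b₁ e₁, mul_zero, sub_zero] at h0
        exact h0 }
  have hP : ∀ c : D, c ∈ P ↔ ∀ b : B, θ (ρ b) = ψ c → χ b = 0 := fun _ => Iff.rfl
  -- membership can be tested on ONE lift
  have hP1 : ∀ (c : D) (b : B), θ (ρ b) = ψ c → (c ∈ P ↔ χ b = 0) := by
    intro c b hb
    refine ⟨fun h => h b hb, fun h b' hb' => ?_⟩
    have : ρ (b' - b) = 0 := by
      apply hθ
      rw [map_sub, map_sub, hb, hb', sub_self, map_zero]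
    have h0 := hker _ this
    rw [map_sub, h, sub_zero] at h0
    exact h0
  have hPprime : P.IsPrime := by
    refine ⟨?_, ?_⟩
    · intro htop
      have h1 : (1 : D) ∈ P := by rw [htop]; trivial
      have := (hP1 1 1 (by rw [map_one, map_one, map_one])).1 h1
      rw [map_one] at this
      exact one_ne_zero this
    · intro c d hcd
      obtain ⟨b₁, e₁⟩ := hout c
      obtain ⟨b₂, e₂⟩ := hout d
      have h12 : θ (ρ (b₁ * b₂)) = ψ (c * d) := by rw [map_mul, map_mul, map_mul, e₁, e₂]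
      have h0 := (hP1 _ _ h12).1 hcd
      rw [map_mul] at h0
      rcases mul_eq_zero.mp h0 with h | h
      · exact Or.inl ((hP1 c b₁ e₁).2 h)
      · exact Or.inr ((hP1 d b₂ e₂).2 h)
  obtain ⟨c, d, hd, hy⟩ := hfrac y
  obtain ⟨c₀, s₀, hs₀, h⟩ := exists_mul_eq_mul_of_isDedekindDomain P c d
  obtain ⟨a, ea⟩ := hout c₀
  obtain ⟨s, es⟩ := hout s₀
  have hχs : χ s ≠ 0 := fun h0 => hs₀ ((hP1 s₀ s es).2 h0)
  have hψd : ψ d ≠ 0 := fun h0 => hd (hψ (by rw [h0, map_zero]))
  by_cases hc : c = 0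
  · -- `y = 0`
    left
    have : y = 0 := by
      apply hθ
      rw [hc, map_zero] at hy
      rcases mul_eq_zero.mp hy with h0 | h0
      · rw [h0, map_zero]
      · exact absurd h0 hψd
    rw [this]
    exact (locSub ρ χ).zero_mem
  have hψc : ψ c ≠ 0 := fun h0 => hc (hψ (by rw [h0, map_zero]))
  rcases h with h | h
  · -- `s₀ c = c₀ d`: `y = c₀ / s₀`
    left
    refine ⟨a, s, hχs, ?_⟩
    apply hθ
    rw [map_mul, ea, es]
    have h' : ψ s₀ * ψ c = ψ c₀ * ψ d := by rw [← map_mul, ← map_mul, h]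
    have : θ y * ψ s₀ * ψ d = ψ c₀ * ψ d := by rw [mul_right_comm, hy, mul_comm, h']
    exact mul_right_cancel₀ hψd this
  · -- `s₀ d = c₀ c`: `y⁻¹ = c₀ / s₀`
    right
    refine ⟨a, s, hχs, ?_⟩
    apply hθ
    rw [map_mul, map_inv₀, ea, es]
    have h' : ψ s₀ * ψ d = ψ c₀ * ψ c := by rw [← map_mul, ← map_mul, h]
    have hy0 : θ y ≠ 0 := by
      intro h0
      rw [h0, zero_mul] at hy
      exact hψc hy.symm
    have : (θ y)⁻¹ * ψ s₀ * ψ c = ψ c₀ * ψ c := by
      calc (θ y)⁻¹ * ψ s₀ * ψ c = (θ y)⁻¹ * ψ s₀ * (θ y * ψ d) := by rw [hy]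
        _ = ψ s₀ * ψ d := by field_simp
        _ = ψ c₀ * ψ c := h'
    exact mul_right_cancel₀ hψc this

end Generic

/-! ### the concrete call at level `M' q` over `K₀` -/

section Concrete

variable {q M' : ℕ} [NeZero q] [NeZero M'] [Fact q.Prime] (A : ValuationSubring Qb)
  (h : ExactDvd q (M' * q)) (hqM : ¬ q ∣ M') (hA : A.LiesOverPrime q)
  (h2 : q = 2 → 3 ∣ M') (h3 : q = 3 → 2 ∣ M')

local notation "k₀" => ResidueField (R0 A)
local notation "kA" => ResidueField A
local notation "E0" => modularFunctionFieldFullC (K0 A) (M' * q)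

/-- `θ : k(w_i') → k((t))`, coefficientwise along `k₀ ≃ k` -/
def theta : FresK0 A (M' * q) →+* LaurentSeries kA :=
  (coeffMap (resMapK0 A)).comp (FresK0 A (M' * q)).val.toRingHom

theorem theta_apply (y : FresK0 A (M' * q)) :
    theta (q := q) (M' := M') A y = coeffMap (resMapK0 A) (y : LaurentSeries k₀) := rfl

include h hqM hA in
/-- every element of the lower residue field is a quotient of elements of `CRing M' A` -/
theorem hfrac_lower (y : FresK0 A (M' * q)) :
    ∃ c d : CRing M' A, d ≠ 0 ∧ theta (q := q) (M' := M') A y * cVal M' A d = cVal M' A c := by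
  have hq : q.Prime := Fact.out
  have hy : (y : LaurentSeries k₀) ∈ modularFunctionFieldFullC k₀ M' := by
    have e := FresK0_eq_fullC_exact A (M' * q) hA h
    rw [Nat.mul_div_cancel M' hq.pos] at e
    rw [← e]
    exact y.2
  exact exists_cVal_eq A ⟨_, coeffMap_fullC_mem_FresBar A hq hqM hA hy⟩

/-- `θ (red₁' x0) = cVal (redC1K0 x0)` -/
theorem theta_red1 (x0 : BRingK0 M' q A h) (hx : (x0 : E0) ∈ RwK0 A (M' * q)) :
    theta (q := q) (M' := M') A ((redDataK0 A (M' * q)).red ⟨x0, hx⟩) =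
      cVal M' A (redC1K0 h hqM hA x0) := by
  rw [cVal_redC1K0, rho1_apply, theta_apply]
  exact (coe_red1K0 A (M' * q) (x0 : E0) hx _).symm

/-- `θ (red₂' x0) = cVal (redC2K0 x0)` -/
theorem theta_red2 (x0 : BRingK0 M' q A h) (hx : (x0 : E0) ∈ (redData2K0 A (M' * q) h).Rw) :
    theta (q := q) (M' := M') A ((redData2K0 A (M' * q) h).red ⟨x0, hx⟩) =
      cVal M' A (redC2K0 h hqM hA x0) := by
  rw [cVal_redC2K0, rho2_apply, theta_apply]
  exact (coe_red2K0 A (M' * q) h (x0 : E0) hx _).symm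

variable {B' k : Type*} [CommRing B'] [Algebra B' (modularFunctionFieldFullC (K0 A) (M' * q))]
  [Field k]
  (hB' : ∀ x : modularFunctionFieldFullC (K0 A) (M' * q),
    x ∈ Set.range (algebraMap B' (modularFunctionFieldFullC (K0 A) (M' * q))) ↔
      x ∈ BRingK0 M' q A h)

include h hB' hqM hA h2 h3 in
/-- **LOWER-HVAL at `w₁'`** (`BuildData.Hval.h1`): `locSub ρ₁' χ'` is a valuation subring of
`k(w₁')`, for the reduction `ρ₁'` of the lower chart ring `B' = BRingK0` and every character `χ'`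
of `B'` through a closed point of the component. -/
theorem lowerHval_1 (ρ : B' →+* FresK0 A (M' * q))
    (hρ : ∀ (b : B') (hb : algebraMap B' E0 b ∈ RwK0 A (M' * q)),
      ρ b = (redDataK0 A (M' * q)).red ⟨algebraMap B' E0 b, hb⟩)
    (χ : B' →+* k) (hker : ∀ b, ρ b = 0 → χ b = 0) (y : FresK0 A (M' * q)) :
    y ∈ locSub ρ χ ∨ y⁻¹ ∈ locSub ρ χ := by
  have hD : IsDedekindDomain (CRing M' A) :=
    Fermat.Agent.GK.SS.Modular.isDedekindDomain_CRing M' q A hA
  refine hval_locSub_of_series ρ χ hker (theta (q := q) (M' := M') A) (cVal M' A).toRingHom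
    (cVal_injective M' A) ?_ (hfrac_lower A h hqM hA) y
  intro c
  obtain ⟨x0, hx0⟩ := redC1K0_surjective h hqM hA h2 h3 c
  obtain ⟨b, hb⟩ := (hB' (x0 : E0)).2 x0.2
  have hx : (x0 : E0) ∈ RwK0 A (M' * q) := (mem_BRingK0.1 x0.2).2.1
  have hb' : algebraMap B' E0 b ∈ RwK0 A (M' * q) := hb ▸ hx
  refine ⟨b, ?_⟩
  rw [hρ b hb']
  have e : (⟨algebraMap B' E0 b, hb'⟩ : (redDataK0 A (M' * q)).Rw) = ⟨(x0 : E0), hx⟩ :=
    Subtype.ext hb
  rw [e, theta_red1 A h hqM hA x0 hx, hx0]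
  rfl

include h hB' hqM hA h2 h3 in
/-- **LOWER-HVAL at `w₂'`** (`BuildData.Hval.h2`). -/
theorem lowerHval_2 (ρ : B' →+* FresK0 A (M' * q))
    (hρ : ∀ (b : B') (hb : algebraMap B' E0 b ∈ (redData2K0 A (M' * q) h).Rw),
      ρ b = (redData2K0 A (M' * q) h).red ⟨algebraMap B' E0 b, hb⟩)
    (χ : B' →+* k) (hker : ∀ b, ρ b = 0 → χ b = 0) (y : FresK0 A (M' * q)) :
    y ∈ locSub ρ χ ∨ y⁻¹ ∈ locSub ρ χ := by
  have hD : IsDedekindDomain (CRing M' A) :=
    Fermat.Agent.GK.SS.Modular.isDedekindDomain_CRing M' q A hA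
  refine hval_locSub_of_series ρ χ hker (theta (q := q) (M' := M') A) (cVal M' A).toRingHom
    (cVal_injective M' A) ?_ (hfrac_lower A h hqM hA) y
  intro c
  obtain ⟨x0, hx0⟩ := Fermat.Agent.GL.Thick.redC2K0_surjective (h := h) hqM hA h2 h3 c
  obtain ⟨b, hb⟩ := (hB' (x0 : E0)).2 x0.2
  have hx : (x0 : E0) ∈ (redData2K0 A (M' * q) h).Rw := (mem_BRingK0.1 x0.2).2.2
  have hb' : algebraMap B' E0 b ∈ (redData2K0 A (M' * q) h).Rw := hb ▸ hx
  refine ⟨b, ?_⟩
  rw [hρ b hb']
  have e : (⟨algebraMap B' E0 b, hb'⟩ : (redData2K0 A (M' * q) h).Rw) = ⟨(x0 : E0), hx⟩ :=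
    Subtype.ext hb
  rw [e, theta_red2 A h hqM hA x0 hx, hx0]
  rfl

end Concrete

end Fermat.Agent.GL.Final.LowerHvalS
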