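/-
GATE-L / LOWER-HVAL at the chart ring of helper40's `BuildInst` (helper66): the two lower `Hval`
inputs of `TripleBuild.BuildData.toSetup` at `B' := BK0 A (M' * q) = chartRing (R0 A) j`
(`= BRingK0 M' q A h` by helper96 `bRingK0_eq_chartRing`), `ρ_1' := rhoOf (RwK0 …) red₁' …`,
`ρ_2' := rhoOf (Rw₂ …) red₂' …` — `LowerHvalSeries.lowerHval_1/2` with `hB'`, `hρ` discharged.
-/
import Fermat.Agent.GL.Final.LowerHvalSeries
import Fermat.Agent.GL.Final.BuildInst
import Fermat.Agent.GL.Red.BRingChart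

set_option autoImplicit false

noncomputable section

namespace Fermat.Agent.GL.Final.LowerHvalS

open ModularCurve
open Fermat.Agent.GJ.J1 Fermat.Agent.GK.AL
open Fermat.Agent.GL.Val.GaussK0 Fermat.Agent.GL.Val.SecondK0
open Fermat.Agent.GL.BRingK0 Fermat.Agent.GL.BRingChart Fermat.Agent.GL.BranchPoint
open Fermat.Agent.GL.BuildInst Fermat.Agent.GL.TripleBuild
open Fermat.Agent.Common_helper32

attribute [local instance 2000] instAlgBK0FullC

variable {q M' : ℕ} [NeZero q] [NeZero M'] [Fact q.Prime] (A : ValuationSubring Qb)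
  (h : ExactDvd q (M' * q)) (hqM : ¬ q ∣ M') (hA : A.LiesOverPrime q)
  (h2 : q = 2 → 3 ∣ M') (h3 : q = 3 → 2 ∣ M')

include hA in
/-- the image of `BK0 A (M' q)` is `BRingK0 M' q A h` -/
theorem range_BK0 (x : modularFunctionFieldFullC (K0 A) (M' * q)) :
    x ∈ Set.range (algebraMap (BK0 A (M' * q)) (modularFunctionFieldFullC (K0 A) (M' * q))) ↔
      x ∈ BRingK0 M' q A h := by
  rw [bRingK0_eq_chartRing h hA]
  constructor
  · rintro ⟨b, rfl⟩
    exact b.2
  · intro hx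
    exact ⟨⟨x, hx⟩, rfl⟩

variable {k : Type*} [Field k]

include h hqM hA h2 h3 in
/-- **`BuildData.Hval.h1` at `B' = BK0 A (M' q)`** -/
theorem lowerHval_1_BK0
    (hBA1 : ∀ b : BK0 A (M' * q),
      algebraMap (BK0 A (M' * q)) (modularFunctionFieldFullC (K0 A) (M' * q)) b ∈ RwK0 A (M' * q))
    (χ : BK0 A (M' * q) →+* k)
    (hker : ∀ b, rhoOf (RwK0 A (M' * q)) (redDataK0 A (M' * q)).red hBA1 b = 0 → χ b = 0)
    (y : FresK0 A (M' * q)) :
    y ∈ locSub (rhoOf (RwK0 A (M' * q)) (redDataK0 A (M' * q)).red hBA1) χ ∨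
      y⁻¹ ∈ locSub (rhoOf (RwK0 A (M' * q)) (redDataK0 A (M' * q)).red hBA1) χ :=
  lowerHval_1 A h hqM hA h2 h3 (range_BK0 A h hA) _ (fun _ _ => rfl) χ hker y

include h hqM hA h2 h3 in
/-- **`BuildData.Hval.h2` at `B' = BK0 A (M' q)`** -/
theorem lowerHval_2_BK0
    (hBA2 : ∀ b : BK0 A (M' * q),
      algebraMap (BK0 A (M' * q)) (modularFunctionFieldFullC (K0 A) (M' * q)) b ∈
        (redData2K0 A (M' * q) h).Rw)
    (χ : BK0 A (M' * q) →+* k)
    (hker : ∀ b, rhoOf (redData2K0 A (M' * q) h).Rw (redData2K0 A (M' * q) h).red hBA2 b = 0 →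
      χ b = 0)
    (y : FresK0 A (M' * q)) :
    y ∈ locSub (rhoOf (redData2K0 A (M' * q) h).Rw (redData2K0 A (M' * q) h).red hBA2) χ ∨
      y⁻¹ ∈ locSub (rhoOf (redData2K0 A (M' * q) h).Rw (redData2K0 A (M' * q) h).red hBA2) χ :=
  lowerHval_2 A h hqM hA h2 h3 (range_BK0 A h hA) _ (fun _ _ => rfl) χ hker y

end Fermat.Agent.GL.Final.LowerHvalS
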