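/-
GATE-L / TRIPLE-INST-K0 (helper36; helper31 GRAPH RULING 4 = 3158, helper39 RULING 3 = 3223 (S)):
the CONCRETE `H4OfXi.TripleSetup` over `K₀` at the levels `M' q q`, `M' q` — the FINAL call

  `setupK0 A hq hqM hA h2 h3 H := setupK0Of A hq hqM hA (sK0 A hq) H (hvalK0 …)`

of helper40 `BuildInstPts.setupK0Of` (`buildOfPoints` with helper67 `RowsInst`/`RowsSquares`,
helper40 `BuildInst`, helper31 `ResChar` plugged) at

* `s := sK0 A hq = (intSsPolyAll q).map (ℤ → R₀)` — helper63's FIXED monic lift of the supersingular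
  polynomial (`monic_sK0`, `sK0_map`), so that `T`, `T'` are finite (`finite_TK0`, `finite_TK0'`);
* `hv := hvalK0 …` — the two lower valuation-ring hypotheses, helper66 `lowerHval_1_BK0`,
  `lowerHval_2_BK0`;

the ONLY residual hypothesis being `H : SsPts A hq hqM hA (sK0 A hq)` ("the supersingular points lie
on all the components", helper47 HKER-ADAPTER; `ssPts_of` assembles it from the five non-units
statements).

`rfl`-ties: `setupK0_W1 _W2 _W3 _A1 _A2 _Nm _Nm' _q`, `setupK0_χ_algebraMap` (helper29 `hχR0`),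
`setupK0_P`.
-/
import Fermat.Agent.GL.Final.BuildInstPts
import Fermat.Agent.GL.Final.LowerHvalBK0
import Fermat.Agent.GL.Thick.HasseMapAll

set_option autoImplicit false
set_option linter.unusedSectionVars false
set_option linter.unusedVariables false
set_option linter.style.haveILetI false

noncomputable section

namespace Fermat.Agent.GL.Final.TripleInstK0

open Polynomial HahnSeries ModularCurve IsLocalRing
open Fermat.Agent.GJ.J1
open Fermat.Agent.GL.H4OfXi Fermat.Agent.GL.TripleBuild Fermat.Agent.GL.BuildInst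
open Fermat.Agent.GL.BuildInstPts
open Fermat.Agent.GL.Final.TriplePoints Fermat.Agent.GL.Final.TripleBuildPoints
open Fermat.Agent.GL.Final.RowsInst
open Fermat.Agent.GL.Val.GaussK0 Fermat.Agent.GL.Val.SecondK0 Fermat.Agent.GL.Val.SecondK0Hall
open Fermat.Agent.GL.Val.ThirdK0 Fermat.Agent.GL.Val.CuspK0 Fermat.Agent.GL.Val.DegBase
open Fermat.Agent.GL.Val.OrthK0
open Fermat.Agent.GL.Table.K0
open Fermat.Agent.GL.SmallQ Fermat.Agent.GL.Thick
open Fermat.Agent.Common_helper32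

attribute [local instance 2000] instAlgR0FullC instAlgBK0FullC instAlgR0BK0

variable (A : ValuationSubring Qb)

local notation "k₀" => ResidueField (R0 A)
local notation "res₀" => residue (R0 A)

/-! ### the fixed monic lift of the supersingular polynomial -/

/-- **the supersingular polynomial over `R₀`**: helper63's fixed monic integer lift. -/
def sK0 {q : ℕ} (hq : q.Prime) : (R0 A)[X] :=
  (@intSsPolyAll q ⟨hq⟩).map (Int.castRingHom (R0 A))

theorem monic_sK0 {q : ℕ} (hq : q.Prime) : (sK0 A hq).Monic :=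
  (@monic_intSsPolyAll q ⟨hq⟩).map _

theorem sK0_map {q : ℕ} (hq : q.Prime) (hA : (q : Qb) ∈ A.nonunits) :
    (sK0 A hq).map res₀ = @ssPolyAll q ⟨hq⟩ k₀ _ (charP_k0 A hq hA) :=
  haveI : Fact q.Prime := ⟨hq⟩
  haveI : CharP k₀ q := charP_k0 A hq hA
  intSsPolyAll_map_map q k₀ res₀

variable {M' q : ℕ} [NeZero q] [NeZero M']
  (hq : q.Prime) (hqM : ¬ q ∣ M') (hA : (q : Qb) ∈ A.nonunits)

local notation "F₀" => modularFunctionFieldFullC (K0 A) (M' * q * q)
local notation "E₀" => modularFunctionFieldFullC (K0 A) (M' * q)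

/-- the upper triple points. -/
abbrev TK0 (A : ValuationSubring Qb) (M' : ℕ) {q : ℕ} [NeZero q] [NeZero M'] (hq : q.Prime) :
    Type :=
  PtType (RingHom.ker (residue (R0 A))) (jB A (M' * q * q)) (sK0 A hq)

/-- the lower double points. -/
abbrev TK0' (A : ValuationSubring Qb) (M' : ℕ) {q : ℕ} [NeZero q] [NeZero M'] (hq : q.Prime) :
    Type :=
  PtType (RingHom.ker (residue (R0 A))) (jB A (M' * q)) (sK0 A hq)

include hA in
theorem finite_TK0 : Finite (TK0 A M' hq) :=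
  finite_ptType_BK0 A hA (M' * q * q) hq (monic_sK0 A hq)

include hA in
theorem finite_TK0' : Finite (TK0' A M' hq) :=
  finite_ptType_BK0 A hA (M' * q) hq (monic_sK0 A hq)

/-! ### `SsPts` from the five non-units statements -/

/-- `SsPts` at the fixed lift `sK0`, from the five statements "the non-units of the vertical
valuation rings lie in every supersingular point" (helper47 HKER-ADAPTER). -/
theorem ssPts_of
    (hP1 : ∀ (n : TK0 A M' hq) (b : BK0 A (M' * q * q)),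
      algebraMap (BK0 A (M' * q * q)) F₀ b ∈ (R1 A M' q).Rw.nonunits → b ∈ ptIdeal n)
    (hP2 : ∀ (n : TK0 A M' hq) (b : BK0 A (M' * q * q)),
      algebraMap (BK0 A (M' * q * q)) F₀ b ∈ (R2 A hq hqM).Rw.nonunits → b ∈ ptIdeal n)
    (hP3 : ∀ (n : TK0 A M' hq) (b : BK0 A (M' * q * q)),
      algebraMap (BK0 A (M' * q * q)) F₀ b ∈ (R3 A M' hq hA).Rw.nonunits → b ∈ ptIdeal n)
    (hP1' : ∀ (n' : TK0' A M' hq) (b : BK0 A (M' * q)),
      algebraMap (BK0 A (M' * q)) E₀ b ∈ (R1' A M' q).Rw.nonunits → b ∈ ptIdeal n')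
    (hP2' : ∀ (n' : TK0' A M' hq) (b : BK0 A (M' * q)),
      algebraMap (BK0 A (M' * q)) E₀ b ∈ (R2' A hq hqM).Rw.nonunits → b ∈ ptIdeal n') :
    SsPts A hq hqM hA (sK0 A hq) :=
  ⟨sK0_map A hq hA, hP1, hP2, hP3, hP1', hP2'⟩

/-! ### the two lower valuation-ring hypotheses -/

section Setup

variable (h2 : q = 2 → 3 ∣ M') (h3 : q = 3 → 2 ∣ M') (s : (R0 A)[X])
  (H : SsPts A hq hqM hA s)

include h2 h3 in
theorem hvalK0_1 (n' : PtType (RingHom.ker res₀) (jB A (M' * q)) s) (y : FresK0 A (M' * q)) :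
    y ∈ Fermat.Agent.GL.BranchPoint.locSub (buildK0 A hq hqM hA s H).rho1'
        ((buildK0 A hq hqM hA s H).χ' n') ∨
      y⁻¹ ∈ Fermat.Agent.GL.BranchPoint.locSub (buildK0 A hq hqM hA s H).rho1'
        ((buildK0 A hq hqM hA s H).χ' n') := by
  haveI : Fact q.Prime := ⟨hq⟩
  have key := Fermat.Agent.GL.Final.LowerHvalS.lowerHval_1_BK0 A
      (Fermat.Agent.GL.W3Table.exactDvd_level hq hqM) hqM hA h2 h3
      (algebraMap_BK0_mem_RwK0 A (M' * q)) ((buildK0 A hq hqM hA s H).χ' n')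
  rw [buildK0_rho1']
  exact key ((buildK0 A hq hqM hA s H).hker1' n') y

include h2 h3 in
theorem hvalK0_2 (n' : PtType (RingHom.ker res₀) (jB A (M' * q)) s) (y : FresK0 A (M' * q)) :
    y ∈ Fermat.Agent.GL.BranchPoint.locSub (buildK0 A hq hqM hA s H).rho2'
        ((buildK0 A hq hqM hA s H).χ' n') ∨
      y⁻¹ ∈ Fermat.Agent.GL.BranchPoint.locSub (buildK0 A hq hqM hA s H).rho2'
        ((buildK0 A hq hqM hA s H).χ' n') := by
  haveI : Fact q.Prime := ⟨hq⟩
  have key := Fermat.Agent.GL.Final.LowerHvalS.lowerHval_2_BK0 A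
      (Fermat.Agent.GL.W3Table.exactDvd_level hq hqM) hqM hA h2 h3
      (algebraMap_BK0_mem_Rw2K0 A (M' * q) _) ((buildK0 A hq hqM hA s H).χ' n')
  rw [buildK0_rho2']
  exact key ((buildK0 A hq hqM hA s H).hker2' n') y

include h2 h3 in
/-- **`BuildData.Hval` at `buildK0`** (helper66 `lowerHval_1_BK0`, `lowerHval_2_BK0`). -/
theorem hvalK0 : (buildK0 A hq hqM hA s H).Hval :=
  ⟨hvalK0_1 A hq hqM hA h2 h3 s H, hvalK0_2 A hq hqM hA h2 h3 s H⟩

end Setup

/-! ### the concrete `TripleSetup` -/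

section Final

variable (h2 : q = 2 → 3 ∣ M') (h3 : q = 3 → 2 ∣ M')
  (H : SsPts A hq hqM hA (sK0 A hq))

/-- **the concrete `BuildData` over `K₀`** at the fixed lift `sK0`. -/
abbrev buildDataK0 :
    BuildData F₀ E₀ k₀ (FresK0 A (M' * q * q)) (FresK0 A (M' * q * q))
      (Fres3K0 A (M' * q * q) q hq hA) (FresK0 A (M' * q)) (FresK0 A (M' * q))
      (BK0 A (M' * q * q)) (BK0 A (M' * q)) (TK0 A M' hq) (TK0' A M' hq) :=
  buildK0 A hq hqM hA (sK0 A hq) H

/-- **the concrete `TripleSetup` over `K₀`** (`S` of helper39's `ArmPkg`/`LevelPkg`). -/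
def setupK0 :
    TripleSetup F₀ E₀ k₀ (FresK0 A (M' * q * q)) (FresK0 A (M' * q * q))
      (Fres3K0 A (M' * q * q) q hq hA) (FresK0 A (M' * q)) (FresK0 A (M' * q))
      (BK0 A (M' * q * q)) (TK0 A M' hq) (TK0' A M' hq) :=
  setupK0Of A hq hqM hA (sK0 A hq) H (hvalK0 A hq hqM hA h2 h3 (sK0 A hq) H)

theorem setupK0_eq : setupK0 A hq hqM hA h2 h3 H =
    setupK0Of A hq hqM hA (sK0 A hq) H (hvalK0 A hq hqM hA h2 h3 (sK0 A hq) H) := rfl

theorem setupK0_eq_toSetup :
    setupK0 A hq hqM hA h2 h3 H =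
      @BuildData.toSetup _ _ _ _ _ _ _ _ _ _ _ _ _ _ _ _ _ _ _ _ _ _ _ _
        (buildDataK0 A hq hqM hA H) (isAlgClosed_residueField_R0 A hq hA)
        (hvalK0 A hq hqM hA h2 h3 (sK0 A hq) H) := rfl

@[simp] theorem setupK0_W1 : (setupK0 A hq hqM hA h2 h3 H).W1 = RwK0 A (M' * q * q) := rfl

@[simp] theorem setupK0_W2 : (setupK0 A hq hqM hA h2 h3 H).W2 =
    (redData2QK0 A (M' * q * q) (Fermat.Agent.GL.AL.hallDvd_sq M' hq hqM)).Rw := rfl

@[simp] theorem setupK0_W3 : (setupK0 A hq hqM hA h2 h3 H).W3 = Rw3K0 A (M' * q * q) q := rfl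

@[simp] theorem setupK0_A1 : (setupK0 A hq hqM hA h2 h3 H).A1 = RwK0 A (M' * q) := rfl

@[simp] theorem setupK0_A2 : (setupK0 A hq hqM hA h2 h3 H).A2 =
    (redData2K0 A (M' * q) (Fermat.Agent.GL.W3Table.exactDvd_level hq hqM)).Rw := rfl

@[simp] theorem setupK0_Nm : (setupK0 A hq hqM hA h2 h3 H).Nm = normAlphaK0 A M' q := rfl

@[simp] theorem setupK0_Nm' : (setupK0 A hq hqM hA h2 h3 H).Nm' = normBetaK0 A M' q := rfl

@[simp] theorem setupK0_q : (setupK0 A hq hqM hA h2 h3 H).q = q := rfl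

/-- the reductions are helper67's `RowsInst` reductions. -/
theorem setupK0_rd1 : (setupK0 A hq hqM hA h2 h3 H).rd1 = (R1 A M' q).red := rfl
theorem setupK0_rd2 : (setupK0 A hq hqM hA h2 h3 H).rd2 = (R2 A hq hqM).red := rfl
theorem setupK0_rd3 : (setupK0 A hq hqM hA h2 h3 H).rd3 = (R3 A M' hq hA).red := rfl

/-- the points are the ideals `ptIdeal n`. -/
theorem setupK0_P (n : TK0 A M' hq) : (setupK0 A hq hqM hA h2 h3 H).P n = ptIdeal n := rfl

/-- `s(j) ∈ P n` at every point. -/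
theorem aeval_mem_setupK0_P (n : TK0 A M' hq) :
    aeval (jB A (M' * q * q)) (sK0 A hq) ∈ (setupK0 A hq hqM hA h2 h3 H).P n :=
  aeval_mem_ptIdeal n

/-- `q ∈ P n` at every point. -/
theorem natCast_mem_setupK0_P (n : TK0 A M' hq) :
    ((q : ℕ) : BK0 A (M' * q * q)) ∈ (setupK0 A hq hqM hA h2 h3 H).P n :=
  natCast_mem_ptIdeal A hA (M' * q * q) n

/-- **every supersingular point of the special fibre is one of the `P n`**. -/
theorem exists_eq_setupK0_P (𝔫 : Ideal (BK0 A (M' * q * q))) (h𝔫 : 𝔫.IsMaximal)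
    (hm : ∀ r : R0 A, res₀ r = 0 → algebraMap (R0 A) (BK0 A (M' * q * q)) r ∈ 𝔫)
    (hs : aeval (jB A (M' * q * q)) (sK0 A hq) ∈ 𝔫) :
    ∃ n : TK0 A M' hq, 𝔫 = (setupK0 A hq hqM hA h2 h3 H).P n :=
  ⟨⟨𝔫, h𝔫, fun r hr => hm r ((RingHom.mem_ker).1 hr), hs⟩, rfl⟩

/-- the characters are `R₀`-linear over the residue map (helper29 `hχR0`). -/
theorem setupK0_χ_algebraMap (n : TK0 A M' hq) (r : R0 A) :
    (setupK0 A hq hqM hA h2 h3 H).χ n (algebraMap (R0 A) (BK0 A (M' * q * q)) r) = res₀ r :=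
  buildK0_χ_algebraMap A hq hqM hA (sK0 A hq) H n r

end Final

end Fermat.Agent.GL.Final.TripleInstK0
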