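/-
GATE-L / TRIPLE-INST-K0, FINAL (helper36; helper39 RULING 3 = 3223 (S), `ArmPkg` of 3323):
the HYPOTHESIS-FREE concrete `H4OfXi.TripleSetup` over `K₀` at a good level

  `setupK0Thm A hq hqM hA h2 h3 hr hrM hr3 hr4 := setupK0 A hq hqM hA h2 h3 (ssPtsK0 …)`

with `ssPtsK0 … : SsPts A hq hqM hA (sK0 A hq)` := helper47 `ClassifyK0Ker.ssPts_K0` ("the
supersingular points lie on all the components") at helper63's fixed monic lift `sK0`.

Inputs = arithmetic only: `hq : q.Prime`, `hqM : ¬ q ∣ M'`, `hA : (q : Qb) ∈ A.nonunits`,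
`h2 : q = 2 → 3 ∣ M'`, `h3 : q = 3 → 2 ∣ M'`, an auxiliary prime `r ∣ M'` with `r % 3 = 2`,
`r % 4 = 3` (helper48 `GoodAuxFacts.exists_bottom`).

* `rfl`-ties `setupK0Thm_W1 _W2 _W3 _Nm _Nm' _q` (helper39 contract);
* `armPkgK0 … H4 H5 : GeomFacts.ArmPkg A (M' * q) q m1` — helper39's package with the `S`-side
  filled (`hq hW1 hW2 hW3 := rfl`), the two arms as arguments.
-/
import Fermat.Agent.GL.Final.TripleInstK0
import Fermat.Agent.GL.Frame.ClassifyK0Ker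
import Fermat.Agent.GL.Final.GeomFactsH3

set_option autoImplicit false
set_option linter.unusedSectionVars false
set_option linter.unusedVariables false

noncomputable section

namespace Fermat.Agent.GL.Final.TripleInstK0

open Polynomial HahnSeries ModularCurve IsLocalRing
open Fermat.Agent.GJ.J1
open Fermat.Agent.GL.H4OfXi Fermat.Agent.GL.TripleBuild Fermat.Agent.GL.BuildInst
open Fermat.Agent.GL.BuildInstPts
open Fermat.Agent.GL.Final.TriplePoints Fermat.Agent.GL.Final.RowsInst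
open Fermat.Agent.GL.Val.GaussK0 Fermat.Agent.GL.Val.SecondK0 Fermat.Agent.GL.Val.SecondK0Hall
open Fermat.Agent.GL.Val.ThirdK0 Fermat.Agent.GL.Val.CuspK0 Fermat.Agent.GL.Val.DegBase
open Fermat.Agent.GL.Table.K0 Fermat.Agent.GK.AL
open Fermat.Agent.GL.Final.TopInst Fermat.Agent.GL.Final.GeomFacts
open AlgebraicCurve Fermat.Agent.GJ.KumGroup Fermat.Agent.GL.Gate Fermat.Agent.GL.Chain
open Fermat.Agent.GL.AL Fermat.Agent.GL.Final.GeomGate Fermat.Agent.GL.Final.GeomChain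
open Fermat.Agent.Common_helper32

attribute [local instance 2000] instAlgR0FullC instAlgBK0FullC instAlgR0BK0

variable (A : ValuationSubring Qb) {M' q : ℕ} [NeZero q] [NeZero M']
  (hq : q.Prime) (hqM : ¬ q ∣ M') (hA : (q : Qb) ∈ A.nonunits)
  (h2 : q = 2 → 3 ∣ M') (h3 : q = 3 → 2 ∣ M')
  {r : ℕ} (hr : r.Prime) (hrM : r ∣ M') (hr3 : r % 3 = 2) (hr4 : r % 4 = 3)

local notation "k₀" => ResidueField (R0 A)
local notation "F₀" => modularFunctionFieldFullC (K0 A) (M' * q * q)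
local notation "E₀" => modularFunctionFieldFullC (K0 A) (M' * q)

include h2 h3 hr hrM hr3 hr4 in
/-- **the supersingular points lie on all the components** (helper47 `ssPts_K0`), at the fixed
lift `sK0`. -/
theorem ssPtsK0 : SsPts A hq hqM hA (sK0 A hq) :=
  Fermat.Agent.GL.Frame.ClassifyK0Ker.ssPts_K0 A hq hqM hA h2 h3 hr hrM hr3 hr4 (sK0 A hq)
    (sK0_map A hq hA)

/-- **the concrete `TripleSetup` over `K₀` at a good level, NO hypothesis left.** -/
def setupK0Thm :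
    TripleSetup F₀ E₀ k₀ (FresK0 A (M' * q * q)) (FresK0 A (M' * q * q))
      (Fres3K0 A (M' * q * q) q hq hA) (FresK0 A (M' * q)) (FresK0 A (M' * q))
      (BK0 A (M' * q * q)) (TK0 A M' hq) (TK0' A M' hq) :=
  setupK0 A hq hqM hA h2 h3 (ssPtsK0 A hq hqM hA h2 h3 hr hrM hr3 hr4)

theorem setupK0Thm_eq : setupK0Thm A hq hqM hA h2 h3 hr hrM hr3 hr4 =
    setupK0 A hq hqM hA h2 h3 (ssPtsK0 A hq hqM hA h2 h3 hr hrM hr3 hr4) := rfl

@[simp] theorem setupK0Thm_W1 :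
    (setupK0Thm A hq hqM hA h2 h3 hr hrM hr3 hr4).W1 = RwK0 A (M' * q * q) := rfl

@[simp] theorem setupK0Thm_W2 : (setupK0Thm A hq hqM hA h2 h3 hr hrM hr3 hr4).W2 =
    (redData2QK0 A (M' * q * q) (Fermat.Agent.GL.AL.hallDvd_sq M' hq hqM)).Rw := rfl

@[simp] theorem setupK0Thm_W3 :
    (setupK0Thm A hq hqM hA h2 h3 hr hrM hr3 hr4).W3 = Rw3K0 A (M' * q * q) q := rfl

@[simp] theorem setupK0Thm_Nm :
    (setupK0Thm A hq hqM hA h2 h3 hr hrM hr3 hr4).Nm = normK0A A (M' * q) q := rfl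

@[simp] theorem setupK0Thm_Nm' :
    (setupK0Thm A hq hqM hA h2 h3 hr hrM hr3 hr4).Nm' = normK0B A (M' * q) q := rfl

@[simp] theorem setupK0Thm_q : (setupK0Thm A hq hqM hA h2 h3 hr hrM hr3 hr4).q = q := rfl

/-- the norms of `setupK0` are helper82's `normK0A`, `normK0B` (pointwise form). -/
theorem setupK0_Nm_apply (H : SsPts A hq hqM hA (sK0 A hq)) (x : F₀) :
    (setupK0 A hq hqM hA h2 h3 H).Nm x = normK0A A (M' * q) q x := rfl

theorem setupK0_Nm'_apply (H : SsPts A hq hqM hA (sK0 A hq)) (x : F₀) :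
    (setupK0 A hq hqM hA h2 h3 H).Nm' x = normK0B A (M' * q) q x := rfl

/-- **helper39's `ArmPkg`** with the `S`-side filled by `setupK0` (any proof `H` of `SsPts`); the
two arms are the arguments `H4`, `H5`. -/
def armPkgOf (H : SsPts A hq hqM hA (sK0 A hq)) (m1 : ℕ)
    (H4 : ∀ u2 : F₀, u2 ≠ 0 → U2 (setupK0 A hq hqM hA h2 h3 H) u2 →
      (∀ P : Place Kb (FK (M' * q * q)), (m1 : ℤ) ∣ P.ord (toFN0 A (M' * q * q) u2)) →
      IsCstPow (K0 A) m1 (normK0A A (M' * q) q u2) →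
      IsCstPow (K0 A) m1 (normK0B A (M' * q) q u2) →
      ∃ f0 : F₀, f0 ≠ 0 ∧
        U3 (setupK0 A hq hqM hA h2 h3 H) m1
          (u2 ^ ((setupK0 A hq hqM hA h2 h3 H).q ^ 2 - 1) * f0 ^ m1))
    (H5 : ∀ u3 : F₀, u3 ≠ 0 → U3 (setupK0 A hq hqM hA h2 h3 H) m1 u3 →
      (∀ P : Place Kb (FK (M' * q * q)), (m1 : ℤ) ∣ P.ord (toFN0 A (M' * q * q) u3)) →
      ∃ w : FK (M' * q * q), w ≠ 0 ∧ toFN0 A (M' * q * q) u3 = w ^ m1) :
    ArmPkg A (M' * q) q m1 where
  k := k₀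
  k1 := FresK0 A (M' * q * q)
  k2 := FresK0 A (M' * q * q)
  k3 := Fres3K0 A (M' * q * q) q hq hA
  k1' := FresK0 A (M' * q)
  k2' := FresK0 A (M' * q)
  B := BK0 A (M' * q * q)
  T := TK0 A M' hq
  T' := TK0' A M' hq
  S := setupK0 A hq hqM hA h2 h3 H
  hq := rfl
  hQ := Fermat.Agent.GL.AL.hallDvd_sq M' hq hqM
  hW1 := rfl
  hW2 := rfl
  hW3 := rfl
  H4 := H4
  H5 := H5

end Fermat.Agent.GL.Final.TripleInstK0
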