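/-
GATE-L / L-INT, the `ArmPkg` of helper39 at the concrete `TripleSetup` over `K₀` (helper36):

  `armPkgK0 A hq hqM hA h2 h3 hr hrM hr3 hr4 hm1 H5 : GeomFacts.ArmPkg A (M' * q) q m1`

with `S := setupK0 A hq hqM hA h2 h3 (ssPtsK0 …)` (`= setupK0Thm …`, hypothesis-free),
`H4 := helper46 H4InstK0.h4_setupK0 …` (the (H4) arm, closed); the ONLY argument left is the (H5)
field, stated at `setupK0Thm`.
-/
import Fermat.Agent.GL.Final.TripleInstK0Thm
import Fermat.Agent.GL.Final.H4InstK0Thm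

set_option autoImplicit false
set_option linter.unusedSectionVars false
set_option linter.unusedVariables false

noncomputable section

namespace Fermat.Agent.GL.Final.TripleInstK0

open Polynomial ModularCurve IsLocalRing AlgebraicCurve
open Fermat.Agent.GJ.J1 Fermat.Agent.GL.H4OfXi Fermat.Agent.GJ.KumGroup
open Fermat.Agent.GL.BuildInst Fermat.Agent.GL.BuildInstPts
open Fermat.Agent.GL.Final.TopInst Fermat.Agent.GL.Final.GeomFacts
open Fermat.Agent.GL.Val.GaussK0 Fermat.Agent.GL.Gate Fermat.Agent.GL.Chain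
open Fermat.Agent.GL.AL Fermat.Agent.GL.Final.GeomGate Fermat.Agent.GL.Final.GeomChain
open Fermat.Agent.GK.AL
open Fermat.Agent.GL.Val.CuspK0 Fermat.Agent.GL.Val.ThirdK0 Fermat.Agent.GL.Val.SecondK0
open Fermat.Agent.GL.Val.SecondK0Hall
open Fermat.Agent.Common_helper32

attribute [local instance 2000] instAlgR0FullC instAlgBK0FullC instAlgR0BK0

variable (A : ValuationSubring Qb) {M' q : ℕ} [NeZero q] [NeZero M']
  (hq : q.Prime) (hqM : ¬ q ∣ M') (hA : (q : Qb) ∈ A.nonunits)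
  (h2 : q = 2 → 3 ∣ M') (h3 : q = 3 → 2 ∣ M')
  {r : ℕ} (hr : r.Prime) (hrM : r ∣ M') (hr3 : r % 3 = 2) (hr4 : r % 4 = 3)

local notation "F₀" => modularFunctionFieldFullC (K0 A) (M' * q * q)

/-- **helper39's `ArmPkg` at a good level, (S) and (H4) filled**; the (H5) field — at
`setupK0Thm` — is the only argument. -/
def armPkgK0 {m1 : ℕ} (hm1 : m1 ≠ 0)
    (H5 : ∀ u3 : F₀, u3 ≠ 0 →
      U3 (setupK0Thm A hq hqM hA h2 h3 hr hrM hr3 hr4) m1 u3 →
      (∀ P : Place Kb (FK (M' * q * q)), (m1 : ℤ) ∣ P.ord (toFN0 A (M' * q * q) u3)) →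
      ∃ w : FK (M' * q * q), w ≠ 0 ∧ toFN0 A (M' * q * q) u3 = w ^ m1) :
    ArmPkg A (M' * q) q m1 :=
  armPkgOf A hq hqM hA h2 h3 (ssPtsK0 A hq hqM hA h2 h3 hr hrM hr3 hr4) m1
    (Fermat.Agent.GL.Final.H4InstK0.h4_setupK0 A hq hqM hA h2 h3
      (ssPtsK0 A hq hqM hA h2 h3 hr hrM hr3 hr4) hr hrM hr3 hr4 hm1) H5

/-- the `S` of `armPkgK0` is `setupK0Thm`. -/
theorem armPkgK0_S {m1 : ℕ} (hm1 : m1 ≠ 0)
    (H5 : ∀ u3 : F₀, u3 ≠ 0 →
      U3 (setupK0Thm A hq hqM hA h2 h3 hr hrM hr3 hr4) m1 u3 →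
      (∀ P : Place Kb (FK (M' * q * q)), (m1 : ℤ) ∣ P.ord (toFN0 A (M' * q * q) u3)) →
      ∃ w : FK (M' * q * q), w ≠ 0 ∧ toFN0 A (M' * q * q) u3 = w ^ m1) :
    (armPkgK0 A hq hqM hA h2 h3 hr hrM hr3 hr4 hm1 H5).S =
      setupK0Thm A hq hqM hA h2 h3 hr hrM hr3 hr4 := rfl

end Fermat.Agent.GL.Final.TripleInstK0
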