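/-
GATE-L / TOP ASSEMBLY, part 3 (helper48): what `GoodAuxLevel L' q` gives to the consumers, in THEIR
binder shapes (helper25 `EllMult`/`EllMultK0`: a prime factor `r ≡ 2 mod 3`, `r ≡ 3 mod 4` of the
level; J1 / K tame-chart condition `(q = 2 → 3 ∣ M) (q = 3 → 2 ∣ M)`; `q ∤ M` at the bottom level
`M = L'/q`, written `L' = M * q` LITERALLY).
-/
import Mathlib
import Fermat.Agent.GL.Final.GeomGate

set_option autoImplicit false

namespace Fermat.Agent.GL.Final.GeomGate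

/-- the auxiliary prime of a good level: `≡ 2 mod 3`, `≡ 3 mod 4`, different from `q`, dividing
`L'`, killing `nuTwo`, `nuThree` at each of its multiples. -/
theorem GoodAuxLevel.exists_aux_prime {L' q : ℕ} (h : GoodAuxLevel L' q) :
    ∃ r₂ : ℕ, r₂.Prime ∧ r₂ % 3 = 2 ∧ r₂ % 4 = 3 ∧ r₂ % 12 = 11 ∧ r₂ ≠ q ∧ r₂ ∣ L' ∧
      ∀ N'' : ℕ, r₂ ∣ N'' → ModularCurve.nuTwo N'' = 0 ∧ ModularCurve.nuThree N'' = 0 := by
  obtain ⟨-, -, ⟨r₂, hr₂, hmod, hne, hdvd, hnu⟩, -, -⟩ := h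
  exact ⟨r₂, hr₂, by omega, by omega, hmod, hne, hdvd, hnu⟩

/-- **the bottom level**: `L' = M * q` with `q ∤ M`, `M ≠ 0`, the auxiliary prime divides `M`, and
the tame-chart conditions hold at `M` (hence at `M * q` and `M * q * q`). -/
theorem GoodAuxLevel.exists_bottom {L' q : ℕ} (hq : q.Prime) (hL' : L' ≠ 0)
    (h : GoodAuxLevel L' q) :
    ∃ M : ℕ, L' = M * q ∧ M ≠ 0 ∧ ¬ q ∣ M ∧
      (∃ r₂ : ℕ, r₂.Prime ∧ r₂ % 3 = 2 ∧ r₂ % 4 = 3 ∧ r₂ % 12 = 11 ∧ r₂ ≠ q ∧ r₂ ∣ M ∧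
        ∀ N'' : ℕ, r₂ ∣ N'' → ModularCurve.nuTwo N'' = 0 ∧ ModularCurve.nuThree N'' = 0) ∧
      (q = 2 → 3 ∣ M) ∧ (q = 3 → 2 ∣ M) := by
  obtain ⟨r₂, hr₂, h3, h4, h12, hne, hdvd, hnu⟩ := h.exists_aux_prime
  obtain ⟨hqL, hq2, -, h2, h3'⟩ := h
  obtain ⟨M, rfl⟩ : ∃ M, L' = M * q := ⟨L' / q, (Nat.div_mul_cancel hqL).symm⟩
  have hM0 : M ≠ 0 := by
    rintro rfl
    exact hL' (zero_mul q)
  have hqM : ¬ q ∣ M := by
    rintro ⟨d, rfl⟩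
    exact hq2 ⟨d, by ring⟩
  have hcop : ∀ {p : ℕ}, p.Prime → p ≠ q → p ∣ M * q → p ∣ M := by
    intro p hp hpq hdvd'
    rcases (Nat.Prime.dvd_mul hp).mp hdvd' with h' | h'
    · exact h'
    · exact absurd ((Nat.prime_dvd_prime_iff_eq hp hq).mp h') hpq
  refine ⟨M, rfl, hM0, hqM, ⟨r₂, hr₂, h3, h4, h12, hne, hcop hr₂ hne hdvd, hnu⟩, ?_, ?_⟩
  · intro hq2'
    exact hcop Nat.prime_three (by omega) (h2 hq2')
  · intro hq3
    exact hcop Nat.prime_two (by omega) (h3' hq3)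

/-- `q ∥ L'` in factorization form -/
theorem GoodAuxLevel.factorization_eq_one {L' q : ℕ} (hq : q.Prime) (hL' : L' ≠ 0)
    (h : GoodAuxLevel L' q) : L'.factorization q = 1 := by
  obtain ⟨hqL, hq2, -⟩ := h
  have h1 : 1 ≤ L'.factorization q := (hq.dvd_iff_one_le_factorization hL').mp hqL
  have h2 : ¬ 2 ≤ L'.factorization q := fun h2 =>
    hq2 ((hq.pow_dvd_iff_le_factorization hL').mpr h2)
  omega

end Fermat.Agent.GL.Final.GeomGate
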