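/-
GATE-L / L-INT (helper39): **`S36GeomGate` from the (H4) (H5) arms at the LITERAL levels**
`N0 = M' * q`, top level `M' * q * q` (the convention of helper66 `PlugK0`, helper67 `RowsInst`,
helper40 `BuildInst`, helper56 `H5FinK0`, helper26 `ThirdK0Red`): a good auxiliary level `L'` is
`M' * q` with `q ∤ M'` (helper48 `GoodAuxLevel.exists_bottom`), the auxiliary prime `r₂` divides `M'`
and the tame-chart conditions hold at `M'`.

* **`s36GeomGate_of_armPkg_bottom`** : an `ArmPkg A (M' * q) q (lam ^ j)` for every `M'` (`q ∤ M'`,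
  aux prime, tame conditions), every place `A ∣ q`, every `lam ≠ q`, `lam ≠ 2`, every `j`
  ⟹ helper64's `S36GeomGate`.
-/
import Fermat.Agent.GL.Final.GeomFactsH3
import Fermat.Agent.GL.Final.GoodAuxFacts

set_option autoImplicit false
set_option linter.unusedSectionVars false

noncomputable section

namespace Fermat.Agent.GL.Final.GeomFacts

open Fermat.Agent.GL.Final.GeomGate
open Fermat.Agent.Common_helper32

/-- **`S36GeomGate` from the (H4) (H5) arms at the literal levels `M' * q`, `M' * q * q`.** -/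
theorem s36GeomGate_of_armPkg_bottom
    (h : ∀ (M' : ℕ) [NeZero M'] (lam : ℕ) [Fact lam.Prime] (q : ℕ) [NeZero q], q.Prime → q ≠ lam →
      lam ≠ 2 → ¬ q ∣ M' →
      (∃ r₂ : ℕ, r₂.Prime ∧ r₂ % 3 = 2 ∧ r₂ % 4 = 3 ∧ r₂ % 12 = 11 ∧ r₂ ≠ q ∧ r₂ ∣ M' ∧
        ∀ N'' : ℕ, r₂ ∣ N'' → ModularCurve.nuTwo N'' = 0 ∧ ModularCurve.nuThree N'' = 0) →
      (q = 2 → 3 ∣ M') → (q = 3 → 2 ∣ M') →
      ∀ A : ValuationSubring Qb, A.LiesOverPrime q → ∀ j : ℕ,
        Nonempty (ArmPkg A (M' * q) q (lam ^ j))) :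
    S36GeomGate := by
  refine s36GeomGate_of_armPkg fun L' hL' lam _ q _ hq hqlam hlam2 hgood A hA c r _ _ k _ => ?_
  obtain ⟨M', rfl, hM0, hqM, haux, h2, h3⟩ := hgood.exists_bottom hq (NeZero.ne L')
  have : NeZero M' := ⟨hM0⟩
  exact h M' lam q hq hqlam hlam2 hqM haux h2 h3 A hA (k - c)

end Fermat.Agent.GL.Final.GeomFacts
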