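/-
GATE-L / L-INT, H5 ARM, layer 5 (helper56): **`h5_inst` at the CONCRETE objects over `K₀`**.

`A | q` a valuation subring of `ℚ̄`, `K₀ = K0 A`, `R₀ = R0 A`, level `N = M' * q * q` (`q ∤ M'`;
general `N0 * q` with `q ∥ N0` in `h5_instK0'`), `F₀ = K₀(X₀(N))`, `j = jK0 A N`,
`W = L1eAsmK0.W3 A hQ = (w₁, w₂, w₃)`, the two FIXED frames of the `j`-line

  `Bj  := chartRing (R0 A) (jK0 A N)`,   `Bji := chartRing (R0 A) (jK0 A N)⁻¹`   (helper80),

vertical primes `vertFinset hqB` (`hqB : baseB _ (q0 A q) ≠ 0`), the class of units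
`U3 := H4OfXi.U3 S m1` of helper46 for ONE `S : H4OfXi.TripleSetup` tied to `w₁ w₂ w₃` by
`hW1 hW2 hW3` (helper39 RULING 1, (C2)).

Everything which does not depend on the unit is DISCHARGED here:
* DVR facts on `R₀` (helper8 `ChartInstK0`), `j` transcendental, `F₀ / K₀(j)` finite (helper90);
* `w_i` over `R₀`, Gauss at `j` (helper45/helper75 `L1eAsmK0`), NOEXT = helper75 `L1eThm.exists_eq`
  (a THEOREM);
* the frames: helper80 `FrameInstVal.exists_frame_self / exists_frame_inv`;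
* `q ∣ 1 + m1 m''` from `Nat.Coprime m1 q`; `hR0` from `hτ`; `hU3W` from helper39 `U2_iff`.

LEFT as hypotheses (each = a landed producer's conclusion shape):
* `hfin`   : CHART-FIN (helper8 `GL/Frame/ChartFin.lean`, claimed);
* `hallj`  : the dispatcher's conclusion on `Bj`  (helper47 `HallOfClassify.hall_of_classify`);
* `hallji` : the dispatcher's conclusion on `Bji` (helper47 `HallOfClassify.hallji_of_cusp`).
-/
import Mathlib
import Fermat.Agent.GL.Final.H5Inst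
import Fermat.Agent.GL.Frame.FrameInstVal
import Fermat.Agent.GL.Frame.ChartInstK0
import Fermat.Agent.GL.Val.L1eThm
import Fermat.Agent.GL.Final.U2Facts

set_option autoImplicit false
set_option linter.unusedSectionVars false

noncomputable section

namespace Fermat.Agent.GL.Final.H5

open AlgebraicCurve ModularCurve Polynomial IntermediateField
open Fermat.Agent.GL.ChartChange Fermat.Agent.GL.Gate Fermat.Agent.GL.GaussAt
open Fermat.Agent.GL.H4OfXi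
open Fermat.Agent.GK.AL Fermat.Agent.GL.AL
open Fermat.Agent.GL.Val.GaussK0 Fermat.Agent.GL.Val.SecondK0 Fermat.Agent.GL.Val.SecondK0Hall
open Fermat.Agent.GL.Val.ThirdK0 Fermat.Agent.GL.Val.OrthK0 Fermat.Agent.GL.Val.L1eAsmK0
open Fermat.Agent.GL.Frame.Inst Fermat.Agent.GL.Frame.HeightOne Fermat.Agent.GL.LocGlue
open Fermat.Agent.GL.Frame.InstVal
open Fermat.Agent.Common_helper32

/-! ### Arithmetic of the moduli -/

/-- `m` prime to `q` ⟹ `q ∣ 1 + m m''` for some `m''`. -/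
theorem exists_dvd_one_add_mul {m q : ℕ} (hq : 1 < q) (hcop : Nat.Coprime m q) :
    ∃ m'' : ℕ, q ∣ 1 + m * m'' := by
  obtain ⟨a, -, ha⟩ := Nat.exists_mul_mod_eq_one_of_coprime hcop hq
  refine ⟨a * (q - 1), ?_⟩
  have h1 : m * a ≡ 1 [MOD q] := by
    unfold Nat.ModEq
    rw [ha, Nat.mod_eq_of_lt hq]
  have h2 : 1 + m * (a * (q - 1)) ≡ 1 + 1 * (q - 1) [MOD q] := by
    rw [← mul_assoc]
    exact Nat.ModEq.add_left 1 (Nat.ModEq.mul_right (q - 1) h1)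
  have h3 : 1 + 1 * (q - 1) = q := by omega
  rw [h3] at h2
  exact (Nat.modEq_zero_iff_dvd).1 (h2.trans (Nat.modEq_zero_iff_dvd.2 dvd_rfl))

/-! ### The frames of the `j`-line, abstractly -/

section Frames

variable {K F : Type*} [Field K] [CharZero K] [Field F] [Algebra K F] {A : ValuationSubring K}
  [IsDiscreteValuationRing A] [Infinite (IsLocalRing.ResidueField A)]
variable {N : ℕ} [NeZero N]

/-- **`h5_inst` with the two frames of the `j`-line DISCHARGED** (helper80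
`FrameInstVal.exists_frame_self / exists_frame_inv`): `Bj := chartRing A j`,
`Bji := chartRing A j⁻¹`, vertical primes `vertFinset hqB`. -/
theorem h5_inst_frames (τ : F →+* modularFunctionFieldBar N)
    (hR0 : ∀ (r : A) (P : Place Qb (modularFunctionFieldBar N)),
      τ (algebraMap A F r) ∈ P.toValuationSubring)
    {q : A} (hq : Irreducible q)
    {j : F} (hjt : Transcendental K j) [FiniteDimensional K⟮j⟯ F]
    {κ : Type*} (W : κ → ValuationSubring F)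
    (hWover : ∀ i, ∀ a : K, algebraMap K F a ∈ W i ↔ a ∈ A)
    (hWG : ∀ i, IsGaussAt A (W i) j) (i₀ : κ)
    (hnoext : ∀ V : ValuationSubring F, (∀ y ∈ K⟮j⟯, y ∈ V ↔ y ∈ W i₀) → ∃ i, V = W i)
    (hfin : ∀ (t0 t2 : A) (P1 : A[X]) (h : F), P1.Monic →
      j - algebraMap A F t0 ≠ 0 → aeval (j - algebraMap A F t0)⁻¹ P1 ≠ 0 →
      h * aeval (j - algebraMap A F t0)⁻¹ P1 =
        ((j - algebraMap A F t0)⁻¹ - algebraMap A F t2) ^ (P1.natDegree + 1) →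
      (j - algebraMap A F t0)⁻¹ ≠ algebraMap A F t2 →
      Transcendental K h ∧ FiniteDimensional K⟮h⟯ F ∧
        Transcendental K h⁻¹ ∧ FiniteDimensional K⟮h⁻¹⟯ F)
    (m m'' : ℕ) (hm : m ≠ 0) (hmq : q ∣ ((1 + m * m'' : ℕ) : A))
    (U3 : F → Prop) (hU3W : ∀ u, U3 u → ∀ i, u - 1 ∈ (W i).nonunits)
    (hallj : ∀ [IsFractionRing (chartRing A j) F] [IsNoetherianRing (chartRing A j)]
      [IsIntegrallyClosed (chartRing A j)] (hqB : baseB j q ≠ 0),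
      ∀ u : F, u ≠ 0 → U3 u →
      (∀ P : Place Qb (modularFunctionFieldBar N), (m : ℤ) ∣ P.ord (τ u)) →
      ∀ 𝔫 : Ideal (chartRing A j), 𝔫.IsMaximal →
        ∃ g ∈ (⊤ : Subring F), g ^ m * u ∈ chartRing A j ∧
          LocAt (V1 (B := chartRing A j) F) (chartRing A j) ⊤ (vertFinset hqB) 𝔫 g)
    (hallji : ∀ [IsFractionRing (chartRing A j⁻¹) F] [IsNoetherianRing (chartRing A j⁻¹)]
      [IsIntegrallyClosed (chartRing A j⁻¹)] (hqB : baseB j⁻¹ q ≠ 0),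
      ∀ u : F, u ≠ 0 → U3 u →
      (∀ P : Place Qb (modularFunctionFieldBar N), (m : ℤ) ∣ P.ord (τ u)) →
      ∀ 𝔫 : Ideal (chartRing A j⁻¹), 𝔫.IsMaximal →
        ∃ g ∈ (⊤ : Subring F), g ^ m * u ∈ chartRing A j⁻¹ ∧
          LocAt (V1 (B := chartRing A j⁻¹) F) (chartRing A j⁻¹) ⊤ (vertFinset hqB) 𝔫 g) :
    ∀ u3 : F, u3 ≠ 0 → U3 u3 →
      (∀ P : Place Qb (modularFunctionFieldBar N), (m : ℤ) ∣ P.ord (τ u3)) →
      ∃ w : modularFunctionFieldBar N, w ≠ 0 ∧ τ u3 = w ^ m := by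
  have hκ : Nonempty κ := ⟨i₀⟩
  have hgen : ∀ a : A, ¬ IsUnit a → q ∣ a := dvd_of_not_isUnit hq
  have hj0 : j ≠ 0 := fun h0 => hjt (h0 ▸ isAlgebraic_zero)
  have hfdi : FiniteDimensional K⟮j⁻¹⟯ F := finiteDimensional_adjoin_inv j
  have hnoextG : ∀ V : ValuationSubring F, (∀ a : K, algebraMap K F a ∈ V ↔ a ∈ A) →
      IsGaussAt A V j → ∃ i, V = W i := fun V hV hG =>
    hnoext V (fun y hy => hG.mem_iff_mem hV (hWover i₀) (hWG i₀) hy)
  obtain ⟨i1, i2, i3, hqB, f, hf1, hf2, -, -⟩ :=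
    exists_frame_self hq W hWover hWG hnoextG
  obtain ⟨i1', i2', i3', hqB', f', hf1', hf2', -, -⟩ :=
    exists_frame_inv hq W hWover hWG hnoextG hj0
  exact h5_inst τ hR0 hq.prime hgen hjt W hWover hWG i₀ hnoext hfin
    (Bj := chartRing A j) (Bji := chartRing A j⁻¹)
    (fun _ => Iff.rfl) (fun _ => Iff.rfl)
    (vertFinset hqB) (fun i => ⟨f i, (hf2 (f i)).2 ⟨i, rfl⟩, hf1 i⟩)
    (vertFinset hqB') (fun i => ⟨f' i, (hf2' (f' i)).2 ⟨i, rfl⟩, hf1' i⟩)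
    m m'' hm hmq U3 hU3W (hallj hqB) (hallji hqB')

end Frames

section K0

variable (A : ValuationSubring Qb) {q : ℕ} (M' : ℕ) [NeZero M'] [NeZero q]
variable {E k k1 k2 k3 k1' k2' B T T' : Type*} [Field E] [Field k]
  [Field k1] [Field k2] [Field k3] [Field k1'] [Field k2'] [CommRing B]
  [Algebra B (modularFunctionFieldFullC (K0 A) (M' * q * q))]

local notation "N₁" => M' * q * q
local notation "F₀" => modularFunctionFieldFullC (K0 A) (M' * q * q)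
local notation "j₀" => jK0 A (M' * q * q)

/-- the uniformiser `q0` of `R₀` is the natural number `q`. -/
theorem q0_eq_natCast : (q0 A q : R0 A) = ((q : ℕ) : R0 A) := by
  apply Subtype.ext
  rw [Fermat.Agent.GL.Val.GaussAtK0.coe_q0_eq_natCast]
  exact (map_natCast (R0 A).subtype q).symm

set_option synthInstance.maxHeartbeats 400000 in
set_option maxHeartbeats 6400000 in
/-- **(H5) over `K₀`, level `M' q²`.**  Conclusion = the (H5) binder of helper24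
`ChainAbs.k0UnitGateQ_of_chain'` VERBATIM at `F0 := K₀(X₀(M' q q))`, `U3 := H4OfXi.U3 S m1`. -/
theorem h5_instK0 (hq : q.Prime) (hqM : ¬ q ∣ M') (hA : A.LiesOverPrime q)
    (hQ : HallDvd (q ^ 2) (M' * q * q))
    (ι : K0 A →+* Qb) (τ : F₀ →+* modularFunctionFieldBar (M' * q * q))
    (hτ : ∀ a : K0 A, τ (algebraMap (K0 A) F₀ a) = algebraMap Qb (modularFunctionFieldBar (M' * q * q)) (ι a))
    (S : TripleSetup F₀ E k k1 k2 k3 k1' k2' B T T')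
    (hW1 : S.W1 = RwK0 A (M' * q * q)) (hW2 : S.W2 = (redData2QK0 A (M' * q * q) hQ).Rw)
    (hW3 : S.W3 = Rw3K0 A (M' * q * q) q)
    {m1 : ℕ} (hm1 : m1 ≠ 0) (hcop : Nat.Coprime m1 q)
    -- CHART-FIN
    (hfin : ∀ (t0 t2 : R0 A) (P1 : (R0 A)[X]) (h : F₀), P1.Monic →
      j₀ - algebraMap (R0 A) F₀ t0 ≠ 0 → aeval (j₀ - algebraMap (R0 A) F₀ t0)⁻¹ P1 ≠ 0 →
      h * aeval (j₀ - algebraMap (R0 A) F₀ t0)⁻¹ P1 =
        ((j₀ - algebraMap (R0 A) F₀ t0)⁻¹ - algebraMap (R0 A) F₀ t2) ^ (P1.natDegree + 1) →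
      (j₀ - algebraMap (R0 A) F₀ t0)⁻¹ ≠ algebraMap (R0 A) F₀ t2 →
      Transcendental (K0 A) h ∧ FiniteDimensional (K0 A)⟮h⟯ F₀ ∧
        Transcendental (K0 A) h⁻¹ ∧ FiniteDimensional (K0 A)⟮h⁻¹⟯ F₀)
    -- the local contracts on the two frames of the `j`-line
    (hallj : ∀ [IsFractionRing (chartRing (R0 A) j₀) F₀] [IsNoetherianRing (chartRing (R0 A) j₀)]
      [IsIntegrallyClosed (chartRing (R0 A) j₀)] (hqB : baseB j₀ (q0 A q) ≠ 0),
      ∀ u : F₀, u ≠ 0 → U3 S m1 u →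
      (∀ P : Place Qb (modularFunctionFieldBar (M' * q * q)), (m1 : ℤ) ∣ P.ord (τ u)) →
      ∀ 𝔫 : Ideal (chartRing (R0 A) j₀), 𝔫.IsMaximal →
        ∃ g ∈ (⊤ : Subring F₀), g ^ m1 * u ∈ chartRing (R0 A) j₀ ∧
          LocAt (V1 (B := chartRing (R0 A) j₀) F₀) (chartRing (R0 A) j₀) ⊤ (vertFinset hqB) 𝔫 g)
    (hallji : ∀ [IsFractionRing (chartRing (R0 A) j₀⁻¹) F₀]
      [IsNoetherianRing (chartRing (R0 A) j₀⁻¹)]
      [IsIntegrallyClosed (chartRing (R0 A) j₀⁻¹)] (hqB : baseB j₀⁻¹ (q0 A q) ≠ 0),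
      ∀ u : F₀, u ≠ 0 → U3 S m1 u →
      (∀ P : Place Qb (modularFunctionFieldBar (M' * q * q)), (m1 : ℤ) ∣ P.ord (τ u)) →
      ∀ 𝔫 : Ideal (chartRing (R0 A) j₀⁻¹), 𝔫.IsMaximal →
        ∃ g ∈ (⊤ : Subring F₀), g ^ m1 * u ∈ chartRing (R0 A) j₀⁻¹ ∧
          LocAt (V1 (B := chartRing (R0 A) j₀⁻¹) F₀) (chartRing (R0 A) j₀⁻¹) ⊤
            (vertFinset hqB) 𝔫 g) :
    ∀ u3 : F₀, u3 ≠ 0 → U3 S m1 u3 →
      (∀ P : Place Qb (modularFunctionFieldBar (M' * q * q)), (m1 : ℤ) ∣ P.ord (τ u3)) →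
      ∃ w : modularFunctionFieldBar (M' * q * q), w ≠ 0 ∧ τ u3 = w ^ m1 := by
  -- the base DVR
  have hdvr := isDiscreteValuationRing_R0 A hq hA
  have hinf := Fermat.Agent.GL.Frame.ChartInstK0.infinite_residueField_R0 A hq hA
  have hq0 : Prime (q0 A q) := Fermat.Agent.GL.Frame.ChartInstK0.prime_q0 A hq hA
  -- level bookkeeping
  have hN : M' * q * q = M' * q ^ 2 := by ring
  have hq2 : q ^ 2 * 1 ∣ M' * q * q := by rw [mul_one, hN]; exact dvd_mul_left _ _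
  have : NeZero (q ^ 2 * 1) := ⟨by rw [mul_one]; exact pow_ne_zero 2 hq.ne_zero⟩
  -- the chart `j`
  have hjt : Transcendental (K0 A) j₀ := by
    rw [jK0_eq_jC]
    exact Fermat.Agent.GL.Frame.ChartInstK0.transcendental_jC_K0 A (M' * q * q)
  have hfd : FiniteDimensional (K0 A)⟮j₀⟯ F₀ := by
    rw [jK0_eq_jC]
    exact Fermat.Agent.GL.Val.DegBase.finiteDimensional_fullC (M' * q * q) (K0 A)
  -- the three valuations
  have hWover : ∀ i, ∀ a : K0 A, algebraMap (K0 A) F₀ a ∈ W3 A hQ i ↔ a ∈ R0 A := fun i =>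
    (isRamified_W3_R0 A hq hN hqM hA hQ (one_dvd M') hq2 (one_dvd _) i).mem_iff
  have hWG : ∀ i, IsGaussAt (R0 A) (W3 A hQ i) j₀ := isGaussAt_W3 A hQ
  have hnoext : ∀ V : ValuationSubring F₀,
      (∀ y ∈ (K0 A)⟮j₀⟯, y ∈ V ↔ y ∈ W3 A hQ 0) → ∃ i, V = W3 A hQ i := fun V hV => by
    rcases Fermat.Agent.GL.Val.L1eThm.exists_eq A hq hN hqM hA hQ (V := V)
      (fun a => hV a.1 a.2) with h | h | h
    · exact ⟨0, h⟩
    · exact ⟨1, h⟩
    · exact ⟨2, h⟩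
  -- the moduli
  obtain ⟨m'', hm''⟩ := exists_dvd_one_add_mul hq.one_lt hcop
  have hmq : q0 A q ∣ ((1 + m1 * m'' : ℕ) : R0 A) := by
    rw [q0_eq_natCast]
    exact Nat.cast_dvd_cast hm''
  -- `τ` on `R₀`
  have hR0 : ∀ (r : R0 A) (P : Place Qb (modularFunctionFieldBar (M' * q * q))),
      τ (algebraMap (R0 A) F₀ r) ∈ P.toValuationSubring := fun r P => by
    have : algebraMap (R0 A) F₀ r = algebraMap (K0 A) F₀ (r : K0 A) := rfl
    rw [this, hτ]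
    exact P.algebraMap_mem' _
  -- `U3 ⟹ ≡ 1` at `w₁ w₂ w₃`
  have hU3W : ∀ u, U3 S m1 u → ∀ i, u - 1 ∈ (W3 A hQ i).nonunits := by
    intro u hu i
    obtain ⟨h1, h2, h3⟩ := (Fermat.Agent.GL.Final.U2Facts.U2_iff S u).mp hu.1
    rw [hW1] at h1
    rw [hW2] at h2
    rw [hW3] at h3
    fin_cases i
    · exact h1
    · exact h2
    · exact h3
  exact h5_inst_frames (A := R0 A) τ hR0 hq0.irreducible hjt (W3 A hQ) hWover hWG 0 hnoext hfin
    m1 m'' hm1 hmq (U3 S m1) hU3W hallj hallji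

end K0

section General

variable (A : ValuationSubring Qb) {q N0 : ℕ} [NeZero N0] [NeZero q]
variable {E k k1 k2 k3 k1' k2' B T T' : Type*} [Field E] [Field k]
  [Field k1] [Field k2] [Field k3] [Field k1'] [Field k2'] [CommRing B]
  [Algebra B (modularFunctionFieldFullC (K0 A) (N0 * q))]

local notation "F₀" => modularFunctionFieldFullC (K0 A) (N0 * q)
local notation "j₀" => jK0 A (N0 * q)

set_option synthInstance.maxHeartbeats 400000 in
set_option maxHeartbeats 6400000 in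
/-- **(H5) over `K₀`, general level `N0 * q`** (`q ∣ N0`, `¬ q² ∣ N0`; helper39 RULING 1 (C1)).
Conclusion = the (H5) binder of helper24 `ChainAbs.k0UnitGateQ_of_chain'` VERBATIM at
`F0 := K₀(X₀(N0 * q))`, `U3 := H4OfXi.U3 S m1`. -/
theorem h5_instK0' (hq : q.Prime) (hqN0 : q ∣ N0) (hq2 : ¬ q ^ 2 ∣ N0) (hA : A.LiesOverPrime q)
    (hQ : HallDvd (q ^ 2) (N0 * q))
    (ι : K0 A →+* Qb) (τ : F₀ →+* modularFunctionFieldBar (N0 * q))
    (hτ : ∀ a : K0 A, τ (algebraMap (K0 A) F₀ a) =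
      algebraMap Qb (modularFunctionFieldBar (N0 * q)) (ι a))
    (S : TripleSetup F₀ E k k1 k2 k3 k1' k2' B T T')
    (hW1 : S.W1 = RwK0 A (N0 * q)) (hW2 : S.W2 = (redData2QK0 A (N0 * q) hQ).Rw)
    (hW3 : S.W3 = Rw3K0 A (N0 * q) q)
    {m1 : ℕ} (hm1 : m1 ≠ 0) (hcop : Nat.Coprime m1 q)
    -- CHART-FIN
    (hfin : ∀ (t0 t2 : R0 A) (P1 : (R0 A)[X]) (h : F₀), P1.Monic →
      j₀ - algebraMap (R0 A) F₀ t0 ≠ 0 → aeval (j₀ - algebraMap (R0 A) F₀ t0)⁻¹ P1 ≠ 0 →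
      h * aeval (j₀ - algebraMap (R0 A) F₀ t0)⁻¹ P1 =
        ((j₀ - algebraMap (R0 A) F₀ t0)⁻¹ - algebraMap (R0 A) F₀ t2) ^ (P1.natDegree + 1) →
      (j₀ - algebraMap (R0 A) F₀ t0)⁻¹ ≠ algebraMap (R0 A) F₀ t2 →
      Transcendental (K0 A) h ∧ FiniteDimensional (K0 A)⟮h⟯ F₀ ∧
        Transcendental (K0 A) h⁻¹ ∧ FiniteDimensional (K0 A)⟮h⁻¹⟯ F₀)
    -- the local contracts on the two frames of the `j`-line
    (hallj : ∀ [IsFractionRing (chartRing (R0 A) j₀) F₀] [IsNoetherianRing (chartRing (R0 A) j₀)]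
      [IsIntegrallyClosed (chartRing (R0 A) j₀)] (hqB : baseB j₀ (q0 A q) ≠ 0),
      ∀ u : F₀, u ≠ 0 → U3 S m1 u →
      (∀ P : Place Qb (modularFunctionFieldBar (N0 * q)), (m1 : ℤ) ∣ P.ord (τ u)) →
      ∀ 𝔫 : Ideal (chartRing (R0 A) j₀), 𝔫.IsMaximal →
        ∃ g ∈ (⊤ : Subring F₀), g ^ m1 * u ∈ chartRing (R0 A) j₀ ∧
          LocAt (V1 (B := chartRing (R0 A) j₀) F₀) (chartRing (R0 A) j₀) ⊤ (vertFinset hqB) 𝔫 g)
    (hallji : ∀ [IsFractionRing (chartRing (R0 A) j₀⁻¹) F₀]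
      [IsNoetherianRing (chartRing (R0 A) j₀⁻¹)]
      [IsIntegrallyClosed (chartRing (R0 A) j₀⁻¹)] (hqB : baseB j₀⁻¹ (q0 A q) ≠ 0),
      ∀ u : F₀, u ≠ 0 → U3 S m1 u →
      (∀ P : Place Qb (modularFunctionFieldBar (N0 * q)), (m1 : ℤ) ∣ P.ord (τ u)) →
      ∀ 𝔫 : Ideal (chartRing (R0 A) j₀⁻¹), 𝔫.IsMaximal →
        ∃ g ∈ (⊤ : Subring F₀), g ^ m1 * u ∈ chartRing (R0 A) j₀⁻¹ ∧
          LocAt (V1 (B := chartRing (R0 A) j₀⁻¹) F₀) (chartRing (R0 A) j₀⁻¹) ⊤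
            (vertFinset hqB) 𝔫 g) :
    ∀ u3 : F₀, u3 ≠ 0 → U3 S m1 u3 →
      (∀ P : Place Qb (modularFunctionFieldBar (N0 * q)), (m1 : ℤ) ∣ P.ord (τ u3)) →
      ∃ w : modularFunctionFieldBar (N0 * q), w ≠ 0 ∧ τ u3 = w ^ m1 := by
  obtain ⟨M', rfl⟩ : ∃ M' : ℕ, N0 = M' * q := ⟨N0 / q, (Nat.div_mul_cancel hqN0).symm⟩
  have hM'0 : M' ≠ 0 := by
    rintro rfl
    exact NeZero.ne (0 * q) (zero_mul q)
  have : NeZero M' := ⟨hM'0⟩
  have hqM : ¬ q ∣ M' := by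
    intro hd
    apply hq2
    rw [pow_two]
    exact mul_dvd_mul_right hd q
  exact h5_instK0 A M' hq hqM hA hQ ι τ hτ S hW1 hW2 hW3 hm1 hcop hfin hallj hallji

end General

end Fermat.Agent.GL.Final.H5
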