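/-
GATE-L / H5 ARM, the TYPE I CONTRACT and the LOCAL BINDERS in TYPED FORM (helper11).

At a closed point `𝔫` of a frame `Bf` through which exactly one vertical prime `𝔭₀` passes:

* `locAt_top_q`  : `𝔭₀` unramified (`q` a uniformiser of `V1 𝔭₀`: `hunif`) — helper47
  `LocTypeIq.exists_locAt_q` with ambient ring `⊤`, in the dispatcher's conclusion shape;
* `locAt_top_pi` : a local generator `π` of `𝔭₀` at `𝔫` (REG3 output of helper50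
  `Reg3HtOne.exists_vertPrime_of_isUnit/_of_cube/_of_log`: `π ≠ 0`, `π ∈ 𝔭₀`, `hgen`, `hother`);
* `hI_of_components` : `vert = {f 0, f 1, f 2}`, `f 0`, `f 1` unramified, `f 2` with the REG3
  datum, `hval` at `(𝔫, 𝔭₀)` ⟹ the `hI` binder of helper47 `hall_cusp_of_atMostOne` VERBATIM;
* `hI_typed` : the same `u`-quantified (`u ≠ 0 → U3 u → D u → …`, `D u` = the divisor hypothesis,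
  `hordP` = its consequence at the horizontal height-one primes), at the points of a class `Pt`;
* `hallj_typed`  : **the `hallj` binder of helper56 `H5.h5_inst`** = helper47 `hall_of_classify`
  ∘ `hI_typed` (`Pt 𝔫 := q ∈ 𝔫 ∧ s ∉ 𝔫`) + a `u`-quantified type III producer;
* `hallji_typed` : **the `hallji` binder of `h5_inst`** = helper47 `hallji_of_cusp` ∘
  `hall_cusp_of_atMostOne` ∘ `hI_typed` (`Pt 𝔫 := q ∈ 𝔫 ∧ 1/j ∈ 𝔫`) + `hallj`;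
* `hordP_K0` : the hypothesis `hordP` over `K₀(X₀(N))` with
  `D u := ∀ P, m ∣ ord_P (toFN0 A N u)` (`HorizHordTop.hord_binder`).

LEAN NOTE for the K0 call: write `(V1 F₀ p : ValuationSubring F₀) = W i` WITH the type ascription
(`F₀ := ↥(modularFunctionFieldFullC (K0 A) N)`): without it the elaborator postpones the expected
type and `Algebra ↥Bf ↥F₀` times out in typeclass synthesis (20000 heartbeats).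
-/
import Fermat.Agent.GL.Frame.HallOfClassify
import Fermat.Agent.GL.Frame.LocTypeIq
import Fermat.Agent.GL.Frame.HorizHordTop

set_option autoImplicit false
set_option linter.unusedSectionVars false

noncomputable section

namespace Fermat.Agent.GL.Final.H5TypeI

open ModularCurve AlgebraicCurve
open Fermat.Agent.GL Fermat.Agent.GL.KrullFrame Fermat.Agent.GL.Frame.HeightOne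
  Fermat.Agent.GL.LocGlue Fermat.Agent.GL.Frame.Kummer Fermat.Agent.GL.Frame

section Abstract

variable {F : Type*} [Field F] {Bf : Subring F} [IsFractionRing Bf F]
  [IsNoetherianRing Bf] [IsIntegrallyClosed Bf]

/-- **type I, general local generator `π`** (ambient ring `⊤`, dispatcher's conclusion shape). -/
theorem locAt_top_pi (vert : Finset (HtOne Bf)) (𝔫 : Ideal Bf) [𝔫.IsPrime]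
    {𝔭₀ : HtOne Bf} (h𝔭₀ : 𝔭₀ ∈ vert) (h𝔭𝔫 : 𝔭₀.1 ≤ 𝔫)
    (hbr : ∀ j ∈ vert, j ≠ 𝔭₀ → ¬ j.1 ≤ 𝔫)
    (hπ : ∃ π : Bf, π ≠ 0 ∧ π ∈ 𝔭₀.1 ∧ (∀ x ∈ 𝔭₀.1, ∃ s : Bf, s ∉ 𝔭₀.1 ∧ π ∣ s * x) ∧
      (∀ 𝔮 : HtOne Bf, 𝔮 ≠ 𝔭₀ → 𝔮.1 ≤ 𝔫 → π ∉ 𝔮.1))
    (hval : ∀ a b : Bf, ∃ c s : Bf, s ∉ 𝔫 ∧ (s * a - c * b ∈ 𝔭₀.1 ∨ s * b - c * a ∈ 𝔭₀.1))
    {m : ℕ} (hm : m ≠ 0) {u : F}
    (hu : ∀ j ∈ vert, u - 1 ∈ (V1 F j).nonunits)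
    (hord : ∀ 𝔭 : HtOne Bf, 𝔭 ∉ vert → 𝔭.1 ≤ 𝔫 → ∃ z : F, z ≠ 0 ∧ UnitAt 𝔭 (u * z ^ m)) :
    ∃ g ∈ (⊤ : Subring F), g ^ m * u ∈ Bf ∧ LocAt (V1 (B := Bf) F) Bf ⊤ vert 𝔫 g := by
  obtain ⟨π, hπne, hπ0, hgen, hother⟩ := hπ
  obtain ⟨g, hg, ⟨c, -, hc⟩, hloc⟩ :=
    LocTypeI.exists_locAt (⊤ : Subring F) le_top vert 𝔫 h𝔭₀ h𝔭𝔫 hbr hπne hπ0 hgen hother hval hm hu
      (Subring.mem_top _) (fun y _ => Subring.mem_top y) hord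
  exact ⟨g, hg, hc ▸ c.2, hloc⟩

/-- **type I, unramified vertical prime (`π = q`)**. -/
theorem locAt_top_q (vert : Finset (HtOne Bf)) {q : Bf} (hq0 : q ≠ 0)
    (hvert : ∀ 𝔭 : HtOne Bf, q ∈ 𝔭.1 → 𝔭 ∈ vert) (𝔫 : Ideal Bf) [𝔫.IsPrime]
    {𝔭₀ : HtOne Bf} (h𝔭₀ : 𝔭₀ ∈ vert) (hq𝔭₀ : q ∈ 𝔭₀.1) (h𝔭𝔫 : 𝔭₀.1 ≤ 𝔫)
    (hbr : ∀ j ∈ vert, j ≠ 𝔭₀ → ¬ j.1 ≤ 𝔫)
    (hunif : ∀ x : F, x ∈ (V1 F 𝔭₀).nonunits → x / (q : F) ∈ V1 F 𝔭₀)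
    (hval : ∀ a b : Bf, ∃ c s : Bf, s ∉ 𝔫 ∧ (s * a - c * b ∈ 𝔭₀.1 ∨ s * b - c * a ∈ 𝔭₀.1))
    {m : ℕ} (hm : m ≠ 0) {u : F}
    (hu : ∀ j ∈ vert, u - 1 ∈ (V1 F j).nonunits)
    (hord : ∀ 𝔭 : HtOne Bf, 𝔭 ∉ vert → 𝔭.1 ≤ 𝔫 → ∃ z : F, z ≠ 0 ∧ UnitAt 𝔭 (u * z ^ m)) :
    ∃ g ∈ (⊤ : Subring F), g ^ m * u ∈ Bf ∧ LocAt (V1 (B := Bf) F) Bf ⊤ vert 𝔫 g := by
  obtain ⟨g, hg, ⟨c, -, hc⟩, hloc⟩ :=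
    LocTypeI.exists_locAt_q (⊤ : Subring F) le_top vert hq0 hvert 𝔫 h𝔭₀ hq𝔭₀ h𝔭𝔫 hbr hunif hval hm
      hu (Subring.mem_top _) (fun y _ => Subring.mem_top y) hord
  exact ⟨g, hg, hc ▸ c.2, hloc⟩

/-- **the `hI` binder of `HallOfClassify.hall_cusp_of_atMostOne` VERBATIM (at one point `𝔫`)**:
three vertical primes `f 0`, `f 1` (unramified) and `f 2` (REG3 datum at `𝔫`). -/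
theorem hI_of_components (vert : Finset (HtOne Bf)) {q : Bf} (hq0 : q ≠ 0)
    (hvert : ∀ 𝔭 : HtOne Bf, q ∈ 𝔭.1 → 𝔭 ∈ vert) (hqv : ∀ j ∈ vert, q ∈ j.1)
    (f : Fin 3 → HtOne Bf) (hf : ∀ p, p ∈ vert ↔ ∃ i, f i = p)
    {m : ℕ} (hm : m ≠ 0) {u : F} (hu : ∀ j ∈ vert, u - 1 ∈ (V1 F j).nonunits)
    (𝔫 : Ideal Bf) (h𝔫 : 𝔫.IsMaximal)
    (hord : ∀ 𝔭 : HtOne Bf, 𝔭 ∉ vert → 𝔭.1 ≤ 𝔫 → ∃ z : F, z ≠ 0 ∧ UnitAt 𝔭 (u * z ^ m))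
    (hunif0 : ∀ x : F, x ∈ (V1 F (f 0)).nonunits → x / (q : F) ∈ V1 F (f 0))
    (hunif1 : ∀ x : F, x ∈ (V1 F (f 1)).nonunits → x / (q : F) ∈ V1 F (f 1))
    (hreg3 : (f 2).1 ≤ 𝔫 → (∀ j ∈ vert, j ≠ f 2 → ¬ j.1 ≤ 𝔫) →
      ∃ π : Bf, π ≠ 0 ∧ π ∈ (f 2).1 ∧ (∀ x ∈ (f 2).1, ∃ s : Bf, s ∉ (f 2).1 ∧ π ∣ s * x) ∧
        (∀ 𝔮 : HtOne Bf, 𝔮 ≠ f 2 → 𝔮.1 ≤ 𝔫 → π ∉ 𝔮.1))
    (hval : ∀ 𝔭₀ ∈ vert, 𝔭₀.1 ≤ 𝔫 → (∀ j ∈ vert, j ≠ 𝔭₀ → ¬ j.1 ≤ 𝔫) →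
      ∀ a b : Bf, ∃ c s : Bf, s ∉ 𝔫 ∧ (s * a - c * b ∈ 𝔭₀.1 ∨ s * b - c * a ∈ 𝔭₀.1)) :
    ∀ 𝔭₀ ∈ vert, 𝔭₀.1 ≤ 𝔫 → (∀ j ∈ vert, j ≠ 𝔭₀ → ¬ j.1 ≤ 𝔫) →
      ∃ g ∈ (⊤ : Subring F), g ^ m * u ∈ Bf ∧ LocAt (V1 (B := Bf) F) Bf ⊤ vert 𝔫 g := by
  intro 𝔭₀ h𝔭₀ h𝔭𝔫 hbr
  have := h𝔫.isPrime
  obtain ⟨i, rfl⟩ := (hf 𝔭₀).1 h𝔭₀
  have hv := hval (f i) h𝔭₀ h𝔭𝔫 hbr
  fin_cases i
  · exact locAt_top_q vert hq0 hvert 𝔫 h𝔭₀ (hqv _ h𝔭₀) h𝔭𝔫 hbr hunif0 hv hm hu hord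
  · exact locAt_top_q vert hq0 hvert 𝔫 h𝔭₀ (hqv _ h𝔭₀) h𝔭𝔫 hbr hunif1 hv hm hu hord
  · exact locAt_top_pi vert 𝔫 h𝔭₀ h𝔭𝔫 hbr (hreg3 h𝔭𝔫 hbr) hv hm hu hord

/-- `U3 u ⟹ u ≡ 1` at the vertical primes of a frame, from the `W`-form `hU3W` of `h5_inst`. -/
theorem hU3_vert {ι : Type*} (W : ι → ValuationSubring F)
    (vert : Finset (HtOne Bf)) (hW' : ∀ p ∈ vert, ∃ i, V1 F p = W i)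
    (U3 : F → Prop) (hU3W : ∀ u, U3 u → ∀ i, u - 1 ∈ (W i).nonunits) :
    ∀ u, U3 u → ∀ j ∈ vert, u - 1 ∈ (V1 F j).nonunits := by
  intro u hU j hj
  obtain ⟨i, hi⟩ := hW' j hj
  rw [hi]
  exact hU3W u hU i

/-- **the type I contract, `u`-quantified** (`D u` = the divisor hypothesis on `u`, `hordP` = its
consequence at the horizontal height-one primes; `Pt 𝔫` = the class of points at which type I is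
claimed). -/
theorem hI_typed (vert : Finset (HtOne Bf)) {q : Bf} (hq0 : q ≠ 0)
    (hvert : ∀ 𝔭 : HtOne Bf, q ∈ 𝔭.1 → 𝔭 ∈ vert) (hqv : ∀ j ∈ vert, q ∈ j.1)
    (f : Fin 3 → HtOne Bf) (hf : ∀ p, p ∈ vert ↔ ∃ i, f i = p)
    {m : ℕ} (hm : m ≠ 0) (U3 D : F → Prop)
    (hU3 : ∀ u, U3 u → ∀ j ∈ vert, u - 1 ∈ (V1 F j).nonunits)
    (hordP : ∀ u : F, u ≠ 0 → D u → ∀ 𝔫 : Ideal Bf, ∀ 𝔭 : HtOne Bf, 𝔭 ∉ vert → 𝔭.1 ≤ 𝔫 →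
      ∃ z : F, z ≠ 0 ∧ UnitAt 𝔭 (u * z ^ m))
    (Pt : Ideal Bf → Prop)
    (hunif0 : ∀ x : F, x ∈ (V1 F (f 0)).nonunits → x / (q : F) ∈ V1 F (f 0))
    (hunif1 : ∀ x : F, x ∈ (V1 F (f 1)).nonunits → x / (q : F) ∈ V1 F (f 1))
    (hreg3 : ∀ 𝔫 : Ideal Bf, 𝔫.IsMaximal → Pt 𝔫 → (f 2).1 ≤ 𝔫 →
      (∀ j ∈ vert, j ≠ f 2 → ¬ j.1 ≤ 𝔫) →
      ∃ π : Bf, π ≠ 0 ∧ π ∈ (f 2).1 ∧ (∀ x ∈ (f 2).1, ∃ s : Bf, s ∉ (f 2).1 ∧ π ∣ s * x) ∧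
        (∀ 𝔮 : HtOne Bf, 𝔮 ≠ f 2 → 𝔮.1 ≤ 𝔫 → π ∉ 𝔮.1))
    (hval : ∀ 𝔫 : Ideal Bf, 𝔫.IsMaximal → Pt 𝔫 → ∀ 𝔭₀ ∈ vert, 𝔭₀.1 ≤ 𝔫 →
      (∀ j ∈ vert, j ≠ 𝔭₀ → ¬ j.1 ≤ 𝔫) →
      ∀ a b : Bf, ∃ c s : Bf, s ∉ 𝔫 ∧ (s * a - c * b ∈ 𝔭₀.1 ∨ s * b - c * a ∈ 𝔭₀.1)) :
    ∀ u : F, u ≠ 0 → U3 u → D u → ∀ 𝔫 : Ideal Bf, 𝔫.IsMaximal → Pt 𝔫 → ∀ 𝔭₀ ∈ vert, 𝔭₀.1 ≤ 𝔫 →
      (∀ j ∈ vert, j ≠ 𝔭₀ → ¬ j.1 ≤ 𝔫) →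
      ∃ g ∈ (⊤ : Subring F), g ^ m * u ∈ Bf ∧ LocAt (V1 (B := Bf) F) Bf ⊤ vert 𝔫 g :=
  fun u hu0 hU hD 𝔫 h𝔫 hPt =>
    hI_of_components vert hq0 hvert hqv f hf hm (hU3 u hU) 𝔫 h𝔫 (hordP u hu0 hD 𝔫) hunif0 hunif1
      (hreg3 𝔫 h𝔫 hPt) (hval 𝔫 h𝔫 hPt)

/-- **the `hallj` binder of helper56 `H5.h5_inst`** (with `D u := ∀ P, m ∣ ord_P (τ u)`): helper47's
`hall_of_classify` fed with the type I contract `hI_typed` (`Pt 𝔫 := q ∈ 𝔫 ∧ s ∉ 𝔫`) and a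
`u`-quantified type III producer (helper29 `TypeIIIOfSetup`). -/
theorem hallj_typed {ι : Type*} (W : ι → ValuationSubring F)
    (vert : Finset (HtOne Bf)) (hW' : ∀ p ∈ vert, ∃ i, V1 F p = W i) {q : Bf} (hq0 : q ≠ 0)
    (hvert : ∀ 𝔭 : HtOne Bf, q ∈ 𝔭.1 → 𝔭 ∈ vert) (hqv : ∀ j ∈ vert, q ∈ j.1)
    (f : Fin 3 → HtOne Bf) (hf : ∀ p, p ∈ vert ↔ ∃ i, f i = p) (hinj : Function.Injective f)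
    (s : Bf) (Q : Ideal Bf → Prop)
    (hdich : ∀ 𝔫 : Ideal Bf, 𝔫.IsMaximal → q ∈ 𝔫 →
      (s ∈ 𝔫 ∧ (f 0).1 ≤ 𝔫 ∧ (f 1).1 ≤ 𝔫 ∧ (f 2).1 ≤ 𝔫 ∧ Q 𝔫) ∨
      (s ∉ 𝔫 ∧ ¬ ((f 0).1 ≤ 𝔫 ∧ (f 1).1 ≤ 𝔫) ∧ ¬ ((f 1).1 ≤ 𝔫 ∧ (f 2).1 ≤ 𝔫) ∧
        ¬ ((f 0).1 ≤ 𝔫 ∧ (f 2).1 ≤ 𝔫)))
    {m : ℕ} (hm : m ≠ 0) (U3 D : F → Prop)
    (hU3W : ∀ u, U3 u → ∀ i, u - 1 ∈ (W i).nonunits)
    (hordP : ∀ u : F, u ≠ 0 → D u → ∀ 𝔫 : Ideal Bf, ∀ 𝔭 : HtOne Bf, 𝔭 ∉ vert → 𝔭.1 ≤ 𝔫 →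
      ∃ z : F, z ≠ 0 ∧ UnitAt 𝔭 (u * z ^ m))
    (hunif0 : ∀ x : F, x ∈ (V1 F (f 0)).nonunits → x / (q : F) ∈ V1 F (f 0))
    (hunif1 : ∀ x : F, x ∈ (V1 F (f 1)).nonunits → x / (q : F) ∈ V1 F (f 1))
    (hreg3 : ∀ 𝔫 : Ideal Bf, 𝔫.IsMaximal → (q ∈ 𝔫 ∧ s ∉ 𝔫) → (f 2).1 ≤ 𝔫 →
      (∀ j ∈ vert, j ≠ f 2 → ¬ j.1 ≤ 𝔫) →
      ∃ π : Bf, π ≠ 0 ∧ π ∈ (f 2).1 ∧ (∀ x ∈ (f 2).1, ∃ s : Bf, s ∉ (f 2).1 ∧ π ∣ s * x) ∧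
        (∀ 𝔮 : HtOne Bf, 𝔮 ≠ f 2 → 𝔮.1 ≤ 𝔫 → π ∉ 𝔮.1))
    (hval : ∀ 𝔫 : Ideal Bf, 𝔫.IsMaximal → (q ∈ 𝔫 ∧ s ∉ 𝔫) → ∀ 𝔭₀ ∈ vert, 𝔭₀.1 ≤ 𝔫 →
      (∀ j ∈ vert, j ≠ 𝔭₀ → ¬ j.1 ≤ 𝔫) →
      ∀ a b : Bf, ∃ c s : Bf, s ∉ 𝔫 ∧ (s * a - c * b ∈ 𝔭₀.1 ∨ s * b - c * a ∈ 𝔭₀.1))
    (hIII : ∀ u : F, u ≠ 0 → U3 u →
      ∀ 𝔫 : Ideal Bf, 𝔫.IsMaximal → q ∈ 𝔫 → s ∈ 𝔫 → (∀ p ∈ vert, p.1 ≤ 𝔫) → Q 𝔫 →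
        ∃ g ∈ (⊤ : Subring F), g ^ m * u ∈ Bf ∧ LocAt (V1 (B := Bf) F) Bf ⊤ vert 𝔫 g) :
    ∀ u : F, u ≠ 0 → U3 u → D u → ∀ 𝔫 : Ideal Bf, 𝔫.IsMaximal →
      ∃ g ∈ (⊤ : Subring F), g ^ m * u ∈ Bf ∧ LocAt (V1 (B := Bf) F) Bf ⊤ vert 𝔫 g := by
  intro u hu0 hU hD 𝔫 h𝔫
  have hI := hI_typed vert hq0 hvert hqv f hf hm U3 D (hU3_vert W vert hW' U3 hU3W) hordP
    (fun 𝔫 => q ∈ 𝔫 ∧ s ∉ 𝔫) hunif0 hunif1 hreg3 hval u hu0 hU hD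
  exact HallOfClassify.hall_of_classify vert hq0 hvert hqv f hf hinj s Q hdich hm
    (fun 𝔫 h𝔫 hq𝔫 hs => hI 𝔫 h𝔫 ⟨hq𝔫, hs⟩) (hIII u hu0 hU) 𝔫 h𝔫

end Abstract

section Two

variable {R F : Type*} [CommRing R] [Field F] [Algebra R F]

/-- **the `hallji` binder of helper56 `H5.h5_inst`** (with `D u := ∀ P, m ∣ ord_P (τ u)`):
helper47's `hallji_of_cusp` ∘ `hall_cusp_of_atMostOne` fed with `hallj` (all of `Bj`), `atMostOne`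
at the cuspidal points of `Bji` (`hone` = conclusion of `CuspPoints.atMostOne_of_cusp`) and the
type I contract `hI_typed` at the cuspidal points (`Pt 𝔫 := q ∈ 𝔫 ∧ 1/j ∈ 𝔫`). -/
theorem hallji_typed {ι : Type*} (W : ι → ValuationSubring F) {j : F} {Bj Bji : Subring F}
    [IsFractionRing Bj F] [IsNoetherianRing Bj] [IsIntegrallyClosed Bj]
    [IsFractionRing Bji F] [IsNoetherianRing Bji] [IsIntegrallyClosed Bji]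
    (hBj : ChartChange.IsChartRing R j Bj) (hBji : ChartChange.IsChartRing R j⁻¹ Bji)
    (q0 : R) (hq0 : (Ideal.span {q0}).IsMaximal) (hq0F : algebraMap R F q0 ≠ 0)
    (vertj : Finset (HtOne Bj)) (hWj : ∀ i, ∃ p ∈ vertj, V1 F p = W i)
    (vertji : Finset (HtOne Bji)) (hWji : ∀ i, ∃ p ∈ vertji, V1 F p = W i)
    (hWji' : ∀ p ∈ vertji, ∃ i, V1 F p = W i)
    (hvertji : ∀ 𝔭 : HtOne Bji, hBji.toRingHom q0 ∈ 𝔭.1 → 𝔭 ∈ vertji)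
    (hqvji : ∀ p ∈ vertji, hBji.toRingHom q0 ∈ p.1)
    (f : Fin 3 → HtOne Bji) (hf : ∀ p, p ∈ vertji ↔ ∃ i, f i = p)
    {m : ℕ} (hm : m ≠ 0) (U3 D : F → Prop)
    (hU3W : ∀ u, U3 u → ∀ i, u - 1 ∈ (W i).nonunits)
    (hordP : ∀ u : F, u ≠ 0 → D u → ∀ 𝔫 : Ideal Bji, ∀ 𝔭 : HtOne Bji, 𝔭 ∉ vertji → 𝔭.1 ≤ 𝔫 →
      ∃ z : F, z ≠ 0 ∧ UnitAt 𝔭 (u * z ^ m))
    (hone : ∀ 𝔫 : Ideal Bji, 𝔫.IsMaximal → hBji.toRingHom q0 ∈ 𝔫 → hBji.gen ∈ 𝔫 →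
      ¬ ((f 0).1 ≤ 𝔫 ∧ (f 1).1 ≤ 𝔫) ∧ ¬ ((f 1).1 ≤ 𝔫 ∧ (f 2).1 ≤ 𝔫) ∧
        ¬ ((f 0).1 ≤ 𝔫 ∧ (f 2).1 ≤ 𝔫))
    (hunif0 : ∀ x : F, x ∈ (V1 F (f 0)).nonunits →
      x / ((hBji.toRingHom q0 : Bji) : F) ∈ V1 F (f 0))
    (hunif1 : ∀ x : F, x ∈ (V1 F (f 1)).nonunits →
      x / ((hBji.toRingHom q0 : Bji) : F) ∈ V1 F (f 1))
    (hreg3 : ∀ 𝔫 : Ideal Bji, 𝔫.IsMaximal → (hBji.toRingHom q0 ∈ 𝔫 ∧ hBji.gen ∈ 𝔫) →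
      (f 2).1 ≤ 𝔫 → (∀ j ∈ vertji, j ≠ f 2 → ¬ j.1 ≤ 𝔫) →
      ∃ π : Bji, π ≠ 0 ∧ π ∈ (f 2).1 ∧ (∀ x ∈ (f 2).1, ∃ s : Bji, s ∉ (f 2).1 ∧ π ∣ s * x) ∧
        (∀ 𝔮 : HtOne Bji, 𝔮 ≠ f 2 → 𝔮.1 ≤ 𝔫 → π ∉ 𝔮.1))
    (hval : ∀ 𝔫 : Ideal Bji, 𝔫.IsMaximal → (hBji.toRingHom q0 ∈ 𝔫 ∧ hBji.gen ∈ 𝔫) →
      ∀ 𝔭₀ ∈ vertji, 𝔭₀.1 ≤ 𝔫 → (∀ j ∈ vertji, j ≠ 𝔭₀ → ¬ j.1 ≤ 𝔫) →
      ∀ a b : Bji, ∃ c s : Bji, s ∉ 𝔫 ∧ (s * a - c * b ∈ 𝔭₀.1 ∨ s * b - c * a ∈ 𝔭₀.1))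
    (hallj : ∀ u : F, u ≠ 0 → U3 u → D u → ∀ 𝔫 : Ideal Bj, 𝔫.IsMaximal →
      ∃ g ∈ (⊤ : Subring F), g ^ m * u ∈ Bj ∧ LocAt (V1 (B := Bj) F) Bj ⊤ vertj 𝔫 g) :
    ∀ u : F, u ≠ 0 → U3 u → D u → ∀ 𝔫 : Ideal Bji, 𝔫.IsMaximal →
      ∃ g ∈ (⊤ : Subring F), g ^ m * u ∈ Bji ∧ LocAt (V1 (B := Bji) F) Bji ⊤ vertji 𝔫 g := by
  intro u hu0 hU hD 𝔫 h𝔫
  have hqB0 : hBji.toRingHom q0 ≠ 0 := by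
    intro h0
    apply hq0F
    rw [← ChartChange.IsChartRing.coe_toRingHom hBji, h0]; rfl
  have hI := hI_typed vertji hqB0 hvertji hqvji f hf hm U3 D (hU3_vert W vertji hWji' U3 hU3W)
    hordP (fun 𝔫 => hBji.toRingHom q0 ∈ 𝔫 ∧ hBji.gen ∈ 𝔫) hunif0 hunif1 hreg3 hval u hu0 hU hD
  exact HallOfClassify.hallji_of_cusp W hBj hBji q0 hq0 vertj hWj vertji hWji hWji' hqvji hm hu0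
    (hallj u hu0 hU hD)
    (fun 𝔫 h𝔫 hq𝔫 hgen => HallOfClassify.hall_cusp_of_atMostOne vertji hqB0 hvertji f hf 𝔫 h𝔫 hq𝔫
      (hone 𝔫 h𝔫 hq𝔫 hgen) (hI 𝔫 h𝔫 ⟨hq𝔫, hgen⟩)) 𝔫 h𝔫

end Two

section K0

open Fermat.Agent.GL.Val.GaussK0 Fermat.Agent.GL.Val.SecondK0 Fermat.Agent.GL.Val.CuspK0
open Fermat.Agent.GL.Local.InertiaField
open Fermat.Agent.Common_helper32

variable (A : ValuationSubring Qb) {q : ℕ} (hq : q.Prime) (hA : (q : Qb) ∈ A.nonunits)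
  (N : ℕ) [NeZero N]

include hq hA in
/-- **the `hordP` hypothesis of `hI_typed` / `hallj_typed` / `hallji_typed` over `K₀(X₀(N))`**,
`D u := ∀ P, m ∣ ord_P (toFN0 A N u)` (the divisor hypothesis of `h5_inst` at `τ := toFN0 A N`):
`HorizHordTop.hord_binder`.  `qB` = the image of `q` in the frame (any presentation). -/
theorem hordP_K0 {Bf : Subring (modularFunctionFieldFullC (K0 A) N)}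
    [IsFractionRing Bf (modularFunctionFieldFullC (K0 A) N)] [IsNoetherianRing Bf]
    [IsIntegrallyClosed Bf]
    (hR : ∀ c : K0 A, c ∈ R0 A →
      algebraMap (K0 A) (modularFunctionFieldFullC (K0 A) N) c ∈ Bf)
    (vert : Finset (HtOne Bf)) {qB : Bf}
    (hqB : (qB : modularFunctionFieldFullC (K0 A) N) = (q : modularFunctionFieldFullC (K0 A) N))
    (hvert : ∀ 𝔭 : HtOne Bf, qB ∈ 𝔭.1 → 𝔭 ∈ vert) (m : ℕ) :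
    ∀ u : modularFunctionFieldFullC (K0 A) N, u ≠ 0 →
      (∀ P : Place (AlgebraicClosure ℚ) (modularFunctionFieldBar N),
        (m : ℤ) ∣ P.ord (toFN0 A N u)) →
      ∀ 𝔫 : Ideal Bf, ∀ 𝔭 : HtOne Bf, 𝔭 ∉ vert → 𝔭.1 ≤ 𝔫 →
        ∃ z : modularFunctionFieldFullC (K0 A) N, z ≠ 0 ∧ UnitAt 𝔭 (u * z ^ m) := by
  intro u hu0 hdiv 𝔫
  have hqeq : ((q : ℕ) : Bf) = qB := Subtype.ext (by rw [hqB]; push_cast; rfl)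
  exact HorizHordTop.hord_binder A hq hA N hR vert (fun 𝔭 h => hvert 𝔭 (hqeq ▸ h)) m hu0 hdiv 𝔫

end K0

end Fermat.Agent.GL.Final.H5TypeI
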