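/-
GATE-L / H5 ARM, the LOCAL CONTRACT on the frame `Bj` (helper11): **the `hallj` binder of helper56's
`H5FinK0.h5K0_of_hall` / `H5InstK0.h5_inst_frames`** (forall-instance form on
`chartRing A j`, `vert := vertFinset hqB`) from TYPED data.

* `hallj_frames_typed` (generic `K F A`, `W : Fin 3 → ValuationSubring F`): inside the binder the
  frame parametrisation `f : Fin 3 → HtOne (chartRing A j)` is obtained from helper80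
  `FrameInstVal.exists_frame_self`; the typed data (`s`, `Q`, `hdich`, `hreg3`, `hval`, `hIII` of
  `H5TypeI.hallj_typed`) are asked FOR EVERY such parametrisation (`H`); `hunif0/1` in `W`-form;
  `hordP` in forall-instance form.
* `hallj_K0_of_typed` : the same at `R0 A`, `K0 A`, `F₀ = K₀(X₀(M' q q))`, `j₀ = jK0`,
  `W := W3 A hQ`, `U3 := H4OfXi.U3 S m1`, `D u := ∀ P, m1 ∣ ord_P (toFN0 A N u)`, with `hordP`
  (`H5TypeI.hordP_K0`), `hunif0/1` (`exists_eq_q_mul₁`, `exists_eq_q_mul₂Q`), `hU3W` (helper39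
  `U2_iff`) DISCHARGED: only `H` is left.
-/
import Fermat.Agent.GL.Final.H5InstK0
import Fermat.Agent.GL.Final.H5TypeI
import Fermat.Agent.GL.Final.H5UnifK0

set_option autoImplicit false
set_option linter.unusedSectionVars false

noncomputable section

namespace Fermat.Agent.GL.Final.H5HalljK0

open AlgebraicCurve ModularCurve Polynomial IntermediateField
open Fermat.Agent.GL.ChartChange Fermat.Agent.GL.Gate Fermat.Agent.GL.GaussAt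
open Fermat.Agent.GL.H4OfXi
open Fermat.Agent.GK.AL Fermat.Agent.GL.AL
open Fermat.Agent.GL.Val.GaussK0 Fermat.Agent.GL.Val.SecondK0 Fermat.Agent.GL.Val.SecondK0Hall
open Fermat.Agent.GL.Val.ThirdK0 Fermat.Agent.GL.Val.OrthK0 Fermat.Agent.GL.Val.L1eAsmK0
open Fermat.Agent.GL.Frame.Inst Fermat.Agent.GL.Frame.HeightOne Fermat.Agent.GL.LocGlue
open Fermat.Agent.GL.Frame.InstVal Fermat.Agent.GL.Frame.Kummer
open Fermat.Agent.GL.Final.H5 Fermat.Agent.GL.Final.H5TypeI Fermat.Agent.GL.Final.H5UnifK0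
open Fermat.Agent.GL.Val.CuspK0 Fermat.Agent.GL.Val.CuspCoeff
open Fermat.Agent.Common_helper32

section Frames

variable {K F : Type*} [Field K] [CharZero K] [Field F] [Algebra K F] {A : ValuationSubring K}
  [IsDiscreteValuationRing A]

/-- **the `hallj` binder of `h5_inst_frames` from typed data**, generic base. -/
theorem hallj_frames_typed {q : A} (hq : Irreducible q)
    {j : F} [FiniteDimensional K⟮j⟯ F]
    (W : Fin 3 → ValuationSubring F) (hWinj : Function.Injective W)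
    (hWover : ∀ i, ∀ a : K, algebraMap K F a ∈ W i ↔ a ∈ A)
    (hWG : ∀ i, IsGaussAt A (W i) j)
    (hnoextG : ∀ V : ValuationSubring F, (∀ a : K, algebraMap K F a ∈ V ↔ a ∈ A) →
      IsGaussAt A V j → ∃ i, V = W i)
    {m : ℕ} (hm : m ≠ 0) (U3 D : F → Prop)
    (hU3W : ∀ u, U3 u → ∀ i, u - 1 ∈ (W i).nonunits)
    (hunif0 : ∀ x : F, x ∈ (W 0).nonunits → x / algebraMap A F q ∈ W 0)
    (hunif1 : ∀ x : F, x ∈ (W 1).nonunits → x / algebraMap A F q ∈ W 1)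
    (hordP : ∀ [IsFractionRing (chartRing A j) F] [IsNoetherianRing (chartRing A j)]
      [IsIntegrallyClosed (chartRing A j)] (hqB : baseB j q ≠ 0),
      ∀ u : F, u ≠ 0 → D u → ∀ 𝔫 : Ideal (chartRing A j), ∀ 𝔭 : HtOne (chartRing A j),
        𝔭 ∉ vertFinset hqB → 𝔭.1 ≤ 𝔫 → ∃ z : F, z ≠ 0 ∧ UnitAt 𝔭 (u * z ^ m))
    (H : ∀ [IsFractionRing (chartRing A j) F] [IsNoetherianRing (chartRing A j)]
      [IsIntegrallyClosed (chartRing A j)] (hqB : baseB j q ≠ 0)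
      (f : Fin 3 → HtOne (chartRing A j)), (∀ i, V1 F (f i) = W i) →
      (∀ p, p ∈ vertFinset hqB ↔ ∃ i, f i = p) →
      (∀ i (b : chartRing A j), b ∈ (f i).1 ↔ (b : F) ∈ (W i).nonunits) →
      Function.Injective f →
      ∃ (s : chartRing A j) (Q : Ideal (chartRing A j) → Prop),
        (∀ 𝔫 : Ideal (chartRing A j), 𝔫.IsMaximal → baseB j q ∈ 𝔫 →
          (s ∈ 𝔫 ∧ (f 0).1 ≤ 𝔫 ∧ (f 1).1 ≤ 𝔫 ∧ (f 2).1 ≤ 𝔫 ∧ Q 𝔫) ∨
          (s ∉ 𝔫 ∧ ¬ ((f 0).1 ≤ 𝔫 ∧ (f 1).1 ≤ 𝔫) ∧ ¬ ((f 1).1 ≤ 𝔫 ∧ (f 2).1 ≤ 𝔫) ∧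
            ¬ ((f 0).1 ≤ 𝔫 ∧ (f 2).1 ≤ 𝔫))) ∧
        (∀ 𝔫 : Ideal (chartRing A j), 𝔫.IsMaximal → (baseB j q ∈ 𝔫 ∧ s ∉ 𝔫) → (f 2).1 ≤ 𝔫 →
          (∀ p ∈ vertFinset hqB, p ≠ f 2 → ¬ p.1 ≤ 𝔫) →
          ∃ π : chartRing A j, π ≠ 0 ∧ π ∈ (f 2).1 ∧
            (∀ x ∈ (f 2).1, ∃ s : chartRing A j, s ∉ (f 2).1 ∧ π ∣ s * x) ∧
            (∀ 𝔮 : HtOne (chartRing A j), 𝔮 ≠ f 2 → 𝔮.1 ≤ 𝔫 → π ∉ 𝔮.1)) ∧
        (∀ 𝔫 : Ideal (chartRing A j), 𝔫.IsMaximal → (baseB j q ∈ 𝔫 ∧ s ∉ 𝔫) →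
          ∀ 𝔭₀ ∈ vertFinset hqB, 𝔭₀.1 ≤ 𝔫 → (∀ p ∈ vertFinset hqB, p ≠ 𝔭₀ → ¬ p.1 ≤ 𝔫) →
          ∀ a b : chartRing A j, ∃ c s : chartRing A j,
            s ∉ 𝔫 ∧ (s * a - c * b ∈ 𝔭₀.1 ∨ s * b - c * a ∈ 𝔭₀.1)) ∧
        (∀ u : F, u ≠ 0 → U3 u → ∀ 𝔫 : Ideal (chartRing A j), 𝔫.IsMaximal → baseB j q ∈ 𝔫 →
          s ∈ 𝔫 → (∀ p ∈ vertFinset hqB, p.1 ≤ 𝔫) → Q 𝔫 →
          ∃ g ∈ (⊤ : Subring F), g ^ m * u ∈ chartRing A j ∧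
            LocAt (V1 (B := chartRing A j) F) (chartRing A j) ⊤ (vertFinset hqB) 𝔫 g)) :
    ∀ [IsFractionRing (chartRing A j) F] [IsNoetherianRing (chartRing A j)]
      [IsIntegrallyClosed (chartRing A j)] (hqB : baseB j q ≠ 0),
      ∀ u : F, u ≠ 0 → U3 u → D u →
      ∀ 𝔫 : Ideal (chartRing A j), 𝔫.IsMaximal →
        ∃ g ∈ (⊤ : Subring F), g ^ m * u ∈ chartRing A j ∧
          LocAt (V1 (B := chartRing A j) F) (chartRing A j) ⊤ (vertFinset hqB) 𝔫 g := by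
  intro i1 i2 i3 hqB
  obtain ⟨_, _, _, _, f, hf1, hf2, hf3, hf4⟩ := exists_frame_self hq W hWover hWG hnoextG
  obtain ⟨s, Q, hdich, hreg3, hval, hIII⟩ := H hqB f hf1 hf2 hf3 (hf4 hWinj)
  have hW' : ∀ p ∈ vertFinset hqB, ∃ i, V1 F p = W i := by
    intro p hp
    obtain ⟨i, rfl⟩ := (hf2 p).1 hp
    exact ⟨i, hf1 i⟩
  have hvert : ∀ 𝔭 : HtOne (chartRing A j), baseB j q ∈ 𝔭.1 → 𝔭 ∈ vertFinset hqB :=
    fun 𝔭 h => (mem_vertFinset hqB 𝔭).2 h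
  have hqv : ∀ p ∈ vertFinset hqB, baseB j q ∈ p.1 :=
    fun p hp => (mem_vertFinset hqB p).1 hp
  have hu0 : ∀ x : F, x ∈ (V1 F (f 0)).nonunits → x / ((baseB j q : chartRing A j) : F) ∈
      V1 F (f 0) := by
    rw [hf1 0]; exact hunif0
  have hu1 : ∀ x : F, x ∈ (V1 F (f 1)).nonunits → x / ((baseB j q : chartRing A j) : F) ∈
      V1 F (f 1) := by
    rw [hf1 1]; exact hunif1
  exact hallj_typed W (vertFinset hqB) hW' hqB hvert hqv f hf2 (hf4 hWinj) s Q hdich hm U3 D hU3W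
    (hordP hqB) hu0 hu1 hreg3 hval hIII

end Frames

section K0

variable (A : ValuationSubring Qb) {q : ℕ} (M' : ℕ) [NeZero M'] [NeZero q]
variable {E k k1 k2 k3 k1' k2' B T T' : Type*} [Field E] [Field k]
  [Field k1] [Field k2] [Field k3] [Field k1'] [Field k2'] [CommRing B]
  [Algebra B (modularFunctionFieldFullC (K0 A) (M' * q * q))]

local notation "F₀" => modularFunctionFieldFullC (K0 A) (M' * q * q)
local notation "j₀" => jK0 A (M' * q * q)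

set_option synthInstance.maxHeartbeats 400000 in
set_option maxHeartbeats 6400000 in
/-- **the `hallj` binder of helper56 `H5FinK0.h5K0_of_hall` VERBATIM from the typed data `H`**
(`hordP`, `hunif0/1`, `hU3W`, the frame of the `j`-line: discharged). -/
theorem hallj_K0_of_typed (hq : q.Prime) (hqM : ¬ q ∣ M') (hA : A.LiesOverPrime q)
    (hQ : HallDvd (q ^ 2) (M' * q * q))
    (S : TripleSetup F₀ E k k1 k2 k3 k1' k2' B T T')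
    (hW1 : S.W1 = RwK0 A (M' * q * q)) (hW2 : S.W2 = (redData2QK0 A (M' * q * q) hQ).Rw)
    (hW3 : S.W3 = Rw3K0 A (M' * q * q) q)
    {m1 : ℕ} (hm1 : m1 ≠ 0)
    (H : ∀ [IsFractionRing (chartRing (R0 A) j₀) F₀] [IsNoetherianRing (chartRing (R0 A) j₀)]
      [IsIntegrallyClosed (chartRing (R0 A) j₀)] (hqB : baseB j₀ (q0 A q) ≠ 0)
      (f : Fin 3 → HtOne (chartRing (R0 A) j₀)), (∀ i, V1 F₀ (f i) = W3 A hQ i) →
      (∀ p, p ∈ vertFinset hqB ↔ ∃ i, f i = p) →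
      (∀ i (b : chartRing (R0 A) j₀), b ∈ (f i).1 ↔ (b : F₀) ∈ (W3 A hQ i).nonunits) →
      Function.Injective f →
      ∃ (s : chartRing (R0 A) j₀) (Q : Ideal (chartRing (R0 A) j₀) → Prop),
        (∀ 𝔫 : Ideal (chartRing (R0 A) j₀), 𝔫.IsMaximal → baseB j₀ (q0 A q) ∈ 𝔫 →
          (s ∈ 𝔫 ∧ (f 0).1 ≤ 𝔫 ∧ (f 1).1 ≤ 𝔫 ∧ (f 2).1 ≤ 𝔫 ∧ Q 𝔫) ∨
          (s ∉ 𝔫 ∧ ¬ ((f 0).1 ≤ 𝔫 ∧ (f 1).1 ≤ 𝔫) ∧ ¬ ((f 1).1 ≤ 𝔫 ∧ (f 2).1 ≤ 𝔫) ∧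
            ¬ ((f 0).1 ≤ 𝔫 ∧ (f 2).1 ≤ 𝔫))) ∧
        (∀ 𝔫 : Ideal (chartRing (R0 A) j₀), 𝔫.IsMaximal →
          (baseB j₀ (q0 A q) ∈ 𝔫 ∧ s ∉ 𝔫) → (f 2).1 ≤ 𝔫 →
          (∀ p ∈ vertFinset hqB, p ≠ f 2 → ¬ p.1 ≤ 𝔫) →
          ∃ π : chartRing (R0 A) j₀, π ≠ 0 ∧ π ∈ (f 2).1 ∧
            (∀ x ∈ (f 2).1, ∃ s : chartRing (R0 A) j₀, s ∉ (f 2).1 ∧ π ∣ s * x) ∧
            (∀ 𝔮 : HtOne (chartRing (R0 A) j₀), 𝔮 ≠ f 2 → 𝔮.1 ≤ 𝔫 → π ∉ 𝔮.1)) ∧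
        (∀ 𝔫 : Ideal (chartRing (R0 A) j₀), 𝔫.IsMaximal →
          (baseB j₀ (q0 A q) ∈ 𝔫 ∧ s ∉ 𝔫) →
          ∀ 𝔭₀ ∈ vertFinset hqB, 𝔭₀.1 ≤ 𝔫 → (∀ p ∈ vertFinset hqB, p ≠ 𝔭₀ → ¬ p.1 ≤ 𝔫) →
          ∀ a b : chartRing (R0 A) j₀, ∃ c s : chartRing (R0 A) j₀,
            s ∉ 𝔫 ∧ (s * a - c * b ∈ 𝔭₀.1 ∨ s * b - c * a ∈ 𝔭₀.1)) ∧
        (∀ u : F₀, u ≠ 0 → U3 S m1 u → ∀ 𝔫 : Ideal (chartRing (R0 A) j₀), 𝔫.IsMaximal →
          baseB j₀ (q0 A q) ∈ 𝔫 → s ∈ 𝔫 → (∀ p ∈ vertFinset hqB, p.1 ≤ 𝔫) → Q 𝔫 →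
          ∃ g ∈ (⊤ : Subring F₀), g ^ m1 * u ∈ chartRing (R0 A) j₀ ∧
            LocAt (V1 (B := chartRing (R0 A) j₀) F₀) (chartRing (R0 A) j₀) ⊤
              (vertFinset hqB) 𝔫 g)) :
    ∀ [IsFractionRing (chartRing (R0 A) j₀) F₀] [IsNoetherianRing (chartRing (R0 A) j₀)]
      [IsIntegrallyClosed (chartRing (R0 A) j₀)] (hqB : baseB j₀ (q0 A q) ≠ 0),
      ∀ u : F₀, u ≠ 0 → U3 S m1 u →
      (∀ P : Place Qb (modularFunctionFieldBar (M' * q * q)),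
        (m1 : ℤ) ∣ P.ord (toFN0 A (M' * q * q) u)) →
      ∀ 𝔫 : Ideal (chartRing (R0 A) j₀), 𝔫.IsMaximal →
        ∃ g ∈ (⊤ : Subring F₀), g ^ m1 * u ∈ chartRing (R0 A) j₀ ∧
          LocAt (V1 (B := chartRing (R0 A) j₀) F₀) (chartRing (R0 A) j₀) ⊤ (vertFinset hqB) 𝔫 g := by
  -- the base DVR
  have hdvr := isDiscreteValuationRing_R0 A hq hA
  have hq0 : Prime (q0 A q) := Fermat.Agent.GL.Frame.ChartInstK0.prime_q0 A hq hA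
  -- level bookkeeping
  have hN : M' * q * q = M' * q ^ 2 := by ring
  have hq2 : q ^ 2 * 1 ∣ M' * q * q := by rw [mul_one, hN]; exact dvd_mul_left _ _
  have : NeZero (q ^ 2 * 1) := ⟨by rw [mul_one]; exact pow_ne_zero 2 hq.ne_zero⟩
  have hfd : FiniteDimensional (K0 A)⟮j₀⟯ F₀ := by
    rw [jK0_eq_jC]
    exact Fermat.Agent.GL.Val.DegBase.finiteDimensional_fullC (M' * q * q) (K0 A)
  -- the three valuations
  have hWover : ∀ i, ∀ a : K0 A, algebraMap (K0 A) F₀ a ∈ W3 A hQ i ↔ a ∈ R0 A := fun i =>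
    (isRamified_W3_R0 A hq hN hqM hA hQ (one_dvd M') hq2 (one_dvd _) i).mem_iff
  have hWG : ∀ i, IsGaussAt (R0 A) (W3 A hQ i) j₀ := isGaussAt_W3 A hQ
  have hnoextG : ∀ V : ValuationSubring F₀,
      (∀ a : K0 A, algebraMap (K0 A) F₀ a ∈ V ↔ a ∈ R0 A) → IsGaussAt (R0 A) V j₀ →
      ∃ i, V = W3 A hQ i := fun V hV hG => by
    rcases Fermat.Agent.GL.Val.L1eThm.exists_eq A hq hN hqM hA hQ (V := V)
      (fun a => hG.mem_iff_mem hV (hWover 0) (hWG 0) a.2) with h | h | h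
    · exact ⟨0, h⟩
    · exact ⟨1, h⟩
    · exact ⟨2, h⟩
  have hWinj : Function.Injective (W3 A hQ) := by
    intro a b hab
    by_contra hne
    exact incomparable_W3 A hq hN hqM hA hQ a b hne (le_of_eq hab)
  -- `U3 ⟹ ≡ 1` at `w₁ w₂ w₃`
  have hU3W : ∀ u, U3 S m1 u → ∀ i, u - 1 ∈ (W3 A hQ i).nonunits := by
    intro u hu i
    obtain ⟨h1, h2, h3⟩ := (Fermat.Agent.GL.Final.U2Facts.U2_iff S u).mp hu.1
    rw [hW1] at h1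
    rw [hW2] at h2
    rw [hW3] at h3
    fin_cases i
    · exact h1
    · exact h2
    · exact h3
  -- `q` uniformises `w₁`, `w₂`
  have hqF : algebraMap (R0 A) F₀ (q0 A q) = (q : F₀) := algebraMap_q0 A (M' * q * q)
  have hqne : (q : F₀) ≠ 0 := Nat.cast_ne_zero.mpr hq.ne_zero
  have hunif0 : ∀ x : F₀, x ∈ (W3 A hQ 0).nonunits →
      x / algebraMap (R0 A) F₀ (q0 A q) ∈ W3 A hQ 0 := by
    rw [hqF]
    refine div_mem_of_dvd (RwK0 A (M' * q * q)) hqne ?_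
    intro x hx
    obtain ⟨y, hy, hxy⟩ := exists_eq_q_mul₁ A (M' * q * q) hq hA x hx
    exact ⟨y, hy, by rw [hxy, algebraMap_q0]⟩
  have hunif1 : ∀ x : F₀, x ∈ (W3 A hQ 1).nonunits →
      x / algebraMap (R0 A) F₀ (q0 A q) ∈ W3 A hQ 1 := by
    rw [hqF]
    refine div_mem_of_dvd (redData2QK0 A (M' * q * q) hQ).Rw hqne ?_
    intro x hx
    obtain ⟨y, hy, hxy⟩ := exists_eq_q_mul₂Q A (M' * q * q) hQ hq hA x hx
    exact ⟨y, hy, by rw [hxy, algebraMap_q0]⟩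
  -- `hordP`
  have hordP : ∀ [IsFractionRing (chartRing (R0 A) j₀) F₀] [IsNoetherianRing (chartRing (R0 A) j₀)]
      [IsIntegrallyClosed (chartRing (R0 A) j₀)] (hqB : baseB j₀ (q0 A q) ≠ 0),
      ∀ u : F₀, u ≠ 0 → (∀ P : Place Qb (modularFunctionFieldBar (M' * q * q)),
        (m1 : ℤ) ∣ P.ord (toFN0 A (M' * q * q) u)) →
      ∀ 𝔫 : Ideal (chartRing (R0 A) j₀), ∀ 𝔭 : HtOne (chartRing (R0 A) j₀),
        𝔭 ∉ vertFinset hqB → 𝔭.1 ≤ 𝔫 → ∃ z : F₀, z ≠ 0 ∧ UnitAt 𝔭 (u * z ^ m1) := by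
    intro i1 i2 i3 hqB
    refine hordP_K0 A hq hA (M' * q * q) (fun c hc => ?_) (vertFinset hqB)
      (qB := baseB j₀ (q0 A q)) ?_ (fun 𝔭 h => (mem_vertFinset hqB 𝔭).2 h) m1
    · exact (baseB j₀ (⟨c, hc⟩ : R0 A)).2
    · rw [coe_baseB]; exact hqF
  intro i1 i2 i3 hqB
  exact hallj_frames_typed (A := R0 A) hq0.irreducible (W3 A hQ) hWinj hWover hWG hnoextG hm1
    (U3 S m1)
    (fun u => ∀ P : Place Qb (modularFunctionFieldBar (M' * q * q)),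
      (m1 : ℤ) ∣ P.ord (toFN0 A (M' * q * q) u))
    hU3W hunif0 hunif1 hordP H hqB

end K0

end Fermat.Agent.GL.Final.H5HalljK0
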