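/-
GATE-L / L5-I, CONCRETE, finite `j`-frame over `K₀` (helper84): `hval` of helper47's
`LocTypeI.exists_locAt(_q)` at EVERY point of each of the three vertical components of the finite
`j`-frame of `K₀(X₀(M' q²))`, from helper15's `K₀`-rational old triples.

`N = M' q q`, `A | q`, `K₀ = ℚ̄^{I_A}`, `R₀ = A ∩ K₀`, `F₀ = K₀(X₀(N))`, `C = CRing M' A` (Dedekind:
helper56), `B3K0 ⊂ F₀` helper15's ring (`K₀`-rational, integral over `K₀[j]`, `w₁ w₂ w₃ ≥ 0`) with its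
three series-valued reductions `rdK1 rdK2 rdK3 : B3K0 →+* k((t))`.

* `rdK1_eq_zero_iff`, `rdK2_eq_zero_iff`, `rdK3_eq_zero_iff` : the kernels are the non-units of
  `RwK0`, `(redData2QK0 ..).Rw`, `Rw3K0`;
* `hval_fin_W1`, `hval_fin_W2`, `hval_fin_W3` : for a frame `Bj ⊂ F₀` (noetherian, normal,
  `Frac = F₀`: helper80 `chartRing`) with
    `hB   : ∀ x, x ∈ Bj ↔ x ∈ B3K0`                           ((INT): L1e + `RegFin`)
    `hin  : ∀ x0 : B3K0, ∃ c : C, rdK_i x0 = cVal c` (`cVal3 c`)   (helper15 `RedInC`, (RES))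
  and a height-one prime `𝔭₀` of `Bj` with `V1 F₀ 𝔭₀ = W_i`: `hval` at every prime `𝔫 ⊇ 𝔭₀`.
  (`hout` = helper15 `old0K0` / `old2K0`; `B ⧸ 𝔭₀ ≃ C`.)
-/
import Fermat.Agent.GL.Fibre.OldTriplesK0
import Fermat.Agent.GL.Frame.HvalGlobalSeries
import Fermat.Agent.GK.SS.CRingFacts

set_option autoImplicit false
set_option linter.unusedSectionVars false
set_option synthInstance.maxHeartbeats 400000
set_option maxHeartbeats 1000000

noncomputable section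

namespace Fermat.Agent.GL.Final.HvalFinK0

open HahnSeries ModularCurve IsLocalRing
open Fermat.Agent.S24 Fermat.Agent.S24_helper62 Fermat.Agent.S24_helper82
open Fermat.Agent.GJ.J1 Fermat.Agent.GJ.J1.Val Fermat.Agent.GJ.HN Fermat.Agent.GK.AL
open Fermat.Agent.GK.QS Fermat.Agent.GK.FrobGlue Fermat.Agent.GL.AL Fermat.Agent.GL.W3
open Fermat.Agent.GL.CuspVal Fermat.Agent.GL.OldTriples Fermat.Agent.GL.OldTriplesK0
open Fermat.Agent.GL.Val.GaussK0 Fermat.Agent.GL.Val.SecondK0 Fermat.Agent.GL.Val.SecondK0Hall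
open Fermat.Agent.GL.Val.ThirdK0 Fermat.Agent.GL.Table.K0
open Fermat.Agent.GL.Frame.HeightOne Fermat.Agent.GL.Frame.HvalGlobalSeries

variable (M' : ℕ) [NeZero M'] (q : ℕ) [hqF : Fact q.Prime] [NeZero q]
variable (A : ValuationSubring Kbar) (hQ : HallDvd (q ^ 2) (M' * q * q))

local notation "kA" => ResidueField A
local notation "F0" => modularFunctionFieldFullC (K0 A) (M' * q * q)

/-! ### the kernels of the three reductions -/

/-- a series-valued reduction vanishes exactly on the non-units -/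
theorem coe_red_eq_zero_iff {K F k Λ : Type*} [Field K] [Field F] [Algebra K F] [Field k]
    [Field Λ] [Algebra k Λ] {S : IntermediateField k Λ} (R : RedData K F k S) (x : F)
    (hx : x ∈ R.Rw) : ((R.red ⟨x, hx⟩ : S) : Λ) = 0 ↔ x ∈ R.Rw.nonunits := by
  rw [ZeroMemClass.coe_eq_zero, mem_nonunits_iff_red]
  exact ⟨fun h => ⟨hx, h⟩, fun ⟨_, h⟩ => h⟩

theorem rdK1_eq_zero_iff (x0 : B3K0 M' q A hQ) :
    rdK1 M' q A hQ x0 = 0 ↔ (x0 : F0) ∈ (RwK0 A (M' * q * q)).nonunits := by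
  rw [rdK1_apply, rd1_apply, mem_nonunits_Rw1K0_iff]
  exact coe_red_eq_zero_iff _ _ _

theorem rdK2_eq_zero_iff (x0 : B3K0 M' q A hQ) :
    rdK2 M' q A hQ x0 = 0 ↔ (x0 : F0) ∈ (redData2QK0 A (M' * q * q) hQ).Rw.nonunits := by
  rw [rdK2_apply, rd2_apply, mem_nonunits_Rw2QK0_iff]
  exact coe_red_eq_zero_iff _ _ _

theorem rdK3_eq_zero_iff (x0 : B3K0 M' q A hQ) :
    rdK3 M' q A hQ x0 = 0 ↔ (x0 : F0) ∈ (Rw3K0 A (M' * q * q) q).nonunits := by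
  rw [rdK3_apply, rd3_apply, mem_nonunits_of_comap (mapK0Bar A (M' * q * q)) _ _
    (mem_Rw3K0_iff_mapK0Bar (q := q) A (M' * q * q))]
  exact coe_red_eq_zero_iff _ _ _

/-! ### `hval` on the finite `j`-frame -/

section Hval

variable {M' q A hQ}
variable {Bj : Subring (modularFunctionFieldFullC (K0 A) (M' * q * q))}

/-- the frame is helper15's ring (`hB` = (INT)) -/
def toB3K0 (hB : ∀ x : (modularFunctionFieldFullC (K0 A) (M' * q * q)), x ∈ Bj ↔ x ∈ B3K0 M' q A hQ) : Bj →+* B3K0 M' q A hQ :=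
  Subring.inclusion (fun x hx => (hB x).1 hx)

theorem coe_toB3K0 (hB : ∀ x : (modularFunctionFieldFullC (K0 A) (M' * q * q)), x ∈ Bj ↔ x ∈ B3K0 M' q A hQ) (f : Bj) :
    ((toB3K0 hB f : B3K0 M' q A hQ) : (modularFunctionFieldFullC (K0 A) (M' * q * q))) = (f : (modularFunctionFieldFullC (K0 A) (M' * q * q))) := rfl

theorem cVal3_injective : Function.Injective (cVal3 M' q A) := fun _ _ hab =>
  cVal_injective M' A ((qExpand kA (M' * q * q)).injective hab)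

variable [IsFractionRing Bj (modularFunctionFieldFullC (K0 A) (M' * q * q))] [IsNoetherianRing Bj] [IsIntegrallyClosed Bj]
variable (hB : ∀ x : (modularFunctionFieldFullC (K0 A) (M' * q * q)), x ∈ Bj ↔ x ∈ B3K0 M' q A hQ)
variable (hqM : ¬ q ∣ M') (hA : A.LiesOverPrime q) (h2 : q = 2 → 3 ∣ M') (h3 : q = 3 → 2 ∣ M')

include hB hqM hA h2 h3 in
/-- **`hval` at every point of the component `C₁` of the finite `j`-frame** -/
theorem hval_fin_W1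
    (hin : ∀ x0 : B3K0 M' q A hQ, ∃ c : CRing M' A, rdK1 M' q A hQ x0 = cVal M' A c)
    (𝔫 : Ideal Bj) [𝔫.IsPrime] (𝔭₀ : HtOne Bj) (h𝔭𝔫 : 𝔭₀.1 ≤ 𝔫)
    (hW : V1 (modularFunctionFieldFullC (K0 A) (M' * q * q)) 𝔭₀ = RwK0 A (M' * q * q)) (a b : Bj) :
    ∃ c s : Bj, s ∉ 𝔫 ∧ (s * a - c * b ∈ 𝔭₀.1 ∨ s * b - c * a ∈ 𝔭₀.1) := by
  have hD : IsDedekindDomain (CRing M' A) :=
    Fermat.Agent.GK.SS.Modular.isDedekindDomain_CRing M' q A hA
  refine hval_of_global_series 𝔫 𝔭₀ h𝔭𝔫 ((rdK1 M' q A hQ).comp (toB3K0 hB)) ?_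
    (cVal M' A).toRingHom (cVal_injective M' A) (fun f => hin (toB3K0 hB f)) ?_ a b
  · intro a'
    rw [RingHom.comp_apply, rdK1_eq_zero_iff, coe_toB3K0, ← hW]
    exact algebraMap_mem_nonunits_V1_iff 𝔭₀ a'
  · intro c
    obtain ⟨x0, h1, -, -⟩ := old0K0 M' q A hQ hqM hA h2 h3 c
    exact ⟨⟨x0, (hB x0).2 x0.2⟩, h1⟩

include hB hqM hA h2 h3 in
/-- **`hval` at every point of the component `C₂` of the finite `j`-frame** -/
theorem hval_fin_W2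
    (hin : ∀ x0 : B3K0 M' q A hQ, ∃ c : CRing M' A, rdK2 M' q A hQ x0 = cVal M' A c)
    (𝔫 : Ideal Bj) [𝔫.IsPrime] (𝔭₀ : HtOne Bj) (h𝔭𝔫 : 𝔭₀.1 ≤ 𝔫)
    (hW : V1 (modularFunctionFieldFullC (K0 A) (M' * q * q)) 𝔭₀ = (redData2QK0 A (M' * q * q) hQ).Rw) (a b : Bj) :
    ∃ c s : Bj, s ∉ 𝔫 ∧ (s * a - c * b ∈ 𝔭₀.1 ∨ s * b - c * a ∈ 𝔭₀.1) := by
  have hD : IsDedekindDomain (CRing M' A) :=
    Fermat.Agent.GK.SS.Modular.isDedekindDomain_CRing M' q A hA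
  refine hval_of_global_series 𝔫 𝔭₀ h𝔭𝔫 ((rdK2 M' q A hQ).comp (toB3K0 hB)) ?_
    (cVal M' A).toRingHom (cVal_injective M' A) (fun f => hin (toB3K0 hB f)) ?_ a b
  · intro a'
    rw [RingHom.comp_apply, rdK2_eq_zero_iff, coe_toB3K0, ← hW]
    exact algebraMap_mem_nonunits_V1_iff 𝔭₀ a'
  · intro c
    obtain ⟨x0, -, h2', -⟩ := old2K0 M' q A hQ hqM hA h2 h3 c
    exact ⟨⟨x0, (hB x0).2 x0.2⟩, h2'⟩

include hB hqM hA h2 h3 in
/-- **`hval` at every point of the component `C₃` of the finite `j`-frame** -/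
theorem hval_fin_W3
    (hin : ∀ x0 : B3K0 M' q A hQ, ∃ c : CRing M' A, rdK3 M' q A hQ x0 = cVal3 M' q A c)
    (𝔫 : Ideal Bj) [𝔫.IsPrime] (𝔭₀ : HtOne Bj) (h𝔭𝔫 : 𝔭₀.1 ≤ 𝔫)
    (hW : V1 (modularFunctionFieldFullC (K0 A) (M' * q * q)) 𝔭₀ = Rw3K0 A (M' * q * q) q) (a b : Bj) :
    ∃ c s : Bj, s ∉ 𝔫 ∧ (s * a - c * b ∈ 𝔭₀.1 ∨ s * b - c * a ∈ 𝔭₀.1) := by
  have hD : IsDedekindDomain (CRing M' A) :=
    Fermat.Agent.GK.SS.Modular.isDedekindDomain_CRing M' q A hA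
  refine hval_of_global_series 𝔫 𝔭₀ h𝔭𝔫 ((rdK3 M' q A hQ).comp (toB3K0 hB)) ?_
    (cVal3 M' q A) cVal3_injective (fun f => hin (toB3K0 hB f)) ?_ a b
  · intro a'
    rw [RingHom.comp_apply, rdK3_eq_zero_iff, coe_toB3K0, ← hW]
    exact algebraMap_mem_nonunits_V1_iff 𝔭₀ a'
  · intro c
    obtain ⟨x0, -, -, h3'⟩ := old0K0 M' q A hQ hqM hA h2 h3 c
    exact ⟨⟨x0, (hB x0).2 x0.2⟩, h3'⟩

end Hval

end Fermat.Agent.GL.Final.HvalFinK0
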