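/-
GATE-L / L5-I, CONCRETE, finite `j`-frame over `K₀`, UNCONDITIONAL (helper84).

`hval` of helper11's `H5Typed.h5_typed` (= `hval` of helper47's `LocTypeI.exists_locAt(_q)`) on the
frame `Bj = chartRing R₀ j ⊂ K₀(X₀(M' q q))` at EVERY point of each of the three vertical components:
the two hypotheses `hB`, `hin` of `HvalFinK0.hval_fin_W1/2/3` are discharged here from

* helper75 `B3ChartK0.B3K0_eq_chartRing`  ((INT): `B3K0 = chartRing R₀ j`),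
* helper15 `RedInC.exists_cVal_eq_rdK1/2`, `exists_cVal3_eq_rdK3`  ((hB3), hypothesis form),
* helper45 `HrangeK0.theta_red1_mem_FresBar`, `theta_red3_eq_qExpand`  ((RES1), (RES3)).

Main statements:
* `hres1_K0`, `hres3_K0` : (RES1), (RES3) in helper15's `RedInC` shapes, UNCONDITIONAL;
* `hRb_K0`, `hint_K0` : the two other binders of `RedInC` at `Rb := R₀`;
* `hval_chart_W1/W2/W3` : `hval` at `Bj := chartRing R₀ (jC N K₀)` for a height-one prime with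
  `V1 F₀ 𝔭₀ = w_i`;
* **`hval_chart_K0`** : the `hval` binder of `h5_typed` for ANY `vertj` all of whose members
  have `V1 F₀ p ∈ {w₁, w₂, w₃}` (helper75 `W3`), at every prime `𝔫`.
-/
import Fermat.Agent.GL.Final.HvalFinK0
import Fermat.Agent.GL.Fibre.RedInC
import Fermat.Agent.GL.Val.B3ChartK0
import Fermat.Agent.GL.Val.HrangeK0
import Fermat.Agent.GL.Frame.ChartChange

set_option autoImplicit false
set_option linter.unusedSectionVars false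
set_option synthInstance.maxHeartbeats 400000
set_option maxHeartbeats 1000000

noncomputable section

namespace Fermat.Agent.GL.Final.HvalFinK0Thm

open HahnSeries ModularCurve IsLocalRing
open Fermat.Agent.S24 Fermat.Agent.S24_helper62 Fermat.Agent.S24_helper82
open Fermat.Agent.GJ.J1 Fermat.Agent.GJ.J1.Val Fermat.Agent.GJ.HN Fermat.Agent.GK.AL
open Fermat.Agent.GK.QS Fermat.Agent.GK.FrobGlue Fermat.Agent.GL.AL Fermat.Agent.GL.W3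
open Fermat.Agent.GL.CuspVal Fermat.Agent.GL.OldTriples Fermat.Agent.GL.OldTriplesK0
open Fermat.Agent.GL.Val.GaussK0 Fermat.Agent.GL.Val.SecondK0 Fermat.Agent.GL.Val.SecondK0Hall
open Fermat.Agent.GL.Val.ThirdK0 Fermat.Agent.GL.Table.K0
open Fermat.Agent.GL.Frame.HeightOne Fermat.Agent.GL.Frame.Inst
open Fermat.Agent.GL.RedInC Fermat.Agent.GL.Final.HvalFinK0
open Fermat.Agent.GL.Val.B3ChartK0 Fermat.Agent.GL.Val.HrangeK0 Fermat.Agent.GL.Val.CuspK0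
open Fermat.Agent.GL.Val.DegBase Fermat.Agent.GL.Val.OrthK0

variable {M' : ℕ} [NeZero M'] {q : ℕ} [hqF : Fact q.Prime] [NeZero q]
variable {A : ValuationSubring Kbar} {hQ : HallDvd (q ^ 2) (M' * q * q)}
variable (hqM : ¬ q ∣ M') (hA : A.LiesOverPrime q)

local notation "kA" => ResidueField A

/-! ### (RES1), (RES3) in the `RedInC` shapes -/

include hqM hA in
/-- **(RES1)** of helper15's `RedInC`, unconditional -/
theorem hres1_K0 (x : RwK0 A (M' * q * q)) : rhoK1 M' q A x ∈ FresBar M' A := by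
  rw [rhoK1_apply, coe_red1K0 A (M' * q * q) x.1 x.2]
  exact theta_red1_mem_FresBar A hqF.out hqM hA x

include hqM hA in
/-- **(RES3)** of helper15's `RedInC`, unconditional -/
theorem hres3_K0 (x : Rw3K0 A (M' * q * q) q) : ∃ y : FresBar M' A,
    rhoK3 M' q A x =
      qExpand (ResidueField A) (M' * q * q) (y : LaurentSeries (ResidueField A)) := by
  obtain ⟨z, hz, hzx⟩ := theta_red3_eq_qExpand A hqF.out hqM hA ⟨x.1, x.2⟩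
  refine ⟨⟨z, hz⟩, ?_⟩
  rw [rhoK3_apply]
  show _ = qExpand kA (M' * q * q) z
  rw [← hzx]
  have hx' : toFN0 A (M' * q * q) x.1 ∈ (redDataCusp (M' * q * q) A (cusp3 (M' * q * q) q)).Rw := by
    have := (Fermat.Agent.GL.Table.K0.mem_Rw3K0_iff_mapK0Bar (q := q) A (M' * q * q) x.1).1 x.2
    rwa [mapK0Bar_eq_toFN0] at this
  rw [coeffMap_resMapK0_coe_red A (M' * q * q) (cusp3 (M' * q * q) q) hqF.out hA x.1 x.2 hx']
  congr 2

/-! ### the binders `hRb`, `hint` of `RedInC` at `Rb := R₀` -/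

/-- `hRb` of `RedInC` at `Rb := R₀` -/
theorem hRb_K0 : ∀ r : R0 A, ∃ a : R0 A,
    algebraMap (R0 A) (modularFunctionFieldFullC (K0 A) (M' * q * q)) r =
      algebraMap (K0 A) (modularFunctionFieldFullC (K0 A) (M' * q * q)) (a : K0 A) :=
  fun r => ⟨r, rfl⟩

include hqM hA in
/-- `hint` of `RedInC` at `Rb := R₀` (helper75 (INT)) -/
theorem hint_K0 (x0 : B3K0 M' q A hQ) :
    IsIntegral (Algebra.adjoin (R0 A) {jC (M' * q * q) (K0 A)})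
      (x0 : modularFunctionFieldFullC (K0 A) (M' * q * q)) :=
  (mem_B3K0_iff_isIntegral hqM hA).1 x0.2

include hqM hA in
/-- `hin` of `hval_fin_W1` -/
theorem hin1_K0 (x0 : B3K0 M' q A hQ) :
    ∃ c : CRing M' A, rdK1 M' q A hQ x0 = cVal M' A c := by
  obtain ⟨c, hc⟩ := exists_cVal_eq_rdK1 M' q A hQ hqM hRb_K0 (hint_K0 hqM hA)
    (hres1_K0 hqM hA) x0
  exact ⟨c, hc.symm⟩

include hqM hA in
/-- `hin` of `hval_fin_W2` -/
theorem hin2_K0 (x0 : B3K0 M' q A hQ) :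
    ∃ c : CRing M' A, rdK2 M' q A hQ x0 = cVal M' A c := by
  obtain ⟨c, hc⟩ := exists_cVal_eq_rdK2 M' q A hQ hqM hA hRb_K0 (hint_K0 hqM hA)
    (hres1_K0 hqM hA) x0
  exact ⟨c, hc.symm⟩

include hqM hA in
/-- `hin` of `hval_fin_W3` -/
theorem hin3_K0 (x0 : B3K0 M' q A hQ) :
    ∃ c : CRing M' A, rdK3 M' q A hQ x0 = cVal3 M' q A c := by
  obtain ⟨c, hc⟩ := exists_cVal3_eq_rdK3 M' q A hQ hqM hRb_K0 (hint_K0 hqM hA)
    (hres3_K0 hqM hA) x0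
  exact ⟨c, hc.symm⟩

/-! ### `hval` on the chart ring `Bj = IC R₀[j]` -/

section Chart

open Fermat.Agent.GL.ChartChange Fermat.Agent.GL.Val.L1eAsmK0

variable (h2 : q = 2 → 3 ∣ M') (h3 : q = 3 → 2 ∣ M')
variable {Bj : Subring (modularFunctionFieldFullC (K0 A) (M' * q * q))}
variable [IsFractionRing Bj (modularFunctionFieldFullC (K0 A) (M' * q * q))]
  [IsNoetherianRing Bj] [IsIntegrallyClosed Bj]
variable (hBj : IsChartRing (R0 A) (jC (M' * q * q) (K0 A)) Bj)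

include hqM hA hBj in
/-- `hB` of `hval_fin_W*` for a chart ring of `j` over `R₀` -/
theorem hB_of_isChartRing (x : modularFunctionFieldFullC (K0 A) (M' * q * q)) :
    x ∈ Bj ↔ x ∈ B3K0 M' q A hQ :=
  (hBj x).trans (mem_B3K0_iff_isIntegral hqM hA).symm

include hqM hA h2 h3 hBj in
/-- **`hval` at every point of `C₁`**, unconditional -/
theorem hval_chart_W1 (𝔫 : Ideal Bj) [𝔫.IsPrime] (𝔭₀ : HtOne Bj) (h𝔭𝔫 : 𝔭₀.1 ≤ 𝔫)
    (hW : (V1 (modularFunctionFieldFullC (K0 A) (M' * q * q)) 𝔭₀ :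
      ValuationSubring (modularFunctionFieldFullC (K0 A) (M' * q * q))) = RwK0 A (M' * q * q))
    (a b : Bj) :
    ∃ c s : Bj, s ∉ 𝔫 ∧ (s * a - c * b ∈ 𝔭₀.1 ∨ s * b - c * a ∈ 𝔭₀.1) :=
  hval_fin_W1 (hQ := Fermat.Agent.GL.Val.ResW3Top.hallDvd_top hqF.out hqM)
    (hB_of_isChartRing hqM hA hBj) hqM hA h2 h3 (hin1_K0 hqM hA) 𝔫 𝔭₀ h𝔭𝔫 hW a b

include hqM hA h2 h3 hBj in
/-- **`hval` at every point of `C₂`**, unconditional -/
theorem hval_chart_W2 (𝔫 : Ideal Bj) [𝔫.IsPrime] (𝔭₀ : HtOne Bj) (h𝔭𝔫 : 𝔭₀.1 ≤ 𝔫)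
    (hW : (V1 (modularFunctionFieldFullC (K0 A) (M' * q * q)) 𝔭₀ :
      ValuationSubring (modularFunctionFieldFullC (K0 A) (M' * q * q))) =
        (redData2QK0 A (M' * q * q) hQ).Rw)
    (a b : Bj) :
    ∃ c s : Bj, s ∉ 𝔫 ∧ (s * a - c * b ∈ 𝔭₀.1 ∨ s * b - c * a ∈ 𝔭₀.1) :=
  hval_fin_W2 (hQ := hQ) (hB_of_isChartRing hqM hA hBj) hqM hA h2 h3 (hin2_K0 hqM hA)
    𝔫 𝔭₀ h𝔭𝔫 hW a b

include hqM hA h2 h3 hBj in
/-- **`hval` at every point of `C₃`**, unconditional -/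
theorem hval_chart_W3 (𝔫 : Ideal Bj) [𝔫.IsPrime] (𝔭₀ : HtOne Bj) (h𝔭𝔫 : 𝔭₀.1 ≤ 𝔫)
    (hW : (V1 (modularFunctionFieldFullC (K0 A) (M' * q * q)) 𝔭₀ :
      ValuationSubring (modularFunctionFieldFullC (K0 A) (M' * q * q))) =
        Rw3K0 A (M' * q * q) q)
    (a b : Bj) :
    ∃ c s : Bj, s ∉ 𝔫 ∧ (s * a - c * b ∈ 𝔭₀.1 ∨ s * b - c * a ∈ 𝔭₀.1) :=
  hval_fin_W3 (hQ := Fermat.Agent.GL.Val.ResW3Top.hallDvd_top hqF.out hqM)
    (hB_of_isChartRing hqM hA hBj) hqM hA h2 h3 (hin3_K0 hqM hA) 𝔫 𝔭₀ h𝔭𝔫 hW a b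

include hqM hA h2 h3 hBj in
/-- **`hval` at every point of every vertical component** of the finite `j`-frame over `K₀`
(`W3 A hQ = ![w₁, w₂, w₃]`, helper75) -/
theorem hval_chart_K0 (𝔫 : Ideal Bj) [𝔫.IsPrime] (𝔭₀ : HtOne Bj) (h𝔭𝔫 : 𝔭₀.1 ≤ 𝔫)
    (hW : ∃ i, (V1 (modularFunctionFieldFullC (K0 A) (M' * q * q)) 𝔭₀ :
      ValuationSubring (modularFunctionFieldFullC (K0 A) (M' * q * q))) = W3 A hQ i)
    (a b : Bj) :
    ∃ c s : Bj, s ∉ 𝔫 ∧ (s * a - c * b ∈ 𝔭₀.1 ∨ s * b - c * a ∈ 𝔭₀.1) := by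
  obtain ⟨i, hi⟩ := hW
  fin_cases i
  · exact hval_chart_W1 hqM hA h2 h3 hBj 𝔫 𝔭₀ h𝔭𝔫 hi a b
  · exact hval_chart_W2 (hQ := hQ) hqM hA h2 h3 hBj 𝔫 𝔭₀ h𝔭𝔫 hi a b
  · exact hval_chart_W3 hqM hA h2 h3 hBj 𝔫 𝔭₀ h𝔭𝔫 hi a b

include hqM hA h2 h3 hBj in
/-- **the `hval` binder of helper11's `h5_typed`** on the frame `Bj` (any class `Pt` of points) -/
theorem hval_binder_K0 (vertj : Finset (HtOne Bj))
    (hWj' : ∀ p ∈ vertj, ∃ i,
      (V1 (modularFunctionFieldFullC (K0 A) (M' * q * q)) p :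
        ValuationSubring (modularFunctionFieldFullC (K0 A) (M' * q * q))) = W3 A hQ i)
    (Pt : Ideal Bj → Prop) :
    ∀ 𝔫 : Ideal Bj, 𝔫.IsMaximal → Pt 𝔫 → ∀ 𝔭₀ ∈ vertj, 𝔭₀.1 ≤ 𝔫 →
      (∀ j ∈ vertj, j ≠ 𝔭₀ → ¬ j.1 ≤ 𝔫) →
      ∀ a b : Bj, ∃ c s : Bj, s ∉ 𝔫 ∧ (s * a - c * b ∈ 𝔭₀.1 ∨ s * b - c * a ∈ 𝔭₀.1) := by
  intro 𝔫 h𝔫 _ 𝔭₀ h𝔭₀ hle _ a b
  have : 𝔫.IsPrime := h𝔫.isPrime
  exact hval_chart_K0 (hQ := hQ) hqM hA h2 h3 hBj 𝔫 𝔭₀ hle (hWj' 𝔭₀ h𝔭₀) a b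

include hqM hA h2 h3 in
/-- the same for the chart `OrthK0.jK0` (`= jC`) -/
theorem hval_binder_K0_jK0 (hBj' : IsChartRing (R0 A) (jK0 A (M' * q * q)) Bj)
    (vertj : Finset (HtOne Bj))
    (hWj' : ∀ p ∈ vertj, ∃ i,
      (V1 (modularFunctionFieldFullC (K0 A) (M' * q * q)) p :
        ValuationSubring (modularFunctionFieldFullC (K0 A) (M' * q * q))) = W3 A hQ i)
    (Pt : Ideal Bj → Prop) :
    ∀ 𝔫 : Ideal Bj, 𝔫.IsMaximal → Pt 𝔫 → ∀ 𝔭₀ ∈ vertj, 𝔭₀.1 ≤ 𝔫 →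
      (∀ j ∈ vertj, j ≠ 𝔭₀ → ¬ j.1 ≤ 𝔫) →
      ∀ a b : Bj, ∃ c s : Bj, s ∉ 𝔫 ∧ (s * a - c * b ∈ 𝔭₀.1 ∨ s * b - c * a ∈ 𝔭₀.1) := by
  rw [jK0_eq_jC] at hBj'
  exact hval_binder_K0 (hQ := hQ) hqM hA h2 h3 hBj' vertj hWj' Pt

end Chart

end Fermat.Agent.GL.Final.HvalFinK0Thm
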