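/-
GATE-L / L-INT, H5 ARM, layer 2 (helper56): **the Čech data of a chart `h` in FIELD FORM**.

`R0` a commutative ring, `F` a field over `R0`, `h ∈ F`, `h ≠ 0`.  The three rings of the Čech cover
are DEFINED as integral closures inside `F`:

  `B1 := icAlg R0 {h}`, `B2 := icAlg R0 {h⁻¹}`, `B12 := icAlg R0 {h, h⁻¹}`  (`Subalgebra R0 F`),

and for a Kummer unit `u` the module of sections is `M := {f ∈ B12 | f ^ m * u ∈ B2}`
(`secMod`, a submodule by INTEGRALITY alone: helper33's remark, board 2727).  All the hypotheses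
of helper28 `CechAmbient.exists_section_ambient` / helper11 `JFrameCech.exists_section_of_j_frames`
which do not involve the fibre are DISCHARGED here:

* `icAlg_mono`, `icAlg_closed`, `icAlg_rootClosed`;
* `exists_pow_mul_mem` : `z ∈ B12 ⟹ ∃ n, (h⁻¹) ^ n * z ∈ B2` (scaling of the integral equation);
* `secMod`, `mem_secMod`, `secMod_mul_mem` (= `hM`), `secMod_pow` (= `hum`);
* `exists_eq_pow_mul_secMod` (= `hB`), `exists_pow_mul_mem_B2_of_secMod` (twist bound for `hMspan`),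
  `exists_pow_mul_mem_B1` (= `ha'`);
* `exists_span_B1`, `exists_span_secMod` : (FG) in span form (helper28 `CechFG`).
-/
import Mathlib
import Fermat.Agent.GL.Lattice.CechFG
import Fermat.Agent.GL.Frame.ChartChange

set_option autoImplicit false
set_option linter.unusedSectionVars false

noncomputable section

namespace Fermat.Agent.GL.Final.H5

open Polynomial Fermat.Agent.GL.ChartChange

section IC

variable (R0 : Type*) {F : Type*} [CommRing R0] [Field F] [Algebra R0 F]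

/-- the integral closure of `R0[s]` in `F`, as an `R0`-subalgebra of `F`. -/
def icAlg (s : Set F) : Subalgebra R0 F :=
  (integralClosure (Algebra.adjoin R0 s) F).restrictScalars R0

variable {R0}

theorem mem_icAlg {s : Set F} {x : F} :
    x ∈ icAlg R0 s ↔ IsIntegral (Algebra.adjoin R0 s) x := Iff.rfl

theorem subset_icAlg {s : Set F} {x : F} (hx : x ∈ s) : x ∈ icAlg R0 s :=
  mem_icAlg.mpr (isIntegral_of_mem _ (Algebra.subset_adjoin hx))

theorem icAlg_mono {s t : Set F} (hst : s ⊆ t) : icAlg R0 s ≤ icAlg R0 t := by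
  intro x hx
  rw [mem_icAlg] at hx ⊢
  have hle : Algebra.adjoin R0 s ≤ Algebra.adjoin R0 t := Algebra.adjoin_mono hst
  exact isIntegral_of_ringHom (Subalgebra.inclusion hle).toRingHom (fun _ => rfl) hx

/-- `icAlg` is integrally closed in `F`. -/
theorem icAlg_closed {s : Set F} {x : F} (hx : IsIntegral (icAlg R0 s) x) : x ∈ icAlg R0 s := by
  rw [mem_icAlg]
  exact isIntegral_of_forall_isIntegral (A1 := icAlg R0 s) (fun a => mem_icAlg.mp a.2) hx

/-- `icAlg` is root closed. -/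
theorem icAlg_rootClosed {s : Set F} {m : ℕ} (hm : m ≠ 0) {x : F} (hx : x ^ m ∈ icAlg R0 s) :
    x ∈ icAlg R0 s := by
  apply icAlg_closed
  refine ⟨X ^ m - C (⟨x ^ m, hx⟩ : icAlg R0 s), monic_X_pow_sub_C _ hm, ?_⟩
  simp only [eval₂_sub, eval₂_pow, eval₂_X, eval₂_C]
  exact sub_self _

theorem isChartRing_icAlg (x : F) : IsChartRing R0 x (icAlg R0 {x}).toSubring :=
  fun _ => Iff.rfl

end IC

section Scale

variable {R0 F : Type*} [CommRing R0] [Field F] [Algebra R0 F]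

/-- every element of `R0[h, hinv]` lands in `R0[hinv]` after multiplication by a high power of
`hinv`. -/
theorem exists_pow_mul_mem_adjoin {h hinv : F} (hh : h * hinv = 1) {a : F}
    (ha : a ∈ Algebra.adjoin R0 ({h, hinv} : Set F)) :
    ∃ k : ℕ, ∀ k' : ℕ, k ≤ k' → hinv ^ k' * a ∈ Algebra.adjoin R0 ({hinv} : Set F) := by
  have hmem : hinv ∈ Algebra.adjoin R0 ({hinv} : Set F) :=
    Algebra.subset_adjoin (Set.mem_singleton hinv)
  induction ha using Algebra.adjoin_induction with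
  | mem x hx =>
    rcases hx with rfl | hx
    · refine ⟨1, fun k' hk' => ?_⟩
      obtain ⟨d, rfl⟩ := Nat.exists_eq_add_of_le hk'
      have : hinv ^ (1 + d) * x = hinv ^ d := by
        rw [pow_add, pow_one]
        calc hinv * hinv ^ d * x = (x * hinv) * hinv ^ d := by ring
          _ = hinv ^ d := by rw [hh, one_mul]
      rw [this]
      exact pow_mem hmem d
    · rw [Set.mem_singleton_iff] at hx
      subst hx
      exact ⟨0, fun k' _ => mul_mem (pow_mem hmem k') hmem⟩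
  | algebraMap r =>
    exact ⟨0, fun k' _ => mul_mem (pow_mem hmem k') (Subalgebra.algebraMap_mem _ r)⟩
  | add x y _ _ hx hy =>
    obtain ⟨k1, h1⟩ := hx
    obtain ⟨k2, h2⟩ := hy
    refine ⟨max k1 k2, fun k' hk' => ?_⟩
    rw [mul_add]
    exact add_mem (h1 k' (le_trans (le_max_left _ _) hk')) (h2 k' (le_trans (le_max_right _ _) hk'))
  | mul x y _ _ hx hy =>
    obtain ⟨k1, h1⟩ := hx
    obtain ⟨k2, h2⟩ := hy
    refine ⟨k1 + k2, fun k' hk' => ?_⟩
    obtain ⟨d, rfl⟩ := Nat.exists_eq_add_of_le hk'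
    have : hinv ^ (k1 + k2 + d) * (x * y) = (hinv ^ k1 * x) * (hinv ^ (k2 + d) * y) := by ring
    rw [this]
    exact mul_mem (h1 k1 le_rfl) (h2 (k2 + d) (Nat.le_add_right _ _))

/-- **scaling**: an element integral over `R0[h, hinv]` becomes integral over `R0[hinv]` after
multiplication by a power of `hinv`. -/
theorem exists_pow_mul_mem {h hinv : F} (hh : h * hinv = 1) {z : F}
    (hz : z ∈ icAlg R0 ({h, hinv} : Set F)) :
    ∃ n : ℕ, hinv ^ n * z ∈ icAlg R0 ({hinv} : Set F) := by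
  obtain ⟨p, hp, hpz⟩ := mem_icAlg.mp hz
  have hcoef : ∀ i : ℕ, ∃ k : ℕ, ∀ k' : ℕ, k ≤ k' →
      hinv ^ k' * ((p.coeff i : Algebra.adjoin R0 ({h, hinv} : Set F)) : F) ∈
        Algebra.adjoin R0 ({hinv} : Set F) :=
    fun i => exists_pow_mul_mem_adjoin hh (p.coeff i).2
  choose K hK using hcoef
  set k : ℕ := (Finset.range (p.natDegree + 1)).sup K with hk
  have hle : Algebra.adjoin R0 ({hinv} : Set F) ≤ Algebra.adjoin R0 ({h, hinv} : Set F) :=
    Algebra.adjoin_mono (by intro x hx; exact Or.inr hx)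
  let s0 : Algebra.adjoin R0 ({h, hinv} : Set F) :=
    ⟨hinv, Algebra.subset_adjoin (Or.inr (Set.mem_singleton hinv))⟩
  have hroot : eval₂ (algebraMap (Algebra.adjoin R0 ({h, hinv} : Set F)) F) (hinv ^ k * z)
      (scaleRoots p (s0 ^ k)) = 0 := by
    have := scaleRoots_eval₂_eq_zero (algebraMap (Algebra.adjoin R0 ({h, hinv} : Set F)) F)
      (s := s0 ^ k) hpz
    rw [map_pow] at this
    exact this
  have hq : (scaleRoots p (s0 ^ k)).Monic := (monic_scaleRoots_iff (s0 ^ k)).mpr hp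
  have hqlift : scaleRoots p (s0 ^ k) ∈ lifts (Subalgebra.inclusion hle).toRingHom := by
    rw [lifts_iff_coeff_lifts]
    intro i
    rw [coeff_scaleRoots]
    by_cases hi : i < p.natDegree
    · have hKi : K i ≤ k * (p.natDegree - i) := by
        have h1 : K i ≤ k := Finset.le_sup (f := K) (Finset.mem_range.mpr (by omega))
        have h2 : 1 ≤ p.natDegree - i := by omega
        calc K i ≤ k := h1
          _ = k * 1 := (mul_one k).symm
          _ ≤ k * (p.natDegree - i) := Nat.mul_le_mul_left k h2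
      have hmem := hK i _ hKi
      refine ⟨⟨_, hmem⟩, Subtype.ext ?_⟩
      show hinv ^ (k * (p.natDegree - i)) * ((p.coeff i : Algebra.adjoin R0 ({h, hinv} : Set F)) : F)
        = ((p.coeff i * (s0 ^ k) ^ (p.natDegree - i) : Algebra.adjoin R0 ({h, hinv} : Set F)) : F)
      rw [← pow_mul]
      push_cast
      ring
    · rcases eq_or_lt_of_le (not_lt.mp hi) with heq | hgt
      · rw [← heq, hp.coeff_natDegree, Nat.sub_self, pow_zero, mul_one]
        exact ⟨1, map_one _⟩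
      · rw [coeff_eq_zero_of_natDegree_lt hgt, zero_mul]
        exact ⟨0, map_zero _⟩
  obtain ⟨q', hq'map, -, hq'monic⟩ := lifts_and_natDegree_eq_and_monic hqlift hq
  refine ⟨k, mem_icAlg.mpr ⟨q', hq'monic, ?_⟩⟩
  rw [← hroot, ← hq'map, eval₂_map]
  rfl

end Scale

section Sections

variable {R0 F : Type*} [CommRing R0] [Field F] [Algebra R0 F]

/-- the mixed terms of `(f + g) ^ m * u`. -/
theorem mixed_mem {s : Set F} {m : ℕ} (hm : m ≠ 0) {u f g : F}
    (hf : f ^ m * u ∈ icAlg R0 s) (hg : g ^ m * u ∈ icAlg R0 s) {i j : ℕ} (hij : i + j = m) :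
    f ^ i * g ^ j * u ∈ icAlg R0 s := by
  apply icAlg_rootClosed hm
  have : (f ^ i * g ^ j * u) ^ m = (f ^ m * u) ^ i * (g ^ m * u) ^ j := by
    subst hij
    ring
  rw [this]
  exact mul_mem (pow_mem hf i) (pow_mem hg j)

/-- **the module of sections** `M = {f ∈ B12 | f ^ m * u ∈ B2}` of the chart `h`. -/
def secMod (R0 : Type*) {F : Type*} [CommRing R0] [Field F] [Algebra R0 F] (h : F) {m : ℕ}
    (hm : m ≠ 0) (u : F) : Submodule R0 F where
  carrier := {f | f ∈ icAlg R0 ({h, h⁻¹} : Set F) ∧ f ^ m * u ∈ icAlg R0 ({h⁻¹} : Set F)}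
  add_mem' := by
    rintro f g ⟨hf1, hf2⟩ ⟨hg1, hg2⟩
    refine ⟨add_mem hf1 hg1, ?_⟩
    rw [add_pow, Finset.sum_mul]
    refine Subalgebra.sum_mem _ fun i hi => ?_
    have hi' : i + (m - i) = m := Nat.add_sub_cancel' (Nat.lt_succ_iff.mp (Finset.mem_range.mp hi))
    have h1 := mixed_mem hm hf2 hg2 hi'
    have : f ^ i * g ^ (m - i) * ((m.choose i : ℕ) : F) * u
        = ((m.choose i : ℕ) : F) * (f ^ i * g ^ (m - i) * u) := by ring
    rw [this]
    exact mul_mem (natCast_mem _ _) h1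
  zero_mem' := ⟨zero_mem _, by rw [zero_pow hm, zero_mul]; exact zero_mem _⟩
  smul_mem' := by
    rintro c f ⟨hf1, hf2⟩
    refine ⟨Subalgebra.smul_mem _ hf1 c, ?_⟩
    rw [Algebra.smul_def, mul_pow, mul_assoc]
    exact mul_mem (pow_mem (Subalgebra.algebraMap_mem _ c) m) hf2

theorem mem_secMod {h : F} {m : ℕ} {hm : m ≠ 0} {u f : F} :
    f ∈ secMod R0 h hm u ↔
      f ∈ icAlg R0 ({h, h⁻¹} : Set F) ∧ f ^ m * u ∈ icAlg R0 ({h⁻¹} : Set F) := Iff.rfl

theorem B1_le_B12 (h : F) : icAlg R0 ({h} : Set F) ≤ icAlg R0 ({h, h⁻¹} : Set F) :=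
  icAlg_mono (by intro x hx; exact Or.inl hx)

theorem B2_le_B12 (h : F) : icAlg R0 ({h⁻¹} : Set F) ≤ icAlg R0 ({h, h⁻¹} : Set F) :=
  icAlg_mono (by intro x hx; exact Or.inr hx)

/-- `hM` : `M` is a `B2`-module. -/
theorem secMod_mul_mem {h : F} {m : ℕ} {hm : m ≠ 0} {u : F} {b f : F}
    (hb : b ∈ icAlg R0 ({h⁻¹} : Set F)) (hf : f ∈ secMod R0 h hm u) :
    b * f ∈ secMod R0 h hm u := by
  refine ⟨mul_mem (B2_le_B12 h hb) hf.1, ?_⟩
  rw [mul_pow, mul_assoc]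
  exact mul_mem (pow_mem hb m) hf.2

end Sections

section Cech

variable {R0 F : Type*} [CommRing R0] [Field F] [Algebra R0 F] {h : F}

theorem hinv_mem_B2 (h : F) : h⁻¹ ∈ icAlg R0 ({h⁻¹} : Set F) := subset_icAlg (Set.mem_singleton _)

theorem h_mem_B1 (h : F) : h ∈ icAlg R0 ({h} : Set F) := subset_icAlg (Set.mem_singleton _)

/-- `z ∈ B12 ⟹ (h⁻¹) ^ n * z ∈ B2` for all large `n`. -/
theorem exists_forall_pow_mul_mem_B2 (hh0 : h ≠ 0) {z : F}
    (hz : z ∈ icAlg R0 ({h, h⁻¹} : Set F)) :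
    ∃ n : ℕ, ∀ n' : ℕ, n ≤ n' → (h⁻¹) ^ n' * z ∈ icAlg R0 ({h⁻¹} : Set F) := by
  obtain ⟨n, hn⟩ := exists_pow_mul_mem (mul_inv_cancel₀ hh0) hz
  refine ⟨n, fun n' hn' => ?_⟩
  obtain ⟨d, rfl⟩ := Nat.exists_eq_add_of_le hn'
  have : (h⁻¹) ^ (n + d) * z = (h⁻¹) ^ d * ((h⁻¹) ^ n * z) := by ring
  rw [this]
  exact mul_mem (pow_mem (hinv_mem_B2 h) d) hn

/-- `z ∈ B12 ⟹ h ^ n * z ∈ B1` for all large `n`. -/
theorem exists_forall_pow_mul_mem_B1 (hh0 : h ≠ 0) {z : F}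
    (hz : z ∈ icAlg R0 ({h, h⁻¹} : Set F)) :
    ∃ n : ℕ, ∀ n' : ℕ, n ≤ n' → h ^ n' * z ∈ icAlg R0 ({h} : Set F) := by
  have hz' : z ∈ icAlg R0 ({h⁻¹, h} : Set F) := by rwa [Set.pair_comm]
  obtain ⟨n, hn⟩ := exists_pow_mul_mem (inv_mul_cancel₀ hh0) hz'
  refine ⟨n, fun n' hn' => ?_⟩
  obtain ⟨d, rfl⟩ := Nat.exists_eq_add_of_le hn'
  have : h ^ (n + d) * z = h ^ d * (h ^ n * z) := by ring
  rw [this]
  exact mul_mem (pow_mem (h_mem_B1 h) d) hn

/-- `hB` : `B12 = ⋃ hⁿ M`. -/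
theorem exists_eq_pow_mul_secMod (hh0 : h ≠ 0) {m : ℕ} (hm : m ≠ 0) {u : F}
    (hu12 : u ∈ icAlg R0 ({h, h⁻¹} : Set F)) {z : F} (hz : z ∈ icAlg R0 ({h, h⁻¹} : Set F)) :
    ∃ n : ℕ, ∃ y ∈ secMod R0 h hm u, z = h ^ n * y := by
  obtain ⟨n0, hn0⟩ := exists_forall_pow_mul_mem_B2 hh0 hz
  obtain ⟨k, hk⟩ := exists_forall_pow_mul_mem_B2 hh0 hu12
  refine ⟨n0 + k, (h⁻¹) ^ (n0 + k) * z,
    ⟨mul_mem (pow_mem (B2_le_B12 h (hinv_mem_B2 h)) _) hz, ?_⟩, ?_⟩
  · have : ((h⁻¹) ^ (n0 + k) * z) ^ m * u = ((h⁻¹) ^ n0 * z) ^ m * ((h⁻¹) ^ (k * m) * u) := by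
      ring
    rw [this]
    exact mul_mem (pow_mem (hn0 n0 le_rfl) m)
      (hk (k * m) (Nat.le_mul_of_pos_right k (Nat.pos_of_ne_zero hm)))
  · rw [← mul_assoc, ← mul_pow, mul_inv_cancel₀ hh0, one_pow, one_mul]

/-- the twist bound: `M ⊆ h ^ a0 · B2`. -/
theorem exists_pow_mul_mem_B2_of_secMod (hh0 : h ≠ 0) {m : ℕ} (hm : m ≠ 0) {u : F} (hu0 : u ≠ 0)
    (hui : u⁻¹ ∈ icAlg R0 ({h, h⁻¹} : Set F)) :
    ∃ a0 : ℕ, ∀ f ∈ secMod R0 h hm u, (h⁻¹) ^ a0 * f ∈ icAlg R0 ({h⁻¹} : Set F) := by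
  obtain ⟨k, hk⟩ := exists_forall_pow_mul_mem_B2 hh0 hui
  refine ⟨k, fun f hf => icAlg_rootClosed hm ?_⟩
  obtain ⟨m', rfl⟩ : ∃ m', m = m' + 1 := Nat.exists_eq_succ_of_ne_zero hm
  have hu1 : u⁻¹ * u = 1 := inv_mul_cancel₀ hu0
  have : ((h⁻¹) ^ k * f) ^ (m' + 1) =
      (h⁻¹) ^ (k * m') * ((h⁻¹) ^ k * u⁻¹) * (f ^ (m' + 1) * u) := by
    calc ((h⁻¹) ^ k * f) ^ (m' + 1) = (h⁻¹) ^ (k * m') * (h⁻¹) ^ k * f ^ (m' + 1) * 1 := by ring
      _ = (h⁻¹) ^ (k * m') * (h⁻¹) ^ k * f ^ (m' + 1) * (u⁻¹ * u) := by rw [hu1]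
      _ = _ := by ring
  rw [this]
  exact mul_mem (mul_mem (pow_mem (hinv_mem_B2 h) _) (hk k le_rfl)) hf.2

/-- `ha'` : finitely many elements of `B12` are moved into `B1` by one power of `h`. -/
theorem exists_pow_mul_mem_B1 (hh0 : h ≠ 0) {n : ℕ} (f : Fin n → F)
    (hf : ∀ j, f j ∈ icAlg R0 ({h, h⁻¹} : Set F)) :
    ∃ a' : ℕ, ∀ j, h ^ a' * f j ∈ icAlg R0 ({h} : Set F) := by
  choose K hK using fun j => exists_forall_pow_mul_mem_B1 hh0 (hf j)
  exact ⟨Finset.univ.sup K, fun j => hK j _ (Finset.le_sup (f := K) (Finset.mem_univ j))⟩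

end Cech

section FG

open Fermat.Agent.GL.CechKummer IntermediateField

variable {R0 L0 F : Type*} [CommRing R0] [IsDomain R0]
  [Field L0] [Algebra R0 L0] [IsFractionRing R0 L0]
  [Field F] [Algebra L0 F] [Algebra R0 F] [IsScalarTower R0 L0 F]

omit [IsDomain R0] [IsFractionRing R0 L0] [IsScalarTower R0 L0 F] [Algebra R0 L0] [Algebra L0 F]
  [Field L0] in
/-- integrality over `R0[t]` in the `IsIntegralElem (aeval t)` form of `CechFG`. -/
theorem isIntegralElem_aeval_of_isIntegral {t x : F}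
    (hx : IsIntegral (Algebra.adjoin R0 ({t} : Set F)) x) :
    (Polynomial.aeval t : R0[X] →ₐ[R0] F).toRingHom.IsIntegralElem x := by
  obtain ⟨p, hp, hpx⟩ := hx
  let φ : R0[X] →+* Algebra.adjoin R0 ({t} : Set F) :=
    ((Polynomial.aeval t : R0[X] →ₐ[R0] F).codRestrict (Algebra.adjoin R0 ({t} : Set F))
      (fun q => Polynomial.aeval_mem_adjoin_singleton R0 t)).toRingHom
  have hφ : Function.Surjective φ := by
    rintro ⟨a, ha⟩
    have ha' : a ∈ (Polynomial.aeval t : R0[X] →ₐ[R0] F).range := by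
      rw [← Algebra.adjoin_singleton_eq_range_aeval]
      exact ha
    obtain ⟨q, hq⟩ := ha'
    exact ⟨q, Subtype.ext hq⟩
  have hlift : p ∈ lifts φ := by
    rw [lifts_iff_coeff_lifts]
    intro i
    exact hφ _
  obtain ⟨q, hqmap, -, hqmonic⟩ := lifts_and_natDegree_eq_and_monic hlift hp
  refine ⟨q, hqmonic, ?_⟩
  rw [← hpx, ← hqmap, eval₂_map]
  rfl

variable [IsIntegrallyClosed R0] [IsNoetherianRing R0] [CharZero L0]

/-- `hB1` : (FG) for `B1 = icAlg R0 {h}` in span form. -/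
theorem exists_span_B1 (h : F) (ht : Transcendental L0 h) [FiniteDimensional L0⟮h⟯ F] :
    ∃ (n : ℕ) (e : Fin n → F), (∀ i, e i ∈ icAlg R0 ({h} : Set F)) ∧
      ∀ x ∈ icAlg R0 ({h} : Set F),
        x ∈ Submodule.span R0 {y | ∃ (k : ℕ) (i : Fin n), y = h ^ k * e i} :=
  exists_span_of_isIntegralElem (R0 := R0) (L0 := L0) h ht
    (icAlg R0 ({h} : Set F) : Set F)
    (fun _ hx _ hy => add_mem hx hy) (zero_mem _)
    (fun c _ hx => Subalgebra.smul_mem _ hx c)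
    (fun _ hx => mul_mem (h_mem_B1 h) hx)
    (fun _ hx => isIntegralElem_aeval_of_isIntegral (mem_icAlg.mp hx))

/-- `hMspan` : (FG) for the module of sections in span form. -/
theorem exists_span_secMod {h : F} (hh0 : h ≠ 0) (ht : Transcendental L0 h⁻¹)
    [FiniteDimensional L0⟮h⁻¹⟯ F] {m : ℕ} (hm : m ≠ 0) {u : F} (hu0 : u ≠ 0)
    (hui : u⁻¹ ∈ icAlg R0 ({h, h⁻¹} : Set F)) :
    ∃ (n : ℕ) (f : Fin n → F), (∀ j, f j ∈ secMod R0 h hm u) ∧
      ∀ y ∈ secMod R0 h hm u,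
        y ∈ Submodule.span R0 {y | ∃ (k : ℕ) (j : Fin n), y = (h⁻¹) ^ k * f j} := by
  obtain ⟨a0, ha0⟩ := exists_pow_mul_mem_B2_of_secMod (R0 := R0) hh0 hm hu0 hui
  exact exists_span_of_twist (R0 := R0) (L0 := L0) h h⁻¹ (mul_inv_cancel₀ hh0) ht
    (secMod R0 h hm u : Set F)
    (fun _ hx _ hy => add_mem hx hy) (zero_mem _)
    (fun c _ hx => Submodule.smul_mem _ c hx)
    (fun _ hx => secMod_mul_mem (hinv_mem_B2 h) hx) a0
    (fun x hx => isIntegralElem_aeval_of_isIntegral (mem_icAlg.mp (ha0 x hx)))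

end FG

end Fermat.Agent.GL.Final.H5
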