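/-
GATE-L / H5 ARM, the `hallj` binder over `K₀`, STAGE B (helper11): the hypothesis `H` of
`H5HalljK0.hallj_K0_of_typed` (the four typed binders `hdich`, `hreg3`, `hval`, `hIII` on every
frame parametrisation of `Bj = chartRing (R₀ A) (jK0 A N)`, `N = M' q q`) from the LANDED producers

* `hdich` : helper47 `ClassifyK0Full.dichotomy_frame` (`hBf` = helper75
  `B3ChartK0.B3K0_eq_chartRing_jK0`, `hJ hJ'` = `BRingK0.exists_ideal_K0`, `hB3` = helper42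
  `ClassifyC5.hB3_rdK2`), for ANY lift `p : R₀[X]` of the supersingular polynomial,
  `s := π^*(p(j'))`, `Q 𝔫 := P₁ ⊔ P₂ ≤ 𝔫.comap π^*`;
* `hreg3` : helper67 `Reg3BChartFeed.hreg3_K0_of_S4` (helper93 `Reg3Dispatch`), `sB := pH(j)`,
  with the congruence `p(j) ≡ pH(j) mod q` proved here; `(S4)` (helper25) stays a hypothesis in
  helper67's shape;
* `hval`  : helper84 `HvalFinK0Thm.hval_binder_K0_jK0`;
* `hIII`  : hypothesis `HIII` (helper29 `TypeIIIHallK0`), in ∀-frame form.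

Output `hallj_K0_thm` : the `hallj` binder of helper56 `H5FinK0.h5K0_of_hall` VERBATIM.
-/
import Fermat.Agent.GL.Final.H5HalljK0
import Fermat.Agent.GL.Frame.ClassifyK0Full
import Fermat.Agent.GL.Frame.ClassifyC5Final
import Fermat.Agent.GL.Reg3.Reg3BChartFeed
import Fermat.Agent.GL.Final.HvalFinK0Thm
import Fermat.Agent.GL.Frame.FrameInstIcAlg
import Fermat.Agent.GL.Reg3.CuspCongrK0

set_option autoImplicit false
set_option linter.unusedSectionVars false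

noncomputable section

namespace Fermat.Agent.GL.Final.H5HalljK0Thm

open Polynomial

/-! ### abstract: evaluation of a polynomial with coefficients in an ideal -/

theorem eval₂_mem_of_coeff_mem {R S : Type*} [CommRing R] [CommRing S] (φ : R →+* S)
    (I : Ideal S) (P : R[X]) (hP : ∀ n, φ (P.coeff n) ∈ I) (x : S) : P.eval₂ φ x ∈ I := by
  rw [Polynomial.eval₂_eq_sum_range]
  exact I.sum_mem fun n _ => I.mul_mem_right _ (hP n)

/-! ### the supersingular element of the frame -/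

section K0

open AlgebraicCurve ModularCurve IntermediateField IsLocalRing HahnSeries
open Fermat.Agent.S24 Fermat.Agent.S24_helper62 Fermat.Agent.S24_helper82
open Fermat.Agent.GJ.J1 Fermat.Agent.GJ.J1.Val Fermat.Agent.GJ.HN
open Fermat.Agent.GK.AL Fermat.Agent.GK.QS Fermat.Agent.GK.FrobGlue Fermat.Agent.GL.AL
open Fermat.Agent.Common_helper32
open Fermat.Agent.GL.SmallQ
open Fermat.Agent.GL.Val.GaussK0 Fermat.Agent.GL.Val.SecondK0 Fermat.Agent.GL.Val.SecondK0Hall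
open Fermat.Agent.GL.Val.ThirdK0 Fermat.Agent.GL.Val.OrthK0 Fermat.Agent.GL.Val.L1eAsmK0
open Fermat.Agent.GL.BRingK0 Fermat.Agent.GL.Table.K0 Fermat.Agent.GL.Thick
open Fermat.Agent.GL.OldTriplesK0
open Fermat.Agent.GL.Frame.ClassifyInst Fermat.Agent.GL.Frame.ClassifyK0
open Fermat.Agent.GL.Frame.ClassifyK0Full
open Fermat.Agent.GL.Frame.HeightOne Fermat.Agent.GL.Frame.Inst
open Fermat.Agent.GL.ChartChange Fermat.Agent.GL.Gate Fermat.Agent.GL.H4OfXi Fermat.Agent.GL.LocGlue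
open Fermat.Agent.GL.Final.H5 Fermat.Agent.GL.Final.H5HalljK0 Fermat.Agent.GL.Final.H5UnifK0
open Fermat.Agent.GL.Val.CuspK0 Fermat.Agent.GL.Val.CuspCoeff

variable (A : ValuationSubring Qb) {q : ℕ} (M' : ℕ) [NeZero M'] [NeZero q]

local notation "kA" => IsLocalRing.ResidueField A
local notation "F₀" => modularFunctionFieldFullC (K0 A) (M' * q * q)
local notation "Fq" => modularFunctionFieldFullC (K0 A) (M' * q)
local notation "j₀" => jK0 A (M' * q * q)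
local notation "αK" => ((alphaK0 A (M' * q) q : Fq →ₐ[K0 A] F₀) : Fq →+* F₀)

/-- `π^*` of the constants is the structure map of the frame. -/
theorem resHom_alpha_comp_cst [Fact q.Prime] (hexq : ExactDvd q (M' * q)) (Bf : Subring F₀)
    (hαAB : ∀ a ∈ BRingK0 M' q A hexq, αK a ∈ Bf) (r : R0 A) :
    ((resHom αK (BRingK0 M' q A hexq) Bf hαAB (cstK0 M' q A hexq r) : Bf) : F₀) =
      algebraMap (R0 A) F₀ r :=
  (alphaK0 A (M' * q) q).commutes (r : K0 A)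

/-- `π^* j' = j`. -/
theorem resHom_alpha_jK0B [Fact q.Prime] (hexq : ExactDvd q (M' * q)) (Bf : Subring F₀)
    (hαAB : ∀ a ∈ BRingK0 M' q A hexq, αK a ∈ Bf) :
    ((resHom αK (BRingK0 M' q A hexq) Bf hαAB (jK0B M' q A hexq) : Bf) : F₀) = j₀ := by
  rw [jK0_eq_jC]
  exact Fermat.Agent.GL.Table.KroneckerK0.alphaK0_jC A

/-- **the supersingular element `s = π^*(p(j'))` of the frame is `p(j)`**. -/
theorem coe_resHom_alpha_eval₂ [Fact q.Prime] (hexq : ExactDvd q (M' * q)) (Bf : Subring F₀)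
    (hαAB : ∀ a ∈ BRingK0 M' q A hexq, αK a ∈ Bf) (p : (R0 A)[X]) :
    ((resHom αK (BRingK0 M' q A hexq) Bf hαAB
      (p.eval₂ (cstK0 M' q A hexq) (jK0B M' q A hexq)) : Bf) : F₀) = Polynomial.aeval j₀ p := by
  have h1 : ((resHom αK (BRingK0 M' q A hexq) Bf hαAB
      (p.eval₂ (cstK0 M' q A hexq) (jK0B M' q A hexq)) : Bf) : F₀) =
      p.eval₂ ((Bf.subtype.comp (resHom αK (BRingK0 M' q A hexq) Bf hαAB)).comp
        (cstK0 M' q A hexq))
        (Bf.subtype (resHom αK (BRingK0 M' q A hexq) Bf hαAB (jK0B M' q A hexq))) :=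
    Polynomial.hom_eval₂ p (cstK0 M' q A hexq)
      (Bf.subtype.comp (resHom αK (BRingK0 M' q A hexq) Bf hαAB)) (jK0B M' q A hexq)
  rw [h1, Polynomial.aeval_def]
  have h2 : (Bf.subtype.comp (resHom αK (BRingK0 M' q A hexq) Bf hαAB)).comp
      (cstK0 M' q A hexq) = algebraMap (R0 A) F₀ :=
    RingHom.ext fun r => resHom_alpha_comp_cst A M' hexq Bf hαAB r
  have h3 : Bf.subtype (resHom αK (BRingK0 M' q A hexq) Bf hαAB (jK0B M' q A hexq)) = j₀ :=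
    resHom_alpha_jK0B A M' hexq Bf hαAB
  rw [h2, h3]


/-! ### the congruence `p(j) ≡ pH(j) mod q` -/

/-- two lifts of the same polynomial over the residue field have the same value at `j` modulo
every ideal containing `q`. -/
theorem eval₂_sub_mem_of_map_eq (hq : q.Prime) (hA : A.LiesOverPrime q) {S : Type*} [CommRing S]
    (φ : R0 A →+* S) (I : Ideal S) (hφq : φ (q0 A q) ∈ I) (p p' : (R0 A)[X])
    (hpp : p.map (resR0 A) = p'.map (resR0 A)) (x : S) :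
    p.eval₂ φ x - p'.eval₂ φ x ∈ I := by
  rw [← Polynomial.eval₂_sub]
  refine eval₂_mem_of_coeff_mem φ I (p - p') (fun n => ?_) x
  have h0 : resR0 A ((p - p').coeff n) = 0 := by
    rw [Polynomial.coeff_sub, map_sub, ← Polynomial.coeff_map, ← Polynomial.coeff_map, hpp,
      sub_self]
  have hnu : ¬ IsUnit ((p - p').coeff n) := by
    intro hu
    have h1 := hu.map (resR0 A)
    rw [h0] at h1
    exact not_isUnit_zero h1
  obtain ⟨b, hb⟩ := exists_eq_q0_mul A hq hA _ hnu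
  rw [hb, map_mul]
  exact I.mul_mem_right _ hφq

section Main

open Fermat.Agent.GL.Frame.Chart Fermat.Agent.GL.BuildInst Fermat.Agent.GL.Reg3.BChartFeed
open Fermat.Agent.GL.Reg3.BCong

variable {E k k1 k2 k3 k1' k2' B T T' : Type*} [Field E] [Field k]
  [Field k1] [Field k2] [Field k3] [Field k1'] [Field k2'] [CommRing B]
  [Algebra B (modularFunctionFieldFullC (K0 A) (M' * q * q))]

local notation "Bj" => chartRing (R0 A) (jK0 A (M' * q * q))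

set_option synthInstance.maxHeartbeats 400000 in
set_option maxHeartbeats 6400000 in
/-- **the `hallj` binder of helper56 `H5FinK0.h5K0_of_hall` VERBATIM**, from the arithmetic of a
good level (`h2 h3`, the auxiliary prime `r`), a lift `p` of the supersingular polynomial, `(S4)`
(helper25) and the type III arm `HIII` (helper29). -/
theorem hallj_K0_thm (hq : q.Prime) (hqM : ¬ q ∣ M') (hA : A.LiesOverPrime q)
    (hQ : HallDvd (q ^ 2) (M' * q * q))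
    (S : TripleSetup F₀ E k k1 k2 k3 k1' k2' B T T')
    (hW1 : S.W1 = RwK0 A (M' * q * q)) (hW2 : S.W2 = (redData2QK0 A (M' * q * q) hQ).Rw)
    (hW3 : S.W3 = Rw3K0 A (M' * q * q) q)
    {m1 : ℕ} (hm1 : m1 ≠ 0)
    (h2 : q = 2 → 3 ∣ M') (h3 : q = 3 → 2 ∣ M')
    {r : ℕ} (hr : r.Prime) (hrN : r ∣ M') (hr3 : r % 3 = 2) (hr4 : r % 4 = 3)
    (p : (R0 A)[X])
    (hp : p.map (resR0 A) = @ssPolyAll q ⟨hq⟩ kA _ (charP_residue A hq hA))
    (hS4 : 5 ≤ q → ∀ (a : ℤ) (c : ℕ), ((a = 0 ∧ c = 3) ∨ (a = 1728 ∧ c = 2)) →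
      ∀ (x' : Ideal (BK0 A M')) [x'.IsPrime], ((q : ℕ) : BK0 A M') ∈ x' →
        (⟨jK0 A M', jK0_mem_BK0 A⟩ : BK0 A M') - ((a : ℤ) : BK0 A M') ∈ x' →
        ∃ (u₀ : (locSubring (BK0 A M') x')ˣ) (h₀ : locSubring (BK0 A M') x'),
          jK0 A M' - ((a : ℤ) : modularFunctionFieldFullC (K0 A) M') =
            ((u₀ : locSubring (BK0 A M') x') : modularFunctionFieldFullC (K0 A) M') *
              (h₀ : modularFunctionFieldFullC (K0 A) M') ^ c)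
    (HIII : ∀ [IsFractionRing Bj F₀] [IsNoetherianRing Bj] [IsIntegrallyClosed Bj]
      (hqB : baseB j₀ (q0 A q) ≠ 0) (f : Fin 3 → HtOne Bj),
      (∀ i, V1 F₀ (f i) = W3 A hQ i) → (∀ p, p ∈ vertFinset hqB ↔ ∃ i, f i = p) →
      Function.Injective f → ∀ (s : Bj) (Q : Ideal Bj → Prop),
      (s : F₀) = Polynomial.aeval j₀ p →
      (∀ 𝔫 : Ideal Bj, 𝔫.IsMaximal → baseB j₀ (q0 A q) ∈ 𝔫 →
        (s ∈ 𝔫 ∧ (f 0).1 ≤ 𝔫 ∧ (f 1).1 ≤ 𝔫 ∧ (f 2).1 ≤ 𝔫 ∧ Q 𝔫) ∨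
        (s ∉ 𝔫 ∧ ¬ ((f 0).1 ≤ 𝔫 ∧ (f 1).1 ≤ 𝔫) ∧ ¬ ((f 1).1 ≤ 𝔫 ∧ (f 2).1 ≤ 𝔫) ∧
          ¬ ((f 0).1 ≤ 𝔫 ∧ (f 2).1 ≤ 𝔫))) →
      ∀ u : F₀, u ≠ 0 → U3 S m1 u → ∀ 𝔫 : Ideal Bj, 𝔫.IsMaximal →
        baseB j₀ (q0 A q) ∈ 𝔫 → s ∈ 𝔫 → (∀ p ∈ vertFinset hqB, p.1 ≤ 𝔫) → Q 𝔫 →
        ∃ g ∈ (⊤ : Subring F₀), g ^ m1 * u ∈ Bj ∧
          LocAt (V1 (B := Bj) F₀) Bj ⊤ (vertFinset hqB) 𝔫 g) :
    ∀ [IsFractionRing Bj F₀] [IsNoetherianRing Bj] [IsIntegrallyClosed Bj]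
      (hqB : baseB j₀ (q0 A q) ≠ 0),
      ∀ u : F₀, u ≠ 0 → U3 S m1 u →
      (∀ P : Place Qb (modularFunctionFieldBar (M' * q * q)),
        (m1 : ℤ) ∣ P.ord (toFN0 A (M' * q * q) u)) →
      ∀ 𝔫 : Ideal Bj, 𝔫.IsMaximal →
        ∃ g ∈ (⊤ : Subring F₀), g ^ m1 * u ∈ Bj ∧
          LocAt (V1 (B := Bj) F₀) Bj ⊤ (vertFinset hqB) 𝔫 g := by
  haveI : Fact q.Prime := ⟨hq⟩
  have hexq : ExactDvd q (M' * q) := Fermat.Agent.GL.AL.exactDvd_mul M' hq hqM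
  obtain ⟨J', hJ, hJ', -⟩ := Fermat.Agent.GL.BRingK0.exists_ideal_K0 hexq hqM hA h2 h3
  have hBf : ∀ x : F₀, x ∈ Bj ↔ x ∈ B3K0 M' q A hQ := fun x => by
    rw [Fermat.Agent.GL.Val.B3ChartK0.B3K0_eq_chartRing_jK0 hqM hA]
  have hqBcoe : ((baseB j₀ (q0 A q) : Bj) : F₀) = ((q : ℕ) : F₀) := by
    exact algebraMap_q0 A (M' * q * q)
  intro i1' i2' i3' hqB'
  refine hallj_K0_of_typed A M' hq hqM hA hQ S hW1 hW2 hW3 hm1 ?_ hqB'
  clear hqB'
  intro i1 i2 i3 hqB f hf1 hf2 hf3 hinj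
  have hαAB : ∀ a ∈ BRingK0 M' q A hexq, αK a ∈ Bj := alpha_mem_frame A M' hQ hexq hqM hBf
  have hβAB := beta_mem_frame A M' hQ hexq hqM hBf
  have hvert' : ∀ 𝔭 : HtOne Bj, baseB j₀ (q0 A q) ∈ 𝔭.1 → ∃ i, f i = 𝔭 :=
    fun 𝔭 h => (hf2 𝔭).1 ((mem_vertFinset hqB 𝔭).2 h)
  have hdich := dichotomy_frame A M' hQ hexq hqM hA h2 h3 hr hrN hr3 hr4 hJ hJ' hp
    (Fermat.Agent.GL.Frame.ClassifyC5.hB3_rdK2 A M' hQ hqM hA) hBf hαAB hβAB f (hf3 0) (hf3 1)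
    (hf3 2) hqBcoe hvert'
  refine ⟨_, _, hdich, ?_, ?_, ?_⟩
  · -- `hreg3`
    have hN : M' * q * q = M' * q ^ 2 := by ring
    have hdN : q ^ 2 * 1 ∣ M' * q * q := by rw [mul_one, hN]; exact dvd_mul_left _ _
    haveI : NeZero (q ^ 2 * 1) := ⟨by rw [mul_one]; exact pow_ne_zero 2 hq.ne_zero⟩
    have hjmem : j₀ ∈ Bj := subset_icRing (R0 A) {j₀} rfl
    have hgmem : Fermat.Agent.GK.Val.GaussBase.genC (K0 A) (R0 A) (M' * q * q) hdN ∈ Bj :=
      (Fermat.Agent.GL.Frame.ArithInt.isIntegral_adjoin_genC_iff (M' * q * q) (R0 A) hdN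
        (one_dvd (M' * q * q)) (R0 A) _).1
        (subset_icRing (R0 A) {Fermat.Agent.GK.Val.GaussBase.genC (K0 A) (R0 A) (M' * q * q) hdN} rfl)
    have hymem : y3K0 A (M' * q * q) q hdN (one_dvd (M' * q * q)) ∈ Bj := by
      rw [Fermat.Agent.GL.Reg3.CuspCongrK0.y3K0_eq_sub]
      exact sub_mem hgmem hjmem
    have hα : ∀ b ∈ BK0 A M', alpha2 A M' q b ∈ Bj := fun b hb => by
      rw [← BK0_eq_chartRing_jK0]; exact alpha2_mem_BK0 A b hb
    have hγ : ∀ b ∈ BK0 A M', gamma2 A M' q b ∈ Bj := fun b hb => by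
      rw [← BK0_eq_chartRing_jK0]; exact gamma2_mem_BK0 A b hb
    have key := hreg3_K0_of_S4 A hdN hqM hA hq (vertFinset hqB) (𝔭₀ := f 2) (hf1 2)
      (qB := baseB j₀ (q0 A q)) (jB := ⟨j₀, hjmem⟩) (yB := ⟨_, hymem⟩)
      (sB := Polynomial.aeval (⟨j₀, hjmem⟩ : Bj) (intSsPolyAll q)) hqBcoe rfl rfl rfl
      (fun 𝔭 h => (mem_vertFinset hqB 𝔭).2 h) hα hγ hS4
    -- the congruence
    have hcongr : ∀ 𝔫 : Ideal Bj, baseB j₀ (q0 A q) ∈ 𝔫 →
        Polynomial.aeval (⟨j₀, hjmem⟩ : Bj) (intSsPolyAll q) ∈ 𝔫 →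
        resHom αK (BRingK0 M' q A hexq) Bj hαAB
          (p.eval₂ (cstK0 M' q A hexq) (jK0B M' q A hexq)) ∈ 𝔫 := by
      intro 𝔫 hq𝔫 hsB
      set φ : R0 A →+* Bj :=
        (resHom αK (BRingK0 M' q A hexq) Bj hαAB).comp (cstK0 M' q A hexq) with hφ
      have hjj : resHom αK (BRingK0 M' q A hexq) Bj hαAB (jK0B M' q A hexq) =
          (⟨j₀, hjmem⟩ : Bj) := Subtype.ext (resHom_alpha_jK0B A M' hexq Bj hαAB)
      have e1 : resHom αK (BRingK0 M' q A hexq) Bj hαAB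
          (p.eval₂ (cstK0 M' q A hexq) (jK0B M' q A hexq)) =
          p.eval₂ φ (⟨j₀, hjmem⟩ : Bj) := by
        rw [Polynomial.hom_eval₂, hjj]
      have e2 : Polynomial.aeval (⟨j₀, hjmem⟩ : Bj) (intSsPolyAll q) =
          ((intSsPolyAll q).map (Int.castRingHom (R0 A))).eval₂ φ (⟨j₀, hjmem⟩ : Bj) := by
        rw [Polynomial.eval₂_map, Polynomial.aeval_def]
        congr 1
        exact RingHom.ext_int _ _
      have hφq : φ (q0 A q) ∈ 𝔫 := by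
        have : φ (q0 A q) = baseB j₀ (q0 A q) :=
          Subtype.ext (resHom_alpha_comp_cst A M' hexq Bj hαAB (q0 A q))
        rw [this]; exact hq𝔫
      haveI : CharP kA q := charP_residue A hq hA
      have hpp : p.map (resR0 A) =
          ((intSsPolyAll q).map (Int.castRingHom (R0 A))).map (resR0 A) := by
        rw [hp, intSsPolyAll_map_map q kA (resR0 A)]
      have h := eval₂_sub_mem_of_map_eq A hq hA φ 𝔫 hφq p _ hpp (⟨j₀, hjmem⟩ : Bj)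
      rw [e1]
      rw [e2] at hsB
      have := 𝔫.add_mem h hsB
      rwa [sub_add_cancel] at this
    intro 𝔫 h𝔫 hPt h2𝔫 hbr
    exact key 𝔫 h𝔫 ⟨hPt.1, fun h => hPt.2 (hcongr 𝔫 hPt.1 h)⟩ h2𝔫 hbr
  · -- `hval`
    have hWj' : ∀ p ∈ vertFinset hqB, ∃ i, (V1 F₀ p : ValuationSubring F₀) = W3 A hQ i := by
      intro p hp
      obtain ⟨i, rfl⟩ := (hf2 p).1 hp
      exact ⟨i, hf1 i⟩
    exact Fermat.Agent.GL.Final.HvalFinK0Thm.hval_binder_K0_jK0 (hQ := hQ) hqM hA h2 h3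
      (Fermat.Agent.GL.Frame.InstAdapt.isChartRing_chartRing _) (vertFinset hqB) hWj' _
  · -- `hIII`
    exact HIII hqB f hf1 hf2 hinj _ _ (coe_resHom_alpha_eval₂ A M' hexq Bj hαAB p) hdich

end Main

end K0

end Fermat.Agent.GL.Final.H5HalljK0Thm
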