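/-
GATE-L / L-INT, H5 ARM, layer 6 (helper56): **the (H5) field of helper39's `LevelPkg`
(`GeomFacts`, RULING 3) from the two local contracts `hallj`, `hallji` ALONE.**

`H5InstK0.h5_instK0` with
* `hfin` DISCHARGED by helper8 `ChartFin.chart_fin_hfin` (CHART-FIN is a theorem);
* `τ := toFN0 A (M' * q * q)`, `ι := ι0 A` (helper82 `TopInst`'s `τ`; `hτ` = helper26
  `CuspCoeff.toFN_algebraMap`);
* the modulus `m1 := lam ^ (k - c)`, `lam` a prime `≠ q` (`h5K0_of_hall_pow`).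

Only hypotheses left: `hallj`, `hallji` = the dispatcher's conclusions on the two FIXED frames
`chartRing (R0 A) (jK0 A (M' * q * q))`, `chartRing (R0 A) (jK0 A (M' * q * q))⁻¹`
(helper11 `H5TypedK0`, helper47 `HallOfClassify`), for the ONE `S : H4OfXi.TripleSetup` tied to
`w₁ w₂ w₃` by `hW1 hW2 hW3`.
-/
import Mathlib
import Fermat.Agent.GL.Final.H5InstK0
import Fermat.Agent.GL.Frame.ChartFin

set_option autoImplicit false
set_option linter.unusedSectionVars false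

noncomputable section

namespace Fermat.Agent.GL.Final.H5

open AlgebraicCurve ModularCurve Polynomial IntermediateField
open Fermat.Agent.GL.ChartChange Fermat.Agent.GL.Gate Fermat.Agent.GL.GaussAt
open Fermat.Agent.GL.H4OfXi
open Fermat.Agent.GK.AL Fermat.Agent.GL.AL
open Fermat.Agent.GL.Val.GaussK0 Fermat.Agent.GL.Val.SecondK0 Fermat.Agent.GL.Val.SecondK0Hall
open Fermat.Agent.GL.Val.ThirdK0 Fermat.Agent.GL.Val.OrthK0 Fermat.Agent.GL.Val.L1eAsmK0
open Fermat.Agent.GL.Val.CuspK0 Fermat.Agent.GL.Val.CuspCoeff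
open Fermat.Agent.GL.Frame.Inst Fermat.Agent.GL.Frame.HeightOne Fermat.Agent.GL.LocGlue
open Fermat.Agent.Common_helper32

section K0

variable (A : ValuationSubring Qb) {q : ℕ} (M' : ℕ) [NeZero M'] [NeZero q]
variable {E k k1 k2 k3 k1' k2' B T T' : Type*} [Field E] [Field k]
  [Field k1] [Field k2] [Field k3] [Field k1'] [Field k2'] [CommRing B]
  [Algebra B (modularFunctionFieldFullC (K0 A) (M' * q * q))]

local notation "F₀" => modularFunctionFieldFullC (K0 A) (M' * q * q)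
local notation "j₀" => jK0 A (M' * q * q)

/-- CHART-FIN over `K₀` (helper8 `ChartFin.chart_fin_hfin` at `R := R0 A`, `j := jK0`): the `hfin`
binder of `h5_instK0`. -/
theorem hfin_K0 (N : ℕ) [NeZero N] :
    ∀ (t0 t2 : R0 A) (P1 : (R0 A)[X]) (h : modularFunctionFieldFullC (K0 A) N), P1.Monic →
      jK0 A N - algebraMap (R0 A) (modularFunctionFieldFullC (K0 A) N) t0 ≠ 0 →
      aeval (jK0 A N - algebraMap (R0 A) (modularFunctionFieldFullC (K0 A) N) t0)⁻¹ P1 ≠ 0 →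
      h * aeval (jK0 A N - algebraMap (R0 A) (modularFunctionFieldFullC (K0 A) N) t0)⁻¹ P1 =
        ((jK0 A N - algebraMap (R0 A) (modularFunctionFieldFullC (K0 A) N) t0)⁻¹ -
          algebraMap (R0 A) (modularFunctionFieldFullC (K0 A) N) t2) ^ (P1.natDegree + 1) →
      (jK0 A N - algebraMap (R0 A) (modularFunctionFieldFullC (K0 A) N) t0)⁻¹ ≠
        algebraMap (R0 A) (modularFunctionFieldFullC (K0 A) N) t2 →
      Transcendental (K0 A) h ∧
        FiniteDimensional (K0 A)⟮h⟯ (modularFunctionFieldFullC (K0 A) N) ∧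
        Transcendental (K0 A) h⁻¹ ∧
        FiniteDimensional (K0 A)⟮h⁻¹⟯ (modularFunctionFieldFullC (K0 A) N) := by
  have hjt : Transcendental (K0 A) (jK0 A N) := by
    rw [jK0_eq_jC]
    exact Fermat.Agent.GL.Frame.ChartInstK0.transcendental_jC_K0 A N
  have hfd : FiniteDimensional (K0 A)⟮jK0 A N⟯ (modularFunctionFieldFullC (K0 A) N) := by
    rw [jK0_eq_jC]
    exact Fermat.Agent.GL.Val.DegBase.finiteDimensional_fullC N (K0 A)
  exact Fermat.Agent.GL.Frame.ChartFin.chart_fin_hfin (R := R0 A) hjt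

set_option synthInstance.maxHeartbeats 400000 in
set_option maxHeartbeats 6400000 in
/-- **(H5) over `K₀` from `hallj`, `hallji` alone**, `τ := toFN0 A (M' q q)`.  Conclusion = the
(H5) binder of helper24 `ChainAbs.k0UnitGateQ_of_chain'` / the `H5` field of helper39's
`GeomFacts.LevelPkg` at `U3 := H4OfXi.U3 S m1`. -/
theorem h5K0_of_hall (hq : q.Prime) (hqM : ¬ q ∣ M') (hA : A.LiesOverPrime q)
    (hQ : HallDvd (q ^ 2) (M' * q * q))
    (S : TripleSetup F₀ E k k1 k2 k3 k1' k2' B T T')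
    (hW1 : S.W1 = RwK0 A (M' * q * q)) (hW2 : S.W2 = (redData2QK0 A (M' * q * q) hQ).Rw)
    (hW3 : S.W3 = Rw3K0 A (M' * q * q) q)
    {m1 : ℕ} (hm1 : m1 ≠ 0) (hcop : Nat.Coprime m1 q)
    (hallj : ∀ [IsFractionRing (chartRing (R0 A) j₀) F₀] [IsNoetherianRing (chartRing (R0 A) j₀)]
      [IsIntegrallyClosed (chartRing (R0 A) j₀)] (hqB : baseB j₀ (q0 A q) ≠ 0),
      ∀ u : F₀, u ≠ 0 → U3 S m1 u →
      (∀ P : Place Qb (modularFunctionFieldBar (M' * q * q)),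
        (m1 : ℤ) ∣ P.ord (toFN0 A (M' * q * q) u)) →
      ∀ 𝔫 : Ideal (chartRing (R0 A) j₀), 𝔫.IsMaximal →
        ∃ g ∈ (⊤ : Subring F₀), g ^ m1 * u ∈ chartRing (R0 A) j₀ ∧
          LocAt (V1 (B := chartRing (R0 A) j₀) F₀) (chartRing (R0 A) j₀) ⊤ (vertFinset hqB) 𝔫 g)
    (hallji : ∀ [IsFractionRing (chartRing (R0 A) j₀⁻¹) F₀]
      [IsNoetherianRing (chartRing (R0 A) j₀⁻¹)]
      [IsIntegrallyClosed (chartRing (R0 A) j₀⁻¹)] (hqB : baseB j₀⁻¹ (q0 A q) ≠ 0),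
      ∀ u : F₀, u ≠ 0 → U3 S m1 u →
      (∀ P : Place Qb (modularFunctionFieldBar (M' * q * q)),
        (m1 : ℤ) ∣ P.ord (toFN0 A (M' * q * q) u)) →
      ∀ 𝔫 : Ideal (chartRing (R0 A) j₀⁻¹), 𝔫.IsMaximal →
        ∃ g ∈ (⊤ : Subring F₀), g ^ m1 * u ∈ chartRing (R0 A) j₀⁻¹ ∧
          LocAt (V1 (B := chartRing (R0 A) j₀⁻¹) F₀) (chartRing (R0 A) j₀⁻¹) ⊤
            (vertFinset hqB) 𝔫 g) :
    ∀ u3 : F₀, u3 ≠ 0 → U3 S m1 u3 →
      (∀ P : Place Qb (modularFunctionFieldBar (M' * q * q)),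
        (m1 : ℤ) ∣ P.ord (toFN0 A (M' * q * q) u3)) →
      ∃ w : modularFunctionFieldBar (M' * q * q), w ≠ 0 ∧ toFN0 A (M' * q * q) u3 = w ^ m1 :=
  h5_instK0 A M' hq hqM hA hQ (ι0 A) (toFN0 A (M' * q * q))
    (fun a => toFN_algebraMap (M' * q * q) (ι0 A) a) S hW1 hW2 hW3 hm1 hcop
    (hfin_K0 A (M' * q * q)) hallj hallji

/-- the modulus `lam ^ n` is prime to `q` and non-zero. -/
theorem coprime_pow_of_ne {lam q : ℕ} (hlam : lam.Prime) (hq : q.Prime) (hne : q ≠ lam) (n : ℕ) :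
    lam ^ n ≠ 0 ∧ Nat.Coprime (lam ^ n) q :=
  ⟨pow_ne_zero n hlam.ne_zero,
    Nat.Coprime.pow_left n ((Nat.coprime_primes hlam hq).2 (Ne.symm hne))⟩

end K0

end Fermat.Agent.GL.Final.H5
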