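/-
GATE-L / L-INT, H5 ARM, the `1/j`-frame half of the local contracts (helper56; claims key
H5-HALLJI-K0): **the `hallji` binder of `H5FinK0.h5K0_of_hall` VERBATIM**, on
`Bji := chartRing (R0 A) (jK0 A (M' q q))⁻¹`, from the `hallj` binder (all points of `Bj`, helper11
`H5HalljK0`) and ONE named hypothesis `hvali` (`hval` at the cuspidal points, helper84 `HvalCuspK0`).

Plugged (helper11 `H5TypeI.hallji_typed`):
* frames                : helper80 `FrameInstVal.exists_frame_self / exists_frame_inv` at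
                          `W := L1eAsmK0.W3 A hQ` (`exists_two_frames`, `exists_two_frames_K0`);
* `hordP`               : helper11 `H5TypeI.hordP_K0`;
* `hone`                : helper42 `CuspPointsK0.hone_K0_jK0` (helper47 `atMostOne_of_cusp`);
* `hunif0`, `hunif1`    : helper11 `H5UnifK0.hunif_W1 / hunif_W2`;
* `hreg3` (cusps of C₃) : helper50 `Reg3.exists_vertPrime_caseC_all` + helper16
                          `CuspSpec.valuation_genC_inv_eq_Bji`.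
-/
import Mathlib
import Fermat.Agent.GL.Final.H5FinK0
import Fermat.Agent.GL.Final.H5TypeI
import Fermat.Agent.GL.Final.H5UnifK0
import Fermat.Agent.GL.Frame.CuspPointsK0
import Fermat.Agent.GL.Reg3.Reg3CInstK0
import Fermat.Agent.GL.Cusp.CuspSpecBji

set_option autoImplicit false
set_option linter.unusedSectionVars false

noncomputable section

namespace Fermat.Agent.GL.Final.H5Hallji

open AlgebraicCurve ModularCurve Polynomial IntermediateField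
open Fermat.Agent.GL.ChartChange Fermat.Agent.GL.Gate Fermat.Agent.GL.GaussAt
open Fermat.Agent.GL.H4OfXi
open Fermat.Agent.GK.AL Fermat.Agent.GL.AL Fermat.Agent.GK.MultiVal
open Fermat.Agent.GL.Val.GaussK0 Fermat.Agent.GL.Val.SecondK0 Fermat.Agent.GL.Val.SecondK0Hall
open Fermat.Agent.GL.Val.ThirdK0 Fermat.Agent.GL.Val.OrthK0 Fermat.Agent.GL.Val.L1eAsmK0
open Fermat.Agent.GL.Val.CuspK0 Fermat.Agent.GL.Val.CuspCoeff
open Fermat.Agent.GK.Val.GaussBase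
open Fermat.Agent.GL.Frame.Inst Fermat.Agent.GL.Frame.HeightOne Fermat.Agent.GL.LocGlue
open Fermat.Agent.GL.Frame.InstVal
open Fermat.Agent.Common_helper32

/-! ### Generic helpers -/

section Generic

variable {F : Type*} [Field F] {B : Subring F} [IsFractionRing B F] [IsNoetherianRing B]
  [IsIntegrallyClosed B]

/-- a height-one prime is determined by its valuation ring. -/
theorem htOne_eq_of_V1_eq {p p' : HtOne B} (h : V1 F p = V1 F p') : p = p' := by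
  apply Subtype.ext
  ext b
  rw [← algebraMap_mem_nonunits_V1_iff (F := F) p b, ← algebraMap_mem_nonunits_V1_iff (F := F) p' b,
    h]

/-- `B ∩ 𝔪(V1 𝔭) ⊆ 𝔭`. -/
theorem mem_of_V1_eq' (𝔭 : HtOne B) (W : ValuationSubring F) (h : V1 F 𝔭 = W) :
    ∀ b : B, (b : F) ∈ W.nonunits → b ∈ 𝔭.1 := by
  intro b hb
  rw [← h] at hb
  exact (algebraMap_mem_nonunits_V1_iff 𝔭 b).1 hb

end Generic

/-! ### The two frames of the `j`-line -/

section Frames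

variable {K F : Type*} [Field K] [CharZero K] [Field F] [Algebra K F] {A : ValuationSubring K}
  [IsDiscreteValuationRing A]

/-- helper80's two frames `chartRing A j`, `chartRing A j⁻¹` with their vertical primes, from the
L1e list in AGREE form (as in `H5InstK0.h5_inst_frames`). -/
theorem exists_two_frames {q : A} (hq : Irreducible q)
    {j : F} (hjt : Transcendental K j) [FiniteDimensional K⟮j⟯ F]
    {κ : Type*} (W : κ → ValuationSubring F)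
    (hWover : ∀ i, ∀ a : K, algebraMap K F a ∈ W i ↔ a ∈ A)
    (hWG : ∀ i, IsGaussAt A (W i) j) (i₀ : κ)
    (hnoext : ∀ V : ValuationSubring F, (∀ y ∈ K⟮j⟯, y ∈ V ↔ y ∈ W i₀) → ∃ i, V = W i) :
    (∃ (_ : IsNoetherianRing (chartRing A j)) (_ : IsIntegrallyClosed (chartRing A j))
      (_ : IsFractionRing (chartRing A j) F) (hqB : baseB j q ≠ 0)
      (f : κ → HtOne (chartRing A j)),
      (∀ i, V1 F (f i) = W i) ∧ (∀ p, p ∈ vertFinset hqB ↔ ∃ i, f i = p)) ∧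
    (∃ (_ : IsNoetherianRing (chartRing A j⁻¹)) (_ : IsIntegrallyClosed (chartRing A j⁻¹))
      (_ : IsFractionRing (chartRing A j⁻¹) F) (hqB : baseB j⁻¹ q ≠ 0)
      (f : κ → HtOne (chartRing A j⁻¹)),
      (∀ i, V1 F (f i) = W i) ∧ (∀ p, p ∈ vertFinset hqB ↔ ∃ i, f i = p)) := by
  have hκ : Nonempty κ := ⟨i₀⟩
  have hj0 : j ≠ 0 := fun h0 => hjt (h0 ▸ isAlgebraic_zero)
  have hfdi : FiniteDimensional K⟮j⁻¹⟯ F := finiteDimensional_adjoin_inv j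
  have hnoextG : ∀ V : ValuationSubring F, (∀ a : K, algebraMap K F a ∈ V ↔ a ∈ A) →
      IsGaussAt A V j → ∃ i, V = W i := fun V hV hG =>
    hnoext V (fun y hy => hG.mem_iff_mem hV (hWover i₀) (hWG i₀) hy)
  obtain ⟨i1, i2, i3, hqB, f, hf1, hf2, -, -⟩ :=
    exists_frame_self hq W hWover hWG hnoextG
  obtain ⟨i1', i2', i3', hqB', f', hf1', hf2', -, -⟩ :=
    exists_frame_inv hq W hWover hWG hnoextG hj0
  exact ⟨⟨i1, i2, i3, hqB, f, hf1, hf2⟩, ⟨i1', i2', i3', hqB', f', hf1', hf2'⟩⟩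

end Frames

section K0

variable (A : ValuationSubring Qb) {q : ℕ} (M' : ℕ) [NeZero M'] [NeZero q]

local notation "F₀" => modularFunctionFieldFullC (K0 A) (M' * q * q)
local notation "j₀" => jK0 A (M' * q * q)

set_option synthInstance.maxHeartbeats 400000 in
set_option maxHeartbeats 6400000 in
/-- the two frames over `K₀` at level `M' q q`, `W := W3 A hQ = ![w₁, w₂, w₃]`. -/
theorem exists_two_frames_K0 (hq : q.Prime) (hqM : ¬ q ∣ M') (hA : A.LiesOverPrime q)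
    (hQ : HallDvd (q ^ 2) (M' * q * q)) :
    (∃ (_ : IsNoetherianRing (chartRing (R0 A) j₀)) (_ : IsIntegrallyClosed (chartRing (R0 A) j₀))
      (_ : IsFractionRing (chartRing (R0 A) j₀) F₀) (hqB : baseB j₀ (q0 A q) ≠ 0)
      (f : Fin 3 → HtOne (chartRing (R0 A) j₀)),
      (∀ i, V1 F₀ (f i) = W3 A hQ i) ∧ (∀ p, p ∈ vertFinset hqB ↔ ∃ i, f i = p)) ∧
    (∃ (_ : IsNoetherianRing (chartRing (R0 A) j₀⁻¹))
      (_ : IsIntegrallyClosed (chartRing (R0 A) j₀⁻¹))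
      (_ : IsFractionRing (chartRing (R0 A) j₀⁻¹) F₀) (hqB : baseB j₀⁻¹ (q0 A q) ≠ 0)
      (f : Fin 3 → HtOne (chartRing (R0 A) j₀⁻¹)),
      (∀ i, V1 F₀ (f i) = W3 A hQ i) ∧ (∀ p, p ∈ vertFinset hqB ↔ ∃ i, f i = p)) := by
  have hdvr := isDiscreteValuationRing_R0 A hq hA
  have hq0 : Prime (q0 A q) := Fermat.Agent.GL.Frame.ChartInstK0.prime_q0 A hq hA
  have hN : M' * q * q = M' * q ^ 2 := by ring
  have hq2 : q ^ 2 * 1 ∣ M' * q * q := by rw [mul_one, hN]; exact dvd_mul_left _ _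
  have : NeZero (q ^ 2 * 1) := ⟨by rw [mul_one]; exact pow_ne_zero 2 hq.ne_zero⟩
  have hjt : Transcendental (K0 A) j₀ := by
    rw [jK0_eq_jC]
    exact Fermat.Agent.GL.Frame.ChartInstK0.transcendental_jC_K0 A (M' * q * q)
  have hfd : FiniteDimensional (K0 A)⟮j₀⟯ F₀ := by
    rw [jK0_eq_jC]
    exact Fermat.Agent.GL.Val.DegBase.finiteDimensional_fullC (M' * q * q) (K0 A)
  have hWover : ∀ i, ∀ a : K0 A, algebraMap (K0 A) F₀ a ∈ W3 A hQ i ↔ a ∈ R0 A := fun i =>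
    (isRamified_W3_R0 A hq hN hqM hA hQ (one_dvd M') hq2 (one_dvd _) i).mem_iff
  have hWG : ∀ i, IsGaussAt (R0 A) (W3 A hQ i) j₀ := isGaussAt_W3 A hQ
  have hnoext : ∀ V : ValuationSubring F₀,
      (∀ y ∈ (K0 A)⟮j₀⟯, y ∈ V ↔ y ∈ W3 A hQ 0) → ∃ i, V = W3 A hQ i := fun V hV => by
    rcases Fermat.Agent.GL.Val.L1eThm.exists_eq A hq hN hqM hA hQ (V := V)
      (fun a => hV a.1 a.2) with h | h | h
    · exact ⟨0, h⟩
    · exact ⟨1, h⟩
    · exact ⟨2, h⟩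
  exact exists_two_frames (A := R0 A) hq0.irreducible hjt (W3 A hQ) hWover hWG 0 hnoext

end K0

section Main

variable (A : ValuationSubring Qb) {q : ℕ} (M' : ℕ) [NeZero M'] [NeZero q]
variable {E k k1 k2 k3 k1' k2' B T T' : Type*} [Field E] [Field k]
  [Field k1] [Field k2] [Field k3] [Field k1'] [Field k2'] [CommRing B]
  [Algebra B (modularFunctionFieldFullC (K0 A) (M' * q * q))]

local notation "F₀" => modularFunctionFieldFullC (K0 A) (M' * q * q)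
local notation "j₀" => jK0 A (M' * q * q)

/-- the tautological chart-ring structure of `Bj = chartRing (R0 A) j`. -/
theorem isChartRing_Bj : IsChartRing (R0 A) j₀ (chartRing (R0 A) j₀) := fun _ => Iff.rfl

/-- the tautological chart-ring structure of `Bji = chartRing (R0 A) j⁻¹`. -/
theorem isChartRing_Bji : IsChartRing (R0 A) j₀⁻¹ (chartRing (R0 A) j₀⁻¹) := fun _ => Iff.rfl

/-- `genC` does not depend on the presentation of the index. -/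
theorem genC_congr (L : Type*) [Field L] (R : ValuationSubring L)
    (N : ℕ) {d d' : ℕ} [NeZero d] [NeZero d'] (e : d = d') (hd : d ∣ N)
    (hd' : d' ∣ N) : genC L R N hd = genC L R N hd' := by
  subst e
  rfl

set_option synthInstance.maxHeartbeats 400000 in
set_option maxHeartbeats 6400000 in
/-- **the `hallji` binder of `H5FinK0.h5K0_of_hall`** from the `hallj` binder and `hval` at the
cuspidal points of `Bji`. -/
theorem hallji_K0 (hq : q.Prime) (hqM : ¬ q ∣ M') (hA : A.LiesOverPrime q)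
    (hQ : HallDvd (q ^ 2) (M' * q * q))
    (S : TripleSetup F₀ E k k1 k2 k3 k1' k2' B T T')
    (hW1 : S.W1 = RwK0 A (M' * q * q)) (hW2 : S.W2 = (redData2QK0 A (M' * q * q) hQ).Rw)
    (hW3 : S.W3 = Rw3K0 A (M' * q * q) q)
    {m1 : ℕ} (hm1 : m1 ≠ 0)
    -- `hval` at the cuspidal points of `Bji` (helper84 `HvalCuspK0`)
    (hvali : ∀ [IsFractionRing (chartRing (R0 A) j₀⁻¹) F₀]
      [IsNoetherianRing (chartRing (R0 A) j₀⁻¹)]
      [IsIntegrallyClosed (chartRing (R0 A) j₀⁻¹)] (hqB : baseB j₀⁻¹ (q0 A q) ≠ 0),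
      ∀ 𝔫 : Ideal (chartRing (R0 A) j₀⁻¹), 𝔫.IsMaximal →
        ((isChartRing_Bji A M').toRingHom (q0 A q) ∈ 𝔫 ∧ (isChartRing_Bji A M').gen ∈ 𝔫) →
        ∀ 𝔭₀ ∈ vertFinset hqB, 𝔭₀.1 ≤ 𝔫 → (∀ j ∈ vertFinset hqB, j ≠ 𝔭₀ → ¬ j.1 ≤ 𝔫) →
        ∀ a b : chartRing (R0 A) j₀⁻¹, ∃ c s : chartRing (R0 A) j₀⁻¹, s ∉ 𝔫 ∧
          (s * a - c * b ∈ 𝔭₀.1 ∨ s * b - c * a ∈ 𝔭₀.1))
    -- the contract on `Bj` (helper11 `H5HalljK0`)
    (hallj : ∀ [IsFractionRing (chartRing (R0 A) j₀) F₀] [IsNoetherianRing (chartRing (R0 A) j₀)]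
      [IsIntegrallyClosed (chartRing (R0 A) j₀)] (hqB : baseB j₀ (q0 A q) ≠ 0),
      ∀ u : F₀, u ≠ 0 → U3 S m1 u →
      (∀ P : Place Qb (modularFunctionFieldBar (M' * q * q)),
        (m1 : ℤ) ∣ P.ord (toFN0 A (M' * q * q) u)) →
      ∀ 𝔫 : Ideal (chartRing (R0 A) j₀), 𝔫.IsMaximal →
        ∃ g ∈ (⊤ : Subring F₀), g ^ m1 * u ∈ chartRing (R0 A) j₀ ∧
          LocAt (V1 (B := chartRing (R0 A) j₀) F₀) (chartRing (R0 A) j₀) ⊤ (vertFinset hqB) 𝔫 g) :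
    ∀ [IsFractionRing (chartRing (R0 A) j₀⁻¹) F₀]
      [IsNoetherianRing (chartRing (R0 A) j₀⁻¹)]
      [IsIntegrallyClosed (chartRing (R0 A) j₀⁻¹)] (hqB : baseB j₀⁻¹ (q0 A q) ≠ 0),
      ∀ u : F₀, u ≠ 0 → U3 S m1 u →
      (∀ P : Place Qb (modularFunctionFieldBar (M' * q * q)),
        (m1 : ℤ) ∣ P.ord (toFN0 A (M' * q * q) u)) →
      ∀ 𝔫 : Ideal (chartRing (R0 A) j₀⁻¹), 𝔫.IsMaximal →
        ∃ g ∈ (⊤ : Subring F₀), g ^ m1 * u ∈ chartRing (R0 A) j₀⁻¹ ∧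
          LocAt (V1 (B := chartRing (R0 A) j₀⁻¹) F₀) (chartRing (R0 A) j₀⁻¹) ⊤
            (vertFinset hqB) 𝔫 g := by
  intro i1 i2 i3 hqB u hu0 hU3 hdiv 𝔫 h𝔫
  -- the frames
  obtain ⟨⟨j1, j2, j3, hqBj, f, hf1, hf2⟩, ⟨_, _, _, _, f', hf1', hf2'⟩⟩ :=
    exists_two_frames_K0 A M' hq hqM hA hQ
  have hf1'' : ∀ i, (V1 F₀ (f' i) : ValuationSubring F₀) = W3 A hQ i := hf1'
  have hf2'' : ∀ p, p ∈ vertFinset hqB ↔ ∃ i, f' i = p := hf2'
  -- arithmetic of the base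
  have hdvr := isDiscreteValuationRing_R0 A hq hA
  have hq0 : Prime (q0 A q) := Fermat.Agent.GL.Frame.ChartInstK0.prime_q0 A hq hA
  have hN : M' * q * q = M' * q ^ 2 := by ring
  have hq2 : q ^ 2 * 1 ∣ M' * q * q := by rw [mul_one, hN]; exact dvd_mul_left _ _
  have : NeZero (q ^ 2 * 1) := ⟨by rw [mul_one]; exact pow_ne_zero 2 hq.ne_zero⟩
  have hmaxeq : IsLocalRing.maximalIdeal (R0 A) = Ideal.span {q0 A q} :=
    (IsDiscreteValuationRing.irreducible_iff_uniformizer _).1 hq0.irreducible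
  have hq0max : (Ideal.span {q0 A q}).IsMaximal :=
    hmaxeq ▸ IsLocalRing.maximalIdeal.isMaximal (R0 A)
  have hqF : algebraMap (R0 A) F₀ (q0 A q) = ((q : ℕ) : F₀) :=
    Fermat.Agent.GL.Final.H5UnifK0.algebraMap_q0 A (M' * q * q)
  have hq0F : algebraMap (R0 A) F₀ (q0 A q) ≠ 0 := by
    rw [hqF]
    exact Nat.cast_ne_zero.mpr hq.ne_zero
  have hqBcoe : ((((isChartRing_Bji A M').toRingHom (q0 A q) : chartRing (R0 A) j₀⁻¹)) : F₀) =
      ((q : ℕ) : F₀) := hqF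
  have hinc := incomparable_W3 A hq hN hqM hA hQ
  have hWne : ∀ a b : Fin 3, a ≠ b → f' a ≠ f' b := by
    intro a b hab h
    apply hinc a b hab
    rw [← hf1'' a, ← hf1'' b, h]
  -- the class of units
  have hU3W : ∀ u, U3 S m1 u → ∀ i, u - 1 ∈ (W3 A hQ i).nonunits := by
    intro u hu i
    obtain ⟨h1, h2, h3⟩ := (Fermat.Agent.GL.Final.U2Facts.U2_iff S u).mp hu.1
    rw [hW1] at h1
    rw [hW2] at h2
    rw [hW3] at h3
    fin_cases i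
    · exact h1
    · exact h2
    · exact h3
  -- vertical primes of `Bji`
  have hvertji : ∀ 𝔭 : HtOne (chartRing (R0 A) j₀⁻¹),
      (isChartRing_Bji A M').toRingHom (q0 A q) ∈ 𝔭.1 → 𝔭 ∈ vertFinset hqB :=
    fun 𝔭 h => (mem_vertFinset hqB 𝔭).2 h
  have hqvji : ∀ p ∈ vertFinset hqB, (isChartRing_Bji A M').toRingHom (q0 A q) ∈ p.1 :=
    fun p hp => (mem_vertFinset hqB p).1 hp
  have hWj : ∀ i, ∃ p ∈ vertFinset hqBj, V1 F₀ p = W3 A hQ i :=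
    fun i => ⟨f i, (hf2 (f i)).2 ⟨i, rfl⟩, hf1 i⟩
  have hWji : ∀ i, ∃ p ∈ vertFinset hqB, V1 F₀ p = W3 A hQ i :=
    fun i => ⟨f' i, (hf2'' (f' i)).2 ⟨i, rfl⟩, hf1'' i⟩
  have hWji' : ∀ p ∈ vertFinset hqB, ∃ i, V1 F₀ p = W3 A hQ i := by
    intro p hp
    obtain ⟨i, rfl⟩ := (hf2'' p).1 hp
    exact ⟨i, hf1'' i⟩
  -- horizontal primes
  have hordP := Fermat.Agent.GL.Final.H5TypeI.hordP_K0 A hq hA (M' * q * q)
    (Bf := chartRing (R0 A) j₀⁻¹)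
    (fun c hc => (baseB j₀⁻¹ (⟨c, hc⟩ : R0 A)).2) (vertFinset hqB) hqBcoe hvertji m1
  -- at most one vertical component through a cusp
  have hone : ∀ 𝔫 : Ideal (chartRing (R0 A) j₀⁻¹), 𝔫.IsMaximal →
      (isChartRing_Bji A M').toRingHom (q0 A q) ∈ 𝔫 → (isChartRing_Bji A M').gen ∈ 𝔫 →
      ¬ ((f' 0).1 ≤ 𝔫 ∧ (f' 1).1 ≤ 𝔫) ∧ ¬ ((f' 1).1 ≤ 𝔫 ∧ (f' 2).1 ≤ 𝔫) ∧
        ¬ ((f' 0).1 ≤ 𝔫 ∧ (f' 2).1 ≤ 𝔫) := by
    intro 𝔫 h𝔫 _ hgen
    have : 𝔫.IsPrime := h𝔫.isPrime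
    have : Fact q.Prime := ⟨hq⟩
    exact Fermat.Agent.GL.Frame.CuspPointsK0.hone_K0_jK0 A M' hQ
      (Fermat.Agent.GL.W3Table.exactDvd_level hq hqM) hqM hA (isChartRing_Bji A M')
      (f' 0).1 (f' 1).1 (f' 2).1
      (mem_of_V1_eq' (f' 0) _ (hf1'' 0)) (mem_of_V1_eq' (f' 1) _ (hf1'' 1))
      (mem_of_V1_eq' (f' 2) _ (hf1'' 2)) 𝔫 hgen
  -- `q` uniformises `w₁`, `w₂`
  have hunif0 := Fermat.Agent.GL.Final.H5UnifK0.hunif_W1 A (M' * q * q) hq hA (f' 0) (hf1'' 0)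
    hqBcoe
  have hunif1 := Fermat.Agent.GL.Final.H5UnifK0.hunif_W2 A (M' * q * q) hq hA hQ (f' 1)
    (hf1'' 1) hqBcoe
  -- REG3 at the cusps of `C₃`
  have hreg3 : ∀ 𝔫 : Ideal (chartRing (R0 A) j₀⁻¹), 𝔫.IsMaximal →
      ((isChartRing_Bji A M').toRingHom (q0 A q) ∈ 𝔫 ∧ (isChartRing_Bji A M').gen ∈ 𝔫) →
      (f' 2).1 ≤ 𝔫 → (∀ j ∈ vertFinset hqB, j ≠ f' 2 → ¬ j.1 ≤ 𝔫) →
      ∃ π : chartRing (R0 A) j₀⁻¹, π ≠ 0 ∧ π ∈ (f' 2).1 ∧
        (∀ x ∈ (f' 2).1, ∃ s : chartRing (R0 A) j₀⁻¹, s ∉ (f' 2).1 ∧ π ∣ s * x) ∧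
        (∀ 𝔮 : HtOne (chartRing (R0 A) j₀⁻¹), 𝔮 ≠ f' 2 → 𝔮.1 ≤ 𝔫 → π ∉ 𝔮.1) := by
    intro 𝔫 h𝔫 hPt h2 hbr
    obtain ⟨-, hgen⟩ := hPt
    have : 𝔫.IsPrime := h𝔫.isPrime
    have h3 : ∀ b : chartRing (R0 A) j₀⁻¹,
        (b : F₀) ∈ (Rw3K0 A (M' * q * q) q).nonunits → b ∈ 𝔫 :=
      fun b hb => h2 (mem_of_V1_eq' (f' 2) _ (hf1'' 2) b hb)
    have h12 : ∀ 𝔮 : HtOne (chartRing (R0 A) j₀⁻¹), 𝔮.1 ≤ 𝔫 →
        V1 F₀ 𝔮 ≠ RwK0 A (M' * q * q) ∧ V1 F₀ 𝔮 ≠ (redData2QK0 A (M' * q * q) hQ).Rw := by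
      intro 𝔮 hle
      refine ⟨fun h => ?_, fun h => ?_⟩
      · have h0 : 𝔮 = f' 0 := htOne_eq_of_V1_eq (h.trans (hf1'' 0).symm)
        rw [h0] at hle
        exact hbr (f' 0) ((hf2'' _).2 ⟨0, rfl⟩) (hWne 0 2 (by decide)) hle
      · have h0 : 𝔮 = f' 1 := htOne_eq_of_V1_eq (h.trans (hf1'' 1).symm)
        rw [h0] at hle
        exact hbr (f' 1) ((hf2'' _).2 ⟨1, rfl⟩) (hWne 1 2 (by decide)) hle
    refine Fermat.Agent.GL.Reg3.exists_vertPrime_caseC_all (B := chartRing (R0 A) j₀⁻¹) A hq2 hN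
      hqM hA hq 𝔫 (𝔭₀ := f' 2) (hf1'' 2) h2 ?_ (aB := (isChartRing_Bji A M').gen) rfl hgen ?_
    · intro 𝔮 hne hle hmem
      have h1 : ((q : ℕ) : chartRing (R0 A) j₀⁻¹) = baseB j₀⁻¹ (q0 A q) :=
        Subtype.ext (by rw [SubringClass.coe_natCast, coe_baseB, hqF])
      rw [h1] at hmem
      exact hbr 𝔮 ((mem_vertFinset hqB 𝔮).2 hmem) hne hle
    · intro 𝔮 _ hle _
      rw [genC_congr (K0 A) (R0 A) (M' * q * q) (mul_one (q ^ 2)) hq2
        (Fermat.Agent.GL.CuspSpec.hd_Bji M')]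
      exact Fermat.Agent.GL.CuspSpec.valuation_genC_inv_eq_Bji A M' hq hqM hA hQ 𝔫 hgen h3 h12 𝔮
        hle
  -- the contract on `Bj`
  have halljD := fun (u : F₀) (hu0 : u ≠ 0) (hU : U3 S m1 u)
      (hD : ∀ P : Place Qb (modularFunctionFieldBar (M' * q * q)),
        (m1 : ℤ) ∣ P.ord (toFN0 A (M' * q * q) u)) => hallj hqBj u hu0 hU hD
  exact Fermat.Agent.GL.Final.H5TypeI.hallji_typed (W3 A hQ) (isChartRing_Bj A M')
    (isChartRing_Bji A M') (q0 A q) hq0max hq0F (vertFinset hqBj) hWj (vertFinset hqB) hWji hWji'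
    hvertji hqvji f' hf2'' hm1 (U3 S m1)
    (fun u => ∀ P : Place Qb (modularFunctionFieldBar (M' * q * q)),
      (m1 : ℤ) ∣ P.ord (toFN0 A (M' * q * q) u))
    hU3W hordP hone hunif0 hunif1 hreg3 (hvali hqB) halljD u hu0 hU3 hdiv 𝔫 h𝔫

end Main

end Fermat.Agent.GL.Final.H5Hallji
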