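/-
GATE-L / L5-I at the CUSPIDAL points, CONCRETE over `K₀` (helper84).

`hvali` of helper11's `H5Typed.h5_typed`: `hval` of helper47's `LocTypeI.exists_locAt(_q)` on the
frame `Bji = IC R₀[1/j] ⊂ K₀(X₀(M' q q))` at every point `𝔫` with `1/j ∈ 𝔫`, for each of the three
vertical components `w₁ w₂ w₃`.

Route (TWO levels down, ONE component): `B'' := IC R₀[1/j''] ⊂ K₀(X₀(M'))` (helper96
`BRingChartInv.mem_chartRing_jC_inv_iff_one`: `RegFin (1/j'')`, `w₁'' ≥ 0`) reduces ONTO the Dedekind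
domain `CRingInv M' A` (helper9; surjectivity = helper96 `RatFinal.lift_K0_inv`); the old copies
`δ₁ = δ₃ = αα'` (`d0K`), `δ₂ = ββ'` (`d2K`) with the rows `coe_red1_d0`, `coe_red2_d2`,
`coe_red3_d0` of helper15's `OldTriples`; `δ B'' ⊆ (Bji)_𝔫` by `OldContraction.old_inf_le`
(for `δ₂`: `j` is integral over `ℤ[j_{q²}]`, helper87 ARITH-INT); `hrange` = (RES1), (RES3)
(`HvalFinK0Thm.hres1_K0`, `hres3_K0`) + `Frac (CRingInv M' A) = FresBar M' A`.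
-/
import Fermat.Agent.GL.Frame.HvalCuspAbs
import Fermat.Agent.GL.Final.HvalFinK0Thm
import Fermat.Agent.GL.Fibre.CRingInv
import Fermat.Agent.GL.Red.BRingChartInv
import Fermat.Agent.GL.Red.RatFinal
import Fermat.Agent.GL.Frame.ArithInt

set_option autoImplicit false
set_option linter.unusedSectionVars false
set_option synthInstance.maxHeartbeats 400000
set_option maxHeartbeats 1000000

noncomputable section

namespace Fermat.Agent.GL.Final.HvalCuspK0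

open HahnSeries ModularCurve IsLocalRing
open Fermat.Agent.S24 Fermat.Agent.S24_helper62 Fermat.Agent.S24_helper82
open Fermat.Agent.GJ.J1 Fermat.Agent.GJ.J1.Val Fermat.Agent.GJ.HN Fermat.Agent.GK.AL
open Fermat.Agent.GK.QS Fermat.Agent.GK.FrobGlue Fermat.Agent.GL.AL Fermat.Agent.GL.W3
open Fermat.Agent.GL.CuspVal Fermat.Agent.GL.OldTriples Fermat.Agent.GL.OldTriplesK0
open Fermat.Agent.GL.Val.GaussK0 Fermat.Agent.GL.Val.SecondK0 Fermat.Agent.GL.Val.SecondK0Hall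
open Fermat.Agent.GL.Val.ThirdK0 Fermat.Agent.GL.Table.K0
open Fermat.Agent.GL.Frame.HeightOne Fermat.Agent.GL.Frame.Inst
open Fermat.Agent.GL.RedInC Fermat.Agent.GL.Final.HvalFinK0 Fermat.Agent.GL.Final.HvalFinK0Thm
open Fermat.Agent.GL.Val.DegBase Fermat.Agent.GL.Val.OrthK0
open Fermat.Agent.GL.CRingInv Fermat.Agent.GL.BRingChartInv Fermat.Agent.GL.RatChart
open Fermat.Agent.GJ.J1.Haupt

variable {M' : ℕ} [NeZero M'] {q : ℕ} [hqF : Fact q.Prime] [NeZero q]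
variable {A : ValuationSubring Kbar} {hQ : HallDvd (q ^ 2) (M' * q * q)}
variable (hqM : ¬ q ∣ M') (hA : A.LiesOverPrime q)

local notation "kA" => ResidueField A
local notation "FK0" => modularFunctionFieldFullC (K0 A)

/-! ### the chart ring at infinity of level `M'` and its reduction onto `CRingInv M' A` -/

variable (M' A) in
/-- `B'' = IC R₀[1/j'']`, level `M'` -/
def BInv : Subring (FK0 M') := chartRing (R0 A) (jC M' (K0 A))⁻¹

include hqM hA in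
theorem mem_BInv_iff (x : FK0 M') :
    x ∈ BInv M' A ↔ RegFin (K0 A) (jC M' (K0 A))⁻¹ x ∧ x ∈ RwK0 A M' :=
  mem_chartRing_jC_inv_iff_one A M' hqF.out hA hqM x

variable (M' A) in
theorem mapK0Bar_jC_inv : mapK0Bar A M' (jC M' (K0 A))⁻¹ = (jF M')⁻¹ := by
  rw [map_inv₀, Fermat.Agent.GL.RatBRing.mapK0Bar_jC]


include hqM hA in
theorem inv_jF_mem_Rw : (jF M')⁻¹ ∈ (redDataBar M' A).Rw := by
  have h := (mem_BInv_iff hqM hA (jC M' (K0 A))⁻¹).1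
    (subset_icRing (R0 A) _ (Set.mem_singleton _))
  have h2 := (mem_Rw1K0_iff A M' _).1 h.2
  rwa [mapK0Bar_jC_inv M' A] at h2

include hqM hA in
/-- the reduction of an element of `B''` lies in `CRingInv M' A` -/
theorem red_mem_CRingInv {b : FK0 M'} (hb : b ∈ BInv M' A) :
    (redDataBar M' A).red ⟨mapK0Bar A M' b, (mem_Rw1K0_iff A M' b).1
      ((mem_BInv_iff hqM hA b).1 hb).2⟩ ∈ CRingInv M' A := by
  obtain ⟨hreg, hw⟩ := (mem_BInv_iff hqM hA b).1 hb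
  have h1 := (regFin_iff_map A M' _ b).1 hreg
  rw [mapK0Bar_jC_inv M' A] at h1
  have h2 := (Fermat.Agent.GJ.Gauss.redRegFin_jF M' hqM A hA).2 (inv_jF_mem_Rw hqM hA)
    (mapK0Bar A M' b) ((mem_Rw1K0_iff A M' b).1 hw) h1
  rw [Fermat.Agent.GJ.J1.InstRed.red_inv (redDataBar M' A) (jF_mem_Rw M' A)
    (inv_jF_mem_Rw hqM hA) (Fermat.Agent.GL.RatBRing.jF_ne_zero' M')] at h2
  exact h2

/-- `B'' → Rw₁''` -/
def toRwInv : BInv M' A →+* (redDataBar M' A).Rw :=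
  ((mapK0Bar A M').comp (BInv M' A).subtype).codRestrict (redDataBar M' A).Rw
    (fun b => (mem_Rw1K0_iff A M' b.1).1 ((mem_BInv_iff hqM hA b.1).1 b.2).2)

/-- **the reduction `B'' → CRingInv M' A`** -/
def redInv : BInv M' A →+* CRingInv M' A :=
  ((redDataBar M' A).red.comp (toRwInv hqM hA)).codRestrict (CRingInv M' A)
    (fun b => red_mem_CRingInv hqM hA b.2)

theorem coe_redInv (b : BInv M' A) :
    ((redInv hqM hA b : CRingInv M' A) : FresBar M' A) =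
      (redDataBar M' A).red ⟨mapK0Bar A M' b.1,
        (mem_Rw1K0_iff A M' b.1).1 ((mem_BInv_iff hqM hA b.1).1 b.2).2⟩ := rfl

/-- **the reduction `B'' → CRingInv M' A` is onto** (helper96 `lift_K0_inv`) -/
theorem redInv_surjective (h2 : q = 2 → 3 ∣ M') (h3 : q = 3 → 2 ∣ M') :
    Function.Surjective (redInv hqM hA) := by
  intro y
  obtain ⟨x0, hx0w, hx0reg, hx0', hx0y⟩ :=
    Fermat.Agent.GL.RatFinal.lift_K0_inv M' A hqM hA h2 h3 (y := (y : FresBar M' A)) y.2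
  refine ⟨⟨x0, (mem_BInv_iff hqM hA x0).2 ⟨hx0reg, hx0w⟩⟩, ?_⟩
  apply Subtype.ext
  rw [coe_redInv]
  exact hx0y

/-- `CRingInv M' A → k((Q))` -/
def cInvVal : CRingInv M' A →+* LaurentSeries kA :=
  (FresBar M' A).val.toRingHom.comp (CRingInv M' A).val.toRingHom

theorem cInvVal_apply (c : CRingInv M' A) :
    cInvVal c = (((c : CRingInv M' A) : FresBar M' A) : LaurentSeries kA) := rfl

theorem cInvVal_injective : Function.Injective (cInvVal (M' := M') (A := A)) := fun _ _ hab =>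
  Subtype.ext (Subtype.ext hab)

variable (q) in
/-- `CRingInv M' A → k((t))`, `Q ↦ t^N` -/
def cInvVal3 : CRingInv M' A →+* LaurentSeries kA :=
  (qExpand kA (M' * q * q)).comp cInvVal

theorem cInvVal3_apply (c : CRingInv M' A) :
    cInvVal3 q c = qExpand kA (M' * q * q) (cInvVal c) := rfl

theorem cInvVal3_injective : Function.Injective (cInvVal3 (M' := M') q (A := A)) := fun _ _ hab =>
  cInvVal_injective ((qExpand kA (M' * q * q)).injective hab)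

/-! ### the three rows -/

/-- row `w₁`, `δ = αα'` -/
theorem row1 (f : BInv M' A) (h : d0K M' q A f.1 ∈ RwK0 A (M' * q * q)) :
    rhoK1 M' q A ⟨d0K M' q A f.1, h⟩ = cInvVal (redInv hqM hA f) := by
  have hw : mapK0Bar A M' f.1 ∈ RwBar M' A :=
    (mem_Rw1K0_iff A M' f.1).1 ((mem_BInv_iff hqM hA f.1).1 f.2).2
  have h1 : d0 M' q (mapK0Bar A M' f.1) ∈ (redDataBar (M' * q * q) A).Rw := by
    rw [← mapK0Bar_d0K]; exact (mem_Rw1K0_iff A (M' * q * q) _).1 h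
  have e : (⟨mapK0Bar A (M' * q * q) (d0K M' q A f.1),
      (mem_Rw1K0_iff A (M' * q * q) _).1 h⟩ : (redDataBar (M' * q * q) A).Rw) =
      ⟨d0 M' q (mapK0Bar A M' f.1), h1⟩ := Subtype.ext (mapK0Bar_d0K M' q A f.1)
  rw [rhoK1_apply, cInvVal_apply, coe_redInv]
  show (((redDataBar (M' * q * q) A).red ⟨mapK0Bar A (M' * q * q) (d0K M' q A f.1), _⟩ :
    FresBar (M' * q * q) A) : LaurentSeries kA) = _
  rw [e]
  exact coe_red1_d0 _ hw h1

/-- row `w₂`, `δ = ββ'` -/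
theorem row2 (f : BInv M' A) (h : d2K M' q A f.1 ∈ (redData2QK0 A (M' * q * q) hQ).Rw) :
    rhoK2 M' q A hQ ⟨d2K M' q A f.1, h⟩ = cInvVal (redInv hqM hA f) := by
  have hw : mapK0Bar A M' f.1 ∈ RwBar M' A :=
    (mem_Rw1K0_iff A M' f.1).1 ((mem_BInv_iff hqM hA f.1).1 f.2).2
  have h1 : d2 M' q (mapK0Bar A M' f.1) ∈ (redData2Q (M' * q * q) A hQ).Rw := by
    rw [← mapK0Bar_d2K]; exact (mem_Rw2QK0_iff A (M' * q * q) hQ _).1 h
  have e : (⟨mapK0Bar A (M' * q * q) (d2K M' q A f.1),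
      (mem_Rw2QK0_iff A (M' * q * q) hQ _).1 h⟩ : (redData2Q (M' * q * q) A hQ).Rw) =
      ⟨d2 M' q (mapK0Bar A M' f.1), h1⟩ := Subtype.ext (mapK0Bar_d2K M' q A f.1)
  rw [rhoK2_apply, cInvVal_apply, coe_redInv]
  show (((redData2Q (M' * q * q) A hQ).red ⟨mapK0Bar A (M' * q * q) (d2K M' q A f.1), _⟩ :
    FresBar (M' * q * q) A) : LaurentSeries kA) = _
  rw [e]
  exact coe_red2_d2 _ hw hqM h1

/-- row `w₃`, `δ = αα'` -/
theorem row3 (f : BInv M' A) (h : d0K M' q A f.1 ∈ Rw3K0 A (M' * q * q) q) :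
    rhoK3 M' q A ⟨d0K M' q A f.1, h⟩ = cInvVal3 q (redInv hqM hA f) := by
  have hw : mapK0Bar A M' f.1 ∈ RwBar M' A :=
    (mem_Rw1K0_iff A M' f.1).1 ((mem_BInv_iff hqM hA f.1).1 f.2).2
  have h0 := (Fermat.Agent.GL.Table.K0.mem_Rw3K0_iff_mapK0Bar (q := q) A (M' * q * q) _).1 h
  have h1 : d0 M' q (mapK0Bar A M' f.1) ∈ (redData3 (M' * q * q) A q).Rw := by
    rw [← mapK0Bar_d0K]; exact h0
  have e : (⟨mapK0Bar A (M' * q * q) (d0K M' q A f.1), h0⟩ : (redData3 (M' * q * q) A q).Rw) =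
      ⟨d0 M' q (mapK0Bar A M' f.1), h1⟩ := Subtype.ext (mapK0Bar_d0K M' q A f.1)
  rw [rhoK3_apply, cInvVal3_apply, cInvVal_apply, coe_redInv]
  show (((redData3 (M' * q * q) A q).red ⟨mapK0Bar A (M' * q * q) (d0K M' q A f.1), _⟩ :
    FresCusp (M' * q * q) A (cusp3 (M' * q * q) q)) : LaurentSeries kA) = _
  rw [e]
  exact coe_red3_d0 _ hw h1

/-! ### `hrange` -/

include hA in
/-- every element of `FresBar M' A` is a quotient of elements of `CRingInv M' A` -/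
theorem exists_cInvVal_eq (y : FresBar M' A) :
    ∃ c d : CRingInv M' A, d ≠ 0 ∧ (y : LaurentSeries kA) * cInvVal d = cInvVal c := by
  have := isFractionRing_CRingInv M' q A hA
  obtain ⟨c, d, hd, hcd⟩ := IsFractionRing.div_surjective (A := CRingInv M' A) y
  refine ⟨c, d, nonZeroDivisors.ne_zero hd, ?_⟩
  have hd0 : algebraMap (CRingInv M' A) (FresBar M' A) d ≠ 0 := by
    intro h0
    exact nonZeroDivisors.ne_zero hd
      ((IsFractionRing.injective (CRingInv M' A) (FresBar M' A)) (h0.trans (map_zero _).symm))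
  have h1 : y * algebraMap (CRingInv M' A) (FresBar M' A) d =
      algebraMap (CRingInv M' A) (FresBar M' A) c := by
    rw [← hcd, div_mul_cancel₀ _ hd0]
  have h2 := congrArg (fun w : FresBar M' A => (w : LaurentSeries kA)) h1
  exact h2

include hqM hA in
theorem hrange1 (x : RwK0 A (M' * q * q)) :
    ∃ c d : CRingInv M' A, d ≠ 0 ∧ rhoK1 M' q A x * cInvVal d = cInvVal c :=
  exists_cInvVal_eq hA ⟨_, hres1_K0 hqM hA x⟩

include hqM hA in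
theorem hrange2 (x : (redData2QK0 A (M' * q * q) hQ).Rw) :
    ∃ c d : CRingInv M' A, d ≠ 0 ∧ rhoK2 M' q A hQ x * cInvVal d = cInvVal c :=
  exists_cInvVal_eq hA ⟨_, rhoK2_mem M' q A hQ (hres1_K0 hqM hA) x⟩

include hqM hA in
theorem hrange3 (x : Rw3K0 A (M' * q * q) q) :
    ∃ c d : CRingInv M' A, d ≠ 0 ∧ rhoK3 M' q A x * cInvVal3 q d = cInvVal3 q c := by
  obtain ⟨y, hy⟩ := hres3_K0 hqM hA x
  obtain ⟨c, d, hd, hcd⟩ := exists_cInvVal_eq hA y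
  refine ⟨c, d, hd, ?_⟩
  rw [hy, cInvVal3_apply, cInvVal3_apply, ← map_mul]
  exact congrArg _ hcd

/-! ### the base rings, the charts and the integrality inputs -/

variable (A) in
/-- `R₀` inside `K₀(X₀(n))` -/
def baseSub (n : ℕ) [NeZero n] : Subring (FK0 n) := (algebraMap (R0 A) (FK0 n)).range

theorem algHom_mem_baseSub {n m : ℕ} [NeZero n] [NeZero m] (δ : FK0 n →ₐ[K0 A] FK0 m)
    (r : FK0 n) (hr : r ∈ baseSub A n) : δ r ∈ baseSub A m := by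
  obtain ⟨a, rfl⟩ := hr
  refine ⟨a, ?_⟩
  have h1 : algebraMap (R0 A) (FK0 n) a = algebraMap (K0 A) (FK0 n) (a : K0 A) := rfl
  have h2 : algebraMap (R0 A) (FK0 m) a = algebraMap (K0 A) (FK0 m) (a : K0 A) := rfl
  rw [h1, h2, AlgHom.commutes]

/-- elements of `B''` are integral over `R₀[1/j'']` (`Subring.closure` form) -/
theorem isIntegral_closure_of_mem_BInv (b : FK0 M') (hb : b ∈ BInv M' A) :
    IsIntegral (Subring.closure ((baseSub A M' : Set (FK0 M')) ∪ {(jC M' (K0 A))⁻¹})) b := by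
  have h1 : IsIntegral (Algebra.adjoin (R0 A) {(jC M' (K0 A))⁻¹}) b := hb
  have h2 : IsIntegral (Algebra.adjoin (R0 A) {(jC M' (K0 A))⁻¹}).toSubring b := h1
  have e : (Algebra.adjoin (R0 A) {(jC M' (K0 A))⁻¹}).toSubring =
      Subring.closure ((baseSub A M' : Set (FK0 M')) ∪ {(jC M' (K0 A))⁻¹}) := by
    rw [Algebra.adjoin_eq_ring_closure]
    rfl
  rw [e] at h2
  exact h2

variable (M' q A) in
theorem d0K_jC : d0K M' q A (jC M' (K0 A)) = jC (M' * q * q) (K0 A) := by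
  apply Subtype.ext
  show ((alphaK0 A (M' * q) q (alphaK0 A M' q (jC M' (K0 A))) : FK0 (M' * q * q)) :
    LaurentSeries (K0 A)) = _
  rw [Fermat.Agent.GL.Table.K0.coe_alphaC, Fermat.Agent.GL.Table.K0.coe_alphaC, coe_jC, coe_jC]

theorem qq_dvd : q * q ∣ M' * q * q := ⟨M', by ring⟩

variable (M' q A) in
theorem d2K_jC : d2K M' q A (jC M' (K0 A)) =
    Fermat.Agent.GK.Val.GaussBase.genC (K0 A) (R0 A) (M' * q * q) (qq_dvd (M' := M') (q := q)) := by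
  apply Subtype.ext
  show ((betaK0 A (M' * q) q (betaK0 A M' q (jC M' (K0 A))) : FK0 (M' * q * q)) :
    LaurentSeries (K0 A)) = _
  rw [Fermat.Agent.GL.Table.K0.coe_betaC, Fermat.Agent.GL.Table.K0.coe_betaC, coe_jC,
    Fermat.Agent.GK.Val.GaussBase.coe_genC, qExpand_qExpand]

/-- `j` is integral over `R[j]` -/
theorem hint0 (R : Subring (FK0 (M' * q * q))) :
    IsIntegral (Subring.closure ((R : Set (FK0 (M' * q * q))) ∪ {jC (M' * q * q) (K0 A)}))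
      (jC (M' * q * q) (K0 A)) :=
  isIntegral_algebraMap (R := Subring.closure ((R : Set (FK0 (M' * q * q))) ∪
    {jC (M' * q * q) (K0 A)})) (x := ⟨_, Subring.subset_closure (Or.inr rfl)⟩)

/-- **`j` is integral over `R[j_{q²}]`** (helper87 ARITH-INT) -/
theorem hint2 (R : Subring (FK0 (M' * q * q))) :
    IsIntegral (Subring.closure ((R : Set (FK0 (M' * q * q))) ∪
      {d2K M' q A (jC M' (K0 A))})) (jC (M' * q * q) (K0 A)) := by
  rw [d2K_jC, ← jK0_eq_jC]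
  exact Fermat.Agent.GL.Frame.ArithInt.isIntegral_closure_union_genC (M' * q * q) (R0 A)
    (one_dvd _) qq_dvd R

/-! ### `hval` at the cuspidal points of `Bji = IC R₀[1/j]` -/

section Final

open Fermat.Agent.GL.ChartChange Fermat.Agent.GL.Val.L1eAsmK0 Fermat.Agent.GL.Frame.HvalCuspAbs

variable (h2 : q = 2 → 3 ∣ M') (h3 : q = 3 → 2 ∣ M')
variable {Bji : Subring (modularFunctionFieldFullC (K0 A) (M' * q * q))}
variable [IsFractionRing Bji (modularFunctionFieldFullC (K0 A) (M' * q * q))] [IsNoetherianRing Bji] [IsIntegrallyClosed Bji]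
variable (hBji : IsChartRing (R0 A) (jC (M' * q * q) (K0 A))⁻¹ Bji)

include hBji in
theorem baseSub_le : baseSub A (M' * q * q) ≤ Bji := by
  rintro x ⟨a, rfl⟩
  exact hBji.algebraMap_mem a

include hqM hA h2 h3 in
/-- **`hval` at the cuspidal points of `C₁`** -/
theorem hval_cusp_W1 (𝔫 : Ideal Bji) [𝔫.IsPrime] (hgen : hBji.gen ∈ 𝔫) (𝔭₀ : HtOne Bji)
    (h𝔭𝔫 : 𝔭₀.1 ≤ 𝔫)
    (hW : (V1 (modularFunctionFieldFullC (K0 A) (M' * q * q)) 𝔭₀ : ValuationSubring (modularFunctionFieldFullC (K0 A) (M' * q * q))) =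
      RwK0 A (M' * q * q)) (a b : Bji) :
    ∃ c s : Bji, s ∉ 𝔫 ∧ (s * a - c * b ∈ 𝔭₀.1 ∨ s * b - c * a ∈ 𝔭₀.1) := by
  have hD : IsDedekindDomain (CRingInv M' A) := isDedekindDomain_CRingInv M' q A hA
  exact hval_cusp (Λ := LaurentSeries kA) (D := CRingInv M' A) hBji.closed
    (baseSub A (M' * q * q)) (baseSub_le hBji) (jC_ne_zero A (M' * q * q))
    (jC_ne_zero A (M' * q * q)) (hint0 _) 𝔫 hBji.gen_mem hgen 𝔭₀ h𝔭𝔫
    (RwK0 A (M' * q * q)) hW (rhoK1 M' q A) (rhoK1_eq_zero_iff M' q A)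
    (d0K M' q A).toRingHom (j'' := jC M' (K0 A)) (d0K_jC M' q A) (baseSub A M')
    (algHom_mem_baseSub (d0K M' q A)) (BInv M' A) isIntegral_closure_of_mem_BInv
    (redInv hqM hA) (redInv_surjective hqM hA h2 h3) cInvVal cInvVal_injective
    (fun f h => row1 hqM hA f h) (fun a h => hrange1 hqM hA ⟨a, h⟩) a b

include hqM hA h2 h3 in
/-- **`hval` at the cuspidal points of `C₂`** (`δ = ββ'`, defined only locally at the cusps) -/
theorem hval_cusp_W2 (𝔫 : Ideal Bji) [𝔫.IsPrime] (hgen : hBji.gen ∈ 𝔫) (𝔭₀ : HtOne Bji)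
    (h𝔭𝔫 : 𝔭₀.1 ≤ 𝔫)
    (hW : (V1 (modularFunctionFieldFullC (K0 A) (M' * q * q)) 𝔭₀ :
      ValuationSubring (modularFunctionFieldFullC (K0 A) (M' * q * q))) =
      (redData2QK0 A (M' * q * q) hQ).Rw) (a b : Bji) :
    ∃ c s : Bji, s ∉ 𝔫 ∧ (s * a - c * b ∈ 𝔭₀.1 ∨ s * b - c * a ∈ 𝔭₀.1) := by
  have hD : IsDedekindDomain (CRingInv M' A) := isDedekindDomain_CRingInv M' q A hA
  have hjδ0 : d2K M' q A (jC M' (K0 A)) ≠ 0 := by
    rw [Ne, map_eq_zero]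
    exact jC_ne_zero A M'
  exact hval_cusp (Λ := LaurentSeries kA) (D := CRingInv M' A) hBji.closed
    (baseSub A (M' * q * q)) (baseSub_le hBji) (jC_ne_zero A (M' * q * q))
    hjδ0 (hint2 _) 𝔫 hBji.gen_mem hgen 𝔭₀ h𝔭𝔫
    (redData2QK0 A (M' * q * q) hQ).Rw hW (rhoK2 M' q A hQ) (rhoK2_eq_zero_iff M' q A hQ)
    (d2K M' q A).toRingHom (j'' := jC M' (K0 A)) rfl (baseSub A M')
    (algHom_mem_baseSub (d2K M' q A)) (BInv M' A) isIntegral_closure_of_mem_BInv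
    (redInv hqM hA) (redInv_surjective hqM hA h2 h3) cInvVal cInvVal_injective
    (fun f h => row2 hqM hA f h) (fun a h => hrange2 hqM hA ⟨a, h⟩) a b

include hqM hA h2 h3 in
/-- **`hval` at the cuspidal points of `C₃`** -/
theorem hval_cusp_W3 (𝔫 : Ideal Bji) [𝔫.IsPrime] (hgen : hBji.gen ∈ 𝔫) (𝔭₀ : HtOne Bji)
    (h𝔭𝔫 : 𝔭₀.1 ≤ 𝔫)
    (hW : (V1 (modularFunctionFieldFullC (K0 A) (M' * q * q)) 𝔭₀ :
      ValuationSubring (modularFunctionFieldFullC (K0 A) (M' * q * q))) =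
      Rw3K0 A (M' * q * q) q) (a b : Bji) :
    ∃ c s : Bji, s ∉ 𝔫 ∧ (s * a - c * b ∈ 𝔭₀.1 ∨ s * b - c * a ∈ 𝔭₀.1) := by
  have hD : IsDedekindDomain (CRingInv M' A) := isDedekindDomain_CRingInv M' q A hA
  exact hval_cusp (Λ := LaurentSeries kA) (D := CRingInv M' A) hBji.closed
    (baseSub A (M' * q * q)) (baseSub_le hBji) (jC_ne_zero A (M' * q * q))
    (jC_ne_zero A (M' * q * q)) (hint0 _) 𝔫 hBji.gen_mem hgen 𝔭₀ h𝔭𝔫
    (Rw3K0 A (M' * q * q) q) hW (rhoK3 M' q A) (rhoK3_eq_zero_iff M' q A)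
    (d0K M' q A).toRingHom (j'' := jC M' (K0 A)) (d0K_jC M' q A) (baseSub A M')
    (algHom_mem_baseSub (d0K M' q A)) (BInv M' A) isIntegral_closure_of_mem_BInv
    (redInv hqM hA) (redInv_surjective hqM hA h2 h3) (cInvVal3 q) cInvVal3_injective
    (fun f h => row3 hqM hA f h) (fun a h => hrange3 hqM hA ⟨a, h⟩) a b

include hqM hA h2 h3 in
/-- **`hval` at the cuspidal points of every vertical component** of `Bji = IC R₀[1/j]` -/
theorem hval_cusp_K0 (𝔫 : Ideal Bji) [𝔫.IsPrime] (hgen : hBji.gen ∈ 𝔫) (𝔭₀ : HtOne Bji)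
    (h𝔭𝔫 : 𝔭₀.1 ≤ 𝔫)
    (hW : ∃ i, (V1 (modularFunctionFieldFullC (K0 A) (M' * q * q)) 𝔭₀ :
      ValuationSubring (modularFunctionFieldFullC (K0 A) (M' * q * q))) = W3 A hQ i)
    (a b : Bji) :
    ∃ c s : Bji, s ∉ 𝔫 ∧ (s * a - c * b ∈ 𝔭₀.1 ∨ s * b - c * a ∈ 𝔭₀.1) := by
  obtain ⟨i, hi⟩ := hW
  fin_cases i
  · exact hval_cusp_W1 hqM hA h2 h3 hBji 𝔫 hgen 𝔭₀ h𝔭𝔫 hi a b
  · exact hval_cusp_W2 (hQ := hQ) hqM hA h2 h3 hBji 𝔫 hgen 𝔭₀ h𝔭𝔫 hi a b
  · exact hval_cusp_W3 hqM hA h2 h3 hBji 𝔫 hgen 𝔭₀ h𝔭𝔫 hi a b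

include hqM hA h2 h3 in
/-- **the `hvali` binder of helper11's `h5_typed`** on the frame `Bji` (asked only at the points
with `1/j ∈ 𝔫`; `Pt` any further condition, e.g. `fun 𝔫 => hBji.toRingHom q ∈ 𝔫`) -/
theorem hvali_binder_K0 (vertji : Finset (HtOne Bji))
    (hWji' : ∀ p ∈ vertji, ∃ i,
      (V1 (modularFunctionFieldFullC (K0 A) (M' * q * q)) p :
        ValuationSubring (modularFunctionFieldFullC (K0 A) (M' * q * q))) = W3 A hQ i)
    (Pt : Ideal Bji → Prop) :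
    ∀ 𝔫 : Ideal Bji, 𝔫.IsMaximal → (Pt 𝔫 ∧ hBji.gen ∈ 𝔫) → ∀ 𝔭₀ ∈ vertji, 𝔭₀.1 ≤ 𝔫 →
      (∀ j ∈ vertji, j ≠ 𝔭₀ → ¬ j.1 ≤ 𝔫) →
      ∀ a b : Bji, ∃ c s : Bji, s ∉ 𝔫 ∧ (s * a - c * b ∈ 𝔭₀.1 ∨ s * b - c * a ∈ 𝔭₀.1) := by
  intro 𝔫 h𝔫 hP 𝔭₀ h𝔭₀ hle _ a b
  have : 𝔫.IsPrime := h𝔫.isPrime
  exact hval_cusp_K0 (hQ := hQ) hqM hA h2 h3 hBji 𝔫 hP.2 𝔭₀ hle (hWji' 𝔭₀ h𝔭₀) a b

include hqM hA h2 h3 in
/-- the same for the chart `OrthK0.jK0` (`= jC`) -/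
theorem hvali_binder_K0_jK0
    (hBji' : IsChartRing (R0 A) (jK0 A (M' * q * q))⁻¹ Bji) (vertji : Finset (HtOne Bji))
    (hWji' : ∀ p ∈ vertji, ∃ i,
      (V1 (modularFunctionFieldFullC (K0 A) (M' * q * q)) p :
        ValuationSubring (modularFunctionFieldFullC (K0 A) (M' * q * q))) = W3 A hQ i)
    (Pt : Ideal Bji → Prop) :
    ∀ 𝔫 : Ideal Bji, 𝔫.IsMaximal → (Pt 𝔫 ∧ hBji'.gen ∈ 𝔫) → ∀ 𝔭₀ ∈ vertji, 𝔭₀.1 ≤ 𝔫 →
      (∀ j ∈ vertji, j ≠ 𝔭₀ → ¬ j.1 ≤ 𝔫) →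
      ∀ a b : Bji, ∃ c s : Bji, s ∉ 𝔫 ∧ (s * a - c * b ∈ 𝔭₀.1 ∨ s * b - c * a ∈ 𝔭₀.1) := by
  have hBji : IsChartRing (R0 A) (jC (M' * q * q) (K0 A))⁻¹ Bji := by
    rw [← jK0_eq_jC]; exact hBji'
  intro 𝔫 h𝔫 hP
  refine hvali_binder_K0 (hQ := hQ) hqM hA h2 h3 hBji vertji hWji' Pt 𝔫 h𝔫 ⟨hP.1, ?_⟩
  have e : hBji.gen = hBji'.gen := Subtype.ext (by
    rw [IsChartRing.coe_gen, IsChartRing.coe_gen, jK0_eq_jC])
  rw [e]
  exact hP.2

end Final

end Fermat.Agent.GL.Final.HvalCuspK0
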