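/-
GATE-L / L-INT, H5 ARM (helper56; claims key H5-HALLJI-K0): `H5HalljiK0.hallji_K0` with `hvali`
DISCHARGED by helper84 `HvalCuspK0.hvali_binder_K0_jK0` — **the `hallji` binder of
`H5FinK0.h5K0_of_hall` from the `hallj` binder ALONE** (+ the side conditions `q = 2 → 3 ∣ M'`,
`q = 3 → 2 ∣ M'` of helper96's lifts, available at the good auxiliary levels), and the resulting
one-contract form of the (H5) field: `h5K0_of_hallj`.
-/
import Mathlib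
import Fermat.Agent.GL.Final.H5HalljiK0
import Fermat.Agent.GL.Final.HvalCuspK0

set_option autoImplicit false
set_option linter.unusedSectionVars false

noncomputable section

namespace Fermat.Agent.GL.Final.H5Hallji

open AlgebraicCurve ModularCurve Polynomial IntermediateField
open Fermat.Agent.GL.ChartChange Fermat.Agent.GL.Gate Fermat.Agent.GL.GaussAt
open Fermat.Agent.GL.H4OfXi
open Fermat.Agent.GK.AL Fermat.Agent.GL.AL Fermat.Agent.GK.MultiVal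
open Fermat.Agent.GL.Val.GaussK0 Fermat.Agent.GL.Val.SecondK0 Fermat.Agent.GL.Val.SecondK0Hall
open Fermat.Agent.GL.Val.ThirdK0 Fermat.Agent.GL.Val.OrthK0 Fermat.Agent.GL.Val.L1eAsmK0
open Fermat.Agent.GL.Val.CuspK0 Fermat.Agent.GL.Val.CuspCoeff
open Fermat.Agent.GL.Frame.Inst Fermat.Agent.GL.Frame.HeightOne Fermat.Agent.GL.LocGlue
open Fermat.Agent.Common_helper32

section Main

variable (A : ValuationSubring Qb) {q : ℕ} (M' : ℕ) [NeZero M'] [NeZero q]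
variable {E k k1 k2 k3 k1' k2' B T T' : Type*} [Field E] [Field k]
  [Field k1] [Field k2] [Field k3] [Field k1'] [Field k2'] [CommRing B]
  [Algebra B (modularFunctionFieldFullC (K0 A) (M' * q * q))]

local notation "F₀" => modularFunctionFieldFullC (K0 A) (M' * q * q)
local notation "j₀" => jK0 A (M' * q * q)

set_option synthInstance.maxHeartbeats 400000 in
set_option maxHeartbeats 6400000 in
/-- **the `hallji` binder of `H5FinK0.h5K0_of_hall` from the `hallj` binder alone.** -/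
theorem hallji_K0_thm (hq : q.Prime) (hqM : ¬ q ∣ M') (hA : A.LiesOverPrime q)
    (h2 : q = 2 → 3 ∣ M') (h3 : q = 3 → 2 ∣ M')
    (hQ : HallDvd (q ^ 2) (M' * q * q))
    (S : TripleSetup F₀ E k k1 k2 k3 k1' k2' B T T')
    (hW1 : S.W1 = RwK0 A (M' * q * q)) (hW2 : S.W2 = (redData2QK0 A (M' * q * q) hQ).Rw)
    (hW3 : S.W3 = Rw3K0 A (M' * q * q) q)
    {m1 : ℕ} (hm1 : m1 ≠ 0)
    (hallj : ∀ [IsFractionRing (chartRing (R0 A) j₀) F₀] [IsNoetherianRing (chartRing (R0 A) j₀)]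
      [IsIntegrallyClosed (chartRing (R0 A) j₀)] (hqB : baseB j₀ (q0 A q) ≠ 0),
      ∀ u : F₀, u ≠ 0 → U3 S m1 u →
      (∀ P : Place Qb (modularFunctionFieldBar (M' * q * q)),
        (m1 : ℤ) ∣ P.ord (toFN0 A (M' * q * q) u)) →
      ∀ 𝔫 : Ideal (chartRing (R0 A) j₀), 𝔫.IsMaximal →
        ∃ g ∈ (⊤ : Subring F₀), g ^ m1 * u ∈ chartRing (R0 A) j₀ ∧
          LocAt (V1 (B := chartRing (R0 A) j₀) F₀) (chartRing (R0 A) j₀) ⊤ (vertFinset hqB) 𝔫 g) :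
    ∀ [IsFractionRing (chartRing (R0 A) j₀⁻¹) F₀]
      [IsNoetherianRing (chartRing (R0 A) j₀⁻¹)]
      [IsIntegrallyClosed (chartRing (R0 A) j₀⁻¹)] (hqB : baseB j₀⁻¹ (q0 A q) ≠ 0),
      ∀ u : F₀, u ≠ 0 → U3 S m1 u →
      (∀ P : Place Qb (modularFunctionFieldBar (M' * q * q)),
        (m1 : ℤ) ∣ P.ord (toFN0 A (M' * q * q) u)) →
      ∀ 𝔫 : Ideal (chartRing (R0 A) j₀⁻¹), 𝔫.IsMaximal →
        ∃ g ∈ (⊤ : Subring F₀), g ^ m1 * u ∈ chartRing (R0 A) j₀⁻¹ ∧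
          LocAt (V1 (B := chartRing (R0 A) j₀⁻¹) F₀) (chartRing (R0 A) j₀⁻¹) ⊤
            (vertFinset hqB) 𝔫 g := by
  have : Fact q.Prime := ⟨hq⟩
  have hvali : ∀ [IsFractionRing (chartRing (R0 A) j₀⁻¹) F₀]
      [IsNoetherianRing (chartRing (R0 A) j₀⁻¹)]
      [IsIntegrallyClosed (chartRing (R0 A) j₀⁻¹)] (hqB : baseB j₀⁻¹ (q0 A q) ≠ 0),
      ∀ 𝔫 : Ideal (chartRing (R0 A) j₀⁻¹), 𝔫.IsMaximal →
        ((isChartRing_Bji A M').toRingHom (q0 A q) ∈ 𝔫 ∧ (isChartRing_Bji A M').gen ∈ 𝔫) →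
        ∀ 𝔭₀ ∈ vertFinset hqB, 𝔭₀.1 ≤ 𝔫 → (∀ j ∈ vertFinset hqB, j ≠ 𝔭₀ → ¬ j.1 ≤ 𝔫) →
        ∀ a b : chartRing (R0 A) j₀⁻¹, ∃ c s : chartRing (R0 A) j₀⁻¹, s ∉ 𝔫 ∧
          (s * a - c * b ∈ 𝔭₀.1 ∨ s * b - c * a ∈ 𝔭₀.1) := by
    intro i1 i2 i3 hqB
    obtain ⟨-, ⟨_, _, _, _, f', hf1', hf2'⟩⟩ := exists_two_frames_K0 A M' hq hqM hA hQ
    have hf1'' : ∀ i, (V1 F₀ (f' i) : ValuationSubring F₀) = W3 A hQ i := hf1'
    have hf2'' : ∀ p, p ∈ vertFinset hqB ↔ ∃ i, f' i = p := hf2'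
    have hWji' : ∀ p ∈ vertFinset hqB, ∃ i, (V1 F₀ p : ValuationSubring F₀) = W3 A hQ i := by
      intro p hp
      obtain ⟨i, rfl⟩ := (hf2'' p).1 hp
      exact ⟨i, hf1'' i⟩
    exact Fermat.Agent.GL.Final.HvalCuspK0.hvali_binder_K0_jK0 (hQ := hQ) hqM hA h2 h3
      (isChartRing_Bji A M') (vertFinset hqB) hWji'
      (fun 𝔫 => (isChartRing_Bji A M').toRingHom (q0 A q) ∈ 𝔫)
  intro i1 i2 i3 hqB
  exact hallji_K0 A M' hq hqM hA hQ S hW1 hW2 hW3 hm1 hvali hallj hqB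

set_option synthInstance.maxHeartbeats 400000 in
set_option maxHeartbeats 6400000 in
/-- **the (H5) field of helper39's `ArmPkg` / `LevelPkg` from the ONE contract `hallj` on `Bj`.** -/
theorem h5K0_of_hallj (hq : q.Prime) (hqM : ¬ q ∣ M') (hA : A.LiesOverPrime q)
    (h2 : q = 2 → 3 ∣ M') (h3 : q = 3 → 2 ∣ M')
    (hQ : HallDvd (q ^ 2) (M' * q * q))
    (S : TripleSetup F₀ E k k1 k2 k3 k1' k2' B T T')
    (hW1 : S.W1 = RwK0 A (M' * q * q)) (hW2 : S.W2 = (redData2QK0 A (M' * q * q) hQ).Rw)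
    (hW3 : S.W3 = Rw3K0 A (M' * q * q) q)
    {m1 : ℕ} (hm1 : m1 ≠ 0) (hcop : Nat.Coprime m1 q)
    (hallj : ∀ [IsFractionRing (chartRing (R0 A) j₀) F₀] [IsNoetherianRing (chartRing (R0 A) j₀)]
      [IsIntegrallyClosed (chartRing (R0 A) j₀)] (hqB : baseB j₀ (q0 A q) ≠ 0),
      ∀ u : F₀, u ≠ 0 → U3 S m1 u →
      (∀ P : Place Qb (modularFunctionFieldBar (M' * q * q)),
        (m1 : ℤ) ∣ P.ord (toFN0 A (M' * q * q) u)) →
      ∀ 𝔫 : Ideal (chartRing (R0 A) j₀), 𝔫.IsMaximal →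
        ∃ g ∈ (⊤ : Subring F₀), g ^ m1 * u ∈ chartRing (R0 A) j₀ ∧
          LocAt (V1 (B := chartRing (R0 A) j₀) F₀) (chartRing (R0 A) j₀) ⊤ (vertFinset hqB) 𝔫 g) :
    ∀ u3 : F₀, u3 ≠ 0 → U3 S m1 u3 →
      (∀ P : Place Qb (modularFunctionFieldBar (M' * q * q)),
        (m1 : ℤ) ∣ P.ord (toFN0 A (M' * q * q) u3)) →
      ∃ w : modularFunctionFieldBar (M' * q * q), w ≠ 0 ∧ toFN0 A (M' * q * q) u3 = w ^ m1 :=
  Fermat.Agent.GL.Final.H5.h5K0_of_hall A M' hq hqM hA hQ S hW1 hW2 hW3 hm1 hcop hallj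
    (hallji_K0_thm A M' hq hqM hA h2 h3 hQ S hW1 hW2 hW3 hm1 hallj)

end Main

end Fermat.Agent.GL.Final.H5Hallji
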