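import Fermat.Agent.GL.Final.TypeIIISetupK0
import Fermat.Agent.GL.Final.H5HalljK0

/-!
# GATE-L / the hypothesis `HIII` of helper11 `H5HalljK0Thm.hallj_K0_thm` VERBATIM (helper29)

`TypeIIISetupK0.hIII_conj_K0` in the ∀-frame form asked by helper11's stage B
(`H5HalljK0Thm.hallj_K0_thm`, hypothesis `HIII`), at `S := BuildInstPts.setupK0Of A hq hqM hA s₀ H hv`
and `p := s₀` (the lift of the supersingular polynomial used for the points of `S`):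

  `∀ [instances on Bj] hqB f, (∀ i, V1 F₀ (f i) = W3 A hQ i) → (∀ p, p ∈ vertFinset hqB ↔ ∃ i, f i = p)
     → Injective f → ∀ s Q, (s : F₀) = aeval j₀ s₀ → hdich → ∀ u, u ≠ 0 → U3 S m1 u → ∀ 𝔫, … → ∃ g, …`

(`Bj = chartRing (R0 A) (jK0 A (M' q q))`, `j₀ = jK0 A (M' q q)`).  The file is elaborated in the
instance context of `H5HalljK0` (no local shortcut instances), so that the spelling of `aeval`,
`baseB`, `chartRing` is the one of helper11's files.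
-/

set_option autoImplicit false
set_option linter.unusedSectionVars false

noncomputable section

namespace Fermat.Agent.GL.Final.TypeIIIHalljK0

open AlgebraicCurve ModularCurve Polynomial IntermediateField
open Fermat.Agent.GL.ChartChange Fermat.Agent.GL.Gate Fermat.Agent.GL.GaussAt
open Fermat.Agent.GL.H4OfXi
open Fermat.Agent.GK.AL Fermat.Agent.GL.AL
open Fermat.Agent.GL.Val.GaussK0 Fermat.Agent.GL.Val.SecondK0 Fermat.Agent.GL.Val.SecondK0Hall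
open Fermat.Agent.GL.Val.ThirdK0 Fermat.Agent.GL.Val.OrthK0 Fermat.Agent.GL.Val.L1eAsmK0
open Fermat.Agent.GL.Val.DegBase
open Fermat.Agent.GL.Frame.Inst Fermat.Agent.GL.Frame.HeightOne Fermat.Agent.GL.LocGlue
open Fermat.Agent.GL.BuildInstPts Fermat.Agent.GL.BuildInst
open Fermat.Agent.Common_helper32

variable (A : ValuationSubring Qb) {q : ℕ} (M' : ℕ) [NeZero M'] [NeZero q]

local notation "F₀" => modularFunctionFieldFullC (K0 A) (M' * q * q)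
local notation "j₀" => jK0 A (M' * q * q)
local notation "Bj" => chartRing (R0 A) (jK0 A (M' * q * q))

/-- `p(j₀)` in the instance-free spelling of `TypeIIISetupK0.hIII_conj_K0`. -/
theorem aeval_jK0_eq (p : (R0 A)[X]) :
    Polynomial.aeval j₀ p =
      p.eval₂ ((algebraMap (K0 A) F₀).comp (R0 A).subtype) (jC (M' * q * q) (K0 A)) := by
  rw [Polynomial.aeval_def, jK0_eq_jC]
  rfl

set_option synthInstance.maxHeartbeats 400000 in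
set_option maxHeartbeats 6400000 in
/-- **the hypothesis `HIII` of helper11 `hallj_K0_thm` VERBATIM** at `S := setupK0Of …`, `p := s₀`. -/
theorem HIII_setupK0Of (hq : q.Prime) (hqM : ¬ q ∣ M') (hA : A.LiesOverPrime q)
    (hQ : HallDvd (q ^ 2) (M' * q * q)) (h2 : q = 2 → 3 ∣ M') (h3 : q = 3 → 2 ∣ M')
    (s0 : (R0 A)[X]) (H : SsPts A hq hqM hA s0) (hv : (buildK0 A hq hqM hA s0 H).Hval)
    {m1 : ℕ} (hcop : Nat.Coprime m1 q) :
    ∀ [IsFractionRing Bj F₀] [IsNoetherianRing Bj] [IsIntegrallyClosed Bj]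
      (hqB : baseB j₀ (q0 A q) ≠ 0) (f : Fin 3 → HtOne Bj),
      (∀ i, V1 F₀ (f i) = W3 A hQ i) → (∀ p, p ∈ vertFinset hqB ↔ ∃ i, f i = p) →
      Function.Injective f → ∀ (s : Bj) (Q : Ideal Bj → Prop),
      (s : F₀) = Polynomial.aeval j₀ s0 →
      (∀ 𝔫 : Ideal Bj, 𝔫.IsMaximal → baseB j₀ (q0 A q) ∈ 𝔫 →
        (s ∈ 𝔫 ∧ (f 0).1 ≤ 𝔫 ∧ (f 1).1 ≤ 𝔫 ∧ (f 2).1 ≤ 𝔫 ∧ Q 𝔫) ∨
        (s ∉ 𝔫 ∧ ¬ ((f 0).1 ≤ 𝔫 ∧ (f 1).1 ≤ 𝔫) ∧ ¬ ((f 1).1 ≤ 𝔫 ∧ (f 2).1 ≤ 𝔫) ∧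
          ¬ ((f 0).1 ≤ 𝔫 ∧ (f 2).1 ≤ 𝔫))) →
      ∀ u : F₀, u ≠ 0 → U3 (setupK0Of A hq hqM hA s0 H hv) m1 u → ∀ 𝔫 : Ideal Bj, 𝔫.IsMaximal →
        baseB j₀ (q0 A q) ∈ 𝔫 → s ∈ 𝔫 → (∀ p ∈ vertFinset hqB, p.1 ≤ 𝔫) → Q 𝔫 →
        ∃ g ∈ (⊤ : Subring F₀), g ^ m1 * u ∈ Bj ∧
          LocAt (V1 (B := Bj) F₀) Bj ⊤ (vertFinset hqB) 𝔫 g := by
  intro i1 i2 i3 hqB f hf1 hf2 hinj s Q hs hdich
  exact Fermat.Agent.GL.Final.TypeIIISetupK0.hIII_conj_K0 A hq hqM hA hQ h2 h3 s0 H hv hcop hqB f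
    hf1 hf2 hinj s Q hdich (hs.trans (aeval_jK0_eq A M' s0))

end Fermat.Agent.GL.Final.TypeIIIHalljK0
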