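/-
GATE-L / L-INT, FINAL ASSEMBLY (helper36, hedge of helper56 H5-FINAL-K0 + helper39 GeomFactsProof,
compiled first on a warm box): **`S36GeomGate` is a theorem.**

* `h5_setupK0Of`  : the (H5) field of helper39's `ArmPkg` at `S := setupK0Of A hq hqM hA (sK0 A hq) H hv`
  = helper56 `H5Hallji.h5K0_of_hallj` fed with helper11 `hallj_K0_thm` (`hS4 :=` helper25
  `S4Feed.hS4_BK0`, `HIII :=` helper29 `HIII_setupK0Of`, `p := sK0 A hq`);
* `h5_setupK0Thm` : the same at `setupK0Thm …` (= the `H5` argument of `armPkgK0`);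
* `armPkgK0Thm … hm1 hcop : ArmPkg A (M' * q) q m1` : ALL fields filled;
* `s36GeomGate : S36GeomGate` := helper39 `s36GeomGate_of_armPkg_bottom` at `armPkgK0Thm`.
-/
import Fermat.Agent.GL.Final.ArmPkgK0
import Fermat.Agent.GL.Final.H5HalljK0Thm
import Fermat.Agent.GL.Final.H5HalljiK0Thm
import Fermat.Agent.GL.Final.TypeIIIHalljK0
import Fermat.Agent.GL.Reg3.S4InstFeed
import Fermat.Agent.GL.Final.GeomFactsBottom

set_option autoImplicit false
set_option linter.unusedSectionVars false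
set_option linter.unusedVariables false

noncomputable section

namespace Fermat.Agent.GL.Final.TripleInstK0

open Polynomial ModularCurve IsLocalRing AlgebraicCurve
open Fermat.Agent.GJ.J1 Fermat.Agent.GL.H4OfXi Fermat.Agent.GJ.KumGroup
open Fermat.Agent.GL.BuildInst Fermat.Agent.GL.BuildInstPts
open Fermat.Agent.GL.Final.TopInst Fermat.Agent.GL.Final.GeomFacts
open Fermat.Agent.GL.Val.GaussK0 Fermat.Agent.GL.Gate Fermat.Agent.GL.Chain
open Fermat.Agent.GL.AL Fermat.Agent.GL.Final.GeomGate Fermat.Agent.GL.Final.GeomChain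
open Fermat.Agent.GK.AL
open Fermat.Agent.GL.Val.CuspK0 Fermat.Agent.GL.Val.ThirdK0 Fermat.Agent.GL.Val.SecondK0
open Fermat.Agent.GL.Val.SecondK0Hall Fermat.Agent.GL.Thick Fermat.Agent.GL.SmallQ
open Fermat.Agent.Common_helper32

attribute [local instance 2000] instAlgR0FullC instAlgBK0FullC instAlgR0BK0

variable (A : ValuationSubring Qb) {M' q : ℕ} [NeZero q] [NeZero M']
  (hq : q.Prime) (hqM : ¬ q ∣ M') (hA : (q : Qb) ∈ A.nonunits)
  (h2 : q = 2 → 3 ∣ M') (h3 : q = 3 → 2 ∣ M')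
  {r : ℕ} (hr : r.Prime) (hrM : r ∣ M') (hr3 : r % 3 = 2) (hr4 : r % 4 = 3)

local notation "F₀" => modularFunctionFieldFullC (K0 A) (M' * q * q)

/-- the fixed lift `sK0` is a lift of the supersingular polynomial along `resR0`. -/
theorem sK0_map_resR0 :
    (sK0 A hq).map (resR0 A) =
      @ssPolyAll q ⟨hq⟩ (ResidueField A) _ (Fermat.Agent.GJ.J1.Val.charP_residue A hq hA) :=
  haveI : Fact q.Prime := ⟨hq⟩
  haveI : CharP (ResidueField A) q := Fermat.Agent.GJ.J1.Val.charP_residue A hq hA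
  intSsPolyAll_map_map q (ResidueField A) (resR0 A)

set_option synthInstance.maxHeartbeats 400000 in
set_option maxHeartbeats 6400000 in
include h2 h3 hr hrM hr3 hr4 in
/-- **the (H5) field of `ArmPkg` at `setupK0Of … (sK0 A hq) H hv`** -/
theorem h5_setupK0Of (H : SsPts A hq hqM hA (sK0 A hq))
    (hv : (buildK0 A hq hqM hA (sK0 A hq) H).Hval)
    {m1 : ℕ} (hm1 : m1 ≠ 0) (hcop : Nat.Coprime m1 q) :
    ∀ u3 : F₀, u3 ≠ 0 → U3 (setupK0Of A hq hqM hA (sK0 A hq) H hv) m1 u3 →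
      (∀ P : Place Kb (FK (M' * q * q)), (m1 : ℤ) ∣ P.ord (toFN0 A (M' * q * q) u3)) →
      ∃ w : FK (M' * q * q), w ≠ 0 ∧ toFN0 A (M' * q * q) u3 = w ^ m1 :=
  Fermat.Agent.GL.Final.H5Hallji.h5K0_of_hallj A M' hq hqM hA h2 h3
    (Fermat.Agent.GL.AL.hallDvd_sq M' hq hqM) (setupK0Of A hq hqM hA (sK0 A hq) H hv)
    rfl rfl rfl hm1 hcop
    (Fermat.Agent.GL.Final.H5HalljK0Thm.hallj_K0_thm A M' hq hqM hA
      (Fermat.Agent.GL.AL.hallDvd_sq M' hq hqM) (setupK0Of A hq hqM hA (sK0 A hq) H hv)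
      rfl rfl rfl hm1 h2 h3 hr hrM hr3 hr4 (sK0 A hq) (sK0_map_resR0 A hq hA)
      (@Fermat.Agent.GL.Reg3.S4Feed.hS4_BK0 A M' q _ _ ⟨hq⟩ hqM hA r hr hrM hr3 hr4)
      (Fermat.Agent.GL.Final.TypeIIIHalljK0.HIII_setupK0Of A M' hq hqM hA
        (Fermat.Agent.GL.AL.hallDvd_sq M' hq hqM) h2 h3 (sK0 A hq) H hv hcop))

set_option synthInstance.maxHeartbeats 400000 in
set_option maxHeartbeats 6400000 in
include h2 h3 hr hrM hr3 hr4 in
/-- **the (H5) field of `ArmPkg` at `setupK0Thm`** = the argument `H5` of `armPkgK0`. -/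
theorem h5_setupK0Thm {m1 : ℕ} (hm1 : m1 ≠ 0) (hcop : Nat.Coprime m1 q) :
    ∀ u3 : F₀, u3 ≠ 0 → U3 (setupK0Thm A hq hqM hA h2 h3 hr hrM hr3 hr4) m1 u3 →
      (∀ P : Place Kb (FK (M' * q * q)), (m1 : ℤ) ∣ P.ord (toFN0 A (M' * q * q) u3)) →
      ∃ w : FK (M' * q * q), w ≠ 0 ∧ toFN0 A (M' * q * q) u3 = w ^ m1 :=
  h5_setupK0Of A hq hqM hA h2 h3 hr hrM hr3 hr4 (ssPtsK0 A hq hqM hA h2 h3 hr hrM hr3 hr4)
    (hvalK0 A hq hqM hA h2 h3 (sK0 A hq) (ssPtsK0 A hq hqM hA h2 h3 hr hrM hr3 hr4)) hm1 hcop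

/-- **helper39's `ArmPkg` at a good level, ALL fields filled.** -/
def armPkgK0Thm {m1 : ℕ} (hm1 : m1 ≠ 0) (hcop : Nat.Coprime m1 q) : ArmPkg A (M' * q) q m1 :=
  armPkgK0 A hq hqM hA h2 h3 hr hrM hr3 hr4 hm1
    (h5_setupK0Thm A hq hqM hA h2 h3 hr hrM hr3 hr4 hm1 hcop)

/-- **`S36GeomGate`.** -/
theorem s36GeomGate : S36GeomGate :=
  s36GeomGate_of_armPkg_bottom fun M' _ lam hlam q _ hq hqlam hlam2 hqM haux h2 h3 A hA j => by
    obtain ⟨r₂, hr₂, h3r, h4r, -, -, hr₂M, -⟩ := haux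
    exact ⟨armPkgK0Thm A hq hqM hA h2 h3 hr₂ hr₂M h3r h4r
      (pow_ne_zero j hlam.out.ne_zero)
      (Nat.Coprime.pow_left j ((Nat.coprime_primes hlam.out hq).2 (Ne.symm hqlam)))⟩

end Fermat.Agent.GL.Final.TripleInstK0
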