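/-
GATE-L / BUILD-INST-ARM (helper40): the remaining "own-object" facts of the concrete
`BuildData` `buildK0` / `TripleSetup` `setupK0Of` of `GL/Final/BuildInstPts.lean`:

* `buildK0_hval` : `(buildK0 …).Hval` — helper66 `LowerHvalBK0.lowerHval_1_BK0 / _2_BK0` PLUGGED
  (side conditions `q = 2 → 3 ∣ M'`, `q = 3 → 2 ∣ M'`);
* `setupK0Pts := setupK0Of … (buildK0_hval …)` : the `TripleSetup` over `K₀` whose ONLY residual
  hypothesis is `H : SsPts A hq hqM hA s` (helper47), with `setupK0Pts_W1 … _q`, `_P` by `rfl`;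
* `buildK0_hW` : `Incomparable ![W1, W2, W3]` (helper75 `L1eAsmK0.incomparable_W3`),
  `buildK0_hs1 hs2 hs3` : surjectivity of the three reductions;
* the side hypotheses of helper46 `H4Inst.h4_binder` / `H4Arm.h4_arm` at `S := setupK0Pts …`,
  in their binder shapes: `setupK0Pts_heu1' heu2' hB1' hB2' hχ1' hχ2'` (with
  `χ' := (buildK0 …).χ'`), `setupK0Pts_hconst1 hconst2 hconst3 hconst1' hconst2'`,
  `buildK0_χ'_eq_zero_iff` (`hχ'ker` with `P' := ptIdeal`), `setupK0Pts_hW hs1 hs2 hs3`.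
-/
import Fermat.Agent.GL.Final.BuildInstPts
import Fermat.Agent.GL.Final.LowerHvalBK0
import Fermat.Agent.GL.Val.L1eAsmK0

set_option autoImplicit false

noncomputable section

namespace Fermat.Agent.GL.BuildInstArm

open Polynomial HahnSeries ModularCurve IsLocalRing
open Fermat.Agent.GJ.J1
open Fermat.Agent.GL.H4OfXi Fermat.Agent.GL.TripleBuild Fermat.Agent.GL.BuildInst
open Fermat.Agent.GL.BuildInstPts
open Fermat.Agent.GL.Final.TriplePoints
open Fermat.Agent.GL.Final.RowsInst Fermat.Agent.GL.Final.LowerHvalS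
open Fermat.Agent.GL.Val.GaussK0 Fermat.Agent.GL.Val.SecondK0 Fermat.Agent.GL.Val.SecondK0Hall
open Fermat.Agent.GL.Val.ThirdK0 Fermat.Agent.GL.Val.L1eAsmK0
open Fermat.Agent.GK.MultiVal
open Fermat.Agent.Common_helper32

attribute [local instance 2000] instAlgR0FullC instAlgBK0FullC instAlgR0BK0

variable (A : ValuationSubring Qb) {M' q : ℕ} [NeZero q] [NeZero M']
  (hq : q.Prime) (hqM : ¬ q ∣ M') (hA : (q : Qb) ∈ A.nonunits) (s : (R0 A)[X])
  (H : SsPts A hq hqM hA s)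

/-- **the two lower valuation-ring hypotheses at `buildK0`** (helper66 / helper34 LOWER-HVAL). -/
theorem buildK0_hval (h2 : q = 2 → 3 ∣ M') (h3 : q = 3 → 2 ∣ M') :
    (buildK0 A hq hqM hA s H).Hval := by
  have : Fact q.Prime := ⟨hq⟩
  constructor
  · intro n' y
    rw [buildK0_rho1']
    refine lowerHval_1_BK0 A (Fermat.Agent.GL.W3Table.exactDvd_level hq hqM) hqM hA h2 h3
      (algebraMap_BK0_mem_RwK0 A (M' * q)) _ ?_ y
    intro b hb
    have hb' : (redDataK0 A (M' * q)).red ⟨algebraMap (BK0 A (M' * q))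
        (modularFunctionFieldFullC (K0 A) (M' * q)) b, algebraMap_BK0_mem_RwK0 A (M' * q) b⟩ = 0 :=
      hb
    exact (buildK0 A hq hqM hA s H).hker1' n' b hb'
  · intro n' y
    rw [buildK0_rho2']
    refine lowerHval_2_BK0 A (Fermat.Agent.GL.W3Table.exactDvd_level hq hqM) hqM hA h2 h3
      (algebraMap_BK0_mem_Rw2K0 A (M' * q) (Fermat.Agent.GL.W3Table.exactDvd_level hq hqM))
      _ ?_ y
    intro b hb
    have hb' : (redData2K0 A (M' * q) (Fermat.Agent.GL.W3Table.exactDvd_level hq hqM)).red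
        ⟨algebraMap (BK0 A (M' * q)) (modularFunctionFieldFullC (K0 A) (M' * q)) b,
          algebraMap_BK0_mem_Rw2K0 A (M' * q) _ b⟩ = 0 := hb
    exact (buildK0 A hq hqM hA s H).hker2' n' b hb'

/-- **the `TripleSetup` over `K₀`**; residual hypothesis: `H : SsPts A hq hqM hA s` only. -/
def setupK0Pts (h2 : q = 2 → 3 ∣ M') (h3 : q = 3 → 2 ∣ M') :=
  setupK0Of A hq hqM hA s H (buildK0_hval A hq hqM hA s H h2 h3)

section Lemmas

variable (h2 : q = 2 → 3 ∣ M') (h3 : q = 3 → 2 ∣ M')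

@[simp] theorem setupK0Pts_W1 :
    (setupK0Pts A hq hqM hA s H h2 h3).W1 = RwK0 A (M' * q * q) := rfl

@[simp] theorem setupK0Pts_W2 : (setupK0Pts A hq hqM hA s H h2 h3).W2 =
    (redData2QK0 A (M' * q * q) (Fermat.Agent.GL.AL.hallDvd_sq M' hq hqM)).Rw := rfl

@[simp] theorem setupK0Pts_W3 :
    (setupK0Pts A hq hqM hA s H h2 h3).W3 = Rw3K0 A (M' * q * q) q := rfl

@[simp] theorem setupK0Pts_Nm :
    (setupK0Pts A hq hqM hA s H h2 h3).Nm = normAlphaK0 A M' q := rfl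

@[simp] theorem setupK0Pts_Nm' :
    (setupK0Pts A hq hqM hA s H h2 h3).Nm' = normBetaK0 A M' q := rfl

@[simp] theorem setupK0Pts_q : (setupK0Pts A hq hqM hA s H h2 h3).q = q := rfl

end Lemmas

/-! ### weak approximation inputs -/

/-- **`hW`**: the three vertical valuation rings are pairwise incomparable. -/
theorem buildK0_hW : Incomparable ![(buildK0 A hq hqM hA s H).W1, (buildK0 A hq hqM hA s H).W2,
    (buildK0 A hq hqM hA s H).W3] :=
  incomparable_W3 A hq Fermat.Agent.GL.W3Table.level_eq hqM hA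
    (Fermat.Agent.GL.AL.hallDvd_sq M' hq hqM)

theorem buildK0_hs1 : Function.Surjective (buildK0 A hq hqM hA s H).rd1 :=
  (R1 A M' q).red_surjective

theorem buildK0_hs2 : Function.Surjective (buildK0 A hq hqM hA s H).rd2 :=
  (R2 A hq hqM).red_surjective

theorem buildK0_hs3 : Function.Surjective (buildK0 A hq hqM hA s H).rd3 :=
  (R3 A M' hq hA).red_surjective

/-! ### the side hypotheses of helper46 `h4_binder` / `H4Arm.h4_arm` at `S := setupK0Pts …` -/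

section Side

open Fermat.Agent.GL.Chain Fermat.Agent.GL.CompBranch
open Fermat.Agent.GL.Val.CuspK0

variable (h2 : q = 2 → 3 ∣ M') (h3 : q = 3 → 2 ∣ M')

local notation "k₀" => ResidueField (R0 A)
local notation "S₀" => setupK0Pts A hq hqM hA s H h2 h3
local notation "D₀" => buildK0 A hq hqM hA s H

theorem setupK0Pts_heu1' : ∀ n' (y : FresK0 A (M' * q)) (hy : y ∈ (S₀).U1' n'),
    (S₀).e1' n' ⟨y, hy⟩ ≠ 0 → y⁻¹ ∈ (S₀).U1' n' :=
  haveI : IsAlgClosed k₀ := isAlgClosed_residueField_R0 A hq hA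
  (D₀).toSetup_heu1' (buildK0_hval A hq hqM hA s H h2 h3)

theorem setupK0Pts_heu2' : ∀ n' (y : FresK0 A (M' * q)) (hy : y ∈ (S₀).U2' n'),
    (S₀).e2' n' ⟨y, hy⟩ ≠ 0 → y⁻¹ ∈ (S₀).U2' n' :=
  haveI : IsAlgClosed k₀ := isAlgClosed_residueField_R0 A hq hA
  (D₀).toSetup_heu2' (buildK0_hval A hq hqM hA s H h2 h3)

theorem setupK0Pts_hB1' : ∀ n' (b : BK0 A (M' * q)),
    algebraMap (BK0 A (M' * q)) (modularFunctionFieldFullC (K0 A) (M' * q)) b ∈
      comp (S₀).A1 (S₀).rd1' (S₀).hr1' ((S₀).U1' n') :=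
  haveI : IsAlgClosed k₀ := isAlgClosed_residueField_R0 A hq hA
  (D₀).toSetup_hB1' (buildK0_hval A hq hqM hA s H h2 h3)

theorem setupK0Pts_hB2' : ∀ n' (b : BK0 A (M' * q)),
    algebraMap (BK0 A (M' * q)) (modularFunctionFieldFullC (K0 A) (M' * q)) b ∈
      comp (S₀).A2 (S₀).rd2' (S₀).hr2' ((S₀).U2' n') :=
  haveI : IsAlgClosed k₀ := isAlgClosed_residueField_R0 A hq hA
  (D₀).toSetup_hB2' (buildK0_hval A hq hqM hA s H h2 h3)

theorem setupK0Pts_hχ1' : ∀ n' (b : BK0 A (M' * q)),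
    (branch (S₀).A1 (S₀).rd1' (S₀).hr1' ((S₀).U1' n') ((S₀).e1' n')).ev
      (algebraMap (BK0 A (M' * q)) (modularFunctionFieldFullC (K0 A) (M' * q)) b) =
        (D₀).χ' n' b :=
  haveI : IsAlgClosed k₀ := isAlgClosed_residueField_R0 A hq hA
  (D₀).toSetup_hχ1' (buildK0_hval A hq hqM hA s H h2 h3)

theorem setupK0Pts_hχ2' : ∀ n' (b : BK0 A (M' * q)),
    (branch (S₀).A2 (S₀).rd2' (S₀).hr2' ((S₀).U2' n') ((S₀).e2' n')).ev
      (algebraMap (BK0 A (M' * q)) (modularFunctionFieldFullC (K0 A) (M' * q)) b) =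
        (D₀).χ' n' b :=
  haveI : IsAlgClosed k₀ := isAlgClosed_residueField_R0 A hq hA
  (D₀).toSetup_hχ2' (buildK0_hval A hq hqM hA s H h2 h3)

theorem setupK0Pts_hconst1 : ∀ n (a : k₀),
    ∃ ha : algebraMap k₀ (FresK0 A (M' * q * q)) a ∈ (S₀).U1 n,
      (S₀).e1 n ⟨algebraMap k₀ (FresK0 A (M' * q * q)) a, ha⟩ = a :=
  haveI : IsAlgClosed k₀ := isAlgClosed_residueField_R0 A hq hA
  (D₀).toSetup_hconst1 (buildK0_hval A hq hqM hA s H h2 h3) (buildK0_hc1 A hq hqM hA s H)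

theorem setupK0Pts_hconst2 : ∀ n (a : k₀),
    ∃ ha : algebraMap k₀ (FresK0 A (M' * q * q)) a ∈ (S₀).U2 n,
      (S₀).e2 n ⟨algebraMap k₀ (FresK0 A (M' * q * q)) a, ha⟩ = a :=
  haveI : IsAlgClosed k₀ := isAlgClosed_residueField_R0 A hq hA
  (D₀).toSetup_hconst2 (buildK0_hval A hq hqM hA s H h2 h3) (buildK0_hc2 A hq hqM hA s H)

theorem setupK0Pts_hconst3 : ∀ n (a : k₀),
    ∃ ha : algebraMap k₀ (Fres3K0 A (M' * q * q) q hq hA) a ∈ (S₀).U3 n,
      (S₀).e3 n ⟨algebraMap k₀ (Fres3K0 A (M' * q * q) q hq hA) a, ha⟩ = a :=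
  haveI : IsAlgClosed k₀ := isAlgClosed_residueField_R0 A hq hA
  (D₀).toSetup_hconst3 (buildK0_hval A hq hqM hA s H h2 h3) (buildK0_hc3 A hq hqM hA s H)

theorem setupK0Pts_hconst1' : ∀ n' (a : k₀),
    ∃ ha : algebraMap k₀ (FresK0 A (M' * q)) a ∈ (S₀).U1' n',
      (S₀).e1' n' ⟨algebraMap k₀ (FresK0 A (M' * q)) a, ha⟩ = a :=
  haveI : IsAlgClosed k₀ := isAlgClosed_residueField_R0 A hq hA
  (D₀).toSetup_hconst1' (buildK0_hval A hq hqM hA s H h2 h3) (buildK0_hc1' A hq hqM hA s H)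

theorem setupK0Pts_hconst2' : ∀ n' (a : k₀),
    ∃ ha : algebraMap k₀ (FresK0 A (M' * q)) a ∈ (S₀).U2' n',
      (S₀).e2' n' ⟨algebraMap k₀ (FresK0 A (M' * q)) a, ha⟩ = a :=
  haveI : IsAlgClosed k₀ := isAlgClosed_residueField_R0 A hq hA
  (D₀).toSetup_hconst2' (buildK0_hval A hq hqM hA s H h2 h3) (buildK0_hc2' A hq hqM hA s H)

/-- `hχ'ker` of `h4_binder` with `P' := ptIdeal`, `χ' := (buildK0 …).χ'`. -/
theorem buildK0_χ'_eq_zero_iff (n' : PtType (RingHom.ker (residue (R0 A))) (jB A (M' * q)) s)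
    (b : BK0 A (M' * q)) : (D₀).χ' n' b = 0 ↔ b ∈ ptIdeal n' :=
  haveI : IsAlgClosed k₀ := isAlgClosed_residueField_R0 A hq hA
  Fermat.Agent.GL.Final.TriplePoints.chi_eq_zero_iff (residue (R0 A)) residue_surjective
    (jB A (M' * q)) (isIntegral_adjoin_jB A (M' * q)) n' b

/-- the points of `S₀` are the `ptIdeal`s. -/
theorem setupK0Pts_P (n : PtType (RingHom.ker (residue (R0 A))) (jB A (M' * q * q)) s) :
    (S₀).P n = ptIdeal n := rfl

theorem setupK0Pts_hW : Incomparable ![(S₀).W1, (S₀).W2, (S₀).W3] := buildK0_hW A hq hqM hA s H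

theorem setupK0Pts_hs1 : Function.Surjective (S₀).rd1 := buildK0_hs1 A hq hqM hA s H

theorem setupK0Pts_hs2 : Function.Surjective (S₀).rd2 := buildK0_hs2 A hq hqM hA s H

theorem setupK0Pts_hs3 : Function.Surjective (S₀).rd3 := buildK0_hs3 A hq hqM hA s H

end Side

end Fermat.Agent.GL.BuildInstArm
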