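/-
GATE-L / L-INT, H3 ARM, discreteness + weak approximation inputs (helper44).

The valuation-theoretic inputs `hd1 hd2 hd3 hqF3 hdA1 hdA2 ht hLval` of helper66's
`Chain.exists_normalised` (`GL/Chain/Normalise.lean`), first in GENERIC form (from helper90's
`IsUnif`/`IsRamified` + a DVR instance), then at the CONCRETE valuations over `K₀ = K0 A`:
levels `N0 = M' * q` and `N = M' * q * q` (LITERALLY, as in helper67's `DegenK0` rows),
`W1 = RwK0 A N`, `W2 = (redData2QK0 A N hQ).Rw`, `W3 = Rw3K0 A N q`,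
`A1 = RwK0 A N0`, `A2 = (redData2K0 A N0 h).Rw`, `q0 = ((q0 A q : R0 A) : K0 A)`.

* `isDiscAt_of_isRamified` : `IsRamified A q V ϖ e` + `V` a DVR ⟹ `IsDiscAt V ϖ`;
* `exists_prescribed_three` : three incomparable ramified extensions ⟹ an element with prescribed
  values `(|ϖ1|^a, |ϖ2|^b, |ϖ3|^d)` (helper90 `exists_unif_at`) = `ht`;
* `isDiscAt_R0`, `hLval_K0`;
* `isDiscAt_W1`, `isDiscAt_W2`, `isDiscAt_W3`, `hqF3_K0`, `isDiscAt_A1`, `isDiscAt_A2`, `ht_K0`.
-/
import Mathlib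
import Fermat.Agent.GL.Chain.RelRed
import Fermat.Agent.GL.MultiVal.RamVert
import Fermat.Agent.GL.Val.RamK0
import Fermat.Agent.GL.Val.ThirdK0Ne
import Fermat.Agent.GL.Val.GaussAtK0

set_option autoImplicit false
set_option linter.unusedSectionVars false

noncomputable section

namespace Fermat.Agent.GL.Final.H3

open Fermat.Agent.GL.Chain Fermat.Agent.GL.MultiVal Fermat.Agent.GK.MultiVal

/-! ### generic -/

section Generic

variable {K F : Type*} [Field K] [Field F] [Algebra K F]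
  {A : ValuationSubring K} {q : K}

/-- a ramified extension (helper90) which is a DVR is discrete at its uniformiser (helper66) -/
theorem isDiscAt_of_isRamified {V : ValuationSubring F} [IsDiscreteValuationRing V] {ϖ : F} {e : ℕ}
    (hq : IsUnif A q) (h : IsRamified A q V ϖ e) : IsDiscAt V ϖ :=
  isDiscAt_of_gen V h.lt_one (h.ne_zero hq) h.gen

/-- a DVR with uniformiser `q` in helper90's sense is discrete at `q` in helper66's sense -/
theorem isDiscAt_of_isUnif [IsDiscreteValuationRing A] (hq : IsUnif A q) : IsDiscAt A q :=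
  isDiscAt_of_gen A ((ValuationSubring.mem_nonunits_iff _).mp hq.mem) hq.ne_zero
    (fun x hx => hq.gen x ((ValuationSubring.mem_nonunits_iff _).mpr hx))

/-- **weak approximation with prescribed values at three incomparable ramified extensions** -/
theorem exists_prescribed_three {W1 W2 W3 : ValuationSubring F} {ϖ1 ϖ2 ϖ3 : F} {e1 e2 e3 : ℕ}
    (hW : Incomparable ![W1, W2, W3]) (hq : IsUnif A q)
    (h1 : IsRamified A q W1 ϖ1 e1) (h2 : IsRamified A q W2 ϖ2 e2) (h3 : IsRamified A q W3 ϖ3 e3)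
    (a b d : ℤ) :
    ∃ f : F, f ≠ 0 ∧ W1.valuation f = W1.valuation ϖ1 ^ a ∧
      W2.valuation f = W2.valuation ϖ2 ^ b ∧ W3.valuation f = W3.valuation ϖ3 ^ d := by
  have hR : ∀ i : Fin 3, IsRamified A q (![W1, W2, W3] i) (![ϖ1, ϖ2, ϖ3] i) (![e1, e2, e3] i) := by
    intro i
    fin_cases i
    · exact h1
    · exact h2
    · exact h3
  obtain ⟨t0, ht0, ht0'⟩ := exists_unif_at hW hq hR 0
  obtain ⟨t1, ht1, ht1'⟩ := exists_unif_at hW hq hR 1
  obtain ⟨t2, ht2, ht2'⟩ := exists_unif_at hW hq hR 2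
  have a01 : W2.valuation t0 = 1 := ht0' 1 (by decide)
  have a02 : W3.valuation t0 = 1 := ht0' 2 (by decide)
  have a10 : W1.valuation t1 = 1 := ht1' 0 (by decide)
  have a12 : W3.valuation t1 = 1 := ht1' 2 (by decide)
  have a20 : W1.valuation t2 = 1 := ht2' 0 (by decide)
  have a21 : W2.valuation t2 = 1 := ht2' 1 (by decide)
  have b0 : W1.valuation t0 = W1.valuation ϖ1 := ht0
  have b1 : W2.valuation t1 = W2.valuation ϖ2 := ht1
  have b2 : W3.valuation t2 = W3.valuation ϖ3 := ht2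
  have n0 : t0 ≠ 0 := by
    rintro rfl
    rw [map_zero] at a01
    exact zero_ne_one a01
  have n1 : t1 ≠ 0 := by
    rintro rfl
    rw [map_zero] at a10
    exact zero_ne_one a10
  have n2 : t2 ≠ 0 := by
    rintro rfl
    rw [map_zero] at a20
    exact zero_ne_one a20
  refine ⟨t0 ^ a * t1 ^ b * t2 ^ d,
    mul_ne_zero (mul_ne_zero (zpow_ne_zero _ n0) (zpow_ne_zero _ n1)) (zpow_ne_zero _ n2), ?_, ?_, ?_⟩
  · rw [map_mul, map_mul, map_zpow₀, map_zpow₀, map_zpow₀, b0, a10, a20, one_zpow, one_zpow,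
      mul_one, mul_one]
  · rw [map_mul, map_mul, map_zpow₀, map_zpow₀, map_zpow₀, a01, b1, a21, one_zpow, one_zpow,
      one_mul, mul_one]
  · rw [map_mul, map_mul, map_zpow₀, map_zpow₀, map_zpow₀, a02, a12, b2, one_zpow, one_zpow,
      one_mul, one_mul]

end Generic

/-! ### concrete: `K₀(X₀(M' q))` and `K₀(X₀(M' q q))` -/

section Concrete

open ModularCurve
open Fermat.Agent.GK.AL Fermat.Agent.GL.AL
open Fermat.Agent.GL.Val.GaussK0 Fermat.Agent.GL.Val.SecondK0 Fermat.Agent.GL.Val.SecondK0Hall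
open Fermat.Agent.GL.Val.RamK0 Fermat.Agent.GL.Val.ThirdK0 Fermat.Agent.GL.Val.CuspK0
open Fermat.Agent.GL.W3

local notation "Qb" => AlgebraicClosure ℚ

variable (A : ValuationSubring Qb) {q : ℕ} (M' : ℕ) [NeZero M'] [NeZero q]
  (hq : q.Prime) (hA : (q : Qb) ∈ A.nonunits)

/-- the uniformiser of the base -/
abbrev qK0 (q : ℕ) : K0 A := ((q0 A q : R0 A) : K0 A)

include hq hA in
/-- **`R₀` is discrete at `q`** -/
theorem isDiscAt_R0 : IsDiscAt (R0 A) (qK0 A q) := by
  have := isDiscreteValuationRing_R0 A hq hA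
  exact isDiscAt_of_isUnif (isUnif_R0 A hq hA)

include hq hA in
/-- **`hLval`**: a nonzero constant has the same `q`-adic order at any two valuations above `R₀` -/
theorem hLval_K0 {E : Type*} [Field E] [Algebra (K0 A) E] (A1 A2 : ValuationSubring E)
    (h1 : ∀ a : K0 A, a ∈ R0 A ↔ algebraMap (K0 A) E a ∈ A1)
    (h2 : ∀ a : K0 A, a ∈ R0 A ↔ algebraMap (K0 A) E a ∈ A2) (c : K0 A) (hc : c ≠ 0) :
    ∃ n : ℤ, A1.valuation (algebraMap (K0 A) E c) = A1.valuation (algebraMap (K0 A) E (qK0 A q)) ^ n ∧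
      A2.valuation (algebraMap (K0 A) E c) = A2.valuation (algebraMap (K0 A) E (qK0 A q)) ^ n := by
  obtain ⟨n, hn⟩ := exists_zpow_algebraMap (E := E) (isDiscAt_R0 A hq hA) c hc
  exact ⟨n, hn A1 h1, hn A2 h2⟩

/-! #### level `N0 = M' * q` -/

include hq hA in
theorem isDiscAt_A1 :
    IsDiscAt (RwK0 A (M' * q))
      (algebraMap (K0 A) (modularFunctionFieldFullC (K0 A) (M' * q)) (qK0 A q)) := by
  have := isDiscreteValuationRing_RwK0 A (M' * q) hq hA
  exact isDiscAt_of_isRamified (isUnif_R0 A hq hA) (isRamified_Rw1K0 A (M' * q) hq hA)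

include hq hA in
theorem isDiscAt_A2 (h : ExactDvd q (M' * q)) :
    IsDiscAt (redData2K0 A (M' * q) h).Rw
      (algebraMap (K0 A) (modularFunctionFieldFullC (K0 A) (M' * q)) (qK0 A q)) := by
  have := isDiscreteValuationRing_Rw2K0 A (M' * q) h hq hA
  exact isDiscAt_of_isRamified (isUnif_R0 A hq hA) (isRamified_Rw2K0 A (M' * q) hq hA h)

/-! #### level `N = M' * q * q` -/

include hq hA in
theorem isDiscAt_W1 :
    IsDiscAt (RwK0 A (M' * q * q))
      (algebraMap (K0 A) (modularFunctionFieldFullC (K0 A) (M' * q * q)) (qK0 A q)) := by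
  have := isDiscreteValuationRing_RwK0 A (M' * q * q) hq hA
  exact isDiscAt_of_isRamified (isUnif_R0 A hq hA) (isRamified_Rw1K0 A (M' * q * q) hq hA)

include hq hA in
theorem isDiscAt_W2 (hQ : HallDvd (q ^ 2) (M' * q * q)) :
    IsDiscAt (redData2QK0 A (M' * q * q) hQ).Rw
      (algebraMap (K0 A) (modularFunctionFieldFullC (K0 A) (M' * q * q)) (qK0 A q)) := by
  have := isDiscreteValuationRing_Rw2QK0 A (M' * q * q) hQ hq hA
  exact isDiscAt_of_isRamified (isUnif_R0 A hq hA) (isRamified_Rw2QK0 A (M' * q * q) hQ hq hA)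

theorem level_eq : M' * q * q = M' * q ^ 2 := by ring

/-- the tame uniformiser `y₃ = j(q² z) − j(z)` of `w₃` at level `M' q q` (`d' = 1`) -/
abbrev ϖ3K0 [NeZero (q ^ 2 * 1)] (hdN : q ^ 2 * 1 ∣ M' * q * q) :
    modularFunctionFieldFullC (K0 A) (M' * q * q) :=
  y3K0 A (M' * q * q) q hdN (one_dvd _)

variable (hqM : ¬ q ∣ M') [NeZero (q ^ 2 * 1)] (hdN : q ^ 2 * 1 ∣ M' * q * q)

include hq hA hqM in
/-- `w₃` is ramified of index `q - 1` over `R₀`, base uniformiser in helper45's form `q0` -/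
theorem isRamified_W3 :
    IsRamified (R0 A) (qK0 A q) (Rw3K0 A (M' * q * q) q) (ϖ3K0 A M' hdN) (q - 1) := by
  have h := isRamified_Rw3K0 A hq (level_eq M') hqM hA (one_dvd M') hdN (one_dvd _)
  have e : qK0 A q = ((q : ℕ) : K0 A) := Fermat.Agent.GL.Val.GaussAtK0.coe_q0_eq_natCast A
  rw [e]
  exact h

include hq hA hqM in
theorem isDiscAt_W3 : IsDiscAt (Rw3K0 A (M' * q * q) q) (ϖ3K0 A M' hdN) := by
  have := isDiscreteValuationRing_Rw3K0 A hq (level_eq M') hqM hA (one_dvd M') hdN (one_dvd _)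
  exact isDiscAt_of_isRamified (isUnif_R0 A hq hA) (isRamified_W3 A M' hq hA hqM hdN)

include hq hA hqM in
/-- **`hqF3`** : `|q|₃ = |y₃|₃^(q-1)` -/
theorem hqF3_K0 :
    (Rw3K0 A (M' * q * q) q).valuation
        (algebraMap (K0 A) (modularFunctionFieldFullC (K0 A) (M' * q * q)) (qK0 A q)) =
      (Rw3K0 A (M' * q * q) q).valuation (ϖ3K0 A M' hdN) ^ (q - 1) :=
  (isRamified_W3 A M' hq hA hqM hdN).pow_eq.symm

include hq hA hqM in
/-- **`ht`** : prescribed values at `w₁, w₂, w₃` -/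
theorem ht_K0 (hQ : HallDvd (q ^ 2) (M' * q * q)) (a b d : ℤ) :
    ∃ f : modularFunctionFieldFullC (K0 A) (M' * q * q), f ≠ 0 ∧
      (RwK0 A (M' * q * q)).valuation f = (RwK0 A (M' * q * q)).valuation
        (algebraMap (K0 A) (modularFunctionFieldFullC (K0 A) (M' * q * q)) (qK0 A q)) ^ a ∧
      (redData2QK0 A (M' * q * q) hQ).Rw.valuation f = (redData2QK0 A (M' * q * q) hQ).Rw.valuation
        (algebraMap (K0 A) (modularFunctionFieldFullC (K0 A) (M' * q * q)) (qK0 A q)) ^ b ∧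
      (Rw3K0 A (M' * q * q) q).valuation f =
        (Rw3K0 A (M' * q * q) q).valuation (ϖ3K0 A M' hdN) ^ d :=
  exists_prescribed_three
    (incomparable_three_K0 A hq (level_eq M') hqM hA hQ)
    (isUnif_R0 A hq hA) (isRamified_Rw1K0 A (M' * q * q) hq hA)
    (isRamified_Rw2QK0 A (M' * q * q) hQ hq hA) (isRamified_W3 A M' hq hA hqM hdN) a b d

end Concrete

end Fermat.Agent.GL.Final.H3
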