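/-
GATE-L / L-INT, the (H4) ARM, light part (helper39 + helper46): helper46's `H4OfXi.h4_of_xi` with

* `hloc` at the triple points PROVED from REG (`O_n` factorial), the frame facts at the chart `B`
  (every vertical height-one prime of `B` is one of `W1 W2 W3`; at the horizontal ones
  `u2 * z ^ m1` is a unit for some `z`: helper11 `HorizHord.hord_horizontal`) and helper47
  `exists_kummer_datum_of_ufd`;
* `hrc` from `[IsIntegrallyClosed B]`.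

No modular objects here (imports `H4OfXi`, `KummerDatum`, `LocGlue` only); the arm in the binder shape
of `k0UnitGateQ_of_chain'` is `GL/Final/H4Inst.lean`.
-/
import Fermat.Agent.GL.Final.U2Facts
import Fermat.Agent.GL.Frame.KummerDatum
import Fermat.Agent.GL.Loc.LocGlue

set_option autoImplicit false
set_option linter.unusedSectionVars false

noncomputable section

namespace Fermat.Agent.GL.Final.H4Loc

open Fermat.Agent.GL Fermat.Agent.GL.H4OfXi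
open Fermat.Agent.GL.Frame.HeightOne Fermat.Agent.GL.Frame.Kummer Fermat.Agent.GL.Final.U2Facts

variable {F E k k1 k2 k3 k1' k2' B T T' : Type*} [Field F] [Field E] [Field k]
  [Field k1] [Field k2] [Field k3] [Field k1'] [Field k2'] [CommRing B] [IsDomain B]
  [Algebra B F] [IsFractionRing B F] [IsNoetherianRing B] [IsIntegrallyClosed B]
  (S : TripleSetup F E k k1 k2 k3 k1' k2' B T T')

/-- a normalised element is a unit at every vertical height-one prime -/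
theorem unitAt_of_U2 {x : F} (hx : U2 S x) (𝔭 : HtOne B)
    (h𝔭 : V1 F 𝔭 = S.W1 ∨ V1 F 𝔭 = S.W2 ∨ V1 F 𝔭 = S.W3) : UnitAt 𝔭 x := by
  obtain ⟨h1, h2, h3⟩ := (U2_iff S x).mp hx
  unfold UnitAt
  rcases h𝔭 with h | h | h
  · rw [h]; exact LocGlue.inv_mem_of_sub_one_mem h1
  · rw [h]; exact LocGlue.inv_mem_of_sub_one_mem h2
  · rw [h]; exact LocGlue.inv_mem_of_sub_one_mem h3

/-- **`hloc` of `h4_of_xi` at the triple points**, from REG + the frame facts. -/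
theorem hloc_triple {m1 : ℕ} {u2 : F} (hu20 : u2 ≠ 0) (hU2 : U2 S u2)
    (hreg : ∀ n, ∃ _ : (S.P n).IsPrime,
      UniqueFactorizationMonoid (Localization.AtPrime (S.P n)))
    (qB : B)
    (hvert : ∀ 𝔭 : HtOne B, qB ∈ 𝔭.1 →
      V1 F 𝔭 = S.W1 ∨ V1 F 𝔭 = S.W2 ∨ V1 F 𝔭 = S.W3)
    (hhoriz : ∀ 𝔭 : HtOne B, qB ∉ 𝔭.1 → ∃ z : F, z ≠ 0 ∧ UnitAt 𝔭 (u2 * z ^ m1)) (n : T) :
    ∃ g : F, ∃ a s : B, a ∉ S.P n ∧ s ∉ S.P n ∧
      g ^ m1 * u2 * algebraMap B F s = algebraMap B F a := by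
  obtain ⟨hp, hufd⟩ := hreg n
  exact exists_kummer_datum_of_ufd (S.P n) (Localization.AtPrime (S.P n)) m1 u2 hu20
    (fun 𝔭 _ => by
      by_cases hq : qB ∈ 𝔭.1
      · exact hord_of_unitAt m1 (unitAt_of_U2 S hU2 𝔭 (hvert 𝔭 hq))
      · exact hhoriz 𝔭 hq)

/-- **(H4), core form**: `h4_of_xi` with `hloc` and `hrc` discharged. -/
theorem h4_core [Finite T] {m1 : ℕ} (hm1 : m1 ≠ 0) {u2 : F} (hu20 : u2 ≠ 0) (hU2 : U2 S u2)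
    (hreg : ∀ n, ∃ _ : (S.P n).IsPrime,
      UniqueFactorizationMonoid (Localization.AtPrime (S.P n)))
    (qB : B)
    (hvert : ∀ 𝔭 : HtOne B, qB ∈ 𝔭.1 →
      V1 F 𝔭 = S.W1 ∨ V1 F 𝔭 = S.W2 ∨ V1 F 𝔭 = S.W3)
    (hhoriz : ∀ 𝔭 : HtOne B, qB ∉ 𝔭.1 → ∃ z : F, z ≠ 0 ∧ UnitAt 𝔭 (u2 * z ^ m1))
    (O' : T' → Subring E) (hroot' : ∀ n' (z : E), z ^ m1 ∈ O' n' → z ∈ O' n')
    (hE0' : ∀ n' (z : E), z ≠ 0 → z ∈ O' n' → z⁻¹ ∈ O' n' →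
      (S.bE n' 0).ev z = (S.bE n' 1).ev z)
    {c01 h1 c02 h2 : E} (hc01 : c01 ≠ 0) (hc02 : c02 ≠ 0)
    (hN1 : S.Nm u2 = c01 * h1 ^ m1) (hN2 : S.Nm' u2 = c02 * h2 ^ m1)
    (γ1 γ2 : Fin 2 → k)
    (hh1 : ∀ n' j, (S.bE n' j).IsU h1 ∧ (S.bE n' j).ev h1 = γ1 j)
    (hh2 : ∀ n' j, (S.bE n' j).IsU h2 ∧ (S.bE n' j).ev h2 = γ2 j)
    (hNU1 : ∀ c : B, (∀ n, c ∉ S.P n) → ∀ n, S.Nm (algebraMap B F c) ≠ 0 ∧
      S.Nm (algebraMap B F c) / c01 ∈ O' (S.p1 n) ∧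
      (S.Nm (algebraMap B F c) / c01)⁻¹ ∈ O' (S.p1 n))
    (hNU2 : ∀ c : B, (∀ n, c ∉ S.P n) → ∀ n, S.Nm' (algebraMap B F c) ≠ 0 ∧
      S.Nm' (algebraMap B F c) / c02 ∈ O' (S.p2 n) ∧
      (S.Nm' (algebraMap B F c) / c02)⁻¹ ∈ O' (S.p2 n))
    (happ : ∀ a0 b0 : k, a0 ^ m1 = 1 → b0 ^ m1 = 1 → ∃ f0 : F, f0 ≠ 0 ∧ U2 S (f0 ^ m1) ∧
      (∀ n i, (S.bN n i).IsU f0) ∧
      ∀ n, (S.bN n 0).ev f0 = 1 ∧ (S.bN n 1).ev f0 = a0 ∧ (S.bN n 2).ev f0 = b0) :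
    ∃ f0 : F, f0 ≠ 0 ∧ U3 S m1 (u2 ^ (S.q ^ 2 - 1) * f0 ^ m1) :=
  h4_of_xi S hm1 (KummerMove.rootClosed_of_isIntegrallyClosed hm1) hu20 hU2
    (hloc_triple S hu20 hU2 hreg qB hvert hhoriz)
    O' hroot' hE0' hc01 hc02 hN1 hN2 γ1 γ2 hh1 hh2 hNU1 hNU2 happ

end Fermat.Agent.GL.Final.H4Loc
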