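/-
GATE-L / L-INT, the (H4) ARM at the CONCRETE `TripleSetup` over `K₀` (helper46).

`S := setupK0Of A hq hqM hA s H hv` (helper40 `BuildInstPts`; any `s`, `H : SsPts`, `hv : Hval`),
`F₀ = K₀(X₀(M' q q))`, `E₀ = K₀(X₀(M' q))`, `B = BK0 A (M' q q)`, `B' = BK0 A (M' q)`,
`τ = toFN0 A (M' q q)`, `NmA = normK0A A (M' q) q`, `NmB = normK0B A (M' q) q`.

* `hLred1_K0 hLred2_K0 hLval_S hdA1_S hdA2_S hLunit_S hhoriz_S` : the constants block and the
  horizontal block of `H4Inst.h4_binder` at `S`;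
* `h4InstK0_of_hNU` : the `H4` field of helper39's `GeomFacts.ArmPkg A (M' * q) q m1` at `S`, from
  the two norm-unit hypotheses `hNUA hNUB` (helper28 `FibreClosureK0` + norm half);
  every other hypothesis of `h4_binder` DISCHARGED (helper28 `TripleRegSetup` for `hreg hvert`,
  helper40 `BuildInstArm` for the node block, helper44 `H3Disc` for `hdA1 hdA2 hLval`, helper96
  `LunitK0` for `hLunit`, helper11 `HorizHord` through `hhoriz_K0`).
-/
import Fermat.Agent.GL.Final.H4Inst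
import Fermat.Agent.GL.Final.BuildInstArm
import Fermat.Agent.GL.Reg.TripleRegSetup
import Fermat.Agent.GL.Final.H3Disc
import Fermat.Agent.GL.Red.LunitK0

set_option autoImplicit false
set_option linter.unusedSectionVars false
set_option linter.unusedVariables false
set_option linter.style.haveILetI false

noncomputable section

namespace Fermat.Agent.GL.Final.H4InstK0

open Polynomial ModularCurve IsLocalRing AlgebraicCurve
open Fermat.Agent.GL Fermat.Agent.GL.Chain Fermat.Agent.GL.CompBranch Fermat.Agent.GL.H4OfXi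
open Fermat.Agent.GL.H4Producers Fermat.Agent.GK.MultiVal
open Fermat.Agent.GL.Frame.HeightOne Fermat.Agent.GL.Frame.Kummer
open Fermat.Agent.GJ.KumGroup
open Fermat.Agent.GL.Frame.Inst
open Fermat.Agent.GL.TripleBuild Fermat.Agent.GL.BuildInst Fermat.Agent.GL.BuildInstPts
open Fermat.Agent.GL.BuildInstArm
open Fermat.Agent.GL.Final.TriplePoints Fermat.Agent.GL.Final.RowsInst
open Fermat.Agent.GL.Val.GaussK0 Fermat.Agent.GL.Val.SecondK0 Fermat.Agent.GL.Val.SecondK0Hall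
open Fermat.Agent.GL.Val.ThirdK0 Fermat.Agent.GL.Val.CuspK0
open Fermat.Agent.GL.Final.TopInst Fermat.Agent.GL.Final.H4Inst
open Fermat.Agent.GL.Val.DegBase
open Fermat.Agent.Common_helper32

attribute [local instance 2000] instAlgR0FullC instAlgBK0FullC instAlgR0BK0

/-- the points are prime ideals (needed by `locRing (ptIdeal n')` in the statements). -/
local instance ptIdeal_isPrime_h4 {R0 B : Type*} [CommRing R0] [CommRing B] [Algebra R0 B]
    {m0 : Ideal R0} {t : B} {s : R0[X]} (n : PtType m0 t s) : (ptIdeal n).IsPrime :=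
  (ptIdeal_isMaximal n).isPrime

variable (A : ValuationSubring Qb) {M' q : ℕ} [NeZero q] [NeZero M']
  (hq : q.Prime) (hqM : ¬ q ∣ M') (hA : (q : Qb) ∈ A.nonunits) (s : (R0 A)[X])
  (H : SsPts A hq hqM hA s) (hv : (buildK0 A hq hqM hA s H).Hval)

local notation "F₀" => modularFunctionFieldFullC (K0 A) (M' * q * q)
local notation "E₀" => modularFunctionFieldFullC (K0 A) (M' * q)
local notation "k₀" => ResidueField (R0 A)
local notation "S₀" => setupK0Of A hq hqM hA s H hv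

/-! ### the constants block -/

/-- **`hLred1`**: a constant integral at `A1 = w₁'` reduces to a constant. -/
theorem hLred1_K0 : ∀ (c : K0 A) (hc : algebraMap (K0 A) E₀ c ∈ (S₀).A1), ∃ a : k₀,
    (S₀).rd1' ⟨algebraMap (K0 A) E₀ c, hc⟩ = algebraMap k₀ (FresK0 A (M' * q)) a := by
  intro c hc
  have hc' : c ∈ (R1' A M' q).A := ((R1' A M' q).mem_A_iff c).2 hc
  exact ⟨(R1' A M' q).res ⟨c, hc'⟩, (R1' A M' q).red_algebraMap ⟨c, hc'⟩⟩

/-- **`hLred2`**: a constant integral at `A2 = w₂'` reduces to a constant. -/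
theorem hLred2_K0 : ∀ (c : K0 A) (hc : algebraMap (K0 A) E₀ c ∈ (S₀).A2), ∃ a : k₀,
    (S₀).rd2' ⟨algebraMap (K0 A) E₀ c, hc⟩ = algebraMap k₀ (FresK0 A (M' * q)) a := by
  intro c hc
  have hc' : c ∈ (R2' A hq hqM).A := ((R2' A hq hqM).mem_A_iff c).2 hc
  exact ⟨(R2' A hq hqM).res ⟨c, hc'⟩, (R2' A hq hqM).red_algebraMap ⟨c, hc'⟩⟩

/-- **`hdA1`** -/
theorem hdA1_S : IsDiscAt (S₀).A1 (algebraMap (K0 A) E₀ (H3.qK0 A q)) :=
  H3.isDiscAt_A1 A M' hq hA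

/-- **`hdA2`** -/
theorem hdA2_S : IsDiscAt (S₀).A2 (algebraMap (K0 A) E₀ (H3.qK0 A q)) :=
  H3.isDiscAt_A2 A M' hq hA (Fermat.Agent.GL.W3Table.exactDvd_level hq hqM)

/-- **`hLval`** -/
theorem hLval_S : ∀ c : K0 A, c ≠ 0 → ∃ n : ℤ,
    (S₀).A1.valuation (algebraMap (K0 A) E₀ c) =
        (S₀).A1.valuation (algebraMap (K0 A) E₀ (H3.qK0 A q)) ^ n ∧
      (S₀).A2.valuation (algebraMap (K0 A) E₀ c) =
        (S₀).A2.valuation (algebraMap (K0 A) E₀ (H3.qK0 A q)) ^ n :=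
  fun c hc => H3.hLval_K0 A hq hA (RwK0 A (M' * q))
    (redData2K0 A (M' * q) (Fermat.Agent.GL.W3Table.exactDvd_level hq hqM)).Rw
    (fun a => (Fermat.Agent.GL.Val.L1eAsmK0.over_Rw1K0 A hq hA a).symm)
    (fun a => ((R2' A hq hqM).mem_A_iff a)) c hc

/-- **`hLunit`** (helper96 `LunitK0.hLunit_chartRing`). -/
theorem hLunit_S : ∀ d : K0 A, d ≠ 0 → (S₀).A1.valuation (algebraMap (K0 A) E₀ d) = 1 →
    (S₀).A2.valuation (algebraMap (K0 A) E₀ d) = 1 →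
    ∀ n' : PtType (RingHom.ker (residue (R0 A))) (jB A (M' * q)) s,
      algebraMap (K0 A) E₀ d ∈ locRing (E := E₀) (ptIdeal n') ∧
        (algebraMap (K0 A) E₀ d)⁻¹ ∈ locRing (E := E₀) (ptIdeal n') := by
  intro d _ h1 _ n'
  haveI : (ptIdeal n').IsPrime := (ptIdeal_isMaximal n').isPrime
  exact Fermat.Agent.GL.LunitK0.hLunit_chartRing A (M' * q) hq hA (jC (M' * q) (K0 A)) d h1
    (ptIdeal n')

/-! ### the horizontal block -/

include hq hA in
/-- **`hhoriz`** at `B = BK0 A (M' q q)`, `qB = q`. -/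
theorem hhoriz_S [IsNoetherianRing (BK0 A (M' * q * q))]
    [IsIntegrallyClosed (BK0 A (M' * q * q))] [IsFractionRing (BK0 A (M' * q * q)) F₀]
    (m1 : ℕ) :
    ∀ u : F₀, u ≠ 0 →
      (∀ P : Place Kb (FK (M' * q * q)), (m1 : ℤ) ∣ P.ord (toFN0 A (M' * q * q) u)) →
      ∀ 𝔭 : HtOne (BK0 A (M' * q * q)), ((q : ℕ) : BK0 A (M' * q * q)) ∉ 𝔭.1 →
        ∃ z : F₀, z ≠ 0 ∧ UnitAt 𝔭 (u * z ^ m1) :=
  hhoriz_K0 A hq hA (M' * q * q)
    (fun c hc => ⟨algebraMap (R0 A) (BK0 A (M' * q * q)) ⟨c, hc⟩, rfl⟩)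
    ((q : ℕ) : BK0 A (M' * q * q)) (map_natCast _ q) m1

/-! ### the arm -/

/-- **(H4) at the concrete `TripleSetup`**, from the two norm-unit hypotheses. -/
theorem h4InstK0_of_hNU (hsm : s.Monic) (h2 : q = 2 → 3 ∣ M') (h3 : q = 3 → 2 ∣ M')
    {r : ℕ} (hr : r.Prime) (hrM : r ∣ M') (hr3 : r % 3 = 2) (hr4 : r % 4 = 3)
    {m1 : ℕ} (hm1 : m1 ≠ 0)
    (hNUA : ∀ c : BK0 A (M' * q * q), (∀ n, c ∉ (S₀).P n) → ∀ n (c0 : E₀), c0 ≠ 0 →
      c0 ∈ locRing (E := E₀) (ptIdeal ((S₀).p1 n)) →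
      c0⁻¹ ∈ locRing (E := E₀) (ptIdeal ((S₀).p1 n)) →
      normK0A A (M' * q) q (algebraMap (BK0 A (M' * q * q)) F₀ c) ≠ 0 ∧
        normK0A A (M' * q) q (algebraMap (BK0 A (M' * q * q)) F₀ c) / c0 ∈
          locRing (E := E₀) (ptIdeal ((S₀).p1 n)) ∧
        (normK0A A (M' * q) q (algebraMap (BK0 A (M' * q * q)) F₀ c) / c0)⁻¹ ∈
          locRing (E := E₀) (ptIdeal ((S₀).p1 n)))
    (hNUB : ∀ c : BK0 A (M' * q * q), (∀ n, c ∉ (S₀).P n) → ∀ n (c0 : E₀), c0 ≠ 0 →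
      c0 ∈ locRing (E := E₀) (ptIdeal ((S₀).p2 n)) →
      c0⁻¹ ∈ locRing (E := E₀) (ptIdeal ((S₀).p2 n)) →
      normK0B A (M' * q) q (algebraMap (BK0 A (M' * q * q)) F₀ c) ≠ 0 ∧
        normK0B A (M' * q) q (algebraMap (BK0 A (M' * q * q)) F₀ c) / c0 ∈
          locRing (E := E₀) (ptIdeal ((S₀).p2 n)) ∧
        (normK0B A (M' * q) q (algebraMap (BK0 A (M' * q * q)) F₀ c) / c0)⁻¹ ∈
          locRing (E := E₀) (ptIdeal ((S₀).p2 n))) :
    ∀ u2 : F₀, u2 ≠ 0 → U2 (S₀) u2 →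
      (∀ P : Place Kb (FK (M' * q * q)), (m1 : ℤ) ∣ P.ord (toFN0 A (M' * q * q) u2)) →
      IsCstPow (K0 A) m1 (normK0A A (M' * q) q u2) →
      IsCstPow (K0 A) m1 (normK0B A (M' * q) q u2) →
      ∃ f0 : F₀, f0 ≠ 0 ∧ U3 (S₀) m1 (u2 ^ ((S₀).q ^ 2 - 1) * f0 ^ m1) := by
  haveI : IsAlgClosed k₀ := isAlgClosed_residueField_R0 A hq hA
  haveI : IsNoetherianRing (BK0 A (M' * q * q)) := isNoetherianRing_BK0 A hA (M' * q * q) hq
  haveI : IsIntegrallyClosed (BK0 A (M' * q * q)) := isIntegrallyClosed_BK0 A hA (M' * q * q) hq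
  haveI : IsFractionRing (BK0 A (M' * q * q)) F₀ := isFractionRing_BK0 A hA (M' * q * q) hq
  haveI : IsIntegrallyClosed (BK0 A (M' * q)) := isIntegrallyClosed_BK0 A hA (M' * q) hq
  haveI : IsFractionRing (BK0 A (M' * q)) E₀ := isFractionRing_BK0 A hA (M' * q) hq
  haveI : Finite (PtType (RingHom.ker (residue (R0 A))) (jB A (M' * q * q)) s) :=
    finite_ptType_BK0 A hA (M' * q * q) hq hsm
  haveI hP' : ∀ n' : PtType (RingHom.ker (residue (R0 A))) (jB A (M' * q)) s,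
      (ptIdeal n').IsPrime := fun n' => (ptIdeal_isMaximal n').isPrime
  exact h4_binder (N0 := M' * q) (q := q) (K0' := K0 A) (S₀) (toFN0 A (M' * q * q))
    (normK0A A (M' * q) q) (normK0B A (M' * q) q) (fun _ => rfl) (fun _ => rfl) hm1
    (Fermat.Agent.GL.TripleRegSetup.hreg_setupK0Of A hq hqM hA s H hv h2 h3 hr hrM hr3 hr4)
    ((q : ℕ) : BK0 A (M' * q * q))
    (Fermat.Agent.GL.TripleRegSetup.hvert_setupK0Of A hq hqM hA s H hv)
    (hhoriz_S A hq hA m1)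
    (fun n' => ptIdeal n') (buildK0 A hq hqM hA s H).χ'
    (buildK0_χ'_eq_zero_iff A hq hqM hA s H)
    (setupK0Pts_heu1' A hq hqM hA s H h2 h3) (setupK0Pts_heu2' A hq hqM hA s H h2 h3)
    (setupK0Pts_hB1' A hq hqM hA s H h2 h3) (setupK0Pts_hB2' A hq hqM hA s H h2 h3)
    (setupK0Pts_hχ1' A hq hqM hA s H h2 h3) (setupK0Pts_hχ2' A hq hqM hA s H h2 h3)
    (hdA1_S A hq hqM hA s H hv) (hdA2_S A hq hqM hA s H hv) (hLval_S A hq hqM hA s H hv)
    (hLred1_K0 A hq hqM hA s H hv) (hLred2_K0 A hq hqM hA s H hv)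
    (setupK0Pts_hconst1' A hq hqM hA s H h2 h3) (setupK0Pts_hconst2' A hq hqM hA s H h2 h3)
    (hLunit_S A hq hqM hA s H hv) hNUA hNUB
    (setupK0Pts_hW A hq hqM hA s H h2 h3)
    (setupK0Pts_hs1 A hq hqM hA s H h2 h3) (setupK0Pts_hs2 A hq hqM hA s H h2 h3)
    (setupK0Pts_hs3 A hq hqM hA s H h2 h3)
    (setupK0Pts_hconst1 A hq hqM hA s H h2 h3) (setupK0Pts_hconst2 A hq hqM hA s H h2 h3)
    (setupK0Pts_hconst3 A hq hqM hA s H h2 h3)

end Fermat.Agent.GL.Final.H4InstK0
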