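/-
GATE-L / L-INT, the (H4) ARM at PRODUCER level (helper39 + helper46): `H4Loc.h4_core` with every
`h4_of_xi`-shaped side hypothesis replaced by the INPUT of helper46's landed producers

  `H4Producers.locRing / locRing_root_closed`   (`O'`, `hroot'`)
  `H4NodeUnits.hE0'_of_chars`                    (`hE0'`, from the lower chart ring `B'`)
  `H4ConstPow.hh_of_isCstPow`                    (`hN1 hN2 hh1 hh2`, from `IsCstPow` of the norms)
  `H4Approx.happ_of_approx`                      (`happ`, from weak approximation)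
  `H4Producers.norm_unit_locRing`                (`hNU1 hNU2`, through `hNU_of_fibre` below).

So the concrete H4 leaves are EXACTLY the hypotheses of `h4_core_of_producers`.
-/
import Fermat.Agent.GL.Final.H4Loc
import Fermat.Agent.GL.Gate.H4Producers
import Fermat.Agent.GL.Gate.H4ConstPow
import Fermat.Agent.GL.Gate.H4Approx
import Fermat.Agent.GL.Gate.H4NodeUnits

set_option autoImplicit false
set_option linter.unusedSectionVars false

noncomputable section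

namespace Fermat.Agent.GL.Final.H4Prod

open Fermat.Agent.GL Fermat.Agent.GL.Chain Fermat.Agent.GL.CompBranch Fermat.Agent.GL.H4OfXi
open Fermat.Agent.GL.H4Producers Fermat.Agent.GK.MultiVal
open Fermat.Agent.GL.Frame.HeightOne Fermat.Agent.GL.Frame.Kummer

section Fibre

variable {B' E B F T : Type*} [CommRing B'] [Field E] [Algebra B' E] [IsDomain B']
  [IsFractionRing B' E] [CommRing B] [Field F] [Algebra E F] [Algebra B' B]
  [Algebra.IsIntegral B' B] [IsIntegrallyClosed B'] [Algebra B F] [Algebra B' F]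
  [IsScalarTower B' B F] [IsScalarTower B' E F]

/-- `hNU` for `Nm = Algebra.norm E`: the maximal ideals of `B` over the node `n'` are triple
points, `c` lies in no triple point, `c0` is a unit of the node ring. -/
theorem hNU_of_fibre (P : T → Ideal B) (n' : Ideal B') [hn' : n'.IsMaximal]
    (hfib : ∀ M : Ideal B, M.IsMaximal → M.comap (algebraMap B' B) = n' → ∃ n, M = P n)
    (c : B) (hc : ∀ n, c ∉ P n) {c0 : E} (hc0 : c0 ≠ 0) (hc0m : c0 ∈ locRing (E := E) n')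
    (hc0i : c0⁻¹ ∈ locRing (E := E) n') :
    Algebra.norm E (algebraMap B F c) ≠ 0 ∧
      Algebra.norm E (algebraMap B F c) / c0 ∈ locRing (E := E) n' ∧
      (Algebra.norm E (algebraMap B F c) / c0)⁻¹ ∈ locRing (E := E) n' :=
  norm_unit_locRing (B' := B') (E := E) (B := B) (F := F) n' c
    (fun M hM hMc hcM => by
      obtain ⟨n, rfl⟩ := hfib M hM hMc
      exact hc n hcM) hc0 hc0m hc0i

end Fibre

section Main

variable {F E k k1 k2 k3 k1' k2' B T T' : Type*} [Field F] [Field E] [Field k] [IsAlgClosed k]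
  [Field k1] [Field k2] [Field k3] [Field k1'] [Field k2'] [CommRing B] [IsDomain B]
  [Algebra B F] [IsFractionRing B F] [IsNoetherianRing B] [IsIntegrallyClosed B]
  [Algebra k k1] [Algebra k k2] [Algebra k k3] [Algebra k k1'] [Algebra k k2']
  (S : TripleSetup F E k k1 k2 k3 k1' k2' B T T')
  {B' : Type*} [CommRing B'] [IsDomain B'] [Algebra B' E] [IsFractionRing B' E]
  [IsIntegrallyClosed B']
  {L : Type*} [Field L] [Algebra L E]

/-- **(H4) at producer level.** -/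
theorem h4_core_of_producers [Finite T] {m1 : ℕ} (hm1 : m1 ≠ 0) {u2 : F} (hu20 : u2 ≠ 0)
    (hU2 : U2 S u2)
    -- REG at the triple points + the frame facts of the chart `B`
    (hreg : ∀ n, ∃ _ : (S.P n).IsPrime,
      UniqueFactorizationMonoid (Localization.AtPrime (S.P n)))
    (qB : B)
    (hvert : ∀ 𝔭 : HtOne B, qB ∈ 𝔭.1 →
      V1 F 𝔭 = S.W1 ∨ V1 F 𝔭 = S.W2 ∨ V1 F 𝔭 = S.W3)
    (hhoriz : ∀ 𝔭 : HtOne B, qB ∉ 𝔭.1 → ∃ z : F, z ≠ 0 ∧ UnitAt 𝔭 (u2 * z ^ m1))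
    -- the lower chart ring `B'` with its nodes and residue characters (K-N6 over `R`)
    (P' : T' → Ideal B') [hP' : ∀ n', (P' n').IsPrime]
    (χ' : T' → (B' →+* k)) (hχ'ker : ∀ n' b, χ' n' b = 0 ↔ b ∈ P' n')
    (heu1' : ∀ n' (y : k1') (hy : y ∈ S.U1' n'), S.e1' n' ⟨y, hy⟩ ≠ 0 → y⁻¹ ∈ S.U1' n')
    (heu2' : ∀ n' (y : k2') (hy : y ∈ S.U2' n'), S.e2' n' ⟨y, hy⟩ ≠ 0 → y⁻¹ ∈ S.U2' n')
    (hB1' : ∀ n' (b : B'), algebraMap B' E b ∈ comp S.A1 S.rd1' S.hr1' (S.U1' n'))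
    (hB2' : ∀ n' (b : B'), algebraMap B' E b ∈ comp S.A2 S.rd2' S.hr2' (S.U2' n'))
    (hχ1' : ∀ n' (b : B'),
      (branch S.A1 S.rd1' S.hr1' (S.U1' n') (S.e1' n')).ev (algebraMap B' E b) = χ' n' b)
    (hχ2' : ∀ n' (b : B'),
      (branch S.A2 S.rd2' S.hr2' (S.U2' n') (S.e2' n')).ev (algebraMap B' E b) = χ' n' b)
    -- the constants `L` (`= K0`): `A1 A2` discrete over them, constants reduce to constants
    {q0 : L}
    (hdA1 : IsDiscAt S.A1 (algebraMap L E q0)) (hdA2 : IsDiscAt S.A2 (algebraMap L E q0))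
    (hLval : ∀ c : L, c ≠ 0 → ∃ n : ℤ,
      S.A1.valuation (algebraMap L E c) = S.A1.valuation (algebraMap L E q0) ^ n ∧
      S.A2.valuation (algebraMap L E c) = S.A2.valuation (algebraMap L E q0) ^ n)
    (hLred1 : ∀ (c : L) (hc : algebraMap L E c ∈ S.A1), ∃ a : k,
      S.rd1' ⟨algebraMap L E c, hc⟩ = algebraMap k k1' a)
    (hLred2 : ∀ (c : L) (hc : algebraMap L E c ∈ S.A2), ∃ a : k,
      S.rd2' ⟨algebraMap L E c, hc⟩ = algebraMap k k2' a)
    (hconst1' : ∀ n' (a : k), ∃ ha : algebraMap k k1' a ∈ S.U1' n',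
      S.e1' n' ⟨algebraMap k k1' a, ha⟩ = a)
    (hconst2' : ∀ n' (a : k), ∃ ha : algebraMap k k2' a ∈ S.U2' n',
      S.e2' n' ⟨algebraMap k k2' a, ha⟩ = a)
    -- a constant which is a unit at `A1` and `A2` is a unit of every node ring
    (hLunit : ∀ d : L, d ≠ 0 → S.A1.valuation (algebraMap L E d) = 1 →
      S.A2.valuation (algebraMap L E d) = 1 → ∀ n',
      algebraMap L E d ∈ locRing (E := E) (P' n') ∧
        (algebraMap L E d)⁻¹ ∈ locRing (E := E) (P' n'))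
    -- norms of semilocal units of `B` (`hNU_of_fibre` for each of the two norms)
    (hNUA : ∀ c : B, (∀ n, c ∉ S.P n) → ∀ n (c0 : E), c0 ≠ 0 →
      c0 ∈ locRing (E := E) (P' (S.p1 n)) → c0⁻¹ ∈ locRing (E := E) (P' (S.p1 n)) →
      S.Nm (algebraMap B F c) ≠ 0 ∧
        S.Nm (algebraMap B F c) / c0 ∈ locRing (E := E) (P' (S.p1 n)) ∧
        (S.Nm (algebraMap B F c) / c0)⁻¹ ∈ locRing (E := E) (P' (S.p1 n)))
    (hNUB : ∀ c : B, (∀ n, c ∉ S.P n) → ∀ n (c0 : E), c0 ≠ 0 →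
      c0 ∈ locRing (E := E) (P' (S.p2 n)) → c0⁻¹ ∈ locRing (E := E) (P' (S.p2 n)) →
      S.Nm' (algebraMap B F c) ≠ 0 ∧
        S.Nm' (algebraMap B F c) / c0 ∈ locRing (E := E) (P' (S.p2 n)) ∧
        (S.Nm' (algebraMap B F c) / c0)⁻¹ ∈ locRing (E := E) (P' (S.p2 n)))
    -- weak approximation at `W1 W2 W3`
    (hW : Incomparable ![S.W1, S.W2, S.W3])
    (hs1 : Function.Surjective S.rd1) (hs2 : Function.Surjective S.rd2)
    (hs3 : Function.Surjective S.rd3)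
    (hconst1 : ∀ n (a : k), ∃ ha : algebraMap k k1 a ∈ S.U1 n,
      S.e1 n ⟨algebraMap k k1 a, ha⟩ = a)
    (hconst2 : ∀ n (a : k), ∃ ha : algebraMap k k2 a ∈ S.U2 n,
      S.e2 n ⟨algebraMap k k2 a, ha⟩ = a)
    (hconst3 : ∀ n (a : k), ∃ ha : algebraMap k k3 a ∈ S.U3 n,
      S.e3 n ⟨algebraMap k k3 a, ha⟩ = a)
    -- the output of (H3)
    (e₁ : IsCstPow L m1 (S.Nm u2)) (e₂ : IsCstPow L m1 (S.Nm' u2)) :
    ∃ f0 : F, f0 ≠ 0 ∧ U3 S m1 (u2 ^ (S.q ^ 2 - 1) * f0 ^ m1) := by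
  classical
  obtain ⟨d1, d2, h1, h2, γ1, γ2, hd1, hd2, v11, v12, v21, v22, E1, E2, hh1, hh2⟩ :=
    H4ConstPow.hh_of_isCstPow S hdA1 hdA2 hLval hLred1 hLred2 hconst1' hconst2' hm1 hU2 e₁ e₂
  have hc01 : algebraMap L E d1 ≠ 0 := (map_ne_zero _).mpr hd1
  have hc02 : algebraMap L E d2 ≠ 0 := (map_ne_zero _).mpr hd2
  refine H4Loc.h4_core S hm1 hu20 hU2 hreg qB hvert hhoriz
    (fun n' => locRing (E := E) (P' n'))
    (fun n' z hz => locRing_root_closed (P' n') hm1 z hz)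
    (H4NodeUnits.hE0'_of_chars S P' χ' hχ'ker heu1' heu2' hB1' hB2' hχ1' hχ2')
    hc01 hc02 E1 E2 γ1 γ2 hh1 hh2 ?_ ?_
    (H4Approx.happ_of_approx S hW hs1 hs2 hs3 hconst1 hconst2 hconst3 hm1)
  · intro c hc n
    obtain ⟨hmem, hinv⟩ := hLunit d1 hd1 v11 v12 (S.p1 n)
    exact hNUA c hc n _ hc01 hmem hinv
  · intro c hc n
    obtain ⟨hmem, hinv⟩ := hLunit d2 hd2 v21 v22 (S.p2 n)
    exact hNUB c hc n _ hc02 hmem hinv

end Main

end Fermat.Agent.GL.Final.H4Prod
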