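/-
GATE-L / (H4) arm, H4-PHI-INT-K0 (helper40): the chart ring `B = BK0 A (N ℓ)` is INTEGRAL over the
lower chart ring `B' = BK0 A N` along both pull-backs `φ₁ = phiAlpha`, `φ₂ = phiBeta`
(`[Algebra.IsIntegral B' B]` of helper39/helper46 `H4Prod.hNU_of_fibre`; the hypotheses
`hNUA hNUB` themselves = helper28, on `FibreClosureK0`).

GENERIC:
* `chartHom_isIntegral` : `chartHom f hf ht : chartRing R t' →+* chartRing R t` is integral as soon
  as every element of `chartRing R t` is integral over `R[f t']`;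
* `hNU_of_ringHom` : `H4Prod.hNU_of_fibre` with the algebra structures `B' → B`, `E → F` given as
  ring homs `φ` (integral), `a` (so the norm is `@Algebra.norm E F _ _ a.toAlgebra`, the shape of
  helper48 `TopInst.normK0A / normK0B`); statement free of local instances.

CONCRETE:
* `phiAlpha_isIntegral A N ℓ`, `phiBeta_isIntegral A N ℓ` (`R₀[j]` and `R₀[j(q^ℓ)]` have the same
  integral closure: helper87 `ArithInt.isIntegral_adjoin_genC_iff`).
-/
import Fermat.Agent.GL.Final.BuildInstPts
import Fermat.Agent.GL.Final.FibreClosureK0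
import Fermat.Agent.GL.Final.H4Prod
import Fermat.Agent.GL.Final.TopInst

set_option autoImplicit false
set_option linter.unusedSectionVars false

noncomputable section

namespace Fermat.Agent.GL.PhiIntegralK0

open Polynomial ModularCurve IsLocalRing
open Fermat.Agent.GJ.J1
open Fermat.Agent.GL.Frame.Inst
open Fermat.Agent.GL.H4OfXi Fermat.Agent.GL.TripleBuild Fermat.Agent.GL.BuildInst
open Fermat.Agent.GL.BuildInstPts
open Fermat.Agent.GL.Final.TriplePoints Fermat.Agent.GL.Final.TripleBuildPoints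
open Fermat.Agent.GL.H4Producers
open Fermat.Agent.GL.Final.TopInst
open Fermat.Agent.GL.Table.K0
open Fermat.Agent.GK.Val Fermat.Agent.GK.Val.GaussBase Fermat.Agent.GL.Val.DegBase
open Fermat.Agent.GL.Val.GaussK0
open Fermat.Agent.GL.SmallQ
open Fermat.Agent.Common_helper32

/-! ### Generic part -/

section Generic

variable {R : Type*} [CommRing R] {E F : Type*} [Field E] [Field F] [Algebra R E] [Algebra R F]

/-- every element of `R[f t']` is the image of an element of `chartRing R t'`. -/
theorem exists_chartRing_of_mem_adjoin (f : E →+* F)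
    (hf : ∀ r, f (algebraMap R E r) = algebraMap R F r) (t' : E) {a : F}
    (ha : a ∈ Algebra.adjoin R {f t'}) : ∃ b : chartRing R t', f (b : E) = a := by
  induction ha using Algebra.adjoin_induction with
  | mem x hx =>
    rw [Set.mem_singleton_iff] at hx
    exact ⟨⟨t', subset_icRing R {t'} rfl⟩, hx.symm⟩
  | algebraMap r =>
    exact ⟨⟨algebraMap R E r, algebraMap_mem_icRing R {t'} r⟩, hf r⟩
  | add x y _ _ hx hy =>
    obtain ⟨b1, h1⟩ := hx
    obtain ⟨b2, h2⟩ := hy
    exact ⟨b1 + b2, by rw [← h1, ← h2]; exact map_add f _ _⟩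
  | mul x y _ _ hx hy =>
    obtain ⟨b1, h1⟩ := hx
    obtain ⟨b2, h2⟩ := hy
    exact ⟨b1 * b2, by rw [← h1, ← h2]; exact map_mul f _ _⟩

/-- **integrality of the restriction of `f` to the chart rings**, as soon as the upper chart ring
is integral over `R[f t']`. -/
theorem chartHom_isIntegral (f : E →+* F) (hf : ∀ r, f (algebraMap R E r) = algebraMap R F r)
    {t' : E} {t : F} (ht : IsIntegral (Algebra.adjoin R {t}) (f t'))
    (hb : ∀ b : chartRing R t, IsIntegral (Algebra.adjoin R {f t'}) (b : F)) :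
    (chartHom f hf ht).IsIntegral := by
  intro b
  obtain ⟨p, hpm, hp0⟩ := hb b
  -- the ring hom `chartRing R t' → F`
  let g : chartRing R t' →+* F := f.comp (chartRing R t').subtype
  have hlift : p.map (algebraMap (Algebra.adjoin R {f t'}) F) ∈ Polynomial.lifts g := by
    rw [Polynomial.lifts_iff_coeff_lifts]
    intro n
    rw [Polynomial.coeff_map]
    obtain ⟨c, hc⟩ := exists_chartRing_of_mem_adjoin f hf t' (p.coeff n).2
    exact ⟨c, hc⟩
  obtain ⟨r, hr, -, hrm⟩ :=
    Polynomial.lifts_and_degree_eq_and_monic hlift (hpm.map _)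
  refine ⟨r, hrm, ?_⟩
  apply (chartRing R t).subtype_injective
  rw [Polynomial.hom_eval₂, map_zero]
  have hcomp : ((chartRing R t).subtype).comp (chartHom f hf ht) = g := RingHom.ext fun _ => rfl
  rw [hcomp, ← Polynomial.eval_map, hr, Polynomial.eval_map]
  exact hp0

/-- helper39 / helper46 `H4Prod.hNU_of_fibre` with the two algebra structures given as ring homs
`φ : B' →+* B` (integral) and `a : E →+* F` (compatible with `φ`). -/
theorem hNU_of_ringHom {B' E' B F' T : Type*} [CommRing B'] [Field E'] [Algebra B' E']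
    [IsDomain B'] [IsFractionRing B' E'] [IsIntegrallyClosed B'] [CommRing B] [Field F']
    [Algebra B F'] (φ : B' →+* B) (hφ : φ.IsIntegral) (a : E' →+* F')
    (hcomm : ∀ b, algebraMap B F' (φ b) = a (algebraMap B' E' b))
    (P : T → Ideal B) (n' : Ideal B') [hn' : n'.IsMaximal]
    (hfib : ∀ M : Ideal B, M.IsMaximal → M.comap φ = n' → ∃ n, M = P n)
    (c : B) (hc : ∀ n, c ∉ P n) {c0 : E'} (hc0 : c0 ≠ 0) (hc0m : c0 ∈ locRing (E := E') n')
    (hc0i : c0⁻¹ ∈ locRing (E := E') n') :
    @Algebra.norm E' F' _ _ a.toAlgebra (algebraMap B F' c) ≠ 0 ∧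
      @Algebra.norm E' F' _ _ a.toAlgebra (algebraMap B F' c) / c0 ∈ locRing (E := E') n' ∧
      (@Algebra.norm E' F' _ _ a.toAlgebra (algebraMap B F' c) / c0)⁻¹ ∈
        locRing (E := E') n' := by
  letI : Algebra E' F' := a.toAlgebra
  letI : Algebra B' B := φ.toAlgebra
  let _i3 : Algebra B' F' := ((algebraMap B F').comp φ).toAlgebra
  have _i4 : Algebra.IsIntegral B' B := ⟨hφ⟩
  have _i5 : IsScalarTower B' B F' := IsScalarTower.of_algebraMap_eq fun _ => rfl
  have _i6 : IsScalarTower B' E' F' := IsScalarTower.of_algebraMap_eq fun b => hcomm b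
  exact Fermat.Agent.GL.Final.H4Prod.hNU_of_fibre P n' hfib c hc hc0 hc0m hc0i

end Generic

/-! ### The two pull-backs are integral -/

section Phi

attribute [local instance 2000] instAlgR0FullC instAlgBK0FullC instAlgR0BK0

variable (A : ValuationSubring Qb) (N ℓ : ℕ) [NeZero N] [NeZero ℓ]

/-- **`B = BK0 A (N ℓ)` is integral over `φ₁ (BK0 A N)`.** -/
theorem phiAlpha_isIntegral : (phiAlpha A N ℓ).IsIntegral := by
  refine chartHom_isIntegral _ _ _ fun b => ?_
  have h : (alphaK0 A N ℓ).toRingHom (jC N (K0 A)) = jC (N * ℓ) (K0 A) := alphaK0_jC A N ℓ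
  rw [h]
  exact b.2

/-- **`B = BK0 A (N ℓ)` is integral over `φ₂ (BK0 A N)`** (`R₀[j]` and `R₀[j(q^ℓ)]` have the same
integral closure in `K₀(X₀(N ℓ))`). -/
theorem phiBeta_isIntegral : (phiBeta A N ℓ).IsIntegral := by
  refine chartHom_isIntegral _ _ _ fun b => ?_
  have h : (betaK0 A N ℓ).toRingHom (jC N (K0 A)) =
      genC (K0 A) (R0 A) (N * ℓ) (Dvd.intro_left N rfl) := betaK0_jC A N ℓ
  rw [h]
  refine (Fermat.Agent.GL.Frame.ArithInt.isIntegral_adjoin_genC_iff (N * ℓ) (R0 A)
    (Dvd.intro_left N rfl) (one_dvd (N * ℓ)) (R0 A) _).2 ?_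
  rw [genC_one_eq_jC (N * ℓ) (K0 A) (R0 A)]
  exact b.2

end Phi

end Fermat.Agent.GL.PhiIntegralK0
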