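/-
GATE-L / (H4) arm, norms of semilocal units over `K₀` (helper40; twin of helper28's H4-NU leaf,
landed because it was compiled first on a warm box): the hypotheses `hNUA hNUB` of helper46
`H4Inst.h4_binder` VERBATIM at the concrete `TripleSetup` `S := setupK0Of A hq hqM hA s H hv`
(helper40 `BuildInstPts`), lower chart ring `B' := BK0 A (M' q)`, nodes `P' := ptIdeal`,
`NmA := normK0A A (M' q) q`, `NmB := normK0B A (M' q) q` (helper48 `TopInst`).

Inputs: `PhiIntegralK0.hNU_of_ringHom` (= `H4Prod.hNU_of_fibre`), `phiAlpha_isIntegral`,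
`phiBeta_isIntegral`, helper28 `FibreClosureK0.hfib_alpha_K0 / hfib_beta_K0`.
`ptIdeal_isPrime` is the `IsPrime` instance used by `locRing` in the statements
(`attribute [local instance] ptIdeal_isPrime`; any other instance is defeq by proof irrelevance).
-/
import Fermat.Agent.GL.Final.PhiIntegralK0

set_option autoImplicit false
set_option linter.unusedSectionVars false

noncomputable section

namespace Fermat.Agent.GL.HNUK0

open Polynomial ModularCurve IsLocalRing
open Fermat.Agent.GJ.J1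
open Fermat.Agent.GL.Frame.Inst
open Fermat.Agent.GL.H4OfXi Fermat.Agent.GL.TripleBuild Fermat.Agent.GL.BuildInst
open Fermat.Agent.GL.BuildInstPts Fermat.Agent.GL.PhiIntegralK0 Fermat.Agent.GL.FibreClosureK0
open Fermat.Agent.GL.Final.TriplePoints Fermat.Agent.GL.Final.TripleBuildPoints
open Fermat.Agent.GL.H4Producers
open Fermat.Agent.GL.Final.TopInst
open Fermat.Agent.GL.Table.K0
open Fermat.Agent.GK.Val Fermat.Agent.GK.Val.GaussBase Fermat.Agent.GL.Val.DegBase
open Fermat.Agent.GL.Val.GaussK0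
open Fermat.Agent.GL.SmallQ
open Fermat.Agent.Common_helper32

attribute [local instance 2000] instAlgR0FullC instAlgBK0FullC instAlgR0BK0

/-- the points are prime ideals (local instance for `locRing`). -/
theorem ptIdeal_isPrime {R0 B : Type*} [CommRing R0] [CommRing B] [Algebra R0 B] {m0 : Ideal R0}
    {t : B} {s : R0[X]} (n : PtType m0 t s) : (ptIdeal n).IsPrime := (ptIdeal_isMaximal n).isPrime

attribute [local instance] ptIdeal_isPrime

variable (A : ValuationSubring Qb) {M' q : ℕ} [NeZero q] [NeZero M']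

local notation "k₀" => ResidueField (R0 A)
local notation "res₀" => residue (R0 A)
local notation "F₀" => modularFunctionFieldFullC (K0 A) (M' * q * q)
local notation "E₀" => modularFunctionFieldFullC (K0 A) (M' * q)

/-- **`hNUA` of helper46 `H4Inst.h4_binder`** VERBATIM at `S := setupK0Of A hq hqM hA s H hv`,
`B' := BK0 A (M' q)`, `P' := ptIdeal`, `NmA := normK0A A (M' q) q`. -/
theorem hNUA_setupK0Of (hq : q.Prime) (hqM : ¬ q ∣ M') (hA : (q : Qb) ∈ A.nonunits) (s : (R0 A)[X])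
    (H : SsPts A hq hqM hA s) (hv : (buildK0 A hq hqM hA s H).Hval) :
    ∀ c : BK0 A (M' * q * q), (∀ n, c ∉ (setupK0Of A hq hqM hA s H hv).P n) → ∀ n (c0 : E₀),
      c0 ≠ 0 →
      c0 ∈ locRing (E := E₀) (ptIdeal ((setupK0Of A hq hqM hA s H hv).p1 n)) →
      c0⁻¹ ∈ locRing (E := E₀) (ptIdeal ((setupK0Of A hq hqM hA s H hv).p1 n)) →
      normK0A A (M' * q) q (algebraMap (BK0 A (M' * q * q)) F₀ c) ≠ 0 ∧
        normK0A A (M' * q) q (algebraMap (BK0 A (M' * q * q)) F₀ c) / c0 ∈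
          locRing (E := E₀) (ptIdeal ((setupK0Of A hq hqM hA s H hv).p1 n)) ∧
        (normK0A A (M' * q) q (algebraMap (BK0 A (M' * q * q)) F₀ c) / c0)⁻¹ ∈
          locRing (E := E₀) (ptIdeal ((setupK0Of A hq hqM hA s H hv).p1 n)) := by
  intro c hc n c0 hc0 hc0m hc0i
  have i1 := isIntegrallyClosed_BK0 A hA (M' * q) hq
  have i2 := isFractionRing_BK0 A hA (M' * q) hq
  have i3 : (ptIdeal ((setupK0Of A hq hqM hA s H hv).p1 n)).IsMaximal := ptIdeal_isMaximal _
  exact hNU_of_ringHom (phiAlpha A (M' * q) q) (phiAlpha_isIntegral A (M' * q) q)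
    (alphaK0 A (M' * q) q).toRingHom (fun b => rfl)
    (fun n => ptIdeal n) (ptIdeal ((setupK0Of A hq hqM hA s H hv).p1 n))
    (fun M hM hMn => hfib_alpha_K0 A s M hM _ hMn) c hc hc0 hc0m hc0i

/-- **`hNUB` of helper46 `H4Inst.h4_binder`** VERBATIM at `S := setupK0Of A hq hqM hA s H hv`,
`B' := BK0 A (M' q)`, `P' := ptIdeal`, `NmB := normK0B A (M' q) q`. -/
theorem hNUB_setupK0Of (hq : q.Prime) (hqM : ¬ q ∣ M') (hA : (q : Qb) ∈ A.nonunits) (s : (R0 A)[X])
    (H : SsPts A hq hqM hA s) (hv : (buildK0 A hq hqM hA s H).Hval) :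
    ∀ c : BK0 A (M' * q * q), (∀ n, c ∉ (setupK0Of A hq hqM hA s H hv).P n) → ∀ n (c0 : E₀),
      c0 ≠ 0 →
      c0 ∈ locRing (E := E₀) (ptIdeal ((setupK0Of A hq hqM hA s H hv).p2 n)) →
      c0⁻¹ ∈ locRing (E := E₀) (ptIdeal ((setupK0Of A hq hqM hA s H hv).p2 n)) →
      normK0B A (M' * q) q (algebraMap (BK0 A (M' * q * q)) F₀ c) ≠ 0 ∧
        normK0B A (M' * q) q (algebraMap (BK0 A (M' * q * q)) F₀ c) / c0 ∈
          locRing (E := E₀) (ptIdeal ((setupK0Of A hq hqM hA s H hv).p2 n)) ∧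
        (normK0B A (M' * q) q (algebraMap (BK0 A (M' * q * q)) F₀ c) / c0)⁻¹ ∈
          locRing (E := E₀) (ptIdeal ((setupK0Of A hq hqM hA s H hv).p2 n)) := by
  intro c hc n c0 hc0 hc0m hc0i
  have i1 := isIntegrallyClosed_BK0 A hA (M' * q) hq
  have i2 := isFractionRing_BK0 A hA (M' * q) hq
  have i3 : (ptIdeal ((setupK0Of A hq hqM hA s H hv).p2 n)).IsMaximal := ptIdeal_isMaximal _
  exact hNU_of_ringHom (phiBeta A (M' * q) q) (phiBeta_isIntegral A (M' * q) q)
    (betaK0 A (M' * q) q).toRingHom (fun b => rfl)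
    (fun n => ptIdeal n) (ptIdeal ((setupK0Of A hq hqM hA s H hv).p2 n))
    (fun M hM hMn => hfib_beta_K0 A hq hqM hA s H.hs M hM _ hMn) c hc hc0 hc0m hc0i

end Fermat.Agent.GL.HNUK0
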