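/-
GATE-L / L-INT, the (H4) ARM over `K₀`, HYPOTHESIS-FREE (helper46).

* `h4InstK0` : the `H4` field of helper39's `GeomFacts.ArmPkg A (M' * q) q m1` at
  `S := setupK0Of A hq hqM hA s H hv` (helper40; any monic `s`, any `H : SsPts`, any `hv : Hval`)
  = `H4InstK0.h4InstK0_of_hNU` fed with helper40's `HNUK0.hNUA_setupK0Of / hNUB_setupK0Of`
  (helper28 `FibreClosureK0` + helper40 `PhiIntegralK0`).  Inputs: good-level arithmetic only
  (`h2 h3`, the auxiliary prime `r ∣ M'`), `m1 ≠ 0`.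
* `h4_setupK0` : the same at helper36's `setupK0 A hq hqM hA h2 h3 H` (fixed monic lift `sK0`),
  i.e. the argument `H4` of `TripleInstK0.armPkgOf` VERBATIM.
-/
import Fermat.Agent.GL.Final.H4InstK0
import Fermat.Agent.GL.Final.HNUK0
import Fermat.Agent.GL.Final.TripleInstK0Thm

set_option autoImplicit false
set_option linter.unusedSectionVars false
set_option linter.unusedVariables false

noncomputable section

namespace Fermat.Agent.GL.Final.H4InstK0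

open Polynomial ModularCurve IsLocalRing AlgebraicCurve
open Fermat.Agent.GL Fermat.Agent.GL.Chain Fermat.Agent.GL.H4OfXi
open Fermat.Agent.GJ.KumGroup
open Fermat.Agent.GL.TripleBuild Fermat.Agent.GL.BuildInst Fermat.Agent.GL.BuildInstPts
open Fermat.Agent.GL.Final.TriplePoints
open Fermat.Agent.GL.Val.GaussK0 Fermat.Agent.GL.Val.CuspK0
open Fermat.Agent.GL.Final.TopInst Fermat.Agent.GL.Final.TripleInstK0
open Fermat.Agent.Common_helper32

attribute [local instance 2000] instAlgR0FullC instAlgBK0FullC instAlgR0BK0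

variable (A : ValuationSubring Qb) {M' q : ℕ} [NeZero q] [NeZero M']
  (hq : q.Prime) (hqM : ¬ q ∣ M') (hA : (q : Qb) ∈ A.nonunits)

local notation "F₀" => modularFunctionFieldFullC (K0 A) (M' * q * q)

/-- **(H4) at the concrete `TripleSetup` `setupK0Of`**, no hypothesis beyond the good-level
arithmetic. -/
theorem h4InstK0 (s : (R0 A)[X]) (H : SsPts A hq hqM hA s)
    (hv : (buildK0 A hq hqM hA s H).Hval) (hsm : s.Monic)
    (h2 : q = 2 → 3 ∣ M') (h3 : q = 3 → 2 ∣ M')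
    {r : ℕ} (hr : r.Prime) (hrM : r ∣ M') (hr3 : r % 3 = 2) (hr4 : r % 4 = 3)
    {m1 : ℕ} (hm1 : m1 ≠ 0) :
    ∀ u2 : F₀, u2 ≠ 0 → U2 (setupK0Of A hq hqM hA s H hv) u2 →
      (∀ P : Place Kb (FK (M' * q * q)), (m1 : ℤ) ∣ P.ord (toFN0 A (M' * q * q) u2)) →
      IsCstPow (K0 A) m1 (normK0A A (M' * q) q u2) →
      IsCstPow (K0 A) m1 (normK0B A (M' * q) q u2) →
      ∃ f0 : F₀, f0 ≠ 0 ∧ U3 (setupK0Of A hq hqM hA s H hv) m1
        (u2 ^ ((setupK0Of A hq hqM hA s H hv).q ^ 2 - 1) * f0 ^ m1) :=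
  h4InstK0_of_hNU A hq hqM hA s H hv hsm h2 h3 hr hrM hr3 hr4 hm1
    (Fermat.Agent.GL.HNUK0.hNUA_setupK0Of A hq hqM hA s H hv)
    (Fermat.Agent.GL.HNUK0.hNUB_setupK0Of A hq hqM hA s H hv)

/-- **(H4) at helper36's `setupK0`** = the argument `H4` of `TripleInstK0.armPkgOf`. -/
theorem h4_setupK0 (h2 : q = 2 → 3 ∣ M') (h3 : q = 3 → 2 ∣ M')
    (H : SsPts A hq hqM hA (sK0 A hq))
    {r : ℕ} (hr : r.Prime) (hrM : r ∣ M') (hr3 : r % 3 = 2) (hr4 : r % 4 = 3)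
    {m1 : ℕ} (hm1 : m1 ≠ 0) :
    ∀ u2 : F₀, u2 ≠ 0 → U2 (setupK0 A hq hqM hA h2 h3 H) u2 →
      (∀ P : Place Kb (FK (M' * q * q)), (m1 : ℤ) ∣ P.ord (toFN0 A (M' * q * q) u2)) →
      IsCstPow (K0 A) m1 (normK0A A (M' * q) q u2) →
      IsCstPow (K0 A) m1 (normK0B A (M' * q) q u2) →
      ∃ f0 : F₀, f0 ≠ 0 ∧
        U3 (setupK0 A hq hqM hA h2 h3 H) m1
          (u2 ^ ((setupK0 A hq hqM hA h2 h3 H).q ^ 2 - 1) * f0 ^ m1) :=
  h4InstK0 A hq hqM hA (sK0 A hq) H (hvalK0 A hq hqM hA h2 h3 (sK0 A hq) H) (monic_sK0 A hq)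
    h2 h3 hr hrM hr3 hr4 hm1

end Fermat.Agent.GL.Final.H4InstK0
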