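/-
GATE-L / L-INT, H5 ARM, FINAL (helper56; claims key H5-FINAL-K0): **the (H5) field of helper39's
`ArmPkg` at helper36's hypothesis-free `setupK0Thm`, with NO geometric hypothesis left** —

  `h5FinalK0 A hq hqM hA h2 h3 hr hrM hr3 hr4 hm1 hcop`
    = the `H5` argument of helper36 `TripleInstK0.armPkgK0` VERBATIM.

Chain: `H5Hallji.h5K0_of_hallj` (helper56: both charts from the ONE contract `hallj` on
`Bj = chartRing (R₀ A) (jK0 A (M' q q))`) ∘ helper11 `H5HalljK0Thm.hallj_K0_thm` (stage B of `hallj`)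
with
* `p := sK0 A hq` (helper63's fixed monic lift of the supersingular polynomial),
* `hS4` := helper25 `S4Feed.hS4_BK0`,
* `HIII` := helper29 `TypeIIIHalljK0.HIII_setupK0Of` at `S := setupK0Of … = setupK0Thm …`.
-/
import Fermat.Agent.GL.Final.H5HalljiK0Thm
import Fermat.Agent.GL.Final.H5HalljK0Thm
import Fermat.Agent.GL.Final.TypeIIIHalljK0
import Fermat.Agent.GL.Final.TripleInstK0Thm
import Fermat.Agent.GL.Reg3.S4InstFeed

set_option autoImplicit false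
set_option linter.unusedSectionVars false
set_option linter.unusedVariables false

noncomputable section

namespace Fermat.Agent.GL.Final.H5Final

open AlgebraicCurve ModularCurve Polynomial IntermediateField IsLocalRing
open Fermat.Agent.GJ.J1 Fermat.Agent.GJ.J1.Val
open Fermat.Agent.GL.ChartChange Fermat.Agent.GL.Gate Fermat.Agent.GL.GaussAt
open Fermat.Agent.GL.H4OfXi Fermat.Agent.GL.TripleBuild Fermat.Agent.GL.BuildInst
open Fermat.Agent.GL.BuildInstPts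
open Fermat.Agent.GK.AL Fermat.Agent.GL.AL Fermat.Agent.GK.MultiVal
open Fermat.Agent.GL.Val.GaussK0 Fermat.Agent.GL.Val.SecondK0 Fermat.Agent.GL.Val.SecondK0Hall
open Fermat.Agent.GL.Val.ThirdK0 Fermat.Agent.GL.Val.OrthK0 Fermat.Agent.GL.Val.L1eAsmK0
open Fermat.Agent.GL.Val.CuspK0 Fermat.Agent.GL.Val.CuspCoeff
open Fermat.Agent.GL.Frame.Inst Fermat.Agent.GL.Frame.HeightOne Fermat.Agent.GL.LocGlue
open Fermat.Agent.GL.Frame.Chart
open Fermat.Agent.GL.SmallQ Fermat.Agent.GL.Thick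
open Fermat.Agent.GL.BRingK0 Fermat.Agent.GL.Table.K0
open Fermat.Agent.GL.Final.TripleInstK0
open Fermat.Agent.GJ.KumGroup
open Fermat.Agent.Common_helper32

variable (A : ValuationSubring Qb) {M' q : ℕ} [NeZero q] [NeZero M']

local notation "kA" => IsLocalRing.ResidueField A
local notation "F₀" => modularFunctionFieldFullC (K0 A) (M' * q * q)
local notation "j₀" => jK0 A (M' * q * q)

/-! ### the final (H5) field -/

set_option synthInstance.maxHeartbeats 400000 in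
set_option maxHeartbeats 6400000 in
/-- **(H5) at `setupK0Thm`, hypothesis-free** = the `H5` argument of helper36
`TripleInstK0.armPkgK0` VERBATIM. -/
theorem h5FinalK0 (hq : q.Prime) (hqM : ¬ q ∣ M') (hA : (q : Qb) ∈ A.nonunits)
    (h2 : q = 2 → 3 ∣ M') (h3 : q = 3 → 2 ∣ M')
    {r : ℕ} (hr : r.Prime) (hrM : r ∣ M') (hr3 : r % 3 = 2) (hr4 : r % 4 = 3)
    {m1 : ℕ} (hm1 : m1 ≠ 0) (hcop : Nat.Coprime m1 q) :
    ∀ u3 : F₀, u3 ≠ 0 → U3 (setupK0Thm A hq hqM hA h2 h3 hr hrM hr3 hr4) m1 u3 →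
      (∀ P : Place Kb (FK (M' * q * q)), (m1 : ℤ) ∣ P.ord (toFN0 A (M' * q * q) u3)) →
      ∃ w : FK (M' * q * q), w ≠ 0 ∧ toFN0 A (M' * q * q) u3 = w ^ m1 := by
  have : Fact q.Prime := ⟨hq⟩
  have hQ : HallDvd (q ^ 2) (M' * q * q) := Fermat.Agent.GL.AL.hallDvd_sq M' hq hqM
  have hH : SsPts A hq hqM hA (sK0 A hq) := ssPtsK0 A hq hqM hA h2 h3 hr hrM hr3 hr4
  have hp : (sK0 A hq).map (resR0 A) = @ssPolyAll q ⟨hq⟩ kA _ (charP_residue A hq hA) :=
    have : CharP kA q := charP_residue A hq hA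
    intSsPolyAll_map_map q kA (resR0 A)
  refine Fermat.Agent.GL.Final.H5Hallji.h5K0_of_hallj A M' hq hqM hA h2 h3 hQ
    (setupK0Thm A hq hqM hA h2 h3 hr hrM hr3 hr4) rfl rfl rfl hm1 hcop ?_
  exact Fermat.Agent.GL.Final.H5HalljK0Thm.hallj_K0_thm A M' hq hqM hA hQ
    (setupK0Thm A hq hqM hA h2 h3 hr hrM hr3 hr4) rfl rfl rfl hm1 h2 h3 hr hrM hr3 hr4
    (sK0 A hq) hp (Fermat.Agent.GL.Reg3.S4Feed.hS4_BK0 A hqM hA hr hrM hr3 hr4)
    (Fermat.Agent.GL.Final.TypeIIIHalljK0.HIII_setupK0Of A M' hq hqM hA hQ h2 h3 (sK0 A hq) hH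
      (hvalK0 A hq hqM hA h2 h3 (sK0 A hq) hH) hcop)

/-- the same for `m1 = lam ^ j`, `lam ≠ q` prime (the shape of helper39's final term). -/
theorem h5FinalK0_pow (hq : q.Prime) (hqM : ¬ q ∣ M') (hA : (q : Qb) ∈ A.nonunits)
    (h2 : q = 2 → 3 ∣ M') (h3 : q = 3 → 2 ∣ M')
    {r : ℕ} (hr : r.Prime) (hrM : r ∣ M') (hr3 : r % 3 = 2) (hr4 : r % 4 = 3)
    {lam : ℕ} (hlam : lam.Prime) (hqlam : q ≠ lam) (j : ℕ) :
    ∀ u3 : F₀, u3 ≠ 0 → U3 (setupK0Thm A hq hqM hA h2 h3 hr hrM hr3 hr4) (lam ^ j) u3 →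
      (∀ P : Place Kb (FK (M' * q * q)),
        ((lam ^ j : ℕ) : ℤ) ∣ P.ord (toFN0 A (M' * q * q) u3)) →
      ∃ w : FK (M' * q * q), w ≠ 0 ∧ toFN0 A (M' * q * q) u3 = w ^ (lam ^ j) :=
  h5FinalK0 A hq hqM hA h2 h3 hr hrM hr3 hr4 (pow_ne_zero j hlam.ne_zero)
    (Fermat.Agent.GL.Final.H5.coprime_pow_of_ne hlam hq hqlam j).2

end Fermat.Agent.GL.Final.H5Final
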