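/-
GATE-L / L-INT (helper56): **helper39's `ArmPkg` at a good level as ONE CLOSED TERM** —
helper36 `TripleInstK0.armPkgK0` ((S) := `setupK0Thm`, (H4) := helper46 `h4_setupK0`) with the
(H5) field := helper56 `H5Final.h5FinalK0`.  Inputs = good-level arithmetic only.

  `armPkgK0Final A hq hqM hA h2 h3 hr hrM hr3 hr4 hm1 hcop : GeomFacts.ArmPkg A (M' * q) q m1`
  `armPkgK0Pow   A hq hqM hA h2 h3 hr hrM hr3 hr4 hlam hqlam j : GeomFacts.ArmPkg A (M' * q) q (lam ^ j)`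
-/
import Fermat.Agent.GL.Final.ArmPkgK0
import Fermat.Agent.GL.Final.H5FinalK0

set_option autoImplicit false
set_option linter.unusedSectionVars false
set_option linter.unusedVariables false

noncomputable section

namespace Fermat.Agent.GL.Final.H5Final

open Fermat.Agent.GL.Final.TripleInstK0 Fermat.Agent.GL.Final.GeomFacts
open Fermat.Agent.Common_helper32

variable (A : ValuationSubring Qb) {M' q : ℕ} [NeZero q] [NeZero M']
  (hq : q.Prime) (hqM : ¬ q ∣ M') (hA : (q : Qb) ∈ A.nonunits)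
  (h2 : q = 2 → 3 ∣ M') (h3 : q = 3 → 2 ∣ M')
  {r : ℕ} (hr : r.Prime) (hrM : r ∣ M') (hr3 : r % 3 = 2) (hr4 : r % 4 = 3)

/-- **the `ArmPkg` at a good level, all three of (S), (H4), (H5) filled.** -/
def armPkgK0Final {m1 : ℕ} (hm1 : m1 ≠ 0) (hcop : Nat.Coprime m1 q) :
    ArmPkg A (M' * q) q m1 :=
  armPkgK0 A hq hqM hA h2 h3 hr hrM hr3 hr4 hm1
    (h5FinalK0 A hq hqM hA h2 h3 hr hrM hr3 hr4 hm1 hcop)

/-- the same at `m1 = lam ^ j`, `lam ≠ q` prime. -/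
def armPkgK0Pow {lam : ℕ} (hlam : lam.Prime) (hqlam : q ≠ lam) (j : ℕ) :
    ArmPkg A (M' * q) q (lam ^ j) :=
  armPkgK0 A hq hqM hA h2 h3 hr hrM hr3 hr4 (pow_ne_zero j hlam.ne_zero)
    (h5FinalK0_pow A hq hqM hA h2 h3 hr hrM hr3 hr4 hlam hqlam j)

end Fermat.Agent.GL.Final.H5Final
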