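/-
GATE-L / (H4) arm, FIBRE CLOSURE over `K₀` (helper28): the geometric core of `hNUa hNUb`
(`H4Prod.hNU_of_fibre` / helper46 `H4Producers.norm_unit_locRing`).

`B := BK0 A (M' q q)`, `B' := BK0 A (M' q)` (helper40 `BuildInst`), `φ₁ = phiAlpha`,
`φ₂ = phiBeta : B' →+* B`, `T = PtType (ker res) j s`, `T' = PtType (ker res) j' s` (helper36
`TriplePoints`) for a lift `s` of the supersingular polynomial:

  **every maximal ideal `M` of `B` lying over a node `n' : T'` along `φ₁` or `φ₂` is a triple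
  point `n : T`**  (`hfib_alpha_K0`, `hfib_beta_K0`).

`φ₁` : `φ₁ j' = j`.  `φ₂` : `M ∋ q` contains one of the three vertical height-one primes
(Krull + `TripleRegInst.exists_frame_three`), on which Kronecker's congruence holds (helper18
`kron_rows_of_centres`); the supersingular polynomial is Frobenius-stable (helper30
`SsFrob.hssb_of_vert`).
-/
import Fermat.Agent.GL.Reg.TripleRegInst
import Fermat.Agent.GL.Final.BuildInstPts
import Fermat.Agent.GL.Frame.SsFrob

set_option autoImplicit false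
set_option linter.unusedSectionVars false

noncomputable section

namespace Fermat.Agent.GL.FibreClosureK0

open Polynomial ModularCurve IsLocalRing
open Fermat.Agent.GL.Frame.Inst Fermat.Agent.GL.Frame.HeightOne
open Fermat.Agent.GL.BuildInst Fermat.Agent.GL.BuildInstPts
open Fermat.Agent.GL.Final.TriplePoints Fermat.Agent.GL.Final.TripleBuildPoints
open Fermat.Agent.GL.Val.GaussK0 Fermat.Agent.GL.Val.SecondK0 Fermat.Agent.GL.Val.SecondK0Hall
open Fermat.Agent.GL.Val.ThirdK0 Fermat.Agent.GL.Val.DegBase Fermat.Agent.GL.Val.OrthK0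
open Fermat.Agent.GL.SmallQ
open Fermat.Agent.Common_helper32

attribute [local instance 2000] instAlgR0FullC instAlgBK0FullC instAlgR0BK0

variable (A : ValuationSubring Qb) {M' q : ℕ} [NeZero q] [NeZero M']

local notation "k₀" => ResidueField (R0 A)
local notation "res₀" => residue (R0 A)

/-- **fibre closure along `φ₁ = π^*`** (no hypothesis on `s`). -/
theorem hfib_alpha_K0 (s : (R0 A)[X]) (M : Ideal (BK0 A (M' * q * q))) (hM : M.IsMaximal)
    (n' : PtType (RingHom.ker res₀) (jB A (M' * q)) s)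
    (hMn : M.comap (phiAlpha A (M' * q) q) = ptIdeal n') :
    ∃ n : PtType (RingHom.ker res₀) (jB A (M' * q * q)) s, M = ptIdeal n := by
  refine ⟨⟨M, hM, fun r hr => ?_, ?_⟩, rfl⟩
  · have h1 := algebraMap_mem_ptIdeal n' hr
    rw [← hMn, Ideal.mem_comap, phiAlpha_algebraMap] at h1
    exact h1
  · have h1 := aeval_mem_ptIdeal n'
    rw [← hMn, Ideal.mem_comap,
      map_aeval (phiAlpha A (M' * q) q) (phiAlpha_algebraMap A (M' * q) q),
      phiAlpha_jB] at h1
    exact h1

/-- **fibre closure along `φ₂ = π'^*`** (`s` a lift of the supersingular polynomial). -/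
theorem hfib_beta_K0 (hq : q.Prime) (hqM : ¬ q ∣ M') (hA : (q : Qb) ∈ A.nonunits)
    (s : (R0 A)[X])
    (hs : s.map res₀ = @ssPolyAll q ⟨hq⟩ k₀ _ (charP_k0 A hq hA))
    (M : Ideal (BK0 A (M' * q * q))) (hM : M.IsMaximal)
    (n' : PtType (RingHom.ker res₀) (jB A (M' * q)) s)
    (hMn : M.comap (phiBeta A (M' * q) q) = ptIdeal n') :
    ∃ n : PtType (RingHom.ker res₀) (jB A (M' * q * q)) s, M = ptIdeal n := by
  have : Fact q.Prime := ⟨hq⟩
  have : CharP k₀ q := charP_k0 A hq hA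
  have hMp : M.IsPrime := hM.isPrime
  have hQ := Fermat.Agent.GL.AL.hallDvd_sq M' hq hqM
  have hE := Fermat.Agent.GL.W3Table.exactDvd_level hq hqM
  have hker : ∀ r : R0 A, res₀ r = 0 → algebraMap (R0 A) (BK0 A (M' * q * q)) r ∈ M := by
    intro r hr
    have h1 := algebraMap_mem_ptIdeal n' ((RingHom.mem_ker).2 hr)
    rw [← hMn, Ideal.mem_comap, phiBeta_algebraMap] at h1
    exact h1
  have hqM' : ((q : ℕ) : BK0 A (M' * q * q)) ∈ M := by
    have h1 := hker _ (residue_natCast_eq_zero A hA)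
    rwa [map_natCast] at h1
  refine ⟨⟨M, hM, fun r hr => hker r ((RingHom.mem_ker).1 hr), ?_⟩, rfl⟩
  -- the frame: `M` contains a vertical height-one prime
  obtain ⟨i1, i2, i3, hqB, f, hf1, hf2, hf3⟩ :=
    Fermat.Agent.GL.TripleRegInst.exists_frame_three A (M' * q * q) hq (by ring) hqM hA hQ
  have hbase : baseB (jC (M' * q * q) (K0 A)) (q0 A q) ∈ M := by
    rw [Fermat.Agent.GL.TripleRegInst.baseB_q0]
    exact hqM'
  obtain ⟨p, hp, hpM⟩ := exists_mem_vertFinset_le hqB M hbase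
  obtain ⟨i, rfl⟩ := (hf2 p).1 hp
  have hbr : (f 0).1 ≤ M ∨ (f 1).1 ≤ M ∨ (f 2).1 ≤ M := by
    fin_cases i
    · exact Or.inl hpM
    · exact Or.inr (Or.inl hpM)
    · exact Or.inr (Or.inr hpM)
  obtain ⟨h1, h2, h3⟩ := Fermat.Agent.GL.Table.KroneckerK0.kron_rows_of_centres A hq hqM hA hQ hE
    (f 0).1 (f 1).1 (f 2).1 (fun b hb => (hf3 0 b).2 hb) (fun b hb => (hf3 1 b).2 hb)
    (fun b hb => (hf3 2 b).2 hb) (jB A (M' * q * q)) (phiBeta A (M' * q) q (jB A (M' * q)))
    rfl rfl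
  have h0 := aeval_mem_ptIdeal n'
  rw [← hMn, Ideal.mem_comap,
    map_aeval (phiBeta A (M' * q) q) (phiBeta_algebraMap A (M' * q) q)] at h0
  have e1 : ∀ t : BK0 A (M' * q * q),
      aeval t s = (s.map (algebraMap (R0 A) (BK0 A (M' * q * q)))).eval t := by
    intro t
    rw [eval_map, ← aeval_def]
  rw [e1] at h0 ⊢
  exact (Fermat.Agent.GL.Frame.SsFrob.hssb_of_vert q (f 0).1 (f 1).1 (f 2).1 M hqM' hbr
    (s.map (algebraMap (R0 A) (BK0 A (M' * q * q))))
    (Fermat.Agent.GL.Frame.SsFrob.coeff_pow_sub_mem_of_lift q res₀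
      (algebraMap (R0 A) (BK0 A (M' * q * q))) M hker s hs)
    (jB A (M' * q * q)) (phiBeta A (M' * q) q (jB A (M' * q))) h1 h2 h3).mp h0

end Fermat.Agent.GL.FibreClosureK0
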