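/-
GATE-L / L-INT, H3 ARM, abstract layer (helper44).

`h3_of_setup`: helper66's `Chain.exists_normalised` re-packaged against helper46's
`H4OfXi.TripleSetup` `S`, with conclusion VERBATIM the binder (H3) of helper24's
`Gate.k0UnitGateQ_of_chain'` at `U2 := H4OfXi.U2 S`, `m := p ^ n`, `m1 := p ^ (n - c)`, `qq := q`.

Taken from `S` itself (no extra hypothesis): the kernels of the reductions (`rd_eq_zero_iff`, from
`S.hr_i`), and the three norm-reduction rows `S.hπ13`, `S.hπ2`, `S.hπ'1`.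
Extra hypotheses = the remaining inputs of `exists_normalised`, stated at `S.W1 … S.A2`, with the
norms `NmA NmB : F →* E` (monoid homs killing `0`) tied to `S.Nm`, `S.Nm'`.
-/
import Mathlib
import Fermat.Agent.GL.Chain.Normalise
import Fermat.Agent.GL.Gate.H4OfXi

set_option autoImplicit false
set_option linter.unusedSectionVars false
set_option linter.unusedVariables false

namespace Fermat.Agent.GL.Final.H3

open Fermat.Agent.GL.Chain Fermat.Agent.GL.H4OfXi Fermat.Agent.GK.MultiVal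

/-- the kernel of a reduction `rd : W → κ` killing the non-units is the maximal ideal -/
theorem rd_eq_zero_iff {F κ : Type*} [Field F] [Field κ] (W : ValuationSubring F) (rd : W →+* κ)
    (hr : ∀ z : W, ¬ IsUnit z → rd z = 0) (x : W) : rd x = 0 ↔ W.valuation (x : F) < 1 := by
  constructor
  · intro h
    by_contra hlt
    have hx1 : W.valuation (x : F) = 1 :=
      le_antisymm ((W.valuation_le_one_iff _).mpr x.2) (not_lt.mp hlt)
    have hu : IsUnit x := (W.valuation_eq_one_iff x).mpr hx1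
    exact (hu.map rd).ne_zero h
  · intro h
    apply hr
    intro hu
    rw [(W.valuation_eq_one_iff x).mp hu] at h
    exact lt_irrefl _ h

/-- a monoid hom between fields killing `0`, as a `MonoidWithZeroHom` -/
def toZeroHom {F E : Type*} [Field F] [Field E] (Nm : F →* E) (h0 : Nm 0 = 0) : F →*₀ E :=
  { Nm with map_zero' := h0 }

@[simp] theorem toZeroHom_apply {F E : Type*} [Field F] [Field E] (Nm : F →* E) (h0 : Nm 0 = 0)
    (x : F) : toZeroHom Nm h0 x = Nm x := rfl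

/-- a ring hom commuting with the constants, as an algebra hom -/
def toAlgHomOfCommutes {k κ κ' : Type*} [Field k] [Field κ] [Field κ'] [Algebra k κ] [Algebra k κ']
    (j : κ →+* κ') (hj : ∀ a : k, j (algebraMap k κ a) = algebraMap k κ' a) : κ →ₐ[k] κ' :=
  { j with commutes' := hj }

@[simp] theorem toAlgHomOfCommutes_apply {k κ κ' : Type*} [Field k] [Field κ] [Field κ']
    [Algebra k κ] [Algebra k κ'] (j : κ →+* κ')
    (hj : ∀ a : k, j (algebraMap k κ a) = algebraMap k κ' a) (y : κ) :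
    toAlgHomOfCommutes j hj y = j y := rfl

section Main

variable {L F E k k1 k2 k3 k1' k2' B T T' : Type*} [Field L] [Field F] [Field E] [Field k]
  [Field k1] [Field k2] [Field k3] [Field k1'] [Field k2'] [CommRing B] [Algebra B F]
  [Algebra L F] [Algebra L E] [IsAlgClosed k]
  [Algebra k k1] [Algebra k k2] [Algebra k k3] [Algebra k k1'] [Algebra k k2']

/-- **(H3) from `exists_normalised`, against the ONE `TripleSetup`.** -/
theorem h3_of_setup (S : TripleSetup F E k k1 k2 k3 k1' k2' B T T')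
    (q : ℕ) [Fact q.Prime] [CharP k q] (hSq : S.q = q)
    {p c r : ℕ} (hp : p.Prime) (hq1 : q + 1 = p ^ c * r) (hr : ¬ p ∣ r)
    {ϖ3 : F} {q0 : L}
    (hd1 : IsDiscAt S.W1 (algebraMap L F q0)) (hd2 : IsDiscAt S.W2 (algebraMap L F q0))
    (hd3 : IsDiscAt S.W3 ϖ3)
    (hqF3 : S.W3.valuation (algebraMap L F q0) = S.W3.valuation ϖ3 ^ (q - 1))
    (hdA1 : IsDiscAt S.A1 (algebraMap L E q0)) (hdA2 : IsDiscAt S.A2 (algebraMap L E q0))
    (hW : Incomparable ![S.W1, S.W2, S.W3])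
    (ht : ∀ a b d : ℤ, ∃ f : F, f ≠ 0 ∧
      S.W1.valuation f = S.W1.valuation (algebraMap L F q0) ^ a ∧
      S.W2.valuation f = S.W2.valuation (algebraMap L F q0) ^ b ∧
      S.W3.valuation f = S.W3.valuation ϖ3 ^ d)
    (hs1 : Function.Surjective S.rd1) (hs2 : Function.Surjective S.rd2)
    (hs3 : Function.Surjective S.rd3)
    (hLval : ∀ c : L, c ≠ 0 → ∃ n : ℤ,
      S.A1.valuation (algebraMap L E c) = S.A1.valuation (algebraMap L E q0) ^ n ∧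
      S.A2.valuation (algebraMap L E c) = S.A2.valuation (algebraMap L E q0) ^ n)
    (hLred1 : ∀ (c : L) (hc : algebraMap L E c ∈ S.A1), ∃ a : k,
      S.rd1' ⟨algebraMap L E c, hc⟩ = algebraMap k k1' a)
    (hLred2 : ∀ (c : L) (hc : algebraMap L E c ∈ S.A2), ∃ a : k,
      S.rd2' ⟨algebraMap L E c, hc⟩ = algebraMap k k2' a)
    (hc11 : ∀ a : k, S.j11 (algebraMap k k1' a) = algebraMap k k1 a)
    (hc13 : ∀ a : k, S.j13 (algebraMap k k1' a) = algebraMap k k3 a)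
    (hc22 : ∀ a : k, S.j22 (algebraMap k k2' a) = algebraMap k k2 a)
    (hc11' : ∀ a : k, S.j11' (algebraMap k k1' a) = algebraMap k k1 a)
    (hj11 : Function.Surjective S.j11)
    (hj22 : ∀ y : k2', ∃ z : k2, S.j22 y = z ^ q)
    (hj11' : ∀ y : k1', ∃ z : k1, S.j11' y = z ^ q)
    (NmA NmB : F →* E) (hA0 : NmA 0 = 0) (hB0 : NmB 0 = 0)
    (hA : ∀ x, S.Nm x = NmA x) (hB : ∀ x, S.Nm' x = NmB x)
    (hNmL : ∀ c : L, ∃ c' : L, NmA (algebraMap L F c) = algebraMap L E c')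
    (hNm'L : ∀ c : L, ∃ c' : L, NmB (algebraMap L F c) = algebraMap L E c')
    (hN1 : ∀ (u : F) (a b : ℤ), S.W1.valuation u = S.W1.valuation (algebraMap L F q0) ^ a →
      S.W3.valuation u = S.W3.valuation ϖ3 ^ b →
      S.A1.valuation (NmA u) = S.A1.valuation (algebraMap L E q0) ^ (a + b))
    (hN2 : ∀ (u : F) (a : ℤ), S.W2.valuation u = S.W2.valuation (algebraMap L F q0) ^ a →
      S.A2.valuation (NmA u) = S.A2.valuation (algebraMap L E q0) ^ ((q : ℤ) * a))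
    (hN'1 : ∀ (u : F) (a : ℤ), S.W1.valuation u = S.W1.valuation (algebraMap L F q0) ^ a →
      S.A1.valuation (NmB u) = S.A1.valuation (algebraMap L E q0) ^ ((q : ℤ) * a))
    (hN'2 : ∀ (u : F) (a b : ℤ), S.W2.valuation u = S.W2.valuation (algebraMap L F q0) ^ a →
      S.W3.valuation u = S.W3.valuation ϖ3 ^ b →
      S.A2.valuation (NmB u) = S.A2.valuation (algebraMap L E q0) ^ (a + b))
    (n : ℕ) :
    ∀ x : F, x ≠ 0 → IsCstPow L (p ^ n) (NmA x) → IsCstPow L (p ^ n) (NmB x) →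
      ∃ (cst : L) (g u2 : F), cst ≠ 0 ∧ g ≠ 0 ∧
        x ^ (q - 1) = algebraMap L F cst * g ^ (p ^ (n - c)) * u2 ∧ U2 S u2 ∧
        IsCstPow L (p ^ (n - c)) (NmA u2) ∧ IsCstPow L (p ^ (n - c)) (NmB u2) := by
  intro x hx e1 e2
  subst hSq
  have hπ13 : ∀ (u : F) (h1 : u ∈ S.W1) (h3 : u ∈ S.W3),
      ∃ hN : toZeroHom NmA hA0 u ∈ S.A1, ∃ y1 y3 : k1',
        toAlgHomOfCommutes S.j11 hc11 y1 = S.rd1 ⟨u, h1⟩ ∧
        toAlgHomOfCommutes S.j13 hc13 y3 = S.rd3 ⟨u, h3⟩ ∧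
        S.rd1' ⟨toZeroHom NmA hA0 u, hN⟩ = y1 * y3 ^ (S.q - 1) := by
    intro u h1 h3
    obtain ⟨hN, y1, y3, a1, a3, a⟩ := S.hπ13 u h1 h3
    have hN' : toZeroHom NmA hA0 u ∈ S.A1 := by rw [toZeroHom_apply, ← hA]; exact hN
    refine ⟨hN', y1, y3, a1, a3, ?_⟩
    have : (⟨toZeroHom NmA hA0 u, hN'⟩ : S.A1) = ⟨S.Nm u, hN⟩ :=
      Subtype.ext (show toZeroHom NmA hA0 u = S.Nm u from (hA u).symm)
    rw [this, a]
  have hπ2 : ∀ (u : F) (h2 : u ∈ S.W2), ∃ hN : toZeroHom NmA hA0 u ∈ S.A2,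
      toAlgHomOfCommutes S.j22 hc22 (S.rd2' ⟨toZeroHom NmA hA0 u, hN⟩) = S.rd2 ⟨u, h2⟩ ^ S.q := by
    intro u h2
    obtain ⟨hN, a⟩ := S.hπ2 u h2
    have hN' : toZeroHom NmA hA0 u ∈ S.A2 := by rw [toZeroHom_apply, ← hA]; exact hN
    refine ⟨hN', ?_⟩
    have : (⟨toZeroHom NmA hA0 u, hN'⟩ : S.A2) = ⟨S.Nm u, hN⟩ :=
      Subtype.ext (show toZeroHom NmA hA0 u = S.Nm u from (hA u).symm)
    rw [this]
    exact a
  have hπ'1 : ∀ (u : F) (h1 : u ∈ S.W1), ∃ hN : toZeroHom NmB hB0 u ∈ S.A1,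
      toAlgHomOfCommutes S.j11' hc11' (S.rd1' ⟨toZeroHom NmB hB0 u, hN⟩)
        = S.rd1 ⟨u, h1⟩ ^ S.q := by
    intro u h1
    obtain ⟨hN, a⟩ := S.hπ'1 u h1
    have hN' : toZeroHom NmB hB0 u ∈ S.A1 := by rw [toZeroHom_apply, ← hB]; exact hN
    refine ⟨hN', ?_⟩
    have : (⟨toZeroHom NmB hB0 u, hN'⟩ : S.A1) = ⟨S.Nm' u, hN⟩ :=
      Subtype.ext (show toZeroHom NmB hB0 u = S.Nm' u from (hB u).symm)
    rw [this]
    exact a
  obtain ⟨cst, g, u2, hcst, hg, hxu, -, -, -, ⟨g1, g2, g3, r1, r2, r3⟩, n1, n2⟩ :=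
    exists_normalised (k := k) S.q hp hq1 hr hd1 hd2 hd3 hqF3 hdA1 hdA2 hW ht
      S.rd1 S.rd2 S.rd3 hs1 hs2 hs3
      (rd_eq_zero_iff S.W1 S.rd1 S.hr1) (rd_eq_zero_iff S.W2 S.rd2 S.hr2)
      (rd_eq_zero_iff S.W3 S.rd3 S.hr3) S.rd1' S.rd2'
      (rd_eq_zero_iff S.A1 S.rd1' S.hr1') (rd_eq_zero_iff S.A2 S.rd2' S.hr2')
      hLval hLred1 hLred2
      (toAlgHomOfCommutes S.j11 hc11) hj11 (toAlgHomOfCommutes S.j13 hc13)
      (toAlgHomOfCommutes S.j22 hc22) hj22 (toAlgHomOfCommutes S.j11' hc11') hj11'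
      (toZeroHom NmA hA0) (toZeroHom NmB hB0) hNmL hNm'L hN1 hN2 hN'1 hN'2 hπ13 hπ2 hπ'1
      hx n e1 e2
  exact ⟨cst, g, u2, hcst, hg, hxu, ⟨⟨g1, r1⟩, ⟨g2, r2⟩, ⟨g3, r3⟩⟩, n1, n2⟩

end Main

/-! ### `U2 S` in valuation form -/

section ValForm

variable {F E k k1 k2 k3 k1' k2' B T T' : Type*} [Field F] [Field E] [Field k]
  [Field k1] [Field k2] [Field k3] [Field k1'] [Field k2'] [CommRing B] [Algebra B F]
  (S : TripleSetup F E k k1 k2 k3 k1' k2' B T T')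

/-- one component of `U2`: `|x - 1| < 1` gives `x ∈ W` and `rd x = 1` -/
theorem mem_and_rd_eq_one_of_valuation_lt {F κ : Type*} [Field F] [Field κ]
    (W : ValuationSubring F) (rd : W →+* κ) (hr : ∀ z : W, ¬ IsUnit z → rd z = 0) {x : F}
    (h : W.valuation (x - 1) < 1) : ∃ hx : x ∈ W, rd ⟨x, hx⟩ = 1 := by
  have h1 : x - 1 ∈ W := (W.valuation_le_one_iff _).mp h.le
  have hx : x ∈ W := by
    have : x = (x - 1) + 1 := by ring
    rw [this]
    exact W.add_mem _ _ h1 W.one_mem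
  refine ⟨hx, ?_⟩
  have h0 : rd ⟨x - 1, h1⟩ = 0 := (rd_eq_zero_iff W rd hr ⟨x - 1, h1⟩).mpr h
  have : (⟨x, hx⟩ : W) = ⟨x - 1, h1⟩ + 1 := Subtype.ext (by simp)
  rw [this, map_add, h0, map_one, zero_add]

/-- conversely -/
theorem valuation_lt_of_rd_eq_one {F κ : Type*} [Field F] [Field κ]
    (W : ValuationSubring F) (rd : W →+* κ) (hr : ∀ z : W, ¬ IsUnit z → rd z = 0) {x : F}
    (hx : x ∈ W) (h : rd ⟨x, hx⟩ = 1) : W.valuation (x - 1) < 1 := by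
  have h1 : x - 1 ∈ W := sub_mem hx W.one_mem
  have : (⟨x - 1, h1⟩ : W) = ⟨x, hx⟩ - 1 := Subtype.ext (by simp)
  have h0 : rd ⟨x - 1, h1⟩ = 0 := by rw [this, map_sub, h, map_one, sub_self]
  exact (rd_eq_zero_iff W rd hr ⟨x - 1, h1⟩).mp h0

/-- **`U2 S x ↔ |x - 1|_i < 1` for `i = 1, 2, 3`** (the shape of helper66's `h3_K0`). -/
theorem u2_iff_valuation_lt {x : F} :
    U2 S x ↔ S.W1.valuation (x - 1) < 1 ∧ S.W2.valuation (x - 1) < 1 ∧
      S.W3.valuation (x - 1) < 1 := by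
  constructor
  · rintro ⟨⟨a1, b1⟩, ⟨a2, b2⟩, ⟨a3, b3⟩⟩
    exact ⟨valuation_lt_of_rd_eq_one S.W1 S.rd1 S.hr1 a1 b1,
      valuation_lt_of_rd_eq_one S.W2 S.rd2 S.hr2 a2 b2,
      valuation_lt_of_rd_eq_one S.W3 S.rd3 S.hr3 a3 b3⟩
  · rintro ⟨h1, h2, h3⟩
    exact ⟨mem_and_rd_eq_one_of_valuation_lt S.W1 S.rd1 S.hr1 h1,
      mem_and_rd_eq_one_of_valuation_lt S.W2 S.rd2 S.hr2 h2,
      mem_and_rd_eq_one_of_valuation_lt S.W3 S.rd3 S.hr3 h3⟩

/-- **(H3) from its valuation form**: the output of helper66's `PlugK0.h3_K0` (normalised =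
`|u2 - 1|_i < 1` at the three vertical valuations) is the binder (H3) of
`Gate.k0UnitGateQ_of_chain'` with `U2 := H4OfXi.U2 S`. -/
theorem h3_of_valForm {L : Type*} [Field L] [Algebra L F] [Algebra L E]
    (NmA NmB : F →* E) (qq m m1 : ℕ)
    (h : ∀ x : F, x ≠ 0 → IsCstPow L m (NmA x) → IsCstPow L m (NmB x) →
      ∃ (cst : L) (g u2 : F), cst ≠ 0 ∧ g ≠ 0 ∧
        x ^ (qq - 1) = algebraMap L F cst * g ^ m1 * u2 ∧
        (S.W1.valuation (u2 - 1) < 1 ∧ S.W2.valuation (u2 - 1) < 1 ∧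
          S.W3.valuation (u2 - 1) < 1) ∧
        IsCstPow L m1 (NmA u2) ∧ IsCstPow L m1 (NmB u2)) :
    ∀ x : F, x ≠ 0 → IsCstPow L m (NmA x) → IsCstPow L m (NmB x) →
      ∃ (cst : L) (g u2 : F), cst ≠ 0 ∧ g ≠ 0 ∧
        x ^ (qq - 1) = algebraMap L F cst * g ^ m1 * u2 ∧ U2 S u2 ∧
        IsCstPow L m1 (NmA u2) ∧ IsCstPow L m1 (NmB u2) := by
  intro x hx e1 e2
  obtain ⟨cst, g, u2, hc, hg, hxu, hv, n1, n2⟩ := h x hx e1 e2
  exact ⟨cst, g, u2, hc, hg, hxu, (u2_iff_valuation_lt S).mpr hv, n1, n2⟩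

end ValForm

end Fermat.Agent.GL.Final.H3
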