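/-
GATE-L / L-INT, H3 ARM (helper44): the arm theorem.

Conventions of helper39 L-INT RULING 1 (board 3023, (C1)–(C6)): `A` over `q`, `N0` with `q ∣ N0`,
`¬ q² ∣ N0`, level `N0 * q` LITERALLY, `K0' := K0 A`, `F0 := K₀(X₀(N0 q))`, `F0' := K₀(X₀(N0))`,
`NmA NmB : F0 →* F0'` VARIABLES tied to the norms along helper67's `alphaK0`/`betaK0`
(helper82 `TopInst.normK0A/normK0B` are these norms by `rfl`), ONE `TripleSetup` `S` with the ties
`hW1 hW2 hW3`, moduli `m = lam ^ n`, `m1 = lam ^ (n - c)`, `qq = q`, `q + 1 = lam ^ c * r`.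

* `H3PlugK0` : the statement of helper66's `PlugK0.h3_K0` (valuation form, levels `M' q`, `M' q q`);
* `h3Inst_of_plug` : `H3PlugK0` ⟹ the binder (H3) of helper24's `Gate.k0UnitGateQ_of_chain'`
  with `U2 := H4OfXi.U2 S`, at level `N0 = M' * q`;
* `h3Inst_of_plug'` : the same for a general `N0` (`q ∣ N0`), by substitution.
-/
import Mathlib
import Fermat.Agent.GL.Final.H3Abs
import Fermat.Agent.GL.Chain.NormaliseAbs
import Fermat.Agent.GL.Table.DegK0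
import Fermat.Agent.GL.Val.ThirdK0

set_option autoImplicit false
set_option linter.unusedSectionVars false
set_option linter.unusedVariables false

noncomputable section

namespace Fermat.Agent.GL.Final.H3

open ModularCurve AlgebraicCurve
open Fermat.Agent.GL.Chain Fermat.Agent.GL.H4OfXi
open Fermat.Agent.GK.AL Fermat.Agent.GL.AL
open Fermat.Agent.GL.Val.GaussK0 Fermat.Agent.GL.Val.SecondK0 Fermat.Agent.GL.Val.SecondK0Hall
open Fermat.Agent.GL.Val.ThirdK0 Fermat.Agent.GL.Table.K0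

local notation "Qb" => AlgebraicClosure ℚ

/-- **the statement of helper66's `PlugK0.h3_K0`**: (H3) at `(alphaK0, betaK0)` in valuation form. -/
def H3PlugK0 (A : ValuationSubring Qb) (q M' : ℕ) [NeZero M'] [NeZero q] (p c : ℕ)
    (hφ : FiniteAlong (K0 A) (alphaK0 A (M' * q) q)) (hψ : FiniteAlong (K0 A) (betaK0 A (M' * q) q))
    (hQ : HallDvd (q ^ 2) (M' * q * q)) : Prop :=
  ∀ (n : ℕ) (u : modularFunctionFieldFullC (K0 A) (M' * q * q)), u ≠ 0 →
    IsCstPow (K0 A) (p ^ n) (normAlong₀ (alphaK0 A (M' * q) q) hφ u) →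
    IsCstPow (K0 A) (p ^ n) (normAlong₀ (betaK0 A (M' * q) q) hψ u) →
    ∃ (cst : K0 A) (g u2 : modularFunctionFieldFullC (K0 A) (M' * q * q)), cst ≠ 0 ∧ g ≠ 0 ∧
      u ^ (q - 1) = algebraMap (K0 A) (modularFunctionFieldFullC (K0 A) (M' * q * q)) cst *
        g ^ (p ^ (n - c)) * u2 ∧
      (RwK0 A (M' * q * q)).valuation (u2 - 1) < 1 ∧
      (redData2QK0 A (M' * q * q) hQ).Rw.valuation (u2 - 1) < 1 ∧
      (Rw3K0 A (M' * q * q) q).valuation (u2 - 1) < 1 ∧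
      IsCstPow (K0 A) (p ^ (n - c)) (normAlong₀ (alphaK0 A (M' * q) q) hφ u2) ∧
      IsCstPow (K0 A) (p ^ (n - c)) (normAlong₀ (betaK0 A (M' * q) q) hψ u2)

section Plug

variable (A : ValuationSubring Qb) {q : ℕ} (M' : ℕ) [NeZero M'] [NeZero q]
variable {k k1 k2 k3 k1' k2' B T T' : Type*} [Field k]
  [Field k1] [Field k2] [Field k3] [Field k1'] [Field k2'] [CommRing B]
  [Algebra B (modularFunctionFieldFullC (K0 A) (M' * q * q))]

/-- **H3 arm at level `N0 = M' * q`**, from the plug. -/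
theorem h3Inst_of_plug {p c : ℕ}
    (hφ : FiniteAlong (K0 A) (alphaK0 A (M' * q) q)) (hψ : FiniteAlong (K0 A) (betaK0 A (M' * q) q))
    (hQ : HallDvd (q ^ 2) (M' * q * q))
    (hplug : H3PlugK0 A q M' p c hφ hψ hQ)
    (S : TripleSetup (modularFunctionFieldFullC (K0 A) (M' * q * q))
      (modularFunctionFieldFullC (K0 A) (M' * q)) k k1 k2 k3 k1' k2' B T T')
    (hW1 : S.W1 = RwK0 A (M' * q * q)) (hW2 : S.W2 = (redData2QK0 A (M' * q * q) hQ).Rw)
    (hW3 : S.W3 = Rw3K0 A (M' * q * q) q)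
    (NmA NmB : modularFunctionFieldFullC (K0 A) (M' * q * q) →*
      modularFunctionFieldFullC (K0 A) (M' * q))
    (hNmA : ∀ x, NmA x = @Algebra.norm (modularFunctionFieldFullC (K0 A) (M' * q))
      (modularFunctionFieldFullC (K0 A) (M' * q * q)) _ _ (algebraAlong (alphaK0 A (M' * q) q)) x)
    (hNmB : ∀ x, NmB x = @Algebra.norm (modularFunctionFieldFullC (K0 A) (M' * q))
      (modularFunctionFieldFullC (K0 A) (M' * q * q)) _ _ (algebraAlong (betaK0 A (M' * q) q)) x)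
    (n : ℕ) :
    ∀ x : modularFunctionFieldFullC (K0 A) (M' * q * q), x ≠ 0 →
      IsCstPow (K0 A) (p ^ n) (NmA x) → IsCstPow (K0 A) (p ^ n) (NmB x) →
      ∃ (cst : K0 A) (g u2 : modularFunctionFieldFullC (K0 A) (M' * q * q)), cst ≠ 0 ∧ g ≠ 0 ∧
        x ^ (q - 1) = algebraMap (K0 A) (modularFunctionFieldFullC (K0 A) (M' * q * q)) cst *
          g ^ (p ^ (n - c)) * u2 ∧ U2 S u2 ∧
        IsCstPow (K0 A) (p ^ (n - c)) (NmA u2) ∧ IsCstPow (K0 A) (p ^ (n - c)) (NmB u2) := by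
  refine h3_of_valForm S NmA NmB q (p ^ n) (p ^ (n - c)) ?_
  intro x hx e1 e2
  rw [hNmA, ← normAlong₀_apply _ hφ] at e1
  rw [hNmB, ← normAlong₀_apply _ hψ] at e2
  obtain ⟨cst, g, u2, hc, hg, hxu, v1, v2, v3, n1, n2⟩ := hplug n x hx e1 e2
  refine ⟨cst, g, u2, hc, hg, hxu, ⟨?_, ?_, ?_⟩, ?_, ?_⟩
  · rw [hW1]; exact v1
  · rw [hW2]; exact v2
  · rw [hW3]; exact v3
  · rw [hNmA, ← normAlong₀_apply _ hφ]; exact n1
  · rw [hNmB, ← normAlong₀_apply _ hψ]; exact n2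

end Plug

section General

variable (A : ValuationSubring Qb) {q N0 : ℕ} [NeZero N0] [NeZero q]
variable {k k1 k2 k3 k1' k2' B T T' : Type*} [Field k]
  [Field k1] [Field k2] [Field k3] [Field k1'] [Field k2'] [CommRing B]
  [Algebra B (modularFunctionFieldFullC (K0 A) (N0 * q))]

/-- **H3 arm at a general level `N0`** (`q ∣ N0`, `¬ q² ∣ N0`), from the plug at all `M'`. -/
theorem h3Inst_of_plug' {p c : ℕ} (hqN0 : q ∣ N0) (hq2 : ¬ q ^ 2 ∣ N0)
    (hplug : ∀ (M' : ℕ) [NeZero M'], ¬ q ∣ M' →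
      ∀ (hφ : FiniteAlong (K0 A) (alphaK0 A (M' * q) q))
        (hψ : FiniteAlong (K0 A) (betaK0 A (M' * q) q))
        (hQ : HallDvd (q ^ 2) (M' * q * q)), H3PlugK0 A q M' p c hφ hψ hQ)
    (hφ : FiniteAlong (K0 A) (alphaK0 A N0 q)) (hψ : FiniteAlong (K0 A) (betaK0 A N0 q))
    (hQ : HallDvd (q ^ 2) (N0 * q))
    (S : TripleSetup (modularFunctionFieldFullC (K0 A) (N0 * q))
      (modularFunctionFieldFullC (K0 A) N0) k k1 k2 k3 k1' k2' B T T')
    (hW1 : S.W1 = RwK0 A (N0 * q)) (hW2 : S.W2 = (redData2QK0 A (N0 * q) hQ).Rw)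
    (hW3 : S.W3 = Rw3K0 A (N0 * q) q)
    (NmA NmB : modularFunctionFieldFullC (K0 A) (N0 * q) →* modularFunctionFieldFullC (K0 A) N0)
    (hNmA : ∀ x, NmA x = @Algebra.norm (modularFunctionFieldFullC (K0 A) N0)
      (modularFunctionFieldFullC (K0 A) (N0 * q)) _ _ (algebraAlong (alphaK0 A N0 q)) x)
    (hNmB : ∀ x, NmB x = @Algebra.norm (modularFunctionFieldFullC (K0 A) N0)
      (modularFunctionFieldFullC (K0 A) (N0 * q)) _ _ (algebraAlong (betaK0 A N0 q)) x)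
    (n : ℕ) :
    ∀ x : modularFunctionFieldFullC (K0 A) (N0 * q), x ≠ 0 →
      IsCstPow (K0 A) (p ^ n) (NmA x) → IsCstPow (K0 A) (p ^ n) (NmB x) →
      ∃ (cst : K0 A) (g u2 : modularFunctionFieldFullC (K0 A) (N0 * q)), cst ≠ 0 ∧ g ≠ 0 ∧
        x ^ (q - 1) = algebraMap (K0 A) (modularFunctionFieldFullC (K0 A) (N0 * q)) cst *
          g ^ (p ^ (n - c)) * u2 ∧ U2 S u2 ∧
        IsCstPow (K0 A) (p ^ (n - c)) (NmA u2) ∧ IsCstPow (K0 A) (p ^ (n - c)) (NmB u2) := by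
  obtain ⟨M', rfl⟩ : ∃ M' : ℕ, N0 = M' * q := ⟨N0 / q, (Nat.div_mul_cancel hqN0).symm⟩
  have hM'0 : M' ≠ 0 := by
    rintro rfl
    exact NeZero.ne (0 * q) (zero_mul q)
  haveI : NeZero M' := ⟨hM'0⟩
  have hqM : ¬ q ∣ M' := by
    intro hd
    apply hq2
    rw [pow_two]
    exact mul_dvd_mul_right hd q
  exact h3Inst_of_plug A M' hφ hψ hQ (hplug M' hqM hφ hψ hQ) S hW1 hW2 hW3 NmA NmB hNmA hNmB n

end General

end Fermat.Agent.GL.Final.H3
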