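/-
GATE-L / L-INT, H3 ARM, CLOSED (helper44; plug term compiled first by helper66, board 3195).

`h3Inst` : the binder (H3) of helper24's `Gate.k0UnitGateQ_of_chain'` at
  `K0' := K0 A`, `F0 := K₀(X₀(N0 * q))`, `F0' := K₀(X₀(N0))`,
  `NmA := TopInst.normK0A A N0 q`, `NmB := TopInst.normK0B A N0 q` (helper82),
  `U2 := H4OfXi.U2 S` (helper46), `qq := q`, `m := p ^ n`, `m1 := p ^ (n - c)`,
with NO hypothesis left beyond the arithmetic (`q` prime, `q ∣ N0`, `¬ q² ∣ N0`, `A` over `q`,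
`p ≠ q` prime, `q + 1 = p ^ c * r`, `p ∤ r`), the Hall proof `hQ`, and the three ties
`hW1 hW2 hW3` of the `TripleSetup` `S` (helper39 L-INT RULING 1, (C2)).

= `H3Inst.h3Inst_of_plug'` (helper44) fed with helper66's `PlugK0.h3_K0` and helper67's
`DegK0.finiteDimensional_alphaK0/betaK0`.
-/
import Mathlib
import Fermat.Agent.GL.Chain.PlugK0
import Fermat.Agent.GL.Final.TopInst
import Fermat.Agent.GL.Final.H3Inst

set_option autoImplicit false
set_option linter.unusedSectionVars false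

noncomputable section

namespace Fermat.Agent.GL.Final.H3

open ModularCurve AlgebraicCurve
open Fermat.Agent.GL.Chain Fermat.Agent.GL.Chain.K0 Fermat.Agent.GL.H4OfXi
open Fermat.Agent.GL.Final.TopInst
open Fermat.Agent.GK.AL Fermat.Agent.GL.AL
open Fermat.Agent.GL.Val.GaussK0 Fermat.Agent.GL.Val.SecondK0 Fermat.Agent.GL.Val.SecondK0Hall
open Fermat.Agent.GL.Val.ThirdK0 Fermat.Agent.GL.Table.K0

local notation "Qb" => AlgebraicClosure ℚ

/-- **The H3 arm, closed.** -/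
theorem h3Inst {k k1 k2 k3 k1' k2' B T T' : Type*} [Field k] [Field k1] [Field k2] [Field k3]
    [Field k1'] [Field k2']
    (A : ValuationSubring Qb) {q N0 : ℕ} [NeZero N0] [NeZero q] [CommRing B]
    [Algebra B (modularFunctionFieldFullC (K0 A) (N0 * q))]
    (hq : q.Prime) (hA : A.LiesOverPrime q) (hqN0 : q ∣ N0) (hq2 : ¬ q ^ 2 ∣ N0)
    (hQ : HallDvd (q ^ 2) (N0 * q))
    (S : TripleSetup (modularFunctionFieldFullC (K0 A) (N0 * q))
      (modularFunctionFieldFullC (K0 A) N0) k k1 k2 k3 k1' k2' B T T')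
    (hW1 : S.W1 = RwK0 A (N0 * q)) (hW2 : S.W2 = (redData2QK0 A (N0 * q) hQ).Rw)
    (hW3 : S.W3 = Rw3K0 A (N0 * q) q)
    {p c r : ℕ} (hp : p.Prime) (hpq : p ≠ q) (hq1 : q + 1 = p ^ c * r) (hr : ¬ p ∣ r) (n : ℕ) :
    ∀ x : modularFunctionFieldFullC (K0 A) (N0 * q), x ≠ 0 →
      IsCstPow (K0 A) (p ^ n) (normK0A A N0 q x) → IsCstPow (K0 A) (p ^ n) (normK0B A N0 q x) →
      ∃ (cst : K0 A) (g u2 : modularFunctionFieldFullC (K0 A) (N0 * q)), cst ≠ 0 ∧ g ≠ 0 ∧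
        x ^ (q - 1) = algebraMap (K0 A) (modularFunctionFieldFullC (K0 A) (N0 * q)) cst *
          g ^ (p ^ (n - c)) * u2 ∧ U2 S u2 ∧
        IsCstPow (K0 A) (p ^ (n - c)) (normK0A A N0 q u2) ∧
        IsCstPow (K0 A) (p ^ (n - c)) (normK0B A N0 q u2) :=
  h3Inst_of_plug' A hqN0 hq2
    (fun M' _ hqM _ _ hQ' n _ hu e1 e2 =>
      h3_K0 A M' hQ' (Fermat.Agent.GL.W3Table.exactDvd_level hq hqM) hq hqM hA hp hpq hq1 hr n hu
        e1 e2)
    (finiteDimensional_alphaK0 A hq hqN0) (finiteDimensional_betaK0 A hq hqN0) hQ S hW1 hW2 hW3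
    (normK0A A N0 q) (normK0B A N0 q) (fun _ => rfl) (fun _ => rfl) n

/-- the Hall proof at level `N0 * q` -/
theorem hallDvd_level {q N0 : ℕ} (hq : q.Prime) (hqN0 : q ∣ N0) (hq2 : ¬ q ^ 2 ∣ N0) :
    HallDvd (q ^ 2) (N0 * q) := by
  obtain ⟨M', rfl⟩ : ∃ M' : ℕ, N0 = M' * q := ⟨N0 / q, (Nat.div_mul_cancel hqN0).symm⟩
  have hqM : ¬ q ∣ M' := by
    intro hd
    apply hq2
    rw [pow_two]
    exact mul_dvd_mul_right hd q
  exact Fermat.Agent.GL.AL.hallDvd_sq M' hq hqM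

end Fermat.Agent.GL.Final.H3
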