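/-
GATE-L / L-INT, H4 ARM, the CONSTANTS block over `K₀` (helper84, on request of helper46 3386):
the hypotheses `hdA1 hdA2 hLval hLred1 hLred2` (+ `hlift` for `hLunit`) of helper46's
`H4Inst.h4_binder` at `S := setupK0Of A hq hqM hA s H hv` (helper40 `BuildInstPts`),
`K0' := K0 A`, `q0 := qK0 A q` (helper44 `H3Disc`).

(`hW hs1 hs2 hs3` are helper40 `BuildInstArm.buildK0_hW / _hs1 / _hs2 / _hs3`, closing the goals at
`S := setupK0Of … hv` by `rfl`-unfolding.)
-/
import Fermat.Agent.GL.Final.BuildInstPts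
import Fermat.Agent.GL.Final.H3Disc

set_option autoImplicit false
set_option linter.unusedSectionVars false

noncomputable section

namespace Fermat.Agent.GL.Final.H4ConstK0

open Polynomial HahnSeries ModularCurve IsLocalRing
open Fermat.Agent.GJ.J1
open Fermat.Agent.GL.H4OfXi Fermat.Agent.GL.TripleBuild Fermat.Agent.GL.BuildInst
open Fermat.Agent.GL.BuildInstPts
open Fermat.Agent.GL.Final.TriplePoints
open Fermat.Agent.GL.Final.RowsInst
open Fermat.Agent.GL.Val.GaussK0 Fermat.Agent.GL.Val.SecondK0 Fermat.Agent.GL.Val.SecondK0Hall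
open Fermat.Agent.GL.Val.ThirdK0
open Fermat.Agent.GL.Chain Fermat.Agent.GL.Final.H3
open Fermat.Agent.Common_helper32

attribute [local instance 2000] instAlgR0FullC instAlgBK0FullC instAlgR0BK0

variable (A : ValuationSubring Qb) {M' q : ℕ} [NeZero q] [NeZero M']
  (hq : q.Prime) (hqM : ¬ q ∣ M') (hA : (q : Qb) ∈ A.nonunits) (s : (R0 A)[X])
  (H : SsPts A hq hqM hA s) (hv : (buildK0 A hq hqM hA s H).Hval)

local notation "E₀" => modularFunctionFieldFullC (K0 A) (M' * q)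
local notation "k₀" => ResidueField (R0 A)

/-- **`hdA1`** of `h4_binder` -/
theorem hdA1_K0 : IsDiscAt (setupK0Of A hq hqM hA s H hv).A1
    (algebraMap (K0 A) (modularFunctionFieldFullC (K0 A) (M' * q)) (qK0 A q)) :=
  isDiscAt_A1 A M' hq hA

/-- **`hdA2`** of `h4_binder` -/
theorem hdA2_K0 : IsDiscAt (setupK0Of A hq hqM hA s H hv).A2
    (algebraMap (K0 A) (modularFunctionFieldFullC (K0 A) (M' * q)) (qK0 A q)) :=
  isDiscAt_A2 A M' hq hA (Fermat.Agent.GL.W3Table.exactDvd_level hq hqM)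

/-- the constants of `A1` are `R₀` -/
theorem mem_R0_iff_mem_A1 (a : K0 A) : a ∈ R0 A ↔
    algebraMap (K0 A) (modularFunctionFieldFullC (K0 A) (M' * q)) a ∈
      (setupK0Of A hq hqM hA s H hv).A1 :=
  (redDataK0 A (M' * q)).mem_A_iff a

/-- the constants of `A2` are `R₀` -/
theorem mem_R0_iff_mem_A2 (a : K0 A) : a ∈ R0 A ↔
    algebraMap (K0 A) (modularFunctionFieldFullC (K0 A) (M' * q)) a ∈
      (setupK0Of A hq hqM hA s H hv).A2 :=
  (redData2K0 A (M' * q) (Fermat.Agent.GL.W3Table.exactDvd_level hq hqM)).mem_A_iff a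

/-- **`hLval`** of `h4_binder` -/
theorem hLval_K0' : ∀ c : K0 A, c ≠ 0 → ∃ n : ℤ,
    (setupK0Of A hq hqM hA s H hv).A1.valuation
        (algebraMap (K0 A) (modularFunctionFieldFullC (K0 A) (M' * q)) c) =
      (setupK0Of A hq hqM hA s H hv).A1.valuation
        (algebraMap (K0 A) (modularFunctionFieldFullC (K0 A) (M' * q)) (qK0 A q)) ^ n ∧
    (setupK0Of A hq hqM hA s H hv).A2.valuation
        (algebraMap (K0 A) (modularFunctionFieldFullC (K0 A) (M' * q)) c) =
      (setupK0Of A hq hqM hA s H hv).A2.valuation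
        (algebraMap (K0 A) (modularFunctionFieldFullC (K0 A) (M' * q)) (qK0 A q)) ^ n :=
  fun c hc => hLval_K0 A hq hA (setupK0Of A hq hqM hA s H hv).A1
    (setupK0Of A hq hqM hA s H hv).A2 (mem_R0_iff_mem_A1 A hq hqM hA s H hv)
    (mem_R0_iff_mem_A2 A hq hqM hA s H hv) c hc

/-- **`hLred1`** of `h4_binder` -/
theorem hLred1_K0 : ∀ (c : K0 A)
    (hc : algebraMap (K0 A) (modularFunctionFieldFullC (K0 A) (M' * q)) c ∈
      (setupK0Of A hq hqM hA s H hv).A1), ∃ a : ResidueField (R0 A),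
    (setupK0Of A hq hqM hA s H hv).rd1'
      ⟨algebraMap (K0 A) (modularFunctionFieldFullC (K0 A) (M' * q)) c, hc⟩ =
        algebraMap (ResidueField (R0 A)) (FresK0 A (M' * q)) a := by
  intro c hc
  have hc' : c ∈ R0 A := (mem_R0_iff_mem_A1 A hq hqM hA s H hv c).2 hc
  exact ⟨(redDataK0 A (M' * q)).res ⟨c, hc'⟩, (redDataK0 A (M' * q)).red_algebraMap ⟨c, hc'⟩⟩

/-- **`hLred2`** of `h4_binder` -/
theorem hLred2_K0 : ∀ (c : K0 A)
    (hc : algebraMap (K0 A) (modularFunctionFieldFullC (K0 A) (M' * q)) c ∈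
      (setupK0Of A hq hqM hA s H hv).A2), ∃ a : ResidueField (R0 A),
    (setupK0Of A hq hqM hA s H hv).rd2'
      ⟨algebraMap (K0 A) (modularFunctionFieldFullC (K0 A) (M' * q)) c, hc⟩ =
        algebraMap (ResidueField (R0 A)) (FresK0 A (M' * q)) a := by
  intro c hc
  have hc' : c ∈ R0 A := (mem_R0_iff_mem_A2 A hq hqM hA s H hv c).2 hc
  exact ⟨(redData2K0 A (M' * q) (Fermat.Agent.GL.W3Table.exactDvd_level hq hqM)).res ⟨c, hc'⟩,
    (redData2K0 A (M' * q) (Fermat.Agent.GL.W3Table.exactDvd_level hq hqM)).red_algebraMap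
      ⟨c, hc'⟩⟩

/-- **`hlift`** (for `hLunit`): a constant of `A1` comes from the lower chart ring -/
theorem hlift_K0 : ∀ d : K0 A,
    algebraMap (K0 A) (modularFunctionFieldFullC (K0 A) (M' * q)) d ∈
      (setupK0Of A hq hqM hA s H hv).A1 →
    ∃ b : BK0 A (M' * q),
      algebraMap (BK0 A (M' * q)) (modularFunctionFieldFullC (K0 A) (M' * q)) b =
        algebraMap (K0 A) (modularFunctionFieldFullC (K0 A) (M' * q)) d := by
  intro d hd
  have hd' : d ∈ R0 A := (mem_R0_iff_mem_A1 A hq hqM hA s H hv d).2 hd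
  exact ⟨algebraMap (R0 A) (BK0 A (M' * q)) ⟨d, hd'⟩, rfl⟩

end Fermat.Agent.GL.Final.H4ConstK0
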