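/-
GATE-L / L-INT, the (H4) ARM in the binder shape of `ChainAbs.k0UnitGateQ_of_chain'`
(helper46; conventions (C1)-(C6) of board 3023, with `qq := S.q`).

* `h4_binder` : ABSTRACT arm.  `S : TripleSetup F0 F0' …`, `τ : F0 →+* FK (N0 * q)`,
  `NmA NmB : F0 →* F0'` with `S.Nm = NmA`, `S.Nm' = NmB`; the hypothesis list of helper39's
  `H4Prod.h4_core_of_producers`, `hhoriz` quantified over the units with `m1 ∣ div (τ u)`
  ⟹ the `H4` binder VERBATIM with `U2 := H4OfXi.U2 S`, `U3 := H4OfXi.U3 S m1`, `qq := S.q`.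
* `hhoriz_K0` : the `hhoriz` hypothesis at `F0 = K₀(X₀(N))`, `τ = toFN0 A N`, for ANY chart ring
  `B` containing `R0 A` (helper11 `HorizHord.hord_horizontal` + `algebraMap_K0_mem_of_baseRing`).
* `h4Inst` : the arm at the concrete objects of (C1): `F0 = K₀(X₀(N0 q))`, `F0' = K₀(X₀(N0))`,
  `τ = toFN0 A (N0 * q)`, `NmA NmB = TopInst.normK0A / normK0B`, `hhoriz` DISCHARGED.
-/
import Fermat.Agent.GL.Gate.ChainAbs
import Fermat.Agent.GL.Final.H4Prod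
import Fermat.Agent.GL.Final.TopInst
import Fermat.Agent.GL.Frame.HorizHord

set_option autoImplicit false
set_option linter.unusedSectionVars false
set_option linter.unusedVariables false

noncomputable section

namespace Fermat.Agent.GL.Final.H4Inst

open AlgebraicCurve ModularCurve
open Fermat.Agent.GL Fermat.Agent.GL.Chain Fermat.Agent.GL.CompBranch Fermat.Agent.GL.H4OfXi
open Fermat.Agent.GL.H4Producers Fermat.Agent.GK.MultiVal
open Fermat.Agent.GL.Frame.HeightOne Fermat.Agent.GL.Frame.Kummer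
open Fermat.Agent.GJ.KumGroup
open Fermat.Agent.GL.Val.GaussK0 Fermat.Agent.GL.Val.SecondK0 Fermat.Agent.GL.Val.CuspK0
open Fermat.Agent.GL.Frame.HorizDiv Fermat.Agent.GL.Frame.HorizHord
open Fermat.Agent.GL.Final.TopInst
open Fermat.Agent.Common_helper32

/-! ### The abstract arm -/

section Abs

variable {N0 q : ℕ} [NeZero N0] [NeZero q]
variable {K0' F0 F0' k k1 k2 k3 k1' k2' B T T' : Type*} [Field K0'] [Field F0] [Field F0']
  [Algebra K0' F0'] [Field k] [IsAlgClosed k]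
  [Field k1] [Field k2] [Field k3] [Field k1'] [Field k2'] [CommRing B] [IsDomain B]
  [Algebra B F0] [IsFractionRing B F0] [IsNoetherianRing B] [IsIntegrallyClosed B]
  [Algebra k k1] [Algebra k k2] [Algebra k k3] [Algebra k k1'] [Algebra k k2']
  (S : TripleSetup F0 F0' k k1 k2 k3 k1' k2' B T T')
  {B' : Type*} [CommRing B'] [IsDomain B'] [Algebra B' F0'] [IsFractionRing B' F0']
  [IsIntegrallyClosed B']

/-- **(H4), abstract arm**: the `H4` binder of `k0UnitGateQ_of_chain'` with `qq := S.q`. -/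
theorem h4_binder [Finite T] (τ : F0 →+* FK (N0 * q)) (NmA NmB : F0 →* F0')
    (hNm : ∀ x, S.Nm x = NmA x) (hNm' : ∀ x, S.Nm' x = NmB x)
    {m1 : ℕ} (hm1 : m1 ≠ 0)
    -- REG at the triple points + the frame facts of the chart `B`
    (hreg : ∀ n, ∃ _ : (S.P n).IsPrime,
      UniqueFactorizationMonoid (Localization.AtPrime (S.P n)))
    (qB : B)
    (hvert : ∀ 𝔭 : HtOne B, qB ∈ 𝔭.1 →
      V1 F0 𝔭 = S.W1 ∨ V1 F0 𝔭 = S.W2 ∨ V1 F0 𝔭 = S.W3)
    (hhoriz : ∀ u : F0, u ≠ 0 → (∀ P : Place Kb (FK (N0 * q)), (m1 : ℤ) ∣ P.ord (τ u)) →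
      ∀ 𝔭 : HtOne B, qB ∉ 𝔭.1 → ∃ z : F0, z ≠ 0 ∧ UnitAt 𝔭 (u * z ^ m1))
    -- the lower chart ring `B'` with its nodes and residue characters (K-N6 over `R`)
    (P' : T' → Ideal B') [hP' : ∀ n', (P' n').IsPrime]
    (χ' : T' → (B' →+* k)) (hχ'ker : ∀ n' b, χ' n' b = 0 ↔ b ∈ P' n')
    (heu1' : ∀ n' (y : k1') (hy : y ∈ S.U1' n'), S.e1' n' ⟨y, hy⟩ ≠ 0 → y⁻¹ ∈ S.U1' n')
    (heu2' : ∀ n' (y : k2') (hy : y ∈ S.U2' n'), S.e2' n' ⟨y, hy⟩ ≠ 0 → y⁻¹ ∈ S.U2' n')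
    (hB1' : ∀ n' (b : B'), algebraMap B' F0' b ∈ comp S.A1 S.rd1' S.hr1' (S.U1' n'))
    (hB2' : ∀ n' (b : B'), algebraMap B' F0' b ∈ comp S.A2 S.rd2' S.hr2' (S.U2' n'))
    (hχ1' : ∀ n' (b : B'),
      (branch S.A1 S.rd1' S.hr1' (S.U1' n') (S.e1' n')).ev (algebraMap B' F0' b) = χ' n' b)
    (hχ2' : ∀ n' (b : B'),
      (branch S.A2 S.rd2' S.hr2' (S.U2' n') (S.e2' n')).ev (algebraMap B' F0' b) = χ' n' b)
    -- the constants `K0'`: `A1 A2` discrete over them, constants reduce to constants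
    {q0 : K0'}
    (hdA1 : IsDiscAt S.A1 (algebraMap K0' F0' q0)) (hdA2 : IsDiscAt S.A2 (algebraMap K0' F0' q0))
    (hLval : ∀ c : K0', c ≠ 0 → ∃ n : ℤ,
      S.A1.valuation (algebraMap K0' F0' c) = S.A1.valuation (algebraMap K0' F0' q0) ^ n ∧
      S.A2.valuation (algebraMap K0' F0' c) = S.A2.valuation (algebraMap K0' F0' q0) ^ n)
    (hLred1 : ∀ (c : K0') (hc : algebraMap K0' F0' c ∈ S.A1), ∃ a : k,
      S.rd1' ⟨algebraMap K0' F0' c, hc⟩ = algebraMap k k1' a)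
    (hLred2 : ∀ (c : K0') (hc : algebraMap K0' F0' c ∈ S.A2), ∃ a : k,
      S.rd2' ⟨algebraMap K0' F0' c, hc⟩ = algebraMap k k2' a)
    (hconst1' : ∀ n' (a : k), ∃ ha : algebraMap k k1' a ∈ S.U1' n',
      S.e1' n' ⟨algebraMap k k1' a, ha⟩ = a)
    (hconst2' : ∀ n' (a : k), ∃ ha : algebraMap k k2' a ∈ S.U2' n',
      S.e2' n' ⟨algebraMap k k2' a, ha⟩ = a)
    -- a constant which is a unit at `A1` and `A2` is a unit of every node ring
    (hLunit : ∀ d : K0', d ≠ 0 → S.A1.valuation (algebraMap K0' F0' d) = 1 →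
      S.A2.valuation (algebraMap K0' F0' d) = 1 → ∀ n',
      algebraMap K0' F0' d ∈ locRing (E := F0') (P' n') ∧
        (algebraMap K0' F0' d)⁻¹ ∈ locRing (E := F0') (P' n'))
    -- norms of semilocal units of `B` (`H4Prod.hNU_of_fibre` for each of the two norms)
    (hNUA : ∀ c : B, (∀ n, c ∉ S.P n) → ∀ n (c0 : F0'), c0 ≠ 0 →
      c0 ∈ locRing (E := F0') (P' (S.p1 n)) → c0⁻¹ ∈ locRing (E := F0') (P' (S.p1 n)) →
      NmA (algebraMap B F0 c) ≠ 0 ∧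
        NmA (algebraMap B F0 c) / c0 ∈ locRing (E := F0') (P' (S.p1 n)) ∧
        (NmA (algebraMap B F0 c) / c0)⁻¹ ∈ locRing (E := F0') (P' (S.p1 n)))
    (hNUB : ∀ c : B, (∀ n, c ∉ S.P n) → ∀ n (c0 : F0'), c0 ≠ 0 →
      c0 ∈ locRing (E := F0') (P' (S.p2 n)) → c0⁻¹ ∈ locRing (E := F0') (P' (S.p2 n)) →
      NmB (algebraMap B F0 c) ≠ 0 ∧
        NmB (algebraMap B F0 c) / c0 ∈ locRing (E := F0') (P' (S.p2 n)) ∧
        (NmB (algebraMap B F0 c) / c0)⁻¹ ∈ locRing (E := F0') (P' (S.p2 n)))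
    -- weak approximation at `W1 W2 W3`
    (hW : Incomparable ![S.W1, S.W2, S.W3])
    (hs1 : Function.Surjective S.rd1) (hs2 : Function.Surjective S.rd2)
    (hs3 : Function.Surjective S.rd3)
    (hconst1 : ∀ n (a : k), ∃ ha : algebraMap k k1 a ∈ S.U1 n,
      S.e1 n ⟨algebraMap k k1 a, ha⟩ = a)
    (hconst2 : ∀ n (a : k), ∃ ha : algebraMap k k2 a ∈ S.U2 n,
      S.e2 n ⟨algebraMap k k2 a, ha⟩ = a)
    (hconst3 : ∀ n (a : k), ∃ ha : algebraMap k k3 a ∈ S.U3 n,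
      S.e3 n ⟨algebraMap k k3 a, ha⟩ = a) :
    ∀ u2 : F0, u2 ≠ 0 → U2 S u2 →
      (∀ P : Place Kb (FK (N0 * q)), (m1 : ℤ) ∣ P.ord (τ u2)) →
      IsCstPow K0' m1 (NmA u2) → IsCstPow K0' m1 (NmB u2) →
      ∃ f0 : F0, f0 ≠ 0 ∧ U3 S m1 (u2 ^ (S.q ^ 2 - 1) * f0 ^ m1) := by
  intro u2 hu20 hU2 hdiv e₁ e₂
  refine H4Prod.h4_core_of_producers S hm1 hu20 hU2 hreg qB hvert (hhoriz u2 hu20 hdiv)
    P' χ' hχ'ker heu1' heu2' hB1' hB2' hχ1' hχ2' hdA1 hdA2 hLval hLred1 hLred2 hconst1' hconst2'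
    hLunit ?_ ?_ hW hs1 hs2 hs3 hconst1 hconst2 hconst3 ?_ ?_
  · intro c hc n c0 h0 h1 h2
    rw [hNm]; exact hNUA c hc n c0 h0 h1 h2
  · intro c hc n c0 h0 h1 h2
    rw [hNm']; exact hNUB c hc n c0 h0 h1 h2
  · rw [hNm]; exact e₁
  · rw [hNm']; exact e₂

end Abs

/-! ### `hhoriz` over `K₀` -/

section Horiz

variable (A : ValuationSubring Qb) {q : ℕ} (hq : q.Prime) (hA : (q : Qb) ∈ A.nonunits)
  (N : ℕ) [NeZero N]
  {B : Type*} [CommRing B] [IsDomain B] [Algebra B (modularFunctionFieldFullC (K0 A) N)]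
  [IsFractionRing B (modularFunctionFieldFullC (K0 A) N)] [IsNoetherianRing B]
  [IsIntegrallyClosed B]

include hq hA in
/-- **`hhoriz` of `h4_binder`** at `F0 = K₀(X₀(N))`, `τ = toFN0 A N`: `B ⊇ R0 A`, `qB = q`. -/
theorem hhoriz_K0
    (hRB : ∀ c : K0 A, c ∈ R0 A → ∃ b : B,
      algebraMap B (modularFunctionFieldFullC (K0 A) N) b =
        algebraMap (K0 A) (modularFunctionFieldFullC (K0 A) N) c)
    (qB : B) (hqB : algebraMap B (modularFunctionFieldFullC (K0 A) N) qB = (q : _))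
    (m1 : ℕ) :
    ∀ u : modularFunctionFieldFullC (K0 A) N, u ≠ 0 →
      (∀ P : Place Kb (FK N), (m1 : ℤ) ∣ P.ord (toFN0 A N u)) →
      ∀ 𝔭 : HtOne B, qB ∉ 𝔭.1 → ∃ z : modularFunctionFieldFullC (K0 A) N, z ≠ 0 ∧
        UnitAt 𝔭 (u * z ^ m1) := by
  intro u hu0 hdiv 𝔭 hq𝔭
  have hK0 : ∀ c : K0 A, algebraMap (K0 A) (modularFunctionFieldFullC (K0 A) N) c ∈
      V1 (modularFunctionFieldFullC (K0 A) N) 𝔭 := by
    refine algebraMap_K0_mem_of_baseRing A hq hA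
      (algebraMap (K0 A) (modularFunctionFieldFullC (K0 A) N))
      (V1 (modularFunctionFieldFullC (K0 A) N) 𝔭) ?_ ?_
    · intro c hc
      obtain ⟨b, hb⟩ := hRB c hc
      rw [← hb]
      exact algebraMap_mem_V1 𝔭 b
    · rw [← hqB]
      exact inv_algebraMap_mem_V1 𝔭 hq𝔭
  have hmem : Units.map (mapK0Bar A N : _ →* FK N) (Units.mk0 u hu0) ∈
      pDivUnits Kb (FK N) m1 := by
    intro P
    have h := hdiv P
    rw [toFN0_eq A N u] at h
    exact h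
  exact hord_horizontal A N m1 (Units.mk0 u hu0) hmem 𝔭 hK0

end Horiz

end Fermat.Agent.GL.Final.H4Inst
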