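/-
GATE-L / (H4) arm, `hNUA hNUB` over `K₀` (helper28; helper46 "helper28 DO HNU", board 3419/3443):
the binders `hNUA hNUB` of helper46 `H4Inst.h4_binder` VERBATIM at

  `S := setupK0Of A hq hqM hA s H hv` (helper40), `B := BK0 A (M' q q)`, `B' := BK0 A (M' q)`,
  `P' := ptIdeal`, `NmA := normK0A A (M' q) q`, `NmB := normK0B A (M' q) q` (helper82 `TopInst`).

Proof: helper39 `H4Prod.hNU_of_fibre` (helper46 `norm_unit_locRing`) with the algebra structures
`E₀ → F₀` along `alphaK0` / `betaK0` and `B' → B` along `phiAlpha` / `phiBeta` (all `letI`, inside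
the proofs: the statements are instance-free), and the FIBRE CLOSURE
`FibreClosureK0.hfib_alpha_K0 / hfib_beta_K0`.  The integrality of `phiAlpha`, `phiBeta`
(helper40 `PhiIntegralK0`, in progress) is a HYPOTHESIS `hα`, `hβ`.
-/
import Fermat.Agent.GL.Final.FibreClosureK0
import Fermat.Agent.GL.Final.H4Prod
import Fermat.Agent.GL.Final.TopInst

set_option autoImplicit false
set_option linter.unusedSectionVars false
set_option linter.style.haveILetI false

noncomputable section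

namespace Fermat.Agent.GL.Final.H4NormK0

open Polynomial ModularCurve IsLocalRing
open Fermat.Agent.GL.Frame.Inst Fermat.Agent.GL.H4OfXi Fermat.Agent.GL.H4Producers
open Fermat.Agent.GL.TripleBuild Fermat.Agent.GL.BuildInst Fermat.Agent.GL.BuildInstPts
open Fermat.Agent.GL.Final.TriplePoints Fermat.Agent.GL.Final.TripleBuildPoints
open Fermat.Agent.GL.Final.TopInst Fermat.Agent.GL.FibreClosureK0
open Fermat.Agent.GL.Val.GaussK0 Fermat.Agent.GL.Val.OrthK0 Fermat.Agent.GL.Table.K0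
open Fermat.Agent.Common_helper32

attribute [local instance 2000] instAlgR0FullC instAlgBK0FullC instAlgR0BK0

variable (A : ValuationSubring Qb) {M' q : ℕ} [NeZero q] [NeZero M']
variable (hq : q.Prime) (hqM : ¬ q ∣ M') (hA : (q : Qb) ∈ A.nonunits) (s : (R0 A)[X])
variable (H : SsPts A hq hqM hA s) (hv : (buildK0 A hq hqM hA s H).Hval)

local notation "F₀" => modularFunctionFieldFullC (K0 A) (M' * q * q)
local notation "E₀" => modularFunctionFieldFullC (K0 A) (M' * q)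
local notation "res₀" => residue (R0 A)

/-- **`hNUA`** of `h4_binder` at the concrete `TripleSetup` over `K₀`. -/
theorem hNUA_K0 [hP' : ∀ n' : PtType (RingHom.ker res₀) (jB A (M' * q)) s, (ptIdeal n').IsPrime]
    (hα : (phiAlpha A (M' * q) q).IsIntegral) :
    ∀ c : BK0 A (M' * q * q), (∀ n, c ∉ (setupK0Of A hq hqM hA s H hv).P n) →
      ∀ (n : PtType (RingHom.ker res₀) (jB A (M' * q * q)) s) (c0 : E₀), c0 ≠ 0 →
      c0 ∈ locRing (E := E₀) (ptIdeal ((setupK0Of A hq hqM hA s H hv).p1 n)) →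
      c0⁻¹ ∈ locRing (E := E₀) (ptIdeal ((setupK0Of A hq hqM hA s H hv).p1 n)) →
      normK0A A (M' * q) q (algebraMap (BK0 A (M' * q * q)) F₀ c) ≠ 0 ∧
        normK0A A (M' * q) q (algebraMap (BK0 A (M' * q * q)) F₀ c) / c0 ∈
          locRing (E := E₀) (ptIdeal ((setupK0Of A hq hqM hA s H hv).p1 n)) ∧
        (normK0A A (M' * q) q (algebraMap (BK0 A (M' * q * q)) F₀ c) / c0)⁻¹ ∈
          locRing (E := E₀) (ptIdeal ((setupK0Of A hq hqM hA s H hv).p1 n)) := by
  intro c hc n c0 hc0 hc0m hc0i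
  letI algEF : Algebra E₀ F₀ := (alphaK0 A (M' * q) q).toRingHom.toAlgebra
  letI algB'B : Algebra (BK0 A (M' * q)) (BK0 A (M' * q * q)) := (phiAlpha A (M' * q) q).toAlgebra
  letI algB'F : Algebra (BK0 A (M' * q)) F₀ :=
    ((algebraMap (BK0 A (M' * q * q)) F₀).comp (phiAlpha A (M' * q) q)).toAlgebra
  haveI t1 : IsScalarTower (BK0 A (M' * q)) (BK0 A (M' * q * q)) F₀ :=
    IsScalarTower.of_algebraMap_eq fun _ => rfl
  haveI t2 : IsScalarTower (BK0 A (M' * q)) E₀ F₀ :=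
    IsScalarTower.of_algebraMap_eq fun b => algebraMap_phiAlpha A (M' * q) q b
  haveI i1 : Algebra.IsIntegral (BK0 A (M' * q)) (BK0 A (M' * q * q)) := ⟨hα⟩
  haveI i2 := isIntegrallyClosed_BK0 A hA (M' * q) hq
  haveI i3 := isFractionRing_BK0 A hA (M' * q) hq
  haveI i4 : (ptIdeal ((setupK0Of A hq hqM hA s H hv).p1 n)).IsMaximal := ptIdeal_isMaximal _
  exact Fermat.Agent.GL.Final.H4Prod.hNU_of_fibre
    (P := fun n0 : PtType (RingHom.ker res₀) (jB A (M' * q * q)) s => ptIdeal n0)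
    (ptIdeal ((setupK0Of A hq hqM hA s H hv).p1 n))
    (fun M hM hMc => hfib_alpha_K0 A s M hM _ hMc) c hc hc0 hc0m hc0i

/-- **`hNUB`** of `h4_binder` at the concrete `TripleSetup` over `K₀`. -/
theorem hNUB_K0 [hP' : ∀ n' : PtType (RingHom.ker res₀) (jB A (M' * q)) s, (ptIdeal n').IsPrime]
    (hβ : (phiBeta A (M' * q) q).IsIntegral) :
    ∀ c : BK0 A (M' * q * q), (∀ n, c ∉ (setupK0Of A hq hqM hA s H hv).P n) →
      ∀ (n : PtType (RingHom.ker res₀) (jB A (M' * q * q)) s) (c0 : E₀), c0 ≠ 0 →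
      c0 ∈ locRing (E := E₀) (ptIdeal ((setupK0Of A hq hqM hA s H hv).p2 n)) →
      c0⁻¹ ∈ locRing (E := E₀) (ptIdeal ((setupK0Of A hq hqM hA s H hv).p2 n)) →
      normK0B A (M' * q) q (algebraMap (BK0 A (M' * q * q)) F₀ c) ≠ 0 ∧
        normK0B A (M' * q) q (algebraMap (BK0 A (M' * q * q)) F₀ c) / c0 ∈
          locRing (E := E₀) (ptIdeal ((setupK0Of A hq hqM hA s H hv).p2 n)) ∧
        (normK0B A (M' * q) q (algebraMap (BK0 A (M' * q * q)) F₀ c) / c0)⁻¹ ∈
          locRing (E := E₀) (ptIdeal ((setupK0Of A hq hqM hA s H hv).p2 n)) := by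
  intro c hc n c0 hc0 hc0m hc0i
  letI algEF : Algebra E₀ F₀ := (betaK0 A (M' * q) q).toRingHom.toAlgebra
  letI algB'B : Algebra (BK0 A (M' * q)) (BK0 A (M' * q * q)) := (phiBeta A (M' * q) q).toAlgebra
  letI algB'F : Algebra (BK0 A (M' * q)) F₀ :=
    ((algebraMap (BK0 A (M' * q * q)) F₀).comp (phiBeta A (M' * q) q)).toAlgebra
  haveI t1 : IsScalarTower (BK0 A (M' * q)) (BK0 A (M' * q * q)) F₀ :=
    IsScalarTower.of_algebraMap_eq fun _ => rfl
  haveI t2 : IsScalarTower (BK0 A (M' * q)) E₀ F₀ :=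
    IsScalarTower.of_algebraMap_eq fun b => algebraMap_phiBeta A (M' * q) q b
  haveI i1 : Algebra.IsIntegral (BK0 A (M' * q)) (BK0 A (M' * q * q)) := ⟨hβ⟩
  haveI i2 := isIntegrallyClosed_BK0 A hA (M' * q) hq
  haveI i3 := isFractionRing_BK0 A hA (M' * q) hq
  haveI i4 : (ptIdeal ((setupK0Of A hq hqM hA s H hv).p2 n)).IsMaximal := ptIdeal_isMaximal _
  exact Fermat.Agent.GL.Final.H4Prod.hNU_of_fibre
    (P := fun n0 : PtType (RingHom.ker res₀) (jB A (M' * q * q)) s => ptIdeal n0)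
    (ptIdeal ((setupK0Of A hq hqM hA s H hv).p2 n))
    (fun M hM hMc => hfib_beta_K0 A hq hqM hA s H.hs M hM _ hMc) c hc hc0 hc0m hc0i

end Fermat.Agent.GL.Final.H4NormK0
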