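/-
GATE-L / (H4) arm, `hNUA hNUB` over `K₀`, UNCONDITIONAL (helper28): `H4NormK0.hNUA_K0 / hNUB_K0`
with helper40's `PhiIntegralK0.phiAlpha_isIntegral / phiBeta_isIntegral` plugged.  These are the
binders `hNUA hNUB` of helper46 `H4Inst.h4_binder` VERBATIM at `S := setupK0Of A hq hqM hA s H hv`,
`P' := ptIdeal`, `NmA NmB := normK0A / normK0B A (M' q) q`, with NO hypothesis.
-/
import Fermat.Agent.GL.Final.H4NormK0
import Fermat.Agent.GL.Final.PhiIntegralK0

set_option autoImplicit false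
set_option linter.unusedSectionVars false

noncomputable section

namespace Fermat.Agent.GL.Final.H4NormK0Thm

open Polynomial ModularCurve IsLocalRing
open Fermat.Agent.GL.Frame.Inst Fermat.Agent.GL.H4OfXi Fermat.Agent.GL.H4Producers
open Fermat.Agent.GL.TripleBuild Fermat.Agent.GL.BuildInst Fermat.Agent.GL.BuildInstPts
open Fermat.Agent.GL.Final.TriplePoints Fermat.Agent.GL.Final.TripleBuildPoints
open Fermat.Agent.GL.Final.TopInst Fermat.Agent.GL.Final.H4NormK0
open Fermat.Agent.GL.Val.GaussK0 Fermat.Agent.GL.PhiIntegralK0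
open Fermat.Agent.Common_helper32

attribute [local instance 2000] instAlgR0FullC instAlgBK0FullC instAlgR0BK0

variable (A : ValuationSubring Qb) {M' q : ℕ} [NeZero q] [NeZero M']
variable (hq : q.Prime) (hqM : ¬ q ∣ M') (hA : (q : Qb) ∈ A.nonunits) (s : (R0 A)[X])
variable (H : SsPts A hq hqM hA s) (hv : (buildK0 A hq hqM hA s H).Hval)

local notation "F₀" => modularFunctionFieldFullC (K0 A) (M' * q * q)
local notation "E₀" => modularFunctionFieldFullC (K0 A) (M' * q)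
local notation "res₀" => residue (R0 A)

/-- **`hNUA`** of `h4_binder`, unconditional. -/
theorem hNUA_K0_thm
    [hP' : ∀ n' : PtType (RingHom.ker res₀) (jB A (M' * q)) s, (ptIdeal n').IsPrime] :
    ∀ c : BK0 A (M' * q * q), (∀ n, c ∉ (setupK0Of A hq hqM hA s H hv).P n) →
      ∀ (n : PtType (RingHom.ker res₀) (jB A (M' * q * q)) s) (c0 : E₀), c0 ≠ 0 →
      c0 ∈ locRing (E := E₀) (ptIdeal ((setupK0Of A hq hqM hA s H hv).p1 n)) →
      c0⁻¹ ∈ locRing (E := E₀) (ptIdeal ((setupK0Of A hq hqM hA s H hv).p1 n)) →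
      normK0A A (M' * q) q (algebraMap (BK0 A (M' * q * q)) F₀ c) ≠ 0 ∧
        normK0A A (M' * q) q (algebraMap (BK0 A (M' * q * q)) F₀ c) / c0 ∈
          locRing (E := E₀) (ptIdeal ((setupK0Of A hq hqM hA s H hv).p1 n)) ∧
        (normK0A A (M' * q) q (algebraMap (BK0 A (M' * q * q)) F₀ c) / c0)⁻¹ ∈
          locRing (E := E₀) (ptIdeal ((setupK0Of A hq hqM hA s H hv).p1 n)) :=
  hNUA_K0 A hq hqM hA s H hv (phiAlpha_isIntegral A (M' * q) q)

/-- **`hNUB`** of `h4_binder`, unconditional. -/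
theorem hNUB_K0_thm
    [hP' : ∀ n' : PtType (RingHom.ker res₀) (jB A (M' * q)) s, (ptIdeal n').IsPrime] :
    ∀ c : BK0 A (M' * q * q), (∀ n, c ∉ (setupK0Of A hq hqM hA s H hv).P n) →
      ∀ (n : PtType (RingHom.ker res₀) (jB A (M' * q * q)) s) (c0 : E₀), c0 ≠ 0 →
      c0 ∈ locRing (E := E₀) (ptIdeal ((setupK0Of A hq hqM hA s H hv).p2 n)) →
      c0⁻¹ ∈ locRing (E := E₀) (ptIdeal ((setupK0Of A hq hqM hA s H hv).p2 n)) →
      normK0B A (M' * q) q (algebraMap (BK0 A (M' * q * q)) F₀ c) ≠ 0 ∧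
        normK0B A (M' * q) q (algebraMap (BK0 A (M' * q * q)) F₀ c) / c0 ∈
          locRing (E := E₀) (ptIdeal ((setupK0Of A hq hqM hA s H hv).p2 n)) ∧
        (normK0B A (M' * q) q (algebraMap (BK0 A (M' * q * q)) F₀ c) / c0)⁻¹ ∈
          locRing (E := E₀) (ptIdeal ((setupK0Of A hq hqM hA s H hv).p2 n)) :=
  hNUB_K0 A hq hqM hA s H hv (phiBeta_isIntegral A (M' * q) q)

end Fermat.Agent.GL.Final.H4NormK0Thm
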