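/-
GATE-L / L-INT, H5 ARM, layer 3 (helper56): **(H5) for ONE Kummer unit `u` on ONE chart `h`**.

Inputs: the recipe chart `(P1, t0, t2, j, j1, h)` of helper8 `ChartExists` / helper13 `ChartChange`
with `u, u⁻¹ ∈ B1 = icAlg R0 {h}`; the vertical valuation rings `W i` (containing `R0`, `h`, `h⁻¹`,
`j`, `j⁻¹`; `q0` a non-unit); `u ≡ 1` at every `W i`; (FR2) `rad ^ e ⊆ q0 B12`; and the LOCAL
producers on the two fixed frames `Bj = icAlg R0 {j}`, `Bji = icAlg R0 {j⁻¹}` in helper11's shape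
(`JFrameLoc.hloc_typeI` / `hloc_typeIII`).  Output: `τ u` is an `m`-th power in `F_N`.

All Čech hypotheses are discharged by `H5Field`; the section comes from helper11
`JFrameCech.exists_section_of_j_frames`; the finish is helper24 `Finish.isPow_of_section_bar`.
-/
import Mathlib
import Fermat.Agent.GL.Final.H5Field
import Fermat.Agent.GL.Frame.JFrameCech
import Fermat.Agent.GL.Gate.Finish

set_option autoImplicit false
set_option linter.unusedSectionVars false

noncomputable section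

namespace Fermat.Agent.GL.Final.H5

open AlgebraicCurve ModularCurve Polynomial IntermediateField
open Fermat.Agent.GL.ChartChange Fermat.Agent.GL.Gate

local notation "Kbar" => AlgebraicClosure ℚ

section Rad

variable {R0 F : Type*} [CommRing R0] [Field F] [Algebra R0 F]

/-- the vertical radical of a ring `B12 ⊆ F`: elements of `B12` which are non-units of every
vertical valuation ring. -/
def radW {κ : Type*} (W : κ → ValuationSubring F) (B12 : Subalgebra R0 F) : AddSubgroup F where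
  carrier := {z | z ∈ B12 ∧ ∀ i, z ∈ (W i).nonunits}
  zero_mem' := ⟨B12.zero_mem, fun i => (W i).nonunits.zero_mem⟩
  add_mem' := fun ha hb => ⟨B12.add_mem ha.1 hb.1, fun i => (W i).nonunits.add_mem (ha.2 i) (hb.2 i)⟩
  neg_mem' := fun ha => ⟨B12.neg_mem ha.1, fun i => (W i).nonunits.neg_mem (ha.2 i)⟩

theorem mul_mem_nonunits_of_mem {W : ValuationSubring F} {x y : F} (hx : x ∈ W)
    (hy : y ∈ W.nonunits) : x * y ∈ W.nonunits := by
  rw [ValuationSubring.mem_nonunits_iff] at hy ⊢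
  rw [map_mul]
  have h1 : W.valuation x ≤ 1 := (ValuationSubring.valuation_le_one_iff W x).mpr hx
  calc W.valuation x * W.valuation y ≤ 1 * W.valuation y := mul_le_mul_left h1 _
    _ = W.valuation y := one_mul _
    _ < 1 := hy

theorem mem_radW {κ : Type*} {W : κ → ValuationSubring F} {B12 : Subalgebra R0 F} {z : F} :
    z ∈ radW W B12 ↔ z ∈ B12 ∧ ∀ i, z ∈ (W i).nonunits := Iff.rfl

end Rad

section Main

variable {R0 L0 F0 : Type*} [CommRing R0] [IsDomain R0] [IsIntegrallyClosed R0]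
  [IsNoetherianRing R0] [Field L0] [Algebra R0 L0] [IsFractionRing R0 L0] [CharZero L0]
  [Field F0] [Algebra L0 F0] [Algebra R0 F0] [IsScalarTower R0 L0 F0]
variable {N : ℕ} [NeZero N]

omit [IsDomain R0] [IsIntegrallyClosed R0] [IsNoetherianRing R0] [Field L0] [Algebra R0 L0]
  [IsFractionRing R0 L0] [CharZero L0] [Algebra L0 F0] [IsScalarTower R0 L0 F0] in
/-- a valuation subring containing `R0` and `s` contains `icAlg R0 s`. -/
theorem icAlg_le_valuationSubring (V : ValuationSubring F0)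
    (hRV : ∀ r : R0, algebraMap R0 F0 r ∈ V) {s : Set F0} (hs : ∀ x ∈ s, x ∈ V) {x : F0}
    (hx : x ∈ icAlg R0 s) : x ∈ V := by
  have h1 : ∀ y ∈ Algebra.adjoin R0 s, (RingHom.id F0) y ∈ V := by
    intro y hy
    induction hy using Algebra.adjoin_induction with
    | mem z hz => exact hs z hz
    | algebraMap r => exact hRV r
    | add a b _ _ ha hb => exact V.add_mem _ _ ha hb
    | mul a b _ _ ha hb => exact V.mul_mem _ _ ha hb
  exact map_mem_of_isIntegral V (RingHom.id F0) (Algebra.adjoin R0 s) h1 (mem_icAlg.mp hx)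

/-- **(H5) on one chart.** -/
theorem h5_of_chart (τ : F0 →+* modularFunctionFieldBar N)
    (hR0 : ∀ (r : R0) (P : Place Kbar (modularFunctionFieldBar N)),
      τ (algebraMap R0 F0 r) ∈ P.toValuationSubring)
    (q0 : R0) (hq : (Ideal.span {q0}).IsMaximal)
    {κ : Type*} [Nonempty κ] (W : κ → ValuationSubring F0)
    (hRW : ∀ i (r : R0), algebraMap R0 F0 r ∈ W i)
    (hqW : ∀ i, algebraMap R0 F0 q0 ∈ (W i).nonunits)
    -- the recipe chart
    (P1 : R0[X]) (t0 t2 : R0) (hu' : IsUnit (P1.eval t2)) {j j1 h : F0}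
    (hj1 : j1 * (j - algebraMap R0 F0 t0) = 1)
    (hh' : h * aeval j1 P1 = (j1 - algebraMap R0 F0 t2) ^ (P1.natDegree + 1))
    (hne : j1 ≠ algebraMap R0 F0 t2) (hh0 : h ≠ 0)
    (hhW : ∀ i, h ∈ W i) (hhW' : ∀ i, h⁻¹ ∈ W i) (hjW : ∀ i, j ∈ W i) (hjW' : ∀ i, j⁻¹ ∈ W i)
    (ht1 : Transcendental L0 h) [FiniteDimensional L0⟮h⟯ F0]
    (ht2 : Transcendental L0 h⁻¹) [FiniteDimensional L0⟮h⁻¹⟯ F0]
    -- the Kummer unit
    (m m'' : ℕ) (hm : m ≠ 0) (hmq : q0 ∣ ((1 + m * m'' : ℕ) : R0))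
    (u : F0) (hu0 : u ≠ 0) (huB1 : u ∈ icAlg R0 ({h} : Set F0))
    (huiB12 : u⁻¹ ∈ icAlg R0 ({h, h⁻¹} : Set F0))
    (hu1 : ∀ i, u - 1 ∈ (W i).nonunits)
    -- (FR2)
    (e : ℕ)
    (hrade : ∀ f : Fin e → F0, (∀ i, f i ∈ radW W (icAlg R0 ({h, h⁻¹} : Set F0))) →
      ∃ z ∈ icAlg R0 ({h, h⁻¹} : Set F0), ∏ i, f i = algebraMap R0 F0 q0 * z)
    -- the local producers on the two fixed frames
    (hlocj : ∀ (n : Ideal (icAlg R0 ({h⁻¹} : Set F0)).toSubring)
      (n' : Ideal (icAlg R0 ({j} : Set F0)).toSubring), n.IsMaximal → n'.IsMaximal →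
      (isChartRing_icAlg (R0 := R0) h⁻¹).toRingHom q0 ∈ n →
      (isChartRing_icAlg (R0 := R0) j).toRingHom q0 ∈ n' →
      locSet (icAlg R0 ({j} : Set F0)).toSubring n' =
        locSet (icAlg R0 ({h⁻¹} : Set F0)).toSubring n →
      ∃ g : F0, (∃ c : (icAlg R0 ({j} : Set F0)).toSubring, g ^ m * u = (c : F0)) ∧
        ∃ a b : (icAlg R0 ({j} : Set F0)).toSubring, a ∉ n' ∧ b ∉ n' ∧
          ∀ i, (a : F0) * g - (b : F0) ∈ (W i).nonunits)
    (hlocji : ∀ (n : Ideal (icAlg R0 ({h⁻¹} : Set F0)).toSubring)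
      (n' : Ideal (icAlg R0 ({j⁻¹} : Set F0)).toSubring), n.IsMaximal → n'.IsMaximal →
      (isChartRing_icAlg (R0 := R0) h⁻¹).toRingHom q0 ∈ n →
      (isChartRing_icAlg (R0 := R0) j⁻¹).toRingHom q0 ∈ n' →
      locSet (icAlg R0 ({j⁻¹} : Set F0)).toSubring n' =
        locSet (icAlg R0 ({h⁻¹} : Set F0)).toSubring n →
      ∃ g : F0, (∃ c : (icAlg R0 ({j⁻¹} : Set F0)).toSubring, g ^ m * u = (c : F0)) ∧
        ∃ a b : (icAlg R0 ({j⁻¹} : Set F0)).toSubring, a ∉ n' ∧ b ∉ n' ∧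
          ∀ i, (a : F0) * g - (b : F0) ∈ (W i).nonunits) :
    ∃ w : modularFunctionFieldBar N, w ≠ 0 ∧ τ u = w ^ m := by
  classical
  -- the three rings and the module of sections
  set B1 : Subalgebra R0 F0 := icAlg R0 ({h} : Set F0) with hB1def
  set B2 : Subalgebra R0 F0 := icAlg R0 ({h⁻¹} : Set F0) with hB2def
  set B12 : Subalgebra R0 F0 := icAlg R0 ({h, h⁻¹} : Set F0) with hB12def
  set M : Submodule R0 F0 := secMod R0 h hm u with hMdef
  have h1 : B1 ≤ B12 := B1_le_B12 h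
  have h2 : B2 ≤ B12 := B2_le_B12 h
  -- `B12 ⊆ W i`
  have hW12 : ∀ i, ∀ b ∈ B12, b ∈ W i := by
    intro i b hb
    refine icAlg_le_valuationSubring (W i) (hRW i) ?_ hb
    rintro x (rfl | hx)
    · exact hhW i
    · rw [Set.mem_singleton_iff] at hx
      rw [hx]
      exact hhW' i
  have hWjle : ∀ i, ∀ b ∈ icAlg R0 ({j} : Set F0), b ∈ W i := by
    intro i b hb
    refine icAlg_le_valuationSubring (W i) (hRW i) ?_ hb
    intro x hx
    rw [Set.mem_singleton_iff] at hx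
    rw [hx]
    exact hjW i
  have hWjile : ∀ i, ∀ b ∈ icAlg R0 ({j⁻¹} : Set F0), b ∈ W i := by
    intro i b hb
    refine icAlg_le_valuationSubring (W i) (hRW i) ?_ hb
    intro x hx
    rw [Set.mem_singleton_iff] at hx
    rw [hx]
    exact hjW' i
  -- the radical
  set rad : AddSubgroup F0 := radW W B12 with hraddef
  have hradmul : ∀ b ∈ B12, ∀ x ∈ rad, b * x ∈ rad := by
    intro b hb x hx
    exact ⟨B12.mul_mem hb hx.1, fun i =>
      mul_mem_nonunits_of_mem (hW12 i b hb) (hx.2 i)⟩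
  have hqrad : algebraMap R0 F0 q0 ∈ rad := ⟨B12.algebraMap_mem q0, hqW⟩
  have hN : ((1 + m * m'' : ℕ) : F0) ∈ rad := by
    obtain ⟨c, hc⟩ := hmq
    have : ((1 + m * m'' : ℕ) : F0) = algebraMap R0 F0 c * algebraMap R0 F0 q0 := by
      rw [← map_mul, mul_comm c q0, ← hc, map_natCast]
    rw [this]
    exact hradmul _ (B12.algebraMap_mem c) _ hqrad
  have hu1' : u - 1 ∈ rad := ⟨B12.sub_mem (h1 huB1) B12.one_mem, hu1⟩
  have h1rad : (1 : F0) ∉ rad := by
    intro h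
    obtain ⟨i⟩ := ‹Nonempty κ›
    have := h.2 i
    rw [ValuationSubring.mem_nonunits_iff, map_one] at this
    exact lt_irrefl _ this
  -- (FG)
  obtain ⟨n1, e1, he1, hspan1⟩ := exists_span_B1 (R0 := R0) (L0 := L0) h ht1
  obtain ⟨n2, f, hf, hspan2⟩ := exists_span_secMod (R0 := R0) (L0 := L0) hh0 ht2 hm hu0 huiB12
  obtain ⟨a', ha'⟩ := exists_pow_mul_mem_B1 (R0 := R0) hh0 f (fun j => (hf j).1)
  -- the section
  obtain ⟨s, hs1, hsM, hsrad⟩ :=
    Fermat.Agent.GL.Frame.JFrameCech.exists_section_of_j_frames B12 B1 B2 h1 h2 M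
      (fun f hf => hf.1) (fun b hb f hf => secMod_mul_mem hb hf) q0 rad hradmul hqrad e hrade
      m m'' hN u huB1 hu1' (fun f hf => hf.2) h h⁻¹ (mul_inv_cancel₀ hh0) (h_mem_B1 h)
      (hinv_mem_B2 h) e1 f he1 hspan1 hf hspan2 a' ha'
      (fun z hz => exists_eq_pow_mul_secMod hh0 hm (h1 huB1) hz)
      W P1 t0 t2 hu' hj1 hh' hne (isChartRing_icAlg (R0 := R0) h⁻¹)
      (isChartRing_icAlg (R0 := R0) j) (isChartRing_icAlg (R0 := R0) j⁻¹) hq
      (fun i b => hW12 i _ (h2 b.2)) (fun i b => hWjle i _ b.2) (fun i b => hWjile i _ b.2) hqW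
      hm hu0 huiB12 (fun y hy => icAlg_rootClosed hm hy)
      (fun f hf1 hf2 => ⟨hf1, hf2⟩) (fun z hz hzW => ⟨hz, hzW⟩) hlocj hlocji
  have hs0 : s ≠ 0 := by
    rintro rfl
    apply h1rad
    have := rad.neg_mem hsrad
    simpa using this
  exact isPow_of_section_bar τ hR0 h h⁻¹ (mul_inv_cancel₀ hh0) (B1 : Set F0) (B2 : Set F0)
    (fun x hx => mem_icAlg.mp hx) (fun x hx => mem_icAlg.mp hx) hm u s hu0 hs0 huB1 hs1 hsM.2

end Main

end Fermat.Agent.GL.Final.H5
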