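/-
GATE-L / L-INT, H5 ARM, layer 1 (helper56): **(H5) of helper24 `ChainAbs.k0UnitGateQ_of_chain'`
from the Čech–Kummer core + the finish**, abstract in the objects.

`h5_core` : helper35 `LocPlug.exists_section_of_locAt` (= helper28 `exists_section_ambient` with
`rad := vertRad V B12 vert`, `hloc` in `LocAt` form) composed with helper24
`Finish.isPow_of_section_bar`:

  chart `(h, hinv, B1, B2, B12, M)` with the Čech hypotheses, `u ∈ B1`, `u ≡ 1` on the vertical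
  components, `(LOC)` at every maximal ideal of `B2`
    ⟹ `∃ w ≠ 0, τ u = w ^ m`   in `F_N = ℚ̄(X₀(N))`.

The only new content is `s ≠ 0` (from `s ≡ 1` and `1 ∉ rad`).
-/
import Mathlib
import Fermat.Agent.GL.Loc.LocPlug
import Fermat.Agent.GL.Gate.Finish

set_option autoImplicit false
set_option linter.unusedSectionVars false

noncomputable section

namespace Fermat.Agent.GL.Final.H5

open AlgebraicCurve ModularCurve
open Fermat.Agent.GL.LocToCech Fermat.Agent.GL.LocGlue Fermat.Agent.GL.LocPlug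
open Fermat.Agent.GL.Gate

local notation "Kbar" => AlgebraicClosure ℚ

variable {R0 F0 : Type*} [CommRing R0] [Field F0] [Algebra R0 F0] [IsNoetherianRing R0]
variable {N : ℕ} [NeZero N]
variable {𝒱 : Type*} (V : 𝒱 → ValuationSubring F0) (vert : Finset 𝒱)

/-- `1 ∉ vertRad` as soon as there is a vertical valuation. -/
theorem one_notMem_vertRad (B12 : Subring F0) (hne : vert.Nonempty) :
    (1 : F0) ∉ vertRad V B12 vert := by
  obtain ⟨j, hj⟩ := hne
  intro h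
  have h1 := (mem_vertRad.mp h).2 j hj
  rw [ValuationSubring.mem_nonunits_iff, map_one] at h1
  exact lt_irrefl _ h1

/-- **(H5), abstract core.**  Čech–Kummer (frame form) + finish. -/
theorem h5_core (τ : F0 →+* modularFunctionFieldBar N)
    (hR0 : ∀ (r : R0) (P : Place Kbar (modularFunctionFieldBar N)),
      τ (algebraMap R0 F0 r) ∈ P.toValuationSubring)
    (hvne : vert.Nonempty)
    (B12 B1 B2 : Subalgebra R0 F0) (h1 : B1 ≤ B12) (h2 : B2 ≤ B12)
    (M : Submodule R0 F0) (hM12 : ∀ f ∈ M, f ∈ B12) (hM : ∀ b ∈ B2, ∀ f ∈ M, b * f ∈ M)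
    (q0 : R0)
    (hB12V : ∀ j ∈ vert, ∀ b ∈ B12.toSubring, b ∈ V j)
    (hqrad : algebraMap R0 F0 q0 ∈ vertRad V B12.toSubring vert)
    (e : ℕ)
    (hrade : ∀ f : Fin e → F0, (∀ i, f i ∈ vertRad V B12.toSubring vert) →
      ∃ z ∈ B12, ∏ i, f i = algebraMap R0 F0 q0 * z)
    (m m'' : ℕ) (hm : m ≠ 0) (hN : ((1 + m * m'' : ℕ) : F0) ∈ vertRad V B12.toSubring vert)
    (u : F0) (hu0 : u ≠ 0) (hu : u ∈ B1) (hu1 : u - 1 ∈ vertRad V B12.toSubring vert)
    (hum : ∀ f ∈ M, f ^ m * u ∈ B2)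
    (h hinv : F0) (hh : h * hinv = 1) (hh1 : h ∈ B1) (hh2 : hinv ∈ B2)
    (hB1int : ∀ x ∈ B1, IsIntegral (Algebra.adjoin R0 {h}) x)
    (hB2int : ∀ x ∈ B2, IsIntegral (Algebra.adjoin R0 {hinv}) x)
    {ι ι' : Type*} [Finite ι] (e1 : ι → F0) (f : ι' → F0) (he1 : ∀ i, e1 i ∈ B1)
    (hB1 : ∀ x ∈ B1, x ∈ Submodule.span R0 {y | ∃ (k : ℕ) (i : ι), y = h ^ k * e1 i})
    (hf : ∀ j, f j ∈ M)
    (hMspan : ∀ y ∈ M, y ∈ Submodule.span R0 {y | ∃ (k : ℕ) (j : ι'), y = hinv ^ k * f j})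
    (a' : ℕ) (ha' : ∀ j, h ^ a' * f j ∈ B1)
    (hB : ∀ z ∈ B12, ∃ (n : ℕ), ∃ y ∈ M, z = h ^ n * y)
    (hlocAt : ∀ 𝔫 : Ideal B2.toSubring, 𝔫.IsMaximal →
      ∃ g ∈ M, LocAt V B2.toSubring B12.toSubring vert 𝔫 g) :
    ∃ w : modularFunctionFieldBar N, w ≠ 0 ∧ τ u = w ^ m := by
  obtain ⟨s, hs1, hsM, hsrad⟩ := exists_section_of_locAt V vert B12 B1 B2 h1 h2 M hM12 hM q0
    hB12V hqrad e hrade m m'' hN u hu hu1 hum h hinv hh hh1 hh2 e1 f he1 hB1 hf hMspan a' ha' hB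
    hlocAt
  have hs0 : s ≠ 0 := by
    rintro rfl
    apply one_notMem_vertRad V vert B12.toSubring hvne
    have := (vertRad V B12.toSubring vert).neg_mem hsrad
    simpa using this
  exact isPow_of_section_bar τ hR0 h hinv hh (B1 : Set F0) (B2 : Set F0) hB1int hB2int hm u s hu0
    hs0 hu hs1 (hum s hsM)

end Fermat.Agent.GL.Final.H5
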