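/-
GATE-L / L-INT, H5 ARM, layer 6' (helper56): `H5FinK0.h5K0_of_hall` for ANY presentation `t` of the
chart `j` (`ht : jK0 A (M' * q * q) = t`), in particular for helper90's `t := jC (M' * q * q) (K0 A)`
(`h5K0_of_hall_jC`; frames `chartRing (R0 A) (jC N (K0 A))` = helper40 `BK0 A N` = helper15/helper75
`B3K0`).  `OrthK0.jK0_eq_jC` is NOT `rfl`, so producers working on the `jC`-frames plug here.
-/
import Mathlib
import Fermat.Agent.GL.Final.H5FinK0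

set_option autoImplicit false
set_option linter.unusedSectionVars false

noncomputable section

namespace Fermat.Agent.GL.Final.H5

open AlgebraicCurve ModularCurve Polynomial IntermediateField
open Fermat.Agent.GL.ChartChange Fermat.Agent.GL.Gate Fermat.Agent.GL.GaussAt
open Fermat.Agent.GL.H4OfXi
open Fermat.Agent.GK.AL Fermat.Agent.GL.AL
open Fermat.Agent.GL.Val.GaussK0 Fermat.Agent.GL.Val.SecondK0 Fermat.Agent.GL.Val.SecondK0Hall
open Fermat.Agent.GL.Val.ThirdK0 Fermat.Agent.GL.Val.OrthK0 Fermat.Agent.GL.Val.L1eAsmK0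
open Fermat.Agent.GL.Val.CuspK0 Fermat.Agent.GL.Val.CuspCoeff Fermat.Agent.GL.Val.DegBase
open Fermat.Agent.GL.Frame.Inst Fermat.Agent.GL.Frame.HeightOne Fermat.Agent.GL.LocGlue
open Fermat.Agent.Common_helper32

section K0

variable (A : ValuationSubring Qb) {q : ℕ} (M' : ℕ) [NeZero M'] [NeZero q]
variable {E k k1 k2 k3 k1' k2' B T T' : Type*} [Field E] [Field k]
  [Field k1] [Field k2] [Field k3] [Field k1'] [Field k2'] [CommRing B]
  [Algebra B (modularFunctionFieldFullC (K0 A) (M' * q * q))]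

local notation "F₀" => modularFunctionFieldFullC (K0 A) (M' * q * q)

set_option synthInstance.maxHeartbeats 400000 in
set_option maxHeartbeats 6400000 in
/-- **(H5) over `K₀` from `hallj`, `hallji` on the frames of ANY presentation `t` of `j`.** -/
theorem h5K0_of_hall_chart (hq : q.Prime) (hqM : ¬ q ∣ M') (hA : A.LiesOverPrime q)
    (hQ : HallDvd (q ^ 2) (M' * q * q))
    (S : TripleSetup F₀ E k k1 k2 k3 k1' k2' B T T')
    (hW1 : S.W1 = RwK0 A (M' * q * q)) (hW2 : S.W2 = (redData2QK0 A (M' * q * q) hQ).Rw)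
    (hW3 : S.W3 = Rw3K0 A (M' * q * q) q)
    {m1 : ℕ} (hm1 : m1 ≠ 0) (hcop : Nat.Coprime m1 q)
    {t : F₀} (ht : jK0 A (M' * q * q) = t)
    (hallj : ∀ [IsFractionRing (chartRing (R0 A) t) F₀] [IsNoetherianRing (chartRing (R0 A) t)]
      [IsIntegrallyClosed (chartRing (R0 A) t)] (hqB : baseB t (q0 A q) ≠ 0),
      ∀ u : F₀, u ≠ 0 → U3 S m1 u →
      (∀ P : Place Qb (modularFunctionFieldBar (M' * q * q)),
        (m1 : ℤ) ∣ P.ord (toFN0 A (M' * q * q) u)) →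
      ∀ 𝔫 : Ideal (chartRing (R0 A) t), 𝔫.IsMaximal →
        ∃ g ∈ (⊤ : Subring F₀), g ^ m1 * u ∈ chartRing (R0 A) t ∧
          LocAt (V1 (B := chartRing (R0 A) t) F₀) (chartRing (R0 A) t) ⊤ (vertFinset hqB) 𝔫 g)
    (hallji : ∀ [IsFractionRing (chartRing (R0 A) t⁻¹) F₀]
      [IsNoetherianRing (chartRing (R0 A) t⁻¹)]
      [IsIntegrallyClosed (chartRing (R0 A) t⁻¹)] (hqB : baseB t⁻¹ (q0 A q) ≠ 0),
      ∀ u : F₀, u ≠ 0 → U3 S m1 u →
      (∀ P : Place Qb (modularFunctionFieldBar (M' * q * q)),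
        (m1 : ℤ) ∣ P.ord (toFN0 A (M' * q * q) u)) →
      ∀ 𝔫 : Ideal (chartRing (R0 A) t⁻¹), 𝔫.IsMaximal →
        ∃ g ∈ (⊤ : Subring F₀), g ^ m1 * u ∈ chartRing (R0 A) t⁻¹ ∧
          LocAt (V1 (B := chartRing (R0 A) t⁻¹) F₀) (chartRing (R0 A) t⁻¹) ⊤
            (vertFinset hqB) 𝔫 g) :
    ∀ u3 : F₀, u3 ≠ 0 → U3 S m1 u3 →
      (∀ P : Place Qb (modularFunctionFieldBar (M' * q * q)),
        (m1 : ℤ) ∣ P.ord (toFN0 A (M' * q * q) u3)) →
      ∃ w : modularFunctionFieldBar (M' * q * q), w ≠ 0 ∧ toFN0 A (M' * q * q) u3 = w ^ m1 := by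
  subst ht
  exact h5K0_of_hall A M' hq hqM hA hQ S hW1 hW2 hW3 hm1 hcop hallj hallji

set_option synthInstance.maxHeartbeats 400000 in
set_option maxHeartbeats 6400000 in
/-- **(H5) over `K₀` from `hallj`, `hallji` on the `jC`-frames** (helper40 `BK0 A N`). -/
theorem h5K0_of_hall_jC (hq : q.Prime) (hqM : ¬ q ∣ M') (hA : A.LiesOverPrime q)
    (hQ : HallDvd (q ^ 2) (M' * q * q))
    (S : TripleSetup F₀ E k k1 k2 k3 k1' k2' B T T')
    (hW1 : S.W1 = RwK0 A (M' * q * q)) (hW2 : S.W2 = (redData2QK0 A (M' * q * q) hQ).Rw)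
    (hW3 : S.W3 = Rw3K0 A (M' * q * q) q)
    {m1 : ℕ} (hm1 : m1 ≠ 0) (hcop : Nat.Coprime m1 q)
    (hallj : ∀ [IsFractionRing (chartRing (R0 A) (jC (M' * q * q) (K0 A))) F₀]
      [IsNoetherianRing (chartRing (R0 A) (jC (M' * q * q) (K0 A)))]
      [IsIntegrallyClosed (chartRing (R0 A) (jC (M' * q * q) (K0 A)))]
      (hqB : baseB (jC (M' * q * q) (K0 A)) (q0 A q) ≠ 0),
      ∀ u : F₀, u ≠ 0 → U3 S m1 u →
      (∀ P : Place Qb (modularFunctionFieldBar (M' * q * q)),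
        (m1 : ℤ) ∣ P.ord (toFN0 A (M' * q * q) u)) →
      ∀ 𝔫 : Ideal (chartRing (R0 A) (jC (M' * q * q) (K0 A))), 𝔫.IsMaximal →
        ∃ g ∈ (⊤ : Subring F₀), g ^ m1 * u ∈ chartRing (R0 A) (jC (M' * q * q) (K0 A)) ∧
          LocAt (V1 (B := chartRing (R0 A) (jC (M' * q * q) (K0 A))) F₀)
            (chartRing (R0 A) (jC (M' * q * q) (K0 A))) ⊤ (vertFinset hqB) 𝔫 g)
    (hallji : ∀ [IsFractionRing (chartRing (R0 A) (jC (M' * q * q) (K0 A))⁻¹) F₀]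
      [IsNoetherianRing (chartRing (R0 A) (jC (M' * q * q) (K0 A))⁻¹)]
      [IsIntegrallyClosed (chartRing (R0 A) (jC (M' * q * q) (K0 A))⁻¹)]
      (hqB : baseB (jC (M' * q * q) (K0 A))⁻¹ (q0 A q) ≠ 0),
      ∀ u : F₀, u ≠ 0 → U3 S m1 u →
      (∀ P : Place Qb (modularFunctionFieldBar (M' * q * q)),
        (m1 : ℤ) ∣ P.ord (toFN0 A (M' * q * q) u)) →
      ∀ 𝔫 : Ideal (chartRing (R0 A) (jC (M' * q * q) (K0 A))⁻¹), 𝔫.IsMaximal →
        ∃ g ∈ (⊤ : Subring F₀), g ^ m1 * u ∈ chartRing (R0 A) (jC (M' * q * q) (K0 A))⁻¹ ∧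
          LocAt (V1 (B := chartRing (R0 A) (jC (M' * q * q) (K0 A))⁻¹) F₀)
            (chartRing (R0 A) (jC (M' * q * q) (K0 A))⁻¹) ⊤ (vertFinset hqB) 𝔫 g) :
    ∀ u3 : F₀, u3 ≠ 0 → U3 S m1 u3 →
      (∀ P : Place Qb (modularFunctionFieldBar (M' * q * q)),
        (m1 : ℤ) ∣ P.ord (toFN0 A (M' * q * q) u3)) →
      ∃ w : modularFunctionFieldBar (M' * q * q), w ≠ 0 ∧ toFN0 A (M' * q * q) u3 = w ^ m1 :=
  h5K0_of_hall_chart A M' hq hqM hA hQ S hW1 hW2 hW3 hm1 hcop (jK0_eq_jC A (M' * q * q))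
    hallj hallji

end K0

end Fermat.Agent.GL.Final.H5
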