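/-
GATE-L / L-INT, H5 ARM, layer 4 (helper56): **the (H5) binder of helper24
`ChainAbs.k0UnitGateQ_of_chain'` from u-INDEPENDENT hypotheses**.

`h5_inst` : base DVR `A ⊂ K` (prime element `q` generating the maximal ideal, infinite residue
field), `F ⊇ K` finite over `K(j)`, the vertical valuation rings `W i` (over `A`, Gauss points at
`j`, NOEXT over `K(j)` in helper75's shape), the two FIXED frames `Bj`, `Bji` of the `j`-line with
their vertical height-one primes (helper80 `FrameInst`), and the LOCAL contract `hallj`, `hallji`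
(conclusion of helper47's dispatcher `LocDispatch.exists_locAt_all` on each frame, via helper11
`JFrameDispatch.hall_of_dispatch`) for every unit `u` of the class `U3`.  Then

  `∀ u3 ≠ 0, U3 u3 → (∀ P, m ∣ ord_P (τ u3)) → ∃ w ≠ 0, τ u3 = w ^ m`.

Inside: the recipe chart of `u3` (helper8 `exists_chart_of_isGaussAt`), `h, h⁻¹ ∈ W i`
(`chart_units`, from helper90 `IsGaussAt.of_rel`), NOEXT at the chart `h⁻¹` (helper90
`exists_le_of_isGaussExt_chart_inv`) upgraded to equality by DVR-maximality, uniform (FR2) for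
`B2 = icAlg A {h⁻¹}` (`exists_fr2_chartRing`, from helper80 `exists_pow_le_span`) and for the
overlap `B12 = B2[h]` (`fr2_overlap_of_chartRing`), then `H5Chart.h5_of_chart`.

The only non-geometric hypothesis left is `hfin` (CHART-FIN: `h`, `h⁻¹` transcendental over `K`
and `F` finite over `K(h)`, `K(h⁻¹)`), in hypothesis form.
-/
import Mathlib
import Fermat.Agent.GL.Final.H5Chart
import Fermat.Agent.GL.Frame.ChartExistsGauss
import Fermat.Agent.GL.Frame.FrameInst
import Fermat.Agent.GL.Frame.JFrameDispatch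

set_option autoImplicit false
set_option linter.unusedSectionVars false

noncomputable section

namespace Fermat.Agent.GL.Final.H5

open AlgebraicCurve ModularCurve Polynomial IntermediateField
open Fermat.Agent.GL.ChartChange Fermat.Agent.GL.Gate Fermat.Agent.GL.GaussAt
open Fermat.Agent.GL.GaussExtBridge

local notation "Kbar" => AlgebraicClosure ℚ

section Units

variable {K F : Type*} [Field K] [Field F] [Algebra K F]
variable {A : ValuationSubring K} {V : ValuationSubring F}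

/-- a Gauss point at `j` is a Gauss point at `j₁ = 1/(j - t₀)`. -/
theorem isGaussAt_inv_sub (hV : ∀ a : K, algebraMap K F a ∈ V ↔ a ∈ A) {j j1 : F}
    (hG : IsGaussAt A V j) (t0 : A) (hj1 : j1 * (j - algebraMap K F t0) = 1) :
    IsGaussAt A V j1 := by
  -- Gauss at `j - t₀`
  have h1 : IsGaussAt A V (j - algebraMap K F t0) := by
    refine hG.of_rel hV (X + C t0) (1 : A[X]) 0 1 1 ?_ ?_ (Or.inl ?_) (by ring) ?_
    · exact (natDegree_X_add_C t0).le
    · rw [natDegree_one]; exact Nat.zero_le _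
    · rw [coeff_add, coeff_X_one, coeff_C, if_neg one_ne_zero, add_zero]
      exact isUnit_one
    · rw [Polynomial.map_one, map_one, mul_one, Polynomial.map_add, map_X, map_C, map_add,
        aeval_X, aeval_C]
      change j = j - algebraMap K F t0 + algebraMap K F ((t0 : A) : K)
      ring
  refine h1.of_mul_sub_eq_one hV (0 : A) ?_
  rw [ZeroMemClass.coe_zero, map_zero, sub_zero, mul_comm]
  exact hj1

/-- **the recipe chart is a vertical unit**: `h, h⁻¹ ∈ V` at every Gauss point `V` at `j`. -/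
theorem chart_units (hV : ∀ a : K, algebraMap K F a ∈ V ↔ a ∈ A) {j j1 h : F}
    (hG : IsGaussAt A V j) (P1 : A[X]) (hP1 : P1.Monic) (t0 t2 : A)
    (hj1 : j1 * (j - algebraMap K F t0) = 1)
    (hh : h * aeval j1 (P1.map A.subtype) = (j1 - algebraMap K F t2) ^ (P1.natDegree + 1)) :
    h ∈ V ∧ h⁻¹ ∈ V := by
  have hG1 := isGaussAt_inv_sub hV hG t0 hj1
  have hv1 : V.valuation (aeval j1 (P1.map A.subtype)) = 1 :=
    hG1.2 P1 ⟨P1.natDegree, by rw [hP1.coeff_natDegree]; exact isUnit_one⟩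
  have hv2 : V.valuation (j1 - algebraMap K F t2) = 1 := by
    have := hG1.2 (X - C t2) ⟨1, by
      rw [coeff_sub, coeff_X_one, coeff_C, if_neg one_ne_zero, sub_zero]; exact isUnit_one⟩
    rwa [Polynomial.map_sub, map_X, map_C, map_sub, aeval_X, aeval_C] at this
  have hv : V.valuation h = 1 := by
    have := congrArg V.valuation hh
    rwa [map_mul, hv1, mul_one, map_pow, hv2, one_pow] at this
  constructor
  · exact (V.valuation_le_one_iff h).mp hv.le
  · apply (V.valuation_le_one_iff h⁻¹).mp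
    rw [map_inv₀, hv, inv_one]

end Units

section FR2

open Fermat.Agent.GL.Frame.Inst Fermat.Agent.GL.Frame.HeightOne Fermat.Agent.GL.IntClosureSplit

variable {K F : Type*} [Field K] [Field F] [Algebra K F]
variable {A : ValuationSubring K} [Algebra A F] [IsScalarTower A K F] [IsNoetherianRing A]
  [UniqueFactorizationMonoid A]

/-- **(FR2), uniform, for a chart ring** `B_t = icAlg A {t}`: if every Gauss extension at `t` is
one of the `W i`, a product of `e` elements of `B_t` lying in every `𝔪(W i)` is divisible by `q`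
in `B_t`. -/
theorem exists_fr2_chartRing {q : A} (hq : Prime q) {κ : Type*} (W : κ → ValuationSubring F)
    (t : F) (ht : Transcendental A t) [FiniteDimensional K⟮t⟯ F] [Algebra.IsSeparable K⟮t⟯ F]
    (hnoext : ∀ V : ValuationSubring F, IsGaussExt q t V → ∃ i, W i = V) :
    ∃ e : ℕ, ∀ f : Fin e → F,
      (∀ i, f i ∈ icAlg A ({t} : Set F) ∧ ∀ k, f i ∈ (W k).nonunits) →
        ∃ z ∈ icAlg A ({t} : Set F), ∏ i, f i = algebraMap A F q * z := by
  have := isNoetherianRing_chartRing (R := A) (K := K) t ht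
  have := isIntegrallyClosed_chartRing (R := A) (K := K) t ht
  have := isFractionRing_chartRing (R := A) (K := K) t ht
  have hqB : baseB t q ≠ 0 := baseB_ne_zero (K := K) t hq.ne_zero
  obtain ⟨e, he⟩ := exists_pow_le_span hqB
  refine ⟨e, fun f hf => ?_⟩
  set I : Ideal (chartRing A t) := ⨅ p ∈ vertFinset hqB, (p : HtOne (chartRing A t)).1 with hI
  have hmem : ∀ i, (⟨f i, (hf i).1⟩ : chartRing A t) ∈ I := by
    intro i
    rw [hI, Ideal.mem_iInf]
    intro p
    rw [Ideal.mem_iInf]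
    intro hp
    obtain ⟨k, hk⟩ := hnoext _ (isGaussExt_V1 (K := K) t ht hq ((mem_vertFinset hqB p).1 hp))
    rw [mem_htOne_iff, ← hk]
    exact (hf i).2 k
  have hprod : ∏ i, (⟨f i, (hf i).1⟩ : chartRing A t) ∈ I ^ e := by
    have := Ideal.prod_mem_prod (s := Finset.univ) (I := fun _ : Fin e => I)
      (x := fun i => (⟨f i, (hf i).1⟩ : chartRing A t)) (fun i _ => hmem i)
    rwa [Finset.prod_const, Finset.card_univ, Fintype.card_fin] at this
  have h1 := he hprod
  rw [Ideal.mem_span_singleton] at h1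
  obtain ⟨y, hy⟩ := h1
  refine ⟨(y : F), y.2, ?_⟩
  have h2 := congrArg (fun b : chartRing A t => (b : F)) hy
  simp only [Subring.coe_mul, coe_baseB] at h2
  rw [← h2]
  exact (map_prod (chartRing A t).subtype
    (fun i => (⟨f i, (hf i).1⟩ : chartRing A t)) Finset.univ).symm

omit [IsNoetherianRing A] [UniqueFactorizationMonoid A] [IsScalarTower A K F] in
/-- (FR2) passes from `B2 = icAlg A {h⁻¹}` to the overlap `B12 = icAlg A {h, h⁻¹} = B2[h]`. -/
theorem fr2_overlap_of_chartRing {q : A} {κ : Type*} (W : κ → ValuationSubring F) {h : F}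
    (hh0 : h ≠ 0) (hhW' : ∀ k, h⁻¹ ∈ W k) (e : ℕ)
    (he : ∀ f : Fin e → F,
      (∀ i, f i ∈ icAlg A ({h⁻¹} : Set F) ∧ ∀ k, f i ∈ (W k).nonunits) →
        ∃ z ∈ icAlg A ({h⁻¹} : Set F), ∏ i, f i = algebraMap A F q * z)
    (f : Fin e → F) (hf : ∀ i, f i ∈ radW W (icAlg A ({h, h⁻¹} : Set F))) :
    ∃ z ∈ icAlg A ({h, h⁻¹} : Set F), ∏ i, f i = algebraMap A F q * z := by
  choose n hn using fun i => exists_forall_pow_mul_mem_B2 (R0 := A) hh0 (hf i).1
  obtain ⟨z, hz, hprod⟩ := he (fun i => (h⁻¹) ^ (n i) * f i) (fun i =>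
    ⟨hn i (n i) le_rfl, fun k =>
      mul_mem_nonunits_of_mem (pow_mem (hhW' k) (n i)) ((hf i).2 k)⟩)
  rw [Finset.prod_mul_distrib, Finset.prod_pow_eq_pow_sum] at hprod
  refine ⟨h ^ (∑ i, n i) * z, mul_mem (pow_mem (B1_le_B12 h (h_mem_B1 h)) _) (B2_le_B12 h hz), ?_⟩
  have hk : h ^ (∑ i, n i) * (h⁻¹) ^ (∑ i, n i) = 1 := by
    rw [← mul_pow, mul_inv_cancel₀ hh0, one_pow]
  calc ∏ i, f i = (h ^ (∑ i, n i) * (h⁻¹) ^ (∑ i, n i)) * ∏ i, f i := by rw [hk, one_mul]
    _ = h ^ (∑ i, n i) * ((h⁻¹) ^ (∑ i, n i) * ∏ i, f i) := by ring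
    _ = h ^ (∑ i, n i) * (algebraMap A F q * z) := by rw [hprod]
    _ = algebraMap A F q * (h ^ (∑ i, n i) * z) := by ring

end FR2

section Main

open Fermat.Agent.GL.Frame.Inst Fermat.Agent.GL.Frame.HeightOne Fermat.Agent.GL.IntClosureSplit
  Fermat.Agent.GL.LocGlue Fermat.Agent.GL.Frame.ChartExistsGauss Fermat.Agent.GL.Frame.Chart
  Fermat.Agent.GL.Frame.JFrameDispatch

variable {K F : Type*} [Field K] [CharZero K] [Field F] [Algebra K F]
variable {A : ValuationSubring K} [Algebra A F] [IsScalarTower A K F] [IsNoetherianRing A]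
  [UniqueFactorizationMonoid A] [Infinite (IsLocalRing.ResidueField A)]
variable {N : ℕ} [NeZero N]

/-- **(H5), u-independent form.**  Conclusion = the (H5) binder of helper24
`ChainAbs.k0UnitGateQ_of_chain'` (for the class of units `U3`). -/
theorem h5_inst (τ : F →+* modularFunctionFieldBar N)
    (hR0 : ∀ (r : A) (P : Place Kbar (modularFunctionFieldBar N)),
      τ (algebraMap A F r) ∈ P.toValuationSubring)
    {q : A} (hq : Prime q) (hgen : ∀ a : A, ¬ IsUnit a → q ∣ a)
    {j : F} (hjt : Transcendental K j) [FiniteDimensional K⟮j⟯ F]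
    {κ : Type*} (W : κ → ValuationSubring F)
    (hWover : ∀ i, ∀ a : K, algebraMap K F a ∈ W i ↔ a ∈ A)
    (hWG : ∀ i, IsGaussAt A (W i) j) (i₀ : κ)
    (hnoext : ∀ V : ValuationSubring F, (∀ y ∈ K⟮j⟯, y ∈ V ↔ y ∈ W i₀) → ∃ i, V = W i)
    -- chart finiteness (CHART-FIN), hypothesis form
    (hfin : ∀ (t0 t2 : A) (P1 : A[X]) (h : F), P1.Monic →
      j - algebraMap A F t0 ≠ 0 → aeval (j - algebraMap A F t0)⁻¹ P1 ≠ 0 →
      h * aeval (j - algebraMap A F t0)⁻¹ P1 =
        ((j - algebraMap A F t0)⁻¹ - algebraMap A F t2) ^ (P1.natDegree + 1) →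
      (j - algebraMap A F t0)⁻¹ ≠ algebraMap A F t2 →
      Transcendental K h ∧ FiniteDimensional K⟮h⟯ F ∧
        Transcendental K h⁻¹ ∧ FiniteDimensional K⟮h⁻¹⟯ F)
    -- the two frames of the `j`-line
    {Bj Bji : Subring F}
    [IsFractionRing Bj F] [IsNoetherianRing Bj] [IsIntegrallyClosed Bj]
    [IsFractionRing Bji F] [IsNoetherianRing Bji] [IsIntegrallyClosed Bji]
    (hBj : IsChartRing A j Bj) (hBji : IsChartRing A j⁻¹ Bji)
    (vertj : Finset (HtOne Bj)) (hWj : ∀ i, ∃ p ∈ vertj, V1 F p = W i)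
    (vertji : Finset (HtOne Bji)) (hWji : ∀ i, ∃ p ∈ vertji, V1 F p = W i)
    -- moduli
    (m m'' : ℕ) (hm : m ≠ 0) (hmq : q ∣ ((1 + m * m'' : ℕ) : A))
    -- the class of units and the local contracts
    (U3 : F → Prop) (hU3W : ∀ u, U3 u → ∀ i, u - 1 ∈ (W i).nonunits)
    (hallj : ∀ u : F, u ≠ 0 → U3 u →
      (∀ P : Place Kbar (modularFunctionFieldBar N), (m : ℤ) ∣ P.ord (τ u)) →
      ∀ 𝔫 : Ideal Bj, 𝔫.IsMaximal →
        ∃ g ∈ (⊤ : Subring F), g ^ m * u ∈ Bj ∧ LocAt (V1 (B := Bj) F) Bj ⊤ vertj 𝔫 g)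
    (hallji : ∀ u : F, u ≠ 0 → U3 u →
      (∀ P : Place Kbar (modularFunctionFieldBar N), (m : ℤ) ∣ P.ord (τ u)) →
      ∀ 𝔫 : Ideal Bji, 𝔫.IsMaximal →
        ∃ g ∈ (⊤ : Subring F), g ^ m * u ∈ Bji ∧ LocAt (V1 (B := Bji) F) Bji ⊤ vertji 𝔫 g) :
    ∀ u3 : F, u3 ≠ 0 → U3 u3 →
      (∀ P : Place Kbar (modularFunctionFieldBar N), (m : ℤ) ∣ P.ord (τ u3)) →
      ∃ w : modularFunctionFieldBar N, w ≠ 0 ∧ τ u3 = w ^ m := by
  intro u hu0 hU3 hdiv
  -- the frames are the model frames
  have hBjeq : Bj = (icAlg A ({j} : Set F)).toSubring := by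
    ext f; exact hBj f
  have hBjieq : Bji = (icAlg A ({j⁻¹} : Set F)).toSubring := by
    ext f; exact hBji f
  subst hBjeq
  subst hBjieq
  have hκ : Nonempty κ := ⟨i₀⟩
  -- `u` is a vertical unit
  have huW : ∀ i, u ∈ W i ∧ u⁻¹ ∈ W i := fun i => inv_mem_of_sub_one_mem (hU3W u hU3 i)
  -- the chart
  have hjtA : Transcendental A j :=
    hjt.restrictScalars (IsFractionRing.injective A K)
  have : Algebra.IsAlgebraic K⟮j⟯ F := Algebra.IsAlgebraic.of_finite _ _
  have : Algebra.IsAlgebraic (Algebra.adjoin A {j}) F := isAlgebraic_adjoin_of_adjoin_simple j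
  obtain ⟨t0, t2, P1, hP1, hu', hjt0, hP10, hchart⟩ :=
    exists_chart_of_isGaussAt hq hgen hjtA W hWover (fun i => (hWG i).mem) i₀ (hWG i₀) hnoext
      (fun i => (huW i).1) (fun i => (huW i).2)
  set j1 : F := (j - algebraMap A F t0)⁻¹ with hj1def
  set h : F := (j1 - algebraMap A F t2) ^ (P1.natDegree + 1) / aeval j1 P1 with hhdef
  have hj1 : j1 * (j - algebraMap A F t0) = 1 := inv_mul_cancel₀ hjt0
  have hh' : h * aeval j1 P1 = (j1 - algebraMap A F t2) ^ (P1.natDegree + 1) :=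
    div_mul_cancel₀ _ hP10
  -- in the `K`-language of helper90
  have hj1K : j1 * (j - algebraMap K F (t0 : K)) = 1 := by rw [← GaussExtBridge.algebraMap_eq]; exact hj1
  have hhK : h * aeval j1 (P1.map A.subtype) =
      (j1 - algebraMap K F (t2 : K)) ^ (P1.natDegree + 1) := by
    rw [aeval_map_subtype, ← GaussExtBridge.algebraMap_eq]; exact hh'
  have hG1 : IsGaussAt A (W i₀) j1 := isGaussAt_inv_sub (hWover i₀) (hWG i₀) t0 hj1K
  have hne : j1 ≠ algebraMap A F t2 := by
    intro h0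
    have := hG1.2 (X - C t2) ⟨1, by
      rw [coeff_sub, coeff_X_one, coeff_C, if_neg one_ne_zero, sub_zero]; exact isUnit_one⟩
    rw [Polynomial.map_sub, map_X, map_C, map_sub, aeval_X, aeval_C] at this
    change (W i₀).valuation (j1 - algebraMap K F (t2 : K)) = 1 at this
    rw [← GaussExtBridge.algebraMap_eq, h0, sub_self, map_zero] at this
    exact zero_ne_one this
  have hh0 : h ≠ 0 := by
    rw [hhdef]
    exact div_ne_zero (pow_ne_zero _ (sub_ne_zero.mpr hne)) hP10
  have hunits : ∀ i, h ∈ W i ∧ h⁻¹ ∈ W i := fun i =>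
    chart_units (hWover i) (hWG i) P1 hP1 t0 t2 hj1K hhK
  obtain ⟨ht1, hfd1, ht2, hfd2⟩ := hfin t0 t2 P1 h hP1 hjt0 hP10 hh' hne
  -- `u, u⁻¹ ∈ B1`
  have hB1 := hchart h hh' (icAlg A ({h} : Set F)).toSubring
    (fun z hz => icAlg_closed (R0 := A) hz) (fun r => (icAlg A ({h} : Set F)).algebraMap_mem r)
    (h_mem_B1 h)
  -- basic facts on `W`
  have hRW : ∀ i (r : A), algebraMap A F r ∈ W i := fun i r => by
    rw [GaussExtBridge.algebraMap_eq]; exact (hWover i _).mpr r.2
  have hqW : ∀ i, algebraMap A F q ∈ (W i).nonunits := fun i => by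
    rw [ValuationSubring.mem_nonunits_iff]
    have h1 : (W i).valuation (algebraMap A F q) ≤ 1 :=
      ((W i).valuation_le_one_iff _).mpr (hRW i q)
    refine lt_of_le_of_ne h1 ?_
    rw [GaussExtBridge.algebraMap_eq]
    intro h2
    rw [valuation_algebraMap_eq_one_iff (hWover i)] at h2
    exact hq.not_isUnit ((A.valuation_eq_one_iff q).mpr h2)
  have hqmax : (Ideal.span {q}).IsMaximal := by
    rw [← maximalIdeal_eq_span hq.not_isUnit hgen]
    exact IsLocalRing.maximalIdeal.isMaximal A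
  -- (FR2)
  have hnoext' : ∀ V : ValuationSubring F, IsGaussExt q h⁻¹ V → ∃ i, W i = V := by
    intro V hV
    obtain ⟨i, hi⟩ := exists_le_of_isGaussExt_chart_inv W hq.not_isUnit hgen hh0 P1 t0 t2 hu'
      (P1.natDegree + 1) (Nat.le_succ _) hhK hj1K i₀ (hWover i₀) (hWG i₀) hnoext V hV
    obtain ⟨p, -, hp⟩ := hWj i
    refine ⟨i, ?_⟩
    have hVtop : V ≠ ⊤ := by
      intro htop
      have h1 := (hV.2 (C q)).mpr (dvd_refl _)
      rw [aeval_C, ValuationSubring.mem_nonunits_iff] at h1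
      have h2 : (algebraMap A F q)⁻¹ ∈ V := by rw [htop]; exact ValuationSubring.mem_top _
      have h3 := (V.valuation_le_one_iff _).mpr h2
      rw [map_inv₀] at h3
      have h4 : V.valuation (algebraMap A F q) ≠ 0 := by
        rw [ne_eq, map_eq_zero]
        intro h0
        rw [GaussExtBridge.algebraMap_eq] at h0
        have : (q : K) = 0 := (map_eq_zero (algebraMap K F)).mp h0
        exact hq.ne_zero (Subtype.ext this)
      have h5 : (1 : _) ≤ V.valuation (algebraMap A F q) := by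
        rwa [inv_le_one₀ (zero_lt_iff.mpr h4)] at h3
      exact absurd h1 (not_lt.mpr h5)
    rw [← hp] at hi ⊢
    exact (eq_V1_of_le p V hi hVtop).symm
  have := hfd2
  obtain ⟨e, he⟩ := exists_fr2_chartRing hq W h⁻¹
    (ht2.restrictScalars (IsFractionRing.injective A K)) hnoext'
  have := hfd1
  -- conclude
  refine h5_of_chart (R0 := A) (L0 := K) τ hR0 q hqmax W hRW hqW P1 t0 t2 hu' hj1 hh' hne hh0
    (fun i => (hunits i).1) (fun i => (hunits i).2) (fun i => (hWG i).mem) (fun i => ?_)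
    ht1 ht2 m m'' hm hmq u hu0 hB1.2.1 (B1_le_B12 h hB1.2.2) (hU3W u hU3) e
    (fr2_overlap_of_chartRing W hh0 (fun k => (hunits k).2) e he) ?_ ?_
  · -- `j⁻¹ ∈ W i`
    have := (hWG i).2 X ⟨1, by rw [coeff_X_one]; exact isUnit_one⟩
    rw [map_X, aeval_X] at this
    apply ((W i).valuation_le_one_iff _).mp
    rw [map_inv₀, this, inv_one]
  · intro n n' _ hn' _ _ _
    exact hlocj_of_hall W vertj hWj n' (hallj u hu0 hU3 hdiv n' hn')
  · intro n n' _ hn' _ _ _
    exact hlocj_of_hall W vertji hWji n' (hallji u hu0 hU3 hdiv n' hn')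

end Main

end Fermat.Agent.GL.Final.H5
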