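/-
GATE-L / L-INT, H5 ARM, (O2) of helper56 3093 (helper11): **(FR2) `rad ^ e ⊆ q0 B12` with a UNIFORM
exponent**, i.e. the binder `hrade` of `H5.h5_of_chart` VERBATIM.

No `hdiv`, no bound on the ramification indices: in the noetherian normal chart ring `B2` the ideal
`I = ⋂ {vertical height-one primes}` is the radical of `q B2`, hence `I ^ e ⊆ q B2` for some `e`
(helper80 `Inst.exists_pow_le_span`); an element of `B12 = B2[1/s]` (`s = h⁻¹`) which is a non-unit
of every vertical valuation ring lands in `I` after multiplication by a power of `s`.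

* `exists_prod_eq_mul` : generic (`B ≤ B12` subrings of `F`, `s ∈ B` invertible in `B12`,
  `hclear`, vertical valuation rings `W i` exhausting the height-one primes of `B` through `π`).
* `exists_hrade` : the `icAlg` instance, conclusion = `∃ e, hrade` of `h5_of_chart`.
* `exists_hrade_of_noext` : the same from the L1e list (`hW`, `hnoext`) of helper80 `FrameInst`.
-/
import Fermat.Agent.GL.Final.H5Chart
import Fermat.Agent.GL.Frame.FrameInst

set_option autoImplicit false
set_option linter.unusedSectionVars false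

noncomputable section

namespace Fermat.Agent.GL.Final.H5Rade

open Fermat.Agent.GL.KrullHeightOne Fermat.Agent.GL.Frame.HeightOne Fermat.Agent.GL.Frame.Inst
open Fermat.Agent.GL.Final.H5

section Generic

variable {F : Type*} [Field F] {B : Subring F} [IsFractionRing B F] [IsNoetherianRing B]
  [IsIntegrallyClosed B]

/-- **(FR2), uniform exponent, for a localisation `B12 = B[1/s]` of a noetherian normal `B`.** -/
theorem exists_prod_eq_mul (B12 : Subring F) (hle : B ≤ B12) {s sinv : F} (hs : s ∈ B)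
    (hsinv : sinv ∈ B12) (hss : s * sinv = 1)
    (hclear : ∀ z ∈ B12, ∃ n : ℕ, s ^ n * z ∈ B)
    {π : B} (hπ : π ≠ 0) {κ : Type*} (W : κ → ValuationSubring F)
    (hWB : ∀ i, ∀ b ∈ B, b ∈ W i)
    (hvert : ∀ p : HtOne B, π ∈ p.1 → ∃ i, V1 F p = W i) :
    ∃ e : ℕ, ∀ f : Fin e → F, (∀ k, f k ∈ B12 ∧ ∀ i, f k ∈ (W i).nonunits) →
      ∃ z ∈ B12, ∏ k, f k = (π : F) * z := by
  classical
  obtain ⟨e, he⟩ := exists_pow_le_span (B := B) hπ
  refine ⟨e, fun f hf => ?_⟩
  -- clear the denominators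
  choose n hn using fun k => hclear (f k) (hf k).1
  set b : Fin e → B := fun k => ⟨s ^ n k * f k, hn k⟩ with hb
  -- each `b k` lies in the intersection of the vertical primes
  have hbI : ∀ k, b k ∈ ⨅ p ∈ vertFinset hπ, (p : HtOne B).1 := by
    intro k
    rw [Ideal.mem_iInf]
    intro p
    rw [Ideal.mem_iInf]
    intro hp
    obtain ⟨i, hi⟩ := hvert p ((mem_vertFinset hπ p).1 hp)
    rw [← algebraMap_mem_nonunits_V1_iff (F := F) p (b k), hi]
    show s ^ n k * f k ∈ (W i).nonunits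
    exact mul_mem_nonunits_of_mem ((W i).pow_mem (hWB i s hs) _) ((hf k).2 i)
  -- the product lies in `I ^ e ⊆ (π)`
  have hprod : ∏ k, b k ∈ (⨅ p ∈ vertFinset hπ, (p : HtOne B).1) ^ e := by
    have h1 := Ideal.prod_mem_prod (s := (Finset.univ : Finset (Fin e)))
      (I := fun _ => ⨅ p ∈ vertFinset hπ, (p : HtOne B).1) (x := b) (fun k _ => hbI k)
    rwa [Finset.prod_const, Finset.card_univ, Fintype.card_fin] at h1
  obtain ⟨y, hy⟩ := Ideal.mem_span_singleton'.mp (he hprod)
  -- back in `F`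
  have hyF : (∏ k, (s ^ n k * f k)) = (y : F) * (π : F) := by
    have := congrArg (fun x : B => (x : F)) hy
    simp only [Subring.coe_mul] at this
    rw [this]
    have h2 : ((∏ k, b k : B) : F) = ∏ k, ((b k : B) : F) := by
      rw [← Subring.coe_subtype, map_prod]
    rw [h2]
  rw [Finset.prod_mul_distrib, Finset.prod_pow_eq_pow_sum] at hyF
  refine ⟨(y : F) * sinv ^ (∑ k, n k), B12.mul_mem (hle y.2) (B12.pow_mem hsinv _), ?_⟩
  have hpow : s ^ (∑ k, n k) * sinv ^ (∑ k, n k) = 1 := by rw [← mul_pow, hss, one_pow]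
  calc ∏ k, f k = (s ^ (∑ k, n k) * sinv ^ (∑ k, n k)) * ∏ k, f k := by rw [hpow, one_mul]
    _ = sinv ^ (∑ k, n k) * (s ^ (∑ k, n k) * ∏ k, f k) := by ring
    _ = sinv ^ (∑ k, n k) * ((y : F) * (π : F)) := by rw [hyF]
    _ = (π : F) * ((y : F) * sinv ^ (∑ k, n k)) := by ring

end Generic

section IcAlg

variable {R0 F0 : Type*} [CommRing R0] [Field F0] [Algebra R0 F0]

/-- **the `hrade` binder of `H5.h5_of_chart`, VERBATIM** (with its exponent `e`).  Frame inputs: the
three instances on the chart ring `B2 = (icAlg R0 {h⁻¹}).toSubring` (helper80 `FrameInst` (A1)) and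
`hvert` : every height-one prime of `B2` through `q0` has valuation ring one of the `W i`
(helper80 `exists_eq_of_mem_vertFinset`, i.e. L1e NOEXT for the chart `t = h⁻¹`). -/
theorem exists_hrade {h : F0} (hh0 : h ≠ 0)
    [IsFractionRing (icAlg R0 ({h⁻¹} : Set F0)).toSubring F0]
    [IsNoetherianRing (icAlg R0 ({h⁻¹} : Set F0)).toSubring]
    [IsIntegrallyClosed (icAlg R0 ({h⁻¹} : Set F0)).toSubring]
    (q0 : R0) (hq0 : algebraMap R0 F0 q0 ≠ 0)
    {κ : Type*} (W : κ → ValuationSubring F0)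
    (hRW : ∀ i (r : R0), algebraMap R0 F0 r ∈ W i) (hhW' : ∀ i, h⁻¹ ∈ W i)
    (hvert : ∀ p : HtOne (icAlg R0 ({h⁻¹} : Set F0)).toSubring,
      (⟨algebraMap R0 F0 q0, (icAlg R0 ({h⁻¹} : Set F0)).algebraMap_mem q0⟩ :
        (icAlg R0 ({h⁻¹} : Set F0)).toSubring) ∈ p.1 → ∃ i, V1 F0 p = W i) :
    ∃ e : ℕ, ∀ f : Fin e → F0, (∀ i, f i ∈ radW W (icAlg R0 ({h, h⁻¹} : Set F0))) →
      ∃ z ∈ icAlg R0 ({h, h⁻¹} : Set F0), ∏ i, f i = algebraMap R0 F0 q0 * z := by
  have hπ : (⟨algebraMap R0 F0 q0, (icAlg R0 ({h⁻¹} : Set F0)).algebraMap_mem q0⟩ :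
      (icAlg R0 ({h⁻¹} : Set F0)).toSubring) ≠ 0 := fun h0 => hq0 (congrArg Subtype.val h0)
  have hle : (icAlg R0 ({h⁻¹} : Set F0)).toSubring ≤ (icAlg R0 ({h, h⁻¹} : Set F0)).toSubring :=
    fun x hx => icAlg_mono (s := ({h⁻¹} : Set F0)) (t := ({h, h⁻¹} : Set F0))
      (by intro y hy; rw [Set.mem_singleton_iff.1 hy]; exact Set.mem_insert_of_mem _ rfl) hx
  obtain ⟨e, he⟩ := exists_prod_eq_mul (B := (icAlg R0 ({h⁻¹} : Set F0)).toSubring)
    (icAlg R0 ({h, h⁻¹} : Set F0)).toSubring hle (s := h⁻¹) (sinv := h)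
    (subset_icAlg (Set.mem_singleton _))
    (subset_icAlg (Set.mem_insert _ _)) (inv_mul_cancel₀ hh0)
    (fun z hz => exists_pow_mul_mem (mul_inv_cancel₀ hh0) hz)
    hπ W
    (fun i b hb => icAlg_le_valuationSubring (W i) (hRW i)
      (fun x hx => by rw [Set.mem_singleton_iff.1 hx]; exact hhW' i) hb)
    hvert
  exact ⟨e, fun f hf => he f hf⟩

end IcAlg

section NoExt

open Polynomial Fermat.Agent.GL.IntClosureSplit

variable {R K F : Type*} [CommRing R] [IsDomain R] [Field K] [Field F]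
  [Algebra R K] [IsFractionRing R K] [Algebra K F] [Algebra R F] [IsScalarTower R K F]
  [IsNoetherianRing R] [UniqueFactorizationMonoid R]

/-- **`hrade` from L1e (NOEXT) for the chart `t = h⁻¹`, ONE call**: inputs = helper80 `FrameInst`
context (`R = R0 A`, `K = K0 A`, `F = K₀(X₀(N))`) + the list `W` of ALL Gauss extensions. -/
theorem exists_hrade_of_noext {h : F} (hh0 : h ≠ 0) (ht : Transcendental R h⁻¹)
    {q : R} (hq : Prime q)
    [FiniteDimensional (IntermediateField.adjoin K {h⁻¹}) F]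
    [Algebra.IsSeparable (IntermediateField.adjoin K {h⁻¹}) F]
    {ι : Type*} (W : ι → ValuationSubring F) (hW : ∀ i, IsGaussExt q h⁻¹ (W i))
    (hnoext : ∀ V : ValuationSubring F, IsGaussExt q h⁻¹ V → ∃ i, W i ≤ V) :
    ∃ e : ℕ, ∀ f : Fin e → F, (∀ i, f i ∈ radW W (icAlg R ({h, h⁻¹} : Set F))) →
      ∃ z ∈ icAlg R ({h, h⁻¹} : Set F), ∏ i, f i = algebraMap R F q * z := by
  have i1' : IsNoetherianRing (chartRing R h⁻¹) := isNoetherianRing_chartRing (K := K) h⁻¹ ht
  have i2' : IsIntegrallyClosed (chartRing R h⁻¹) := isIntegrallyClosed_chartRing (K := K) h⁻¹ ht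
  have i3' : IsFractionRing (chartRing R h⁻¹) F := isFractionRing_chartRing (K := K) h⁻¹ ht
  have i1 : IsNoetherianRing (icAlg R ({h⁻¹} : Set F)).toSubring := i1'
  have i2 : IsIntegrallyClosed (icAlg R ({h⁻¹} : Set F)).toSubring := i2'
  have i3 : IsFractionRing (icAlg R ({h⁻¹} : Set F)).toSubring F := i3'
  have hqF : algebraMap R F q ≠ 0 := by
    intro h0
    apply hq.ne_zero
    apply algebraMap_base_injective (K := K) (F := F)
    rw [map_zero]
    exact h0
  have hqB : baseB (R := R) h⁻¹ q ≠ 0 := baseB_ne_zero (K := K) h⁻¹ hq.ne_zero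
  refine exists_hrade (R0 := R) hh0 q hqF W (fun i r => ?_) (fun i => ?_) (fun p hp => ?_)
  · have := (hW i).1 (C r)
    rwa [aeval_C] at this
  · have := (hW i).1 X
    rwa [aeval_X] at this
  · exact exists_eq_of_mem_vertFinset (K := K) h⁻¹ ht hq W hW hnoext hqB
      ((mem_vertFinset hqB p).2 hp)

end NoExt

end Fermat.Agent.GL.Final.H5Rade
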