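/-
GATE-L / L-INT, H5 ARM, (O2) of helper56 (board 3093), by helper90 (twin of helper11 `H5Rade`,
explicit exponent `e = max e_i` from the ramification data):
the `(FR2)` binder `hrade` of `H5Chart.h5_of_chart` VERBATIM, from the frame (`hW` + `hnoext` in the
chart `h`, helper80 `FrameInst`) and the ramification data of the vertical valuations.

* `prod_div_mem_of_isRamified` : `IsRamified A q V ϖ e₀`, `e₀ ≤ e` ⟹ any `e` non-units of `V`
  multiply into `q V`;
* `hrade_of_frame` : the binder `hrade` of `h5_of_chart`, for `B12 = icAlg R ({h, h⁻¹})`;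
* `hrade_of_isRamified` : the same with the `e`-fold products discharged from `IsRamified`.
-/
import Mathlib
import Fermat.Agent.GL.Frame.FrameDiv
import Fermat.Agent.GL.Final.H5Chart
import Fermat.Agent.GL.MultiVal.RamFamily

set_option autoImplicit false
set_option linter.unusedSectionVars false

open Polynomial IntermediateField

namespace Fermat.Agent.GL.Final.H5RadeRam

open Fermat.Agent.GL.KrullHeightOne Fermat.Agent.GL.Frame.HeightOne Fermat.Agent.GL.Frame.Vertical
open Fermat.Agent.GL.IntClosureSplit Fermat.Agent.GL.Frame.Inst Fermat.Agent.GL.Frame.Div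
open Fermat.Agent.GL.Final.H5 Fermat.Agent.GL.MultiVal

/-! ### `e` non-units multiply into `q V` -/

section Ram

variable {K' F : Type*} [Field K'] [Field F] [Algebra K' F]
  {A : ValuationSubring K'} {q : K'} {V : ValuationSubring F} {ϖ : F} {e₀ : ℕ}

/-- `𝔪_V ^ e ⊆ q V` for `e ≥ e₀`, product form. -/
theorem prod_div_mem_of_isRamified (hR : IsRamified A q V ϖ e₀) (hq0 : q ≠ 0) {e : ℕ}
    (he : e₀ ≤ e) (f : Fin e → F) (hf : ∀ k, f k ∈ V.nonunits) :
    (∏ k, f k) / algebraMap K' F q ∈ V :=
  prod_div_mem_of_ram V ϖ (algebraMap K' F q) ((_root_.map_ne_zero _).2 hq0) he hR.lt_one.le hR.pow_eq f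
    fun k => hR.gen _ ((ValuationSubring.mem_nonunits_iff _).1 (hf k))

end Ram

/-! ### the binder `hrade` -/

section Rade

variable {R K F : Type*} [CommRing R] [IsDomain R] [Field K] [Field F]
  [Algebra R K] [IsFractionRing R K] [Algebra K F] [Algebra R F] [IsScalarTower R K F]
  [IsNoetherianRing R] [UniqueFactorizationMonoid R]
  (h : F) (ht : Transcendental R h) {q0 : R} (hq : Prime q0)

variable [IsNoetherianRing (chartRing R h)] [IsIntegrallyClosed (chartRing R h)]
  [IsFractionRing (chartRing R h) F]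

variable {κ : Type*} (W : κ → ValuationSubring F) (hW : ∀ i, IsGaussExt q0 h (W i))
  (hnoext : ∀ V : ValuationSubring F, IsGaussExt q0 h V → ∃ i, W i ≤ V)

include K ht hq hW hnoext in
/-- **the `(FR2)` binder `hrade` of `h5_of_chart`**, from the frame in the chart `h`. -/
theorem hrade_of_frame (hhW : ∀ i, h ∈ W i) {e : ℕ}
    (hram : ∀ i, ∀ f : Fin e → F, (∀ k, f k ∈ (W i).nonunits) →
      (∏ k, f k) / algebraMap R F q0 ∈ W i) :
    ∀ f : Fin e → F, (∀ i, f i ∈ radW W (icAlg R ({h, h⁻¹} : Set F))) →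
      ∃ z ∈ icAlg R ({h, h⁻¹} : Set F), ∏ i, f i = algebraMap R F q0 * z := by
  intro f hf
  have hqB : baseB h q0 ≠ 0 := baseB_ne_zero (K := K) h hq.ne_zero
  obtain ⟨z, hz, hprod⟩ := exists_prod_eq_mul_overlapRing (K := K) h ht hq W hW hnoext hqB hhW
    hram f (fun k => (hf k).1) (fun k i => (hf k).2 i)
  exact ⟨z, hz, hprod⟩

include K ht hq hW hnoext in
/-- **`hrade` from `IsRamified`**: the vertical valuations `W i` are ramified of index `e₀ i ≤ e`
above a valuation ring `A` of a subfield `K'` in which `q0` becomes `q'`. -/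
theorem hrade_of_isRamified (hhW : ∀ i, h ∈ W i) {K' : Type*} [Field K'] [Algebra K' F]
    {A : ValuationSubring K'} {q' : K'} (hq' : algebraMap K' F q' = algebraMap R F q0)
    {ϖ : κ → F} {e₀ : κ → ℕ} (hR : ∀ i, IsRamified A q' (W i) (ϖ i) (e₀ i)) {e : ℕ}
    (he : ∀ i, e₀ i ≤ e) :
    ∀ f : Fin e → F, (∀ i, f i ∈ radW W (icAlg R ({h, h⁻¹} : Set F))) →
      ∃ z ∈ icAlg R ({h, h⁻¹} : Set F), ∏ i, f i = algebraMap R F q0 * z := by
  have hq'0 : q' ≠ 0 := by
    intro h0
    have h1 : algebraMap R F q0 = 0 := by rw [← hq', h0, map_zero]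
    exact hq.ne_zero (algebraMap_base_injective (K := K) (F := F) (by rw [h1, map_zero]))
  refine hrade_of_frame (K := K) h ht hq W hW hnoext hhW fun i f hf => ?_
  rw [← hq']
  exact prod_div_mem_of_isRamified (hR i) hq'0 (he i) f hf

end Rade

end Fermat.Agent.GL.Final.H5RadeRam
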