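/-
GATE-L / L-INT, H5 ARM, K0 side conditions (helper8): helper56's `H5Inst.h5_inst` INSTANTIATED at
the concrete objects `A := R0 A`, `K := K0 A`, `F := F₀ = K₀(X₀(N))` (`N = M' q²`),
`j := OrthK0.jK0 A N`, `W := L1eAsmK0.W3 A h = ![w₁, w₂, w₃]`, with EVERY non-local, non-frame
hypothesis discharged:

* `hq hgen`          : `ChartInstK0.prime_q0`, `GaussK0.exists_eq_q0_mul`;
* instances          : DVR ⟹ noetherian, UFD (`ufm_R0`), infinite residue field, `isScalarTower_R0`;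
* `hjt`, finiteness  : `transcendental_jC_K0`, `OrthK0.finiteDimensional_jK0`;
* `hWover hWG`       : helper75 `L1eAsmK0.isRamified_W3_R0 … .mem_iff`, `isGaussAt_W3`;
* `hnoext`           : helper75 `L1eThm.exists_eq` (L1e is a theorem);
* `hfin`             : `ChartFin.chart_fin_hfin`;
* `hR0` (for `τ := toFN0 A N`) : constants lie in every place.

What is LEFT (hypotheses of `h5_inst_K0` / `h5_inst_toFN0`): the two frames `Bj`, `Bji` with
helper80's instances and vertical primes (`hBj hBji vertj hWj vertji hWji`), the modulus condition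
`hmq`, the class `U3` with `hU3W`, and the local contracts `hallj`, `hallji`.

PITFALL fixed here: for `B : Subring ↥(modularFunctionFieldFullC L N)` the instance
`Algebra ↥B ↥(modularFunctionFieldFullC L N)` is NOT found within the default
`synthInstance.maxHeartbeats` (the binders `[IsFractionRing Bj F₀]` do not even elaborate);
`instAlgebraSubringFullC` is the shortcut instance (`rfl`-equal to the generic
`Algebra.ofSubsemiring B`).
-/
import Fermat.Agent.GL.Final.H5Inst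
import Fermat.Agent.GL.Frame.ChartInstK0Thm
import Fermat.Agent.GL.Frame.ChartFin

set_option autoImplicit false

noncomputable section

namespace Fermat.Agent.GL.Final.H5SideK0

open AlgebraicCurve ModularCurve Polynomial IntermediateField
open Fermat.Agent.GL.ChartChange Fermat.Agent.GL.Gate Fermat.Agent.GL.GaussAt
open Fermat.Agent.GL.Frame.Inst Fermat.Agent.GL.Frame.HeightOne Fermat.Agent.GL.LocGlue
open Fermat.Agent.GL.Final.H5
open Fermat.Agent.GK.AL Fermat.Agent.GL.AL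
open Fermat.Agent.GL.Val.GaussK0 Fermat.Agent.GL.Val.OrthK0 Fermat.Agent.GL.Val.DegBase
open Fermat.Agent.GL.Val.L1eAsmK0 Fermat.Agent.GL.MultiVal.GaussBaseJ
open Fermat.Agent.GL.Frame.ChartInstK0 Fermat.Agent.GL.Frame.ChartFin
open Fermat.Agent.Common_helper32

local notation "Kbar" => AlgebraicClosure ℚ

/-- shortcut instance: TC does not find it within the default heartbeats at the concrete field. -/
instance instAlgebraSubringFullC {L : Type*} [Field L] {N : ℕ}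
    (B : Subring (modularFunctionFieldFullC L N)) : Algebra B (modularFunctionFieldFullC L N) :=
  Algebra.ofSubsemiring B

variable (A : ValuationSubring Qb) {N : ℕ} [NeZero N] {q M' : ℕ} [NeZero M']
  (hq : q.Prime) (hN : N = M' * q ^ 2) (hqM : ¬ q ∣ M')
  (hA : A.LiesOverPrime q) (h : HallDvd (q ^ 2) N)

local notation "F₀" => modularFunctionFieldFullC (K0 A) N

include hq hN hqM hA in
/-- **`h5_inst` at `K₀`**, any base extension `τ`. -/
theorem h5_inst_K0 (τ : F₀ →+* modularFunctionFieldBar N)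
    (hR0 : ∀ (r : R0 A) (P : Place Kbar (modularFunctionFieldBar N)),
      τ (algebraMap (R0 A) F₀ r) ∈ P.toValuationSubring)
    {Bj Bji : Subring F₀}
    [IsFractionRing Bj F₀] [IsNoetherianRing Bj] [IsIntegrallyClosed Bj]
    [IsFractionRing Bji F₀] [IsNoetherianRing Bji] [IsIntegrallyClosed Bji]
    (hBj : IsChartRing (R0 A) (jK0 A N) Bj) (hBji : IsChartRing (R0 A) (jK0 A N)⁻¹ Bji)
    (vertj : Finset (HtOne Bj)) (hWj : ∀ i, ∃ p ∈ vertj, V1 F₀ p = W3 A h i)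
    (vertji : Finset (HtOne Bji)) (hWji : ∀ i, ∃ p ∈ vertji, V1 F₀ p = W3 A h i)
    (m m'' : ℕ) (hm : m ≠ 0) (hmq : q0 A q ∣ ((1 + m * m'' : ℕ) : R0 A))
    (U3 : F₀ → Prop) (hU3W : ∀ u, U3 u → ∀ i, u - 1 ∈ (W3 A h i).nonunits)
    (hallj : ∀ u : F₀, u ≠ 0 → U3 u →
      (∀ P : Place Kbar (modularFunctionFieldBar N), (m : ℤ) ∣ P.ord (τ u)) →
      ∀ 𝔫 : Ideal Bj, 𝔫.IsMaximal →
        ∃ g ∈ (⊤ : Subring F₀), g ^ m * u ∈ Bj ∧ LocAt (V1 (B := Bj) F₀) Bj ⊤ vertj 𝔫 g)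
    (hallji : ∀ u : F₀, u ≠ 0 → U3 u →
      (∀ P : Place Kbar (modularFunctionFieldBar N), (m : ℤ) ∣ P.ord (τ u)) →
      ∀ 𝔫 : Ideal Bji, 𝔫.IsMaximal →
        ∃ g ∈ (⊤ : Subring F₀), g ^ m * u ∈ Bji ∧ LocAt (V1 (B := Bji) F₀) Bji ⊤ vertji 𝔫 g) :
    ∀ u3 : F₀, u3 ≠ 0 → U3 u3 →
      (∀ P : Place Kbar (modularFunctionFieldBar N), (m : ℤ) ∣ P.ord (τ u3)) →
      ∃ w : modularFunctionFieldBar N, w ≠ 0 ∧ τ u3 = w ^ m := by
  have hdvr := isDiscreteValuationRing_R0 A hq hA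
  have := ufm_R0 A hq hA
  have := infinite_residueField_R0 A hq hA
  have hjt : Transcendental (K0 A) (jK0 A N) := by
    rw [jK0_eq_jC]; exact transcendental_jC_K0 A N
  have : FiniteDimensional (K0 A)⟮jK0 A N⟯ F₀ := finiteDimensional_jK0 A N
  have hq2 : q ^ 2 * 1 ∣ N := by rw [mul_one, hN]; exact dvd_mul_left _ _
  have : NeZero (q ^ 2 * 1) := ⟨by rw [mul_one]; exact pow_ne_zero 2 hq.ne_zero⟩
  refine h5_inst (A := R0 A) τ hR0 (prime_q0 A hq hA)
    (fun a ha => by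
      obtain ⟨b, hb⟩ := exists_eq_q0_mul A hq hA a ha
      exact ⟨b, hb⟩)
    hjt (W3 A h)
    (fun i => (isRamified_W3_R0 A hq hN hqM hA h (one_dvd M') hq2 (one_dvd N) i).mem_iff)
    (isGaussAt_W3 A h) 0 ?_ (chart_fin_hfin hjt) hBj hBji vertj hWj vertji hWji m m'' hm hmq
    U3 hU3W hallj hallji
  -- NOEXT over `K₀(j)`
  intro V hV
  have := Fermat.Agent.GL.Val.L1eThm.exists_eq A hq hN hqM hA h (V := V) (fun a => by
    rw [mem_baseJ_iff]
    exact hV _ a.2)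
  rcases this with h1 | h1 | h1
  · exact ⟨0, h1⟩
  · exact ⟨1, h1⟩
  · exact ⟨2, h1⟩

open Fermat.Agent.GL.Val.CuspK0 Fermat.Agent.GL.Val.CuspCoeff in
/-- `hR0` of `h5_inst` for `τ := toFN0 A N`: constants lie in every place. -/
theorem hR0_toFN0 (r : R0 A) (P : Place Kbar (modularFunctionFieldBar N)) :
    toFN0 A N (algebraMap (R0 A) F₀ r) ∈ P.toValuationSubring := by
  have h1 : algebraMap (R0 A) F₀ r = algebraMap (K0 A) F₀ (r : K0 A) := rfl
  rw [h1, toFN0, toFN_algebraMap]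
  exact P.algebraMap_mem' _

open Fermat.Agent.GL.Val.CuspK0 in
include hq hN hqM hA in
/-- **`h5_inst` at `K₀` with `τ := toFN0 A N`** (= the `τ` of helper82 `TopInst`): the (H5) binder
of `ChainAbs.k0UnitGateQ_of_chain'` from the frames and the local contracts only. -/
theorem h5_inst_toFN0
    {Bj Bji : Subring F₀}
    [IsFractionRing Bj F₀] [IsNoetherianRing Bj] [IsIntegrallyClosed Bj]
    [IsFractionRing Bji F₀] [IsNoetherianRing Bji] [IsIntegrallyClosed Bji]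
    (hBj : IsChartRing (R0 A) (jK0 A N) Bj) (hBji : IsChartRing (R0 A) (jK0 A N)⁻¹ Bji)
    (vertj : Finset (HtOne Bj)) (hWj : ∀ i, ∃ p ∈ vertj, V1 F₀ p = W3 A h i)
    (vertji : Finset (HtOne Bji)) (hWji : ∀ i, ∃ p ∈ vertji, V1 F₀ p = W3 A h i)
    (m m'' : ℕ) (hm : m ≠ 0) (hmq : q0 A q ∣ ((1 + m * m'' : ℕ) : R0 A))
    (U3 : F₀ → Prop) (hU3W : ∀ u, U3 u → ∀ i, u - 1 ∈ (W3 A h i).nonunits)
    (hallj : ∀ u : F₀, u ≠ 0 → U3 u →
      (∀ P : Place Kbar (modularFunctionFieldBar N), (m : ℤ) ∣ P.ord (toFN0 A N u)) →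
      ∀ 𝔫 : Ideal Bj, 𝔫.IsMaximal →
        ∃ g ∈ (⊤ : Subring F₀), g ^ m * u ∈ Bj ∧ LocAt (V1 (B := Bj) F₀) Bj ⊤ vertj 𝔫 g)
    (hallji : ∀ u : F₀, u ≠ 0 → U3 u →
      (∀ P : Place Kbar (modularFunctionFieldBar N), (m : ℤ) ∣ P.ord (toFN0 A N u)) →
      ∀ 𝔫 : Ideal Bji, 𝔫.IsMaximal →
        ∃ g ∈ (⊤ : Subring F₀), g ^ m * u ∈ Bji ∧ LocAt (V1 (B := Bji) F₀) Bji ⊤ vertji 𝔫 g) :
    ∀ u3 : F₀, u3 ≠ 0 → U3 u3 →
      (∀ P : Place Kbar (modularFunctionFieldBar N), (m : ℤ) ∣ P.ord (toFN0 A N u3)) →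
      ∃ w : modularFunctionFieldBar N, w ≠ 0 ∧ toFN0 A N u3 = w ^ m :=
  h5_inst_K0 A hq hN hqM hA h (toFN0 A N) (hR0_toFN0 A) hBj hBji vertj hWj vertji hWji m m'' hm hmq
    U3 hU3W hallj hallji

end Fermat.Agent.GL.Final.H5SideK0
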