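/-
GATE-L / L-INT, H5 ARM, K0 side conditions, part 2 (helper8): the modulus condition `hmq` of
helper56 `H5Inst.h5_inst` from coprimality, and `h5_inst_toFN0` with `hmq` replaced by
`Nat.Coprime m q`.

* `q0_eq_natCast`      : the uniformiser `q0 A q` of `R₀` is the integer `q`;
* `exists_hmq`         : `(m, q) = 1 ⟹ ∃ m'', q0 ∣ 1 + m m''` in `R₀`;
* `h5_inst_toFN0_coprime` : `H5SideK0.h5_inst_toFN0` with `(hmcop : Nat.Coprime m q)`.
-/
import Fermat.Agent.GL.Final.H5SideK0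

set_option autoImplicit false

noncomputable section

namespace Fermat.Agent.GL.Final.H5SideK0

open AlgebraicCurve ModularCurve Polynomial IntermediateField
open Fermat.Agent.GL.ChartChange Fermat.Agent.GL.Gate Fermat.Agent.GL.GaussAt
open Fermat.Agent.GL.Frame.Inst Fermat.Agent.GL.Frame.HeightOne Fermat.Agent.GL.LocGlue
open Fermat.Agent.GL.Final.H5
open Fermat.Agent.GK.AL Fermat.Agent.GL.AL
open Fermat.Agent.GL.Val.GaussK0 Fermat.Agent.GL.Val.OrthK0 Fermat.Agent.GL.Val.DegBase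
open Fermat.Agent.GL.Val.L1eAsmK0 Fermat.Agent.GL.Val.CuspK0
open Fermat.Agent.Common_helper32

local notation "Kbar" => AlgebraicClosure ℚ

variable (A : ValuationSubring Qb)

/-- the uniformiser `q0 A q` of `R₀` is the integer `q`. -/
theorem q0_eq_natCast (q : ℕ) : q0 A q = ((q : ℕ) : R0 A) := by
  apply Subtype.ext
  rw [q0_coe_eq_natCast]
  simp

/-- `hmq` of `h5_inst` from coprimality. -/
theorem exists_hmq {q m : ℕ} (hq : q.Prime) (hmcop : Nat.Coprime m q) :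
    ∃ m'' : ℕ, q0 A q ∣ ((1 + m * m'' : ℕ) : R0 A) := by
  -- `m` is invertible mod `q`
  have : Fact q.Prime := ⟨hq⟩
  have hm0 : (m : ZMod q) ≠ 0 := by
    intro h0
    rw [ZMod.natCast_eq_zero_iff] at h0
    have := Nat.Coprime.eq_one_of_dvd hmcop.symm h0
    exact hq.one_lt.ne' this
  refine ⟨(-(m : ZMod q)⁻¹).val, ?_⟩
  rw [q0_eq_natCast]
  apply Nat.cast_dvd_cast
  rw [← ZMod.natCast_eq_zero_iff]
  push_cast
  rw [ZMod.natCast_zmod_val, mul_neg, mul_inv_cancel₀ hm0, add_neg_cancel]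

variable {N : ℕ} [NeZero N] {q M' : ℕ} [NeZero M']
  (hq : q.Prime) (hN : N = M' * q ^ 2) (hqM : ¬ q ∣ M')
  (hA : A.LiesOverPrime q) (h : HallDvd (q ^ 2) N)

local notation "F₀" => modularFunctionFieldFullC (K0 A) N

include hq hN hqM hA in
/-- **`h5_inst` at `K₀`, `τ := toFN0 A N`, modulus prime to `q`.** -/
theorem h5_inst_toFN0_coprime
    {Bj Bji : Subring F₀}
    [IsFractionRing Bj F₀] [IsNoetherianRing Bj] [IsIntegrallyClosed Bj]
    [IsFractionRing Bji F₀] [IsNoetherianRing Bji] [IsIntegrallyClosed Bji]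
    (hBj : IsChartRing (R0 A) (jK0 A N) Bj) (hBji : IsChartRing (R0 A) (jK0 A N)⁻¹ Bji)
    (vertj : Finset (HtOne Bj)) (hWj : ∀ i, ∃ p ∈ vertj, V1 F₀ p = W3 A h i)
    (vertji : Finset (HtOne Bji)) (hWji : ∀ i, ∃ p ∈ vertji, V1 F₀ p = W3 A h i)
    (m : ℕ) (hm : m ≠ 0) (hmcop : Nat.Coprime m q)
    (U3 : F₀ → Prop) (hU3W : ∀ u, U3 u → ∀ i, u - 1 ∈ (W3 A h i).nonunits)
    (hallj : ∀ u : F₀, u ≠ 0 → U3 u →
      (∀ P : Place Kbar (modularFunctionFieldBar N), (m : ℤ) ∣ P.ord (toFN0 A N u)) →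
      ∀ 𝔫 : Ideal Bj, 𝔫.IsMaximal →
        ∃ g ∈ (⊤ : Subring F₀), g ^ m * u ∈ Bj ∧ LocAt (V1 (B := Bj) F₀) Bj ⊤ vertj 𝔫 g)
    (hallji : ∀ u : F₀, u ≠ 0 → U3 u →
      (∀ P : Place Kbar (modularFunctionFieldBar N), (m : ℤ) ∣ P.ord (toFN0 A N u)) →
      ∀ 𝔫 : Ideal Bji, 𝔫.IsMaximal →
        ∃ g ∈ (⊤ : Subring F₀), g ^ m * u ∈ Bji ∧ LocAt (V1 (B := Bji) F₀) Bji ⊤ vertji 𝔫 g) :
    ∀ u3 : F₀, u3 ≠ 0 → U3 u3 →
      (∀ P : Place Kbar (modularFunctionFieldBar N), (m : ℤ) ∣ P.ord (toFN0 A N u3)) →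
      ∃ w : modularFunctionFieldBar N, w ≠ 0 ∧ toFN0 A N u3 = w ^ m := by
  obtain ⟨m'', hmq⟩ := exists_hmq A hq hmcop
  exact h5_inst_toFN0 A hq hN hqM hA h hBj hBji vertj hWj vertji hWji m m'' hm hmq U3 hU3W
    hallj hallji

end Fermat.Agent.GL.Final.H5SideK0
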