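/-
GATE-L / H5 ARM (helper11): **(H5) from TYPED LOCAL DATA** — helper56's `H5.h5_inst` with its two
local binders `hallj`, `hallji` replaced by the typed inputs of `H5TypeI.hallj_typed` /
`hallji_typed` (COMPILED plug, nothing new mathematically):

* on the frame `Bj = IC A[j]` : the (A1) dichotomy `hdich` at every closed point over `q`
  (helper47 `ClassifyInst.classify_val`), at the ORDINARY points (`s ∉ 𝔫`) the per-component type I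
  data (`hunif0`, `hunif1` : `q` uniformises `V1 (fj 0)`, `V1 (fj 1)`; `hreg3` : a local generator
  of `fj 2` = REG3; `hval` : helper84), at the SUPERSINGULAR points the type III producer `hIII`
  (helper29 `TypeIIIOfSetup`);
* on the frame `Bji = IC A[1/j]` : ONLY the cuspidal points (`1/j ∈ 𝔫`): `hone`
  (helper47 `CuspPoints.atMostOne_of_cusp`) + the same per-component type I data;
* `hordPj`, `hordPi` : `m ∣ div (τ u)` ⟹ `hord` at the horizontal height-one primes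
  (over `K₀(X₀(N))`: `H5TypeI.hordP_K0`).
-/
import Fermat.Agent.GL.Final.H5Inst
import Fermat.Agent.GL.Final.H5TypeI

set_option autoImplicit false
set_option linter.unusedSectionVars false

noncomputable section

namespace Fermat.Agent.GL.Final.H5Typed

open AlgebraicCurve ModularCurve Polynomial IntermediateField
open Fermat.Agent.GL.ChartChange Fermat.Agent.GL.Gate Fermat.Agent.GL.GaussAt
open Fermat.Agent.GL.GaussExtBridge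
open Fermat.Agent.GL.Frame.Inst Fermat.Agent.GL.Frame.HeightOne Fermat.Agent.GL.IntClosureSplit
  Fermat.Agent.GL.LocGlue Fermat.Agent.GL.Frame.ChartExistsGauss Fermat.Agent.GL.Frame.Chart
  Fermat.Agent.GL.Frame.JFrameDispatch Fermat.Agent.GL.Final.H5 Fermat.Agent.GL.Final.H5TypeI
  Fermat.Agent.GL.Frame.Kummer

local notation "Kbar" => AlgebraicClosure ℚ

variable {K F : Type*} [Field K] [CharZero K] [Field F] [Algebra K F]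
variable {A : ValuationSubring K} [Algebra A F] [IsScalarTower A K F] [IsNoetherianRing A]
  [UniqueFactorizationMonoid A] [Infinite (IsLocalRing.ResidueField A)]
variable {N : ℕ} [NeZero N]

/-- **(H5) from typed local data.**  Conclusion = the (H5) binder of helper24
`ChainAbs.k0UnitGateQ_of_chain'`. -/
theorem h5_typed (τ : F →+* modularFunctionFieldBar N)
    (hR0 : ∀ (r : A) (P : Place Kbar (modularFunctionFieldBar N)),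
      τ (algebraMap A F r) ∈ P.toValuationSubring)
    {q : A} (hq : Prime q) (hgen : ∀ a : A, ¬ IsUnit a → q ∣ a)
    {j : F} (hjt : Transcendental K j) [FiniteDimensional K⟮j⟯ F]
    {κ : Type*} (W : κ → ValuationSubring F)
    (hWover : ∀ i, ∀ a : K, algebraMap K F a ∈ W i ↔ a ∈ A)
    (hWG : ∀ i, IsGaussAt A (W i) j) (i₀ : κ)
    (hnoext : ∀ V : ValuationSubring F, (∀ y ∈ K⟮j⟯, y ∈ V ↔ y ∈ W i₀) → ∃ i, V = W i)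
    (hfin : ∀ (t0 t2 : A) (P1 : A[X]) (h : F), P1.Monic →
      j - algebraMap A F t0 ≠ 0 → aeval (j - algebraMap A F t0)⁻¹ P1 ≠ 0 →
      h * aeval (j - algebraMap A F t0)⁻¹ P1 =
        ((j - algebraMap A F t0)⁻¹ - algebraMap A F t2) ^ (P1.natDegree + 1) →
      (j - algebraMap A F t0)⁻¹ ≠ algebraMap A F t2 →
      Transcendental K h ∧ FiniteDimensional K⟮h⟯ F ∧
        Transcendental K h⁻¹ ∧ FiniteDimensional K⟮h⁻¹⟯ F)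
    {Bj Bji : Subring F}
    [IsFractionRing Bj F] [IsNoetherianRing Bj] [IsIntegrallyClosed Bj]
    [IsFractionRing Bji F] [IsNoetherianRing Bji] [IsIntegrallyClosed Bji]
    (hBj : IsChartRing A j Bj) (hBji : IsChartRing A j⁻¹ Bji)
    (vertj : Finset (HtOne Bj)) (hWj : ∀ i, ∃ p ∈ vertj, V1 F p = W i)
    (hWj' : ∀ p ∈ vertj, ∃ i, V1 F p = W i)
    (vertji : Finset (HtOne Bji)) (hWji : ∀ i, ∃ p ∈ vertji, V1 F p = W i)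
    (hWji' : ∀ p ∈ vertji, ∃ i, V1 F p = W i)
    (m m'' : ℕ) (hm : m ≠ 0) (hmq : q ∣ ((1 + m * m'' : ℕ) : A))
    (U3 : F → Prop) (hU3W : ∀ u, U3 u → ∀ i, u - 1 ∈ (W i).nonunits)
    -- frame Bj : typed data
    (hvertj : ∀ 𝔭 : HtOne Bj, hBj.toRingHom q ∈ 𝔭.1 → 𝔭 ∈ vertj)
    (hqvj : ∀ p ∈ vertj, hBj.toRingHom q ∈ p.1)
    (fj : Fin 3 → HtOne Bj) (hfj : ∀ p, p ∈ vertj ↔ ∃ i, fj i = p) (hinj : Function.Injective fj)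
    (s : Bj) (Q : Ideal Bj → Prop)
    (hdich : ∀ 𝔫 : Ideal Bj, 𝔫.IsMaximal → hBj.toRingHom q ∈ 𝔫 →
      (s ∈ 𝔫 ∧ (fj 0).1 ≤ 𝔫 ∧ (fj 1).1 ≤ 𝔫 ∧ (fj 2).1 ≤ 𝔫 ∧ Q 𝔫) ∨
      (s ∉ 𝔫 ∧ ¬ ((fj 0).1 ≤ 𝔫 ∧ (fj 1).1 ≤ 𝔫) ∧ ¬ ((fj 1).1 ≤ 𝔫 ∧ (fj 2).1 ≤ 𝔫) ∧
        ¬ ((fj 0).1 ≤ 𝔫 ∧ (fj 2).1 ≤ 𝔫)))
    (hordPj : ∀ u : F, u ≠ 0 →
      (∀ P : Place Kbar (modularFunctionFieldBar N), (m : ℤ) ∣ P.ord (τ u)) →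
      ∀ 𝔫 : Ideal Bj, ∀ 𝔭 : HtOne Bj, 𝔭 ∉ vertj → 𝔭.1 ≤ 𝔫 →
      ∃ z : F, z ≠ 0 ∧ UnitAt 𝔭 (u * z ^ m))
    (hunif0 : ∀ x : F, x ∈ (V1 F (fj 0)).nonunits → x / ((hBj.toRingHom q : Bj) : F) ∈ V1 F (fj 0))
    (hunif1 : ∀ x : F, x ∈ (V1 F (fj 1)).nonunits → x / ((hBj.toRingHom q : Bj) : F) ∈ V1 F (fj 1))
    (hreg3 : ∀ 𝔫 : Ideal Bj, 𝔫.IsMaximal → (hBj.toRingHom q ∈ 𝔫 ∧ s ∉ 𝔫) → (fj 2).1 ≤ 𝔫 →
      (∀ j ∈ vertj, j ≠ fj 2 → ¬ j.1 ≤ 𝔫) →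
      ∃ π : Bj, π ≠ 0 ∧ π ∈ (fj 2).1 ∧ (∀ x ∈ (fj 2).1, ∃ s : Bj, s ∉ (fj 2).1 ∧ π ∣ s * x) ∧
        (∀ 𝔮 : HtOne Bj, 𝔮 ≠ fj 2 → 𝔮.1 ≤ 𝔫 → π ∉ 𝔮.1))
    (hval : ∀ 𝔫 : Ideal Bj, 𝔫.IsMaximal → (hBj.toRingHom q ∈ 𝔫 ∧ s ∉ 𝔫) → ∀ 𝔭₀ ∈ vertj, 𝔭₀.1 ≤ 𝔫 →
      (∀ j ∈ vertj, j ≠ 𝔭₀ → ¬ j.1 ≤ 𝔫) →
      ∀ a b : Bj, ∃ c s : Bj, s ∉ 𝔫 ∧ (s * a - c * b ∈ 𝔭₀.1 ∨ s * b - c * a ∈ 𝔭₀.1))
    (hIII : ∀ u : F, u ≠ 0 → U3 u →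
      ∀ 𝔫 : Ideal Bj, 𝔫.IsMaximal → hBj.toRingHom q ∈ 𝔫 → s ∈ 𝔫 → (∀ p ∈ vertj, p.1 ≤ 𝔫) → Q 𝔫 →
        ∃ g ∈ (⊤ : Subring F), g ^ m * u ∈ Bj ∧ LocAt (V1 (B := Bj) F) Bj ⊤ vertj 𝔫 g)
    -- frame Bji : typed data at the cusps
    (hvertji : ∀ 𝔭 : HtOne Bji, hBji.toRingHom q ∈ 𝔭.1 → 𝔭 ∈ vertji)
    (hqvji : ∀ p ∈ vertji, hBji.toRingHom q ∈ p.1)
    (fi : Fin 3 → HtOne Bji) (hfi : ∀ p, p ∈ vertji ↔ ∃ i, fi i = p)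
    (hordPi : ∀ u : F, u ≠ 0 →
      (∀ P : Place Kbar (modularFunctionFieldBar N), (m : ℤ) ∣ P.ord (τ u)) →
      ∀ 𝔫 : Ideal Bji, ∀ 𝔭 : HtOne Bji, 𝔭 ∉ vertji → 𝔭.1 ≤ 𝔫 →
      ∃ z : F, z ≠ 0 ∧ UnitAt 𝔭 (u * z ^ m))
    (hone : ∀ 𝔫 : Ideal Bji, 𝔫.IsMaximal → hBji.toRingHom q ∈ 𝔫 → hBji.gen ∈ 𝔫 →
      ¬ ((fi 0).1 ≤ 𝔫 ∧ (fi 1).1 ≤ 𝔫) ∧ ¬ ((fi 1).1 ≤ 𝔫 ∧ (fi 2).1 ≤ 𝔫) ∧
        ¬ ((fi 0).1 ≤ 𝔫 ∧ (fi 2).1 ≤ 𝔫))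
    (hunif0i : ∀ x : F, x ∈ (V1 F (fi 0)).nonunits →
      x / ((hBji.toRingHom q : Bji) : F) ∈ V1 F (fi 0))
    (hunif1i : ∀ x : F, x ∈ (V1 F (fi 1)).nonunits →
      x / ((hBji.toRingHom q : Bji) : F) ∈ V1 F (fi 1))
    (hreg3i : ∀ 𝔫 : Ideal Bji, 𝔫.IsMaximal → (hBji.toRingHom q ∈ 𝔫 ∧ hBji.gen ∈ 𝔫) →
      (fi 2).1 ≤ 𝔫 → (∀ j ∈ vertji, j ≠ fi 2 → ¬ j.1 ≤ 𝔫) →
      ∃ π : Bji, π ≠ 0 ∧ π ∈ (fi 2).1 ∧ (∀ x ∈ (fi 2).1, ∃ s : Bji, s ∉ (fi 2).1 ∧ π ∣ s * x) ∧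
        (∀ 𝔮 : HtOne Bji, 𝔮 ≠ fi 2 → 𝔮.1 ≤ 𝔫 → π ∉ 𝔮.1))
    (hvali : ∀ 𝔫 : Ideal Bji, 𝔫.IsMaximal → (hBji.toRingHom q ∈ 𝔫 ∧ hBji.gen ∈ 𝔫) →
      ∀ 𝔭₀ ∈ vertji, 𝔭₀.1 ≤ 𝔫 → (∀ j ∈ vertji, j ≠ 𝔭₀ → ¬ j.1 ≤ 𝔫) →
      ∀ a b : Bji, ∃ c s : Bji, s ∉ 𝔫 ∧ (s * a - c * b ∈ 𝔭₀.1 ∨ s * b - c * a ∈ 𝔭₀.1)) :
    ∀ u3 : F, u3 ≠ 0 → U3 u3 →
      (∀ P : Place Kbar (modularFunctionFieldBar N), (m : ℤ) ∣ P.ord (τ u3)) →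
      ∃ w : modularFunctionFieldBar N, w ≠ 0 ∧ τ u3 = w ^ m := by
  have hqmax : (Ideal.span {q}).IsMaximal := by
    rw [← maximalIdeal_eq_span hq.not_isUnit hgen]
    exact IsLocalRing.maximalIdeal.isMaximal A
  have hqF : algebraMap A F q ≠ 0 := by
    intro h0
    rw [GaussExtBridge.algebraMap_eq] at h0
    have : (q : K) = 0 := (map_eq_zero (algebraMap K F)).mp h0
    exact hq.ne_zero (Subtype.ext this)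
  have hq0j : hBj.toRingHom q ≠ 0 := by
    intro h0
    apply hqF
    rw [← IsChartRing.coe_toRingHom hBj, h0]; rfl
  have hallj := hallj_typed W vertj hWj' hq0j hvertj hqvj fj hfj hinj s Q hdich hm U3
    (fun u => ∀ P : Place Kbar (modularFunctionFieldBar N), (m : ℤ) ∣ P.ord (τ u))
    hU3W hordPj hunif0 hunif1 hreg3 hval hIII
  exact h5_inst τ hR0 hq hgen hjt W hWover hWG i₀ hnoext hfin hBj hBji vertj hWj vertji hWji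
    m m'' hm hmq U3 hU3W hallj
    (hallji_typed W hBj hBji q hqmax hqF vertj hWj vertji hWji hWji' hvertji hqvji fi hfi hm U3
      (fun u => ∀ P : Place Kbar (modularFunctionFieldBar N), (m : ℤ) ∣ P.ord (τ u))
      hU3W hordPi hone hunif0i hunif1i hreg3i hvali hallj)

end Fermat.Agent.GL.Final.H5Typed
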