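/-
GATE-L / H5 ARM at `K₀` from TYPED LOCAL DATA (helper11): helper8's `H5SideK0.h5_inst_toFN0`
(= helper56's `h5_inst` at `R0 A`, `K0 A`, `F₀ = K₀(X₀(N))`, `N = M' q²`, `W := W3 A h`,
`τ := toFN0 A N`, all side conditions discharged) with its two local binders `hallj`, `hallji`
REPLACED by the typed data of `H5TypeI.hallj_typed` / `hallji_typed`, and with

* `hordP`   discharged by `H5TypeI.hordP_K0` (`m ∣ div (toFN0 A N u)` ⟹ `hord`),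
* `hunif0`, `hunif1` discharged by `H5UnifK0.hunif_W1`, `hunif_W2` (`e₁ = e₂ = 1`),
* `hWj hWji hWj' hWji' hqv` derived from the frame parametrisation `f : Fin 3 → HtOne B`
  (`V1 F₀ (f i) = W3 A h i`, `p ∈ vert ↔ ∃ i, f i = p` — helper80 `exists_frame` output).

LEFT (named hypotheses): the two frames; `hmq`; `U3`, `hU3W`; on `Bj`: `hdich` (helper47
`ClassifyK0`), `hreg3` (REG3 (A)(B)), `hval` (helper84 `HvalFinK0`), `hIII` (helper29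
`TypeIIIInstK0`); at the cusps of `Bji`: `hone` (helper47 `atMostOne_of_cusp`), `hreg3i`
(REG3 (C)), `hvali` (helper84 `HvalCuspK0`).
-/
import Fermat.Agent.GL.Final.H5SideK0
import Fermat.Agent.GL.Final.H5TypeI
import Fermat.Agent.GL.Final.H5UnifK0

set_option autoImplicit false
set_option linter.unusedSectionVars false

noncomputable section

namespace Fermat.Agent.GL.Final.H5TypedK0

open AlgebraicCurve ModularCurve Polynomial IntermediateField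
open Fermat.Agent.GL.ChartChange Fermat.Agent.GL.Gate Fermat.Agent.GL.GaussAt
open Fermat.Agent.GL.Frame.Inst Fermat.Agent.GL.Frame.HeightOne Fermat.Agent.GL.LocGlue
open Fermat.Agent.GL.Final.H5 Fermat.Agent.GL.Final.H5SideK0 Fermat.Agent.GL.Final.H5TypeI
  Fermat.Agent.GL.Final.H5UnifK0
open Fermat.Agent.GK.AL Fermat.Agent.GL.AL
open Fermat.Agent.GL.Val.GaussK0 Fermat.Agent.GL.Val.OrthK0 Fermat.Agent.GL.Val.DegBase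
open Fermat.Agent.GL.Val.L1eAsmK0 Fermat.Agent.GL.MultiVal Fermat.Agent.GL.MultiVal.GaussBaseJ
open Fermat.Agent.GL.Val.RamK0
open Fermat.Agent.GL.Frame.ChartInstK0
open Fermat.Agent.GL.Val.CuspK0
open Fermat.Agent.Common_helper32

local notation "Kbar" => AlgebraicClosure ℚ

variable (A : ValuationSubring Qb) {N : ℕ} [NeZero N] {q M' : ℕ} [NeZero M']
  (hq : q.Prime) (hN : N = M' * q ^ 2) (hqM : ¬ q ∣ M')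
  (hA : A.LiesOverPrime q) (h : HallDvd (q ^ 2) N)

local notation "F₀" => modularFunctionFieldFullC (K0 A) N

include hq hN hqM hA in
/-- `q` is a non-unit of each of `w₁, w₂, w₃`. -/
theorem q0_mem_nonunits_W3 (i : Fin 3) :
    algebraMap (R0 A) F₀ (q0 A q) ∈ (W3 A h i).nonunits := by
  have hq2 : q ^ 2 * 1 ∣ N := by rw [mul_one, hN]; exact dvd_mul_left _ _
  have : NeZero (q ^ 2 * 1) := ⟨by rw [mul_one]; exact pow_ne_zero 2 hq.ne_zero⟩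
  have h1 := (isRamified_W3_R0 A hq hN hqM hA h (one_dvd M') hq2 (one_dvd N) i).valuation_q_lt_one
    (isUnif_R0 A hq hA)
  have h3 : algebraMap (K0 A) F₀ ((q0 A q : R0 A) : K0 A) ∈ (W3 A h i).nonunits :=
    (ValuationSubring.mem_nonunits_iff _).mpr h1
  have h2 : algebraMap (R0 A) F₀ (q0 A q) = algebraMap (K0 A) F₀ ((q0 A q : R0 A) : K0 A) := rfl
  rw [h2]
  exact h3

set_option maxHeartbeats 800000 in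
include hq hN hqM hA in
/-- **(H5) at `K₀` from typed local data.**  Conclusion = the (H5) binder of helper24
`ChainAbs.k0UnitGateQ_of_chain'` at `τ := toFN0 A N` (helper39 `LevelPkg.H5`). -/
theorem h5_typed_toFN0
    {Bj Bji : Subring F₀}
    [IsFractionRing Bj F₀] [IsNoetherianRing Bj] [IsIntegrallyClosed Bj]
    [IsFractionRing Bji F₀] [IsNoetherianRing Bji] [IsIntegrallyClosed Bji]
    (hBj : IsChartRing (R0 A) (jK0 A N) Bj) (hBji : IsChartRing (R0 A) (jK0 A N)⁻¹ Bji)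
    -- the frame `Bj` (helper80 `exists_frame` output)
    (vertj : Finset (HtOne Bj)) (fj : Fin 3 → HtOne Bj)
    (hfWj : ∀ i, V1 F₀ (fj i) = W3 A h i) (hfj : ∀ p, p ∈ vertj ↔ ∃ i, fj i = p)
    (hinj : Function.Injective fj)
    (hvertj : ∀ 𝔭 : HtOne Bj, hBj.toRingHom (q0 A q) ∈ 𝔭.1 → 𝔭 ∈ vertj)
    -- the frame `Bji`
    (vertji : Finset (HtOne Bji)) (fi : Fin 3 → HtOne Bji)
    (hfWi : ∀ i, V1 F₀ (fi i) = W3 A h i) (hfi : ∀ p, p ∈ vertji ↔ ∃ i, fi i = p)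
    (hvertji : ∀ 𝔭 : HtOne Bji, hBji.toRingHom (q0 A q) ∈ 𝔭.1 → 𝔭 ∈ vertji)
    -- moduli, units
    (m m'' : ℕ) (hm : m ≠ 0) (hmq : q0 A q ∣ ((1 + m * m'' : ℕ) : R0 A))
    (U3 : F₀ → Prop) (hU3W : ∀ u, U3 u → ∀ i, u - 1 ∈ (W3 A h i).nonunits)
    -- `Bj` : classification, type I (ordinary points), type III (supersingular points)
    (s : Bj) (Q : Ideal Bj → Prop)
    (hdich : ∀ 𝔫 : Ideal Bj, 𝔫.IsMaximal → hBj.toRingHom (q0 A q) ∈ 𝔫 →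
      (s ∈ 𝔫 ∧ (fj 0).1 ≤ 𝔫 ∧ (fj 1).1 ≤ 𝔫 ∧ (fj 2).1 ≤ 𝔫 ∧ Q 𝔫) ∨
      (s ∉ 𝔫 ∧ ¬ ((fj 0).1 ≤ 𝔫 ∧ (fj 1).1 ≤ 𝔫) ∧ ¬ ((fj 1).1 ≤ 𝔫 ∧ (fj 2).1 ≤ 𝔫) ∧
        ¬ ((fj 0).1 ≤ 𝔫 ∧ (fj 2).1 ≤ 𝔫)))
    (hreg3 : ∀ 𝔫 : Ideal Bj, 𝔫.IsMaximal → (hBj.toRingHom (q0 A q) ∈ 𝔫 ∧ s ∉ 𝔫) →
      (fj 2).1 ≤ 𝔫 → (∀ j ∈ vertj, j ≠ fj 2 → ¬ j.1 ≤ 𝔫) →
      ∃ π : Bj, π ≠ 0 ∧ π ∈ (fj 2).1 ∧ (∀ x ∈ (fj 2).1, ∃ s : Bj, s ∉ (fj 2).1 ∧ π ∣ s * x) ∧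
        (∀ 𝔮 : HtOne Bj, 𝔮 ≠ fj 2 → 𝔮.1 ≤ 𝔫 → π ∉ 𝔮.1))
    (hval : ∀ 𝔫 : Ideal Bj, 𝔫.IsMaximal → (hBj.toRingHom (q0 A q) ∈ 𝔫 ∧ s ∉ 𝔫) →
      ∀ 𝔭₀ ∈ vertj, 𝔭₀.1 ≤ 𝔫 → (∀ j ∈ vertj, j ≠ 𝔭₀ → ¬ j.1 ≤ 𝔫) →
      ∀ a b : Bj, ∃ c s : Bj, s ∉ 𝔫 ∧ (s * a - c * b ∈ 𝔭₀.1 ∨ s * b - c * a ∈ 𝔭₀.1))
    (hIII : ∀ u : F₀, u ≠ 0 → U3 u →
      ∀ 𝔫 : Ideal Bj, 𝔫.IsMaximal → hBj.toRingHom (q0 A q) ∈ 𝔫 → s ∈ 𝔫 →
        (∀ p ∈ vertj, p.1 ≤ 𝔫) → Q 𝔫 →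
        ∃ g ∈ (⊤ : Subring F₀), g ^ m * u ∈ Bj ∧ LocAt (V1 (B := Bj) F₀) Bj ⊤ vertj 𝔫 g)
    -- `Bji` : the cuspidal points only
    (hone : ∀ 𝔫 : Ideal Bji, 𝔫.IsMaximal → hBji.toRingHom (q0 A q) ∈ 𝔫 → hBji.gen ∈ 𝔫 →
      ¬ ((fi 0).1 ≤ 𝔫 ∧ (fi 1).1 ≤ 𝔫) ∧ ¬ ((fi 1).1 ≤ 𝔫 ∧ (fi 2).1 ≤ 𝔫) ∧
        ¬ ((fi 0).1 ≤ 𝔫 ∧ (fi 2).1 ≤ 𝔫))
    (hreg3i : ∀ 𝔫 : Ideal Bji, 𝔫.IsMaximal →
      (hBji.toRingHom (q0 A q) ∈ 𝔫 ∧ hBji.gen ∈ 𝔫) →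
      (fi 2).1 ≤ 𝔫 → (∀ j ∈ vertji, j ≠ fi 2 → ¬ j.1 ≤ 𝔫) →
      ∃ π : Bji, π ≠ 0 ∧ π ∈ (fi 2).1 ∧ (∀ x ∈ (fi 2).1, ∃ s : Bji, s ∉ (fi 2).1 ∧ π ∣ s * x) ∧
        (∀ 𝔮 : HtOne Bji, 𝔮 ≠ fi 2 → 𝔮.1 ≤ 𝔫 → π ∉ 𝔮.1))
    (hvali : ∀ 𝔫 : Ideal Bji, 𝔫.IsMaximal →
      (hBji.toRingHom (q0 A q) ∈ 𝔫 ∧ hBji.gen ∈ 𝔫) →
      ∀ 𝔭₀ ∈ vertji, 𝔭₀.1 ≤ 𝔫 → (∀ j ∈ vertji, j ≠ 𝔭₀ → ¬ j.1 ≤ 𝔫) →
      ∀ a b : Bji, ∃ c s : Bji, s ∉ 𝔫 ∧ (s * a - c * b ∈ 𝔭₀.1 ∨ s * b - c * a ∈ 𝔭₀.1)) :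
    ∀ u3 : F₀, u3 ≠ 0 → U3 u3 →
      (∀ P : Place Kbar (modularFunctionFieldBar N), (m : ℤ) ∣ P.ord (toFN0 A N u3)) →
      ∃ w : modularFunctionFieldBar N, w ≠ 0 ∧ toFN0 A N u3 = w ^ m := by
  -- the vertical dictionaries
  have hWj : ∀ i, ∃ p ∈ vertj, V1 F₀ p = W3 A h i :=
    fun i => ⟨fj i, (hfj _).2 ⟨i, rfl⟩, hfWj i⟩
  have hWj' : ∀ p ∈ vertj, ∃ i, V1 F₀ p = W3 A h i := by
    intro p hp
    obtain ⟨i, rfl⟩ := (hfj p).1 hp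
    exact ⟨i, hfWj i⟩
  have hWji : ∀ i, ∃ p ∈ vertji, V1 F₀ p = W3 A h i :=
    fun i => ⟨fi i, (hfi _).2 ⟨i, rfl⟩, hfWi i⟩
  have hWji' : ∀ p ∈ vertji, ∃ i, V1 F₀ p = W3 A h i := by
    intro p hp
    obtain ⟨i, rfl⟩ := (hfi p).1 hp
    exact ⟨i, hfWi i⟩
  -- `q`
  have hqW := q0_mem_nonunits_W3 A hq hN hqM hA h
  have hqvj : ∀ p ∈ vertj, hBj.toRingHom (q0 A q) ∈ p.1 := by
    intro p hp
    obtain ⟨i, hi⟩ := hWj' p hp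
    rw [← algebraMap_mem_nonunits_V1_iff (F := F₀) p, hi]
    exact hqW i
  have hqvji : ∀ p ∈ vertji, hBji.toRingHom (q0 A q) ∈ p.1 := by
    intro p hp
    obtain ⟨i, hi⟩ := hWji' p hp
    rw [← algebraMap_mem_nonunits_V1_iff (F := F₀) p, hi]
    exact hqW i
  have hqF : algebraMap (R0 A) F₀ (q0 A q) = (q : F₀) := algebraMap_q0 A N
  have hqF0 : algebraMap (R0 A) F₀ (q0 A q) ≠ 0 := by
    rw [hqF]; exact Nat.cast_ne_zero.mpr hq.ne_zero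
  have hqBj : ((hBj.toRingHom (q0 A q) : Bj) : F₀) = (q : F₀) := by
    rw [IsChartRing.coe_toRingHom]; exact hqF
  have hqBji : ((hBji.toRingHom (q0 A q) : Bji) : F₀) = (q : F₀) := by
    rw [IsChartRing.coe_toRingHom]; exact hqF
  have hq0j : hBj.toRingHom (q0 A q) ≠ 0 := by
    intro h0
    apply hqF0
    rw [← IsChartRing.coe_toRingHom hBj, h0]; rfl
  have hdvr := isDiscreteValuationRing_R0 A hq hA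
  have hqmax : (Ideal.span {q0 A q}).IsMaximal := by
    rw [← (irreducible_q0 A hq hA).maximalIdeal_eq]
    exact IsLocalRing.maximalIdeal.isMaximal _
  have hRj : ∀ c : K0 A, c ∈ R0 A → algebraMap (K0 A) F₀ c ∈ Bj :=
    fun c hc => hBj.algebraMap_mem ⟨c, hc⟩
  have hRji : ∀ c : K0 A, c ∈ R0 A → algebraMap (K0 A) F₀ c ∈ Bji :=
    fun c hc => hBji.algebraMap_mem ⟨c, hc⟩
  -- the two local binders
  have hallj := hallj_typed (W3 A h) vertj hWj' hq0j hvertj hqvj fj hfj hinj s Q hdich hm U3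
    (fun u => ∀ P : Place Kbar (modularFunctionFieldBar N), (m : ℤ) ∣ P.ord (toFN0 A N u))
    hU3W (hordP_K0 A hq hA N hRj vertj hqBj hvertj m)
    (hunif_W1 A N hq hA (fj 0) (hfWj 0) hqBj) (hunif_W2 A N hq hA h (fj 1) (hfWj 1) hqBj)
    hreg3 hval hIII
  have hallji := hallji_typed (W3 A h) hBj hBji (q0 A q) hqmax hqF0 vertj hWj vertji hWji hWji'
    hvertji hqvji fi hfi hm U3
    (fun u => ∀ P : Place Kbar (modularFunctionFieldBar N), (m : ℤ) ∣ P.ord (toFN0 A N u))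
    hU3W (hordP_K0 A hq hA N hRji vertji hqBji hvertji m)
    hone (hunif_W1 A N hq hA (fi 0) (hfWi 0) hqBji) (hunif_W2 A N hq hA h (fi 1) (hfWi 1) hqBji)
    hreg3i hvali hallj
  exact h5_inst_toFN0 A hq hN hqM hA h hBj hBji vertj hWj vertji hWji m m'' hm hmq U3 hU3W
    hallj hallji

end Fermat.Agent.GL.Final.H5TypedK0
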