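/-
GATE-L / LOWER-HVAL (helper34): the TWO lower-level "localisation is a valuation ring" inputs of the
concrete `TripleSetup` (fields `hval1' hval2'` of helper36 `TripleInst.ChartData`, `BuildData.Hval`
of helper40 `TripleBuild`, `(UNIQ_j')` of board 3052) at the level `N0 = M' * q`, `q ∥ N0`.

Conventions of helper67 `GL/Final/RowsInst.lean`: `E := modularFunctionFieldFullC (K0 A) (M' * q)`,
`k1' = k2' := FresK0 A (M' * q)`, `rd1' := (redDataK0 A (M' * q)).red`,
`rd2' := (redData2K0 A (M' * q) h).red`.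

`B'` is ANY commutative ring with `[Algebra B' E]` whose image in `E` is helper96's `BRingK0 M' q A h`
(= `FrameInst.chartRing (R0 A) (jC (M' * q) (K0 A))`, `BRingChart.bRingK0_eq_chartRing`), stated
without the `Fact q.Prime` instance: `hmem`/`hsurj` below.  `ρ' : B' →+* FresK0 A (M' * q)` is the
reduction of the chart ring (`hρ'`; for helper40's `rhoOf A_j rd_j' hBA_j` use `fun b => ⟨hBA_j b, rfl⟩`).

* `hval_lower1` : `∀ y, y ∈ locSub ρ' χ' ∨ y⁻¹ ∈ locSub ρ' χ'` for the component `w₁`;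
* `hval_lower2` : the same for the component `w₂`.

Proof: `LowerHvalAbs.hval_of_surj_dedekind` with `C := CRing M' A` (Dedekind: `GK/SS/CRingFacts`),
`r := redC1K0 / redC2K0` (onto: GATE-K `left_mem_BT`/`right_mem_BT` + helper96
`exists_pairK0_eq_of_mem_BT`), `θ := coeffMap (resMapK0 A)`, `ι := cVal`, the square `θ ∘ ρ' = ι ∘ r`
being helper45 `coe_red1K0 / coe_red2K0`, and `Frac (CRing M' A) = FresBar M' A = FresBar (M' q) A ⊇
θ (FresK0 A (M' q))`.
-/
import Fermat.Agent.GL.Final.LowerHvalAbs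
import Fermat.Agent.GL.Red.BRingK0
import Fermat.Agent.GL.Fibre.CRingFin
import Fermat.Agent.GL.Val.ResK0

set_option autoImplicit false
set_option linter.unusedSectionVars false
set_option linter.style.haveILetI false

noncomputable section

namespace Fermat.Agent.GL.Final.LowerHval

open HahnSeries ModularCurve IsLocalRing
open Fermat.Agent.S24 Fermat.Agent.S24_helper62
open Fermat.Agent.GJ.J1 Fermat.Agent.GJ.J1.Val
open Fermat.Agent.GK.AL Fermat.Agent.GK.MultiVal Fermat.Agent.GK.Red Fermat.Agent.GK.QS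
open Fermat.Agent.GK.FrobGlue
open Fermat.Agent.GL.Val.GaussK0 Fermat.Agent.GL.Val.SecondK0 Fermat.Agent.GL.Val.DegBase
open Fermat.Agent.GL.BRingK0 Fermat.Agent.GL.BranchPoint Fermat.Agent.GL.Final.LowerHvalAbs

local notation "Qb" => AlgebraicClosure ℚ

section Fact

variable (A : ValuationSubring Qb) {M' q : ℕ} [NeZero M'] [NeZero q] [Fact q.Prime]
  (h : ExactDvd q (M' * q)) (hqM : ¬ q ∣ M') (hA : A.LiesOverPrime q)

local notation "kA" => IsLocalRing.ResidueField A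
local notation "k₀" => IsLocalRing.ResidueField (R0 A)
local notation "E" => modularFunctionFieldFullC (K0 A) (M' * q)

/-- the comparison of the residue fields over `k₀` and over `kA`, on Laurent series -/
def theta : FresK0 A (M' * q) →+* LaurentSeries kA :=
  (coeffMap (resMapK0 A)).comp (FresK0 A (M' * q)).val.toRingHom

theorem theta_apply (y : FresK0 A (M' * q)) :
    theta A y = coeffMap (resMapK0 A) (y : LaurentSeries k₀) := rfl

include h hqM hA in
/-- every element of `FresK0 A (M' q)` is, over `kA`, a quotient of elements of `CRing M' A` -/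
theorem exists_frac (y : FresK0 A (M' * q)) :
    ∃ c₁ c₂ : CRing M' A, c₂ ≠ 0 ∧
      theta A y * (cVal M' A).toRingHom c₂ = (cVal M' A).toRingHom c₁ := by
  have h1 : coeffMap (resMapK0 A) (y : LaurentSeries k₀) ∈ FresBar M' A := by
    have h0 := coeffMap_mem_FresQb A (M' * q) y.2
    rw [Fermat.Agent.GL.Val.ResK0.FresC_Qb_eq_FresBar,
      Fermat.Agent.GK.QS.FresBar_mul_eq M' q A h hqM hA] at h0
    exact h0
  haveI := Fermat.Agent.GL.CRingFin.isFractionRing_CRing M' A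
  obtain ⟨c₁, c₂, hc₂, e⟩ := IsFractionRing.div_surjective (A := CRing M' A)
    (⟨_, h1⟩ : FresBar M' A)
  have hc₂0 : c₂ ≠ 0 := nonZeroDivisors.ne_zero hc₂
  have hc₂' : algebraMap (CRing M' A) (FresBar M' A) c₂ ≠ 0 := by
    rw [Ne, IsFractionRing.to_map_eq_zero_iff]; exact hc₂0
  refine ⟨c₁, c₂, hc₂0, ?_⟩
  have e' : (⟨_, h1⟩ : FresBar M' A) * algebraMap (CRing M' A) (FresBar M' A) c₂ =
      algebraMap (CRing M' A) (FresBar M' A) c₁ := by
    rw [← e, div_mul_cancel₀ _ hc₂']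
  exact congrArg (fun z : FresBar M' A => (z : LaurentSeries kA)) e'

/-- the chart ring maps to helper96's `BRingK0` -/
def toBK0 {B' : Type*} [CommRing B'] [Algebra B' E] (hmem : ∀ b : B', algebraMap B' E b ∈ BRingK0 M' q A h) : B' →+* BRingK0 M' q A h :=
  (algebraMap B' E).codRestrict (BRingK0 M' q A h) hmem

theorem coe_toBK0 {B' : Type*} [CommRing B'] [Algebra B' E] (hmem : ∀ b : B', algebraMap B' E b ∈ BRingK0 M' q A h) (b : B') :
    ((toBK0 A h hmem b : BRingK0 M' q A h) : E) = algebraMap B' E b := rfl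

theorem toBK0_surjective {B' : Type*} [CommRing B'] [Algebra B' E] (hmem : ∀ b : B', algebraMap B' E b ∈ BRingK0 M' q A h)
    (hsurj : ∀ x ∈ BRingK0 M' q A h, ∃ b : B', algebraMap B' E b = x) :
    Function.Surjective (toBK0 A h hmem) := by
  rintro ⟨x, hx⟩
  obtain ⟨b, hb⟩ := hsurj x hx
  exact ⟨b, Subtype.ext hb⟩

/-- `red₂ : B_R → C` is onto (the transposed graph of `Ψ`) -/
theorem redC2K0_surjective' (h2 : q = 2 → 3 ∣ M') (h3 : q = 3 → 2 ∣ M') :
    Function.Surjective (redC2K0 h hqM hA) := by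
  intro b
  obtain ⟨x0, -, e2⟩ := exists_pairK0_eq_of_mem_BT h hqM hA
    (right_mem_BT M' q A h hqM hA h2 h3 b)
  exact ⟨x0, e2⟩

include hqM hA in
/-- **LOWER-HVAL, component `w₁`** (with the `Fact q.Prime` instance and `BRingK0` in the binders) -/
theorem hval_lower1_aux {B' : Type*} [CommRing B'] [Algebra B' E]
    (h2 : q = 2 → 3 ∣ M') (h3 : q = 3 → 2 ∣ M')
    (hmem : ∀ b : B', algebraMap B' E b ∈ BRingK0 M' q A h)
    (hsurj : ∀ x ∈ BRingK0 M' q A h, ∃ b : B', algebraMap B' E b = x)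
    (ρ' : B' →+* FresK0 A (M' * q))
    (hρ' : ∀ b, ∃ hb : algebraMap B' E b ∈ (redDataK0 A (M' * q)).Rw,
      (redDataK0 A (M' * q)).red ⟨algebraMap B' E b, hb⟩ = ρ' b)
    {k : Type*} [Field k] (χ' : B' →+* k) (hk : ∀ b, ρ' b = 0 → χ' b = 0)
    (y : FresK0 A (M' * q)) : y ∈ locSub ρ' χ' ∨ y⁻¹ ∈ locSub ρ' χ' := by
  haveI := Fermat.Agent.GK.SS.Modular.isDedekindDomain_CRing M' q A hA
  refine hval_of_surj_dedekind ρ' χ' hk (theta A) (cVal M' A).toRingHom (cVal_injective M' A)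
    ((redC1K0 h hqM hA).comp (toBK0 A h hmem))
    ((redC1K0_surjective h hqM hA h2 h3).comp (toBK0_surjective A h hmem hsurj)) ?_
    (exists_frac A h hqM hA) y
  intro b
  obtain ⟨hb, e⟩ := hρ' b
  rw [← e, theta_apply]
  show _ = cVal M' A (redC1K0 h hqM hA (toBK0 A h hmem b))
  rw [cVal_redC1K0, rho1_apply]
  exact (coe_red1K0 A (M' * q) (algebraMap B' E b) hb _).symm

include hqM hA in
/-- **LOWER-HVAL, component `w₂`** (with the `Fact q.Prime` instance and `BRingK0` in the binders) -/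
theorem hval_lower2_aux {B' : Type*} [CommRing B'] [Algebra B' E]
    (h2 : q = 2 → 3 ∣ M') (h3 : q = 3 → 2 ∣ M')
    (hmem : ∀ b : B', algebraMap B' E b ∈ BRingK0 M' q A h)
    (hsurj : ∀ x ∈ BRingK0 M' q A h, ∃ b : B', algebraMap B' E b = x)
    (ρ' : B' →+* FresK0 A (M' * q))
    (hρ' : ∀ b, ∃ hb : algebraMap B' E b ∈ (redData2K0 A (M' * q) h).Rw,
      (redData2K0 A (M' * q) h).red ⟨algebraMap B' E b, hb⟩ = ρ' b)
    {k : Type*} [Field k] (χ' : B' →+* k) (hk : ∀ b, ρ' b = 0 → χ' b = 0)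
    (y : FresK0 A (M' * q)) : y ∈ locSub ρ' χ' ∨ y⁻¹ ∈ locSub ρ' χ' := by
  haveI := Fermat.Agent.GK.SS.Modular.isDedekindDomain_CRing M' q A hA
  refine hval_of_surj_dedekind ρ' χ' hk (theta A) (cVal M' A).toRingHom (cVal_injective M' A)
    ((redC2K0 h hqM hA).comp (toBK0 A h hmem))
    ((redC2K0_surjective' A h hqM hA h2 h3).comp (toBK0_surjective A h hmem hsurj)) ?_
    (exists_frac A h hqM hA) y
  intro b
  obtain ⟨hb, e⟩ := hρ' b
  rw [← e, theta_apply]
  show _ = cVal M' A (redC2K0 h hqM hA (toBK0 A h hmem b))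
  rw [cVal_redC2K0, rho2_apply]
  exact (coe_red2K0 A (M' * q) h (algebraMap B' E b) hb _).symm

end Fact

/-! ### The final statements: no `Fact` instance, helper67 `RowsInst` conventions -/

section Main

variable (A : ValuationSubring Qb) {M' q : ℕ} [NeZero M'] [NeZero q]
  (hq : q.Prime) (hqM : ¬ q ∣ M') (hA : (q : Qb) ∈ A.nonunits) (h : ExactDvd q (M' * q))
  (h2 : q = 2 → 3 ∣ M') (h3 : q = 3 → 2 ∣ M')

local notation "E" => modularFunctionFieldFullC (K0 A) (M' * q)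

include hq hqM hA h2 h3 in
/-- **LOWER-HVAL, component `w₁`** (`hval1'` of `TripleInst.ChartData`, `Hval.h1` of
`TripleBuild.BuildData`): at the level `M' * q`, the reduction along `w₁` of the chart ring,
localised at any point of the component, is a valuation subring of `FresK0 A (M' * q)`. -/
theorem hval_lower1 {B' : Type*} [CommRing B'] [Algebra B' E]
    (hmem : ∀ b : B', RegFin (K0 A) (jC (M' * q) (K0 A)) (algebraMap B' E b) ∧
      algebraMap B' E b ∈ RwK0 A (M' * q) ∧ algebraMap B' E b ∈ (redData2K0 A (M' * q) h).Rw)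
    (hsurj : ∀ x : E, RegFin (K0 A) (jC (M' * q) (K0 A)) x → x ∈ RwK0 A (M' * q) →
      x ∈ (redData2K0 A (M' * q) h).Rw → ∃ b : B', algebraMap B' E b = x)
    (ρ' : B' →+* FresK0 A (M' * q))
    (hρ' : ∀ b, ∃ hb : algebraMap B' E b ∈ (redDataK0 A (M' * q)).Rw,
      (redDataK0 A (M' * q)).red ⟨algebraMap B' E b, hb⟩ = ρ' b)
    {k : Type*} [Field k] (χ' : B' →+* k) (hk : ∀ b, ρ' b = 0 → χ' b = 0)
    (y : FresK0 A (M' * q)) : y ∈ locSub ρ' χ' ∨ y⁻¹ ∈ locSub ρ' χ' := by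
  haveI : Fact q.Prime := ⟨hq⟩
  refine hval_lower1_aux A h hqM hA h2 h3 (fun b => mem_BRingK0.2 (hmem b)) (fun x hx => ?_)
    ρ' hρ' χ' hk y
  obtain ⟨a, b, c⟩ := mem_BRingK0.1 hx
  exact hsurj x a b c

include hq hqM hA h2 h3 in
/-- **LOWER-HVAL, component `w₂`** (`hval2'` of `TripleInst.ChartData`, `Hval.h2` of
`TripleBuild.BuildData`). -/
theorem hval_lower2 {B' : Type*} [CommRing B'] [Algebra B' E]
    (hmem : ∀ b : B', RegFin (K0 A) (jC (M' * q) (K0 A)) (algebraMap B' E b) ∧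
      algebraMap B' E b ∈ RwK0 A (M' * q) ∧ algebraMap B' E b ∈ (redData2K0 A (M' * q) h).Rw)
    (hsurj : ∀ x : E, RegFin (K0 A) (jC (M' * q) (K0 A)) x → x ∈ RwK0 A (M' * q) →
      x ∈ (redData2K0 A (M' * q) h).Rw → ∃ b : B', algebraMap B' E b = x)
    (ρ' : B' →+* FresK0 A (M' * q))
    (hρ' : ∀ b, ∃ hb : algebraMap B' E b ∈ (redData2K0 A (M' * q) h).Rw,
      (redData2K0 A (M' * q) h).red ⟨algebraMap B' E b, hb⟩ = ρ' b)
    {k : Type*} [Field k] (χ' : B' →+* k) (hk : ∀ b, ρ' b = 0 → χ' b = 0)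
    (y : FresK0 A (M' * q)) : y ∈ locSub ρ' χ' ∨ y⁻¹ ∈ locSub ρ' χ' := by
  haveI : Fact q.Prime := ⟨hq⟩
  refine hval_lower2_aux A h hqM hA h2 h3 (fun b => mem_BRingK0.2 (hmem b)) (fun x hx => ?_)
    ρ' hρ' χ' hk y
  obtain ⟨a, b, c⟩ := mem_BRingK0.1 hx
  exact hsurj x a b c

end Main

end Fermat.Agent.GL.Final.LowerHval
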