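/-
GATE-L / LOWER-HVAL, abstract core (helper34).

`B'` a chart ring, `ρ' : B' →+* κ'` its reduction along a vertical component, `χ' : B' →+* k` the
residue character of a closed point on that component (`ρ' b = 0 → χ' b = 0`).  If the reduction
factors, inside a domain `Λ` (`θ : κ' →+* Λ`, `ι : C →+* Λ` injective, `θ ∘ ρ' = ι ∘ r`), through a
SURJECTION `r : B' →+* C` onto a Dedekind domain `C` such that every element of `κ'` is a quotient
of elements of `C` (inside `Λ`), then `BranchPoint.locSub ρ' χ'` is a valuation subring of `κ'`: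

  `hval_of_surj_dedekind : ∀ y : κ', y ∈ locSub ρ' χ' ∨ y⁻¹ ∈ locSub ρ' χ'`

= the `hval` binder of helper90 `BranchPoint.locVal / evalHom / mem_iff_map_mem` VERBATIM
(fields `hval1' hval2'` of helper36 `TripleInst.ChartData`, `(UNIQ_j')` of helper40 `TripleBuild`).
-/
import Fermat.Agent.GL.Frame.BranchPoint
import Fermat.Agent.GL.Chain.PointBranch

set_option autoImplicit false
set_option linter.unusedSectionVars false

namespace Fermat.Agent.GL.Final.LowerHvalAbs

open Fermat.Agent.GL.BranchPoint Fermat.Agent.GL.PointBranch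

variable {B' κ' k C Λ : Type*} [CommRing B'] [Field κ'] [Field k] [CommRing C] [IsDedekindDomain C]
  [CommRing Λ] [IsDomain Λ]

section

variable (ρ' : B' →+* κ') (χ' : B' →+* k) (hk : ∀ b, ρ' b = 0 → χ' b = 0)
  (θ : κ' →+* Λ) (ι : C →+* Λ) (hι : Function.Injective ι)
  (r : B' →+* C) (hr : Function.Surjective r) (hcomm : ∀ b, θ (ρ' b) = ι (r b))

omit [IsDedekindDomain C] in
include hk hcomm in
/-- the character factors through the coordinate ring -/
theorem ker_le_ker : RingHom.ker r ≤ RingHom.ker χ' := by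
  intro b hb
  rw [RingHom.mem_ker] at hb ⊢
  apply hk
  apply θ.injective
  rw [hcomm, hb, map_zero, map_zero]

/-- the point of the coordinate ring `C` defined by the character `χ'` -/
noncomputable def charC : C →+* k :=
  RingHom.liftOfSurjective r hr ⟨χ', ker_le_ker ρ' χ' hk θ ι r hcomm⟩

theorem charC_apply (b : B') : charC ρ' χ' hk θ ι r hr hcomm (r b) = χ' b :=
  RingHom.liftOfRightInverse_comp_apply _ _ (Function.rightInverse_surjInv hr) _ b

include hk hι hr hcomm in
/-- **LOWER-HVAL, abstract**: the localisation of the reduced chart ring at a closed point of the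
component is a valuation subring of the residue field of the component. -/
theorem hval_of_surj_dedekind
    (hfrac : ∀ y : κ', ∃ c₁ c₂ : C, c₂ ≠ 0 ∧ θ y * ι c₂ = ι c₁) (y : κ') :
    y ∈ locSub ρ' χ' ∨ y⁻¹ ∈ locSub ρ' χ' := by
  classical
  set ψ : C →+* k := charC ρ' χ' hk θ ι r hr hcomm with hψ
  have hψr : ∀ b, ψ (r b) = χ' b := charC_apply ρ' χ' hk θ ι r hr hcomm
  have hθ : Function.Injective θ := θ.injective
  obtain ⟨c₁, c₂, hc₂, hy⟩ := hfrac y
  have hιc₂ : ι c₂ ≠ 0 := fun h0 => hc₂ (hι (by rw [h0, map_zero]))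
  -- the key transfer: a relation `θ z * ι s = ι a` in `Λ` with `ψ s ≠ 0` puts `z` in `locSub`
  have key : ∀ (z : κ') (s a : C), ψ s ≠ 0 → θ z * ι s = ι a → z ∈ locSub ρ' χ' := by
    intro z s a hs hz
    obtain ⟨s', rfl⟩ := hr s
    obtain ⟨a', rfl⟩ := hr a
    refine ⟨a', s', by rwa [hψr] at hs, hθ ?_⟩
    rw [map_mul, hcomm, hcomm, hz]
  by_cases hy0 : y = 0
  · left; rw [hy0]; exact (locSub ρ' χ').zero_mem
  have hc₁ : c₁ ≠ 0 := by
    rintro rfl
    rw [map_zero] at hy
    rcases mul_eq_zero.mp hy with h | h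
    · exact hy0 (hθ (by rw [h, map_zero]))
    · exact hιc₂ h
  have hιc₁ : ι c₁ ≠ 0 := fun h0 => hc₁ (hι (by rw [h0, map_zero]))
  have hθy : θ y ≠ 0 := fun h0 => hy0 (hθ (by rw [h0, map_zero]))
  by_cases h0 : RingHom.ker ψ = ⊥
  · -- the generic point: every nonzero element of `C` is a unit at the point
    left
    refine key y c₂ c₁ ?_ hy
    intro h
    exact hc₂ ((Submodule.mem_bot _).1 (h0 ▸ (RingHom.mem_ker.2 h)))
  · -- a closed point: `C` localised at `ker ψ` is a discrete valuation ring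
    set K := FractionRing C
    set z : K := algebraMap C K c₁ / algebraMap C K c₂ with hz
    have hK₂ : algebraMap C K c₂ ≠ 0 := by
      rw [Ne, IsFractionRing.to_map_eq_zero_iff]; exact hc₂
    have hK₁ : algebraMap C K c₁ ≠ 0 := by
      rw [Ne, IsFractionRing.to_map_eq_zero_iff]; exact hc₁
    rcases (ptVal K ψ h0).mem_or_inv_mem z with hz' | hz'
    · left
      obtain ⟨s, hs, a, ha⟩ := (mem_ptVal_iff ψ h0).1 hz'
      -- `s c₁ = a c₂`
      have e : s * c₁ = a * c₂ := by
        apply IsFractionRing.injective C K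
        rw [map_mul, map_mul, ha, Algebra.smul_def, hz, mul_assoc, div_mul_cancel₀ _ hK₂]
      refine key y s a hs ?_
      apply mul_right_cancel₀ hιc₂
      calc θ y * ι s * ι c₂ = ι s * (θ y * ι c₂) := by ring
        _ = ι (s * c₁) := by rw [hy, map_mul]
        _ = ι a * ι c₂ := by rw [e, map_mul]
    · right
      obtain ⟨s, hs, a, ha⟩ := (mem_ptVal_iff ψ h0).1 hz'
      -- `s c₂ = a c₁`
      have e : s * c₂ = a * c₁ := by
        apply IsFractionRing.injective C K
        rw [map_mul, map_mul, ha, Algebra.smul_def, hz, inv_div, mul_assoc, div_mul_cancel₀ _ hK₁]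
      refine key y⁻¹ s a hs ?_
      apply mul_right_cancel₀ hθy
      apply mul_right_cancel₀ hιc₂
      have hinv : θ y⁻¹ * θ y = 1 := by
        rw [← map_mul, inv_mul_cancel₀ hy0, map_one]
      calc θ y⁻¹ * ι s * θ y * ι c₂ = (θ y⁻¹ * θ y) * (ι s * ι c₂) := by ring
        _ = ι (s * c₂) := by rw [hinv, one_mul, map_mul]
        _ = ι a * (θ y * ι c₂) := by rw [e, map_mul, hy]
        _ = ι a * θ y * ι c₂ := by ring

end

end Fermat.Agent.GL.Final.LowerHvalAbs
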