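/-
GATE-L / L12 complement (helper64): the clean Tate-side gate `S36GateNE` (the S36 input of helper27's
`GE/Top/S58Top.s58_of_gates`, through `s36Core_of_gateNE`) from the Hecke-free geometric gate
`S36GeomGate`.  So S58 needs, on the S36 side, exactly the same geometric theorem as S36.
-/
import Mathlib
import Fermat.Agent.GL.Final.S36OfGeom

set_option autoImplicit false

namespace Fermat.Agent.GL.Final

open Fermat.Agent.GK.S36.S36Top Fermat.Agent.GK.S36.S36Final Fermat.Agent.GL.Hecke

/-- the geometric gate implies the clean Tate-side gate (the non-Eisenstein hypothesis is not used) -/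
theorem s36GateNE_of_geom (hG : S36GeomGate) : S36GateNE := by
  intro M _ g hg lam _ S hlam2 chig hchig hlamS hMS _ q hq hqlam hq2
  obtain ⟨N', hN', hN'M, hne, P, hP, C, hC, hgeom⟩ := hG M lam q hq hqlam hlam2 hq2
  exact inv36Gate_of_geom hN'M hne hg lam S chig hchig hlamS hMS q P hP C hC hgeom

end Fermat.Agent.GL.Final
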