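/-
GATE-L / TOP ASSEMBLY, part 4 (helper48): helper82's block D at the good auxiliary levels
(`TopInstGood.s36GeomGate_of_K0Q_good`) when the gate is proved for EVERY place over `q`.

* `exists_liesOverPrime`            : every prime `q` has a valuation subring of `ℚ̄` over it
  (Chevalley, Mathlib `Ideal.image_subset_nonunits_valuationSubring`) — the ONE existence statement
  the whole L stack needs about places (every file below has `(A : ValuationSubring Qb)
  (hA : A.LiesOverPrime q)` as VARIABLES);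
* `s36GeomGate_of_K0Q_good_forall`  : `S36GeomGate` from the two norm squares and the gate
  `K0UnitGateQ` over `K₀(X₀(L' q))`, `K₀ = ℚ̄^{I_P}`, at every level `L'` with `GoodAuxLevel L' q`
  and EVERY place `P ∣ q`.
-/
import Mathlib
import Fermat.Agent.GL.Final.NormSquareInst

set_option autoImplicit false
set_option linter.unusedSectionVars false

noncomputable section

namespace Fermat.Agent.GL.Final.GeomGate

open Fermat.Agent.GL.Final Fermat.Agent.GL.Final.TopInst Fermat.Agent.GL.Gate
open Fermat.Agent.GL.Val.GaussK0 Fermat.Agent.GL.Val.CuspK0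
open Fermat.Agent.Common_helper32

/-- **every prime has a place of `ℚ̄` over it** -/
theorem exists_liesOverPrime {q : ℕ} (hq : q.Prime) :
    ∃ P : ValuationSubring (AlgebraicClosure ℚ), P.LiesOverPrime q := by
  let Z : Subring (AlgebraicClosure ℚ) := (Int.castRingHom (AlgebraicClosure ℚ)).range
  have hqZ : (q : AlgebraicClosure ℚ) ∈ Z := ⟨(q : ℤ), by simp⟩
  let I : Ideal Z := Ideal.span {⟨(q : AlgebraicClosure ℚ), hqZ⟩}
  have hI : I ≠ ⊤ := by
    intro htop
    have h1 : (1 : Z) ∈ I := by rw [htop]; trivial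
    obtain ⟨a, ha⟩ := Ideal.mem_span_singleton'.mp h1
    obtain ⟨n, hn⟩ := a.2
    have h2 : ((n * q : ℤ) : AlgebraicClosure ℚ) = ((1 : ℤ) : AlgebraicClosure ℚ) := by
      have h3 := congrArg (fun z : Z => (z : AlgebraicClosure ℚ)) ha
      simp only [Subring.coe_mul, Subring.coe_one] at h3
      rw [← hn] at h3
      push_cast
      simpa using h3
    have h4 : n * (q : ℤ) = 1 := Int.cast_injective h2
    have h5 : (q : ℤ) ∣ 1 := Dvd.intro_left n h4
    have h6 : q ∣ 1 := by exact_mod_cast h5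
    exact hq.one_lt.ne' (Nat.dvd_one.mp h6)
  obtain ⟨B, -, hB⟩ := Ideal.image_subset_nonunits_valuationSubring I hI
  refine ⟨B, ?_⟩
  have hmem : (⟨(q : AlgebraicClosure ℚ), hqZ⟩ : Z) ∈ I := Ideal.subset_span rfl
  exact hB ⟨_, hmem, rfl⟩

/-- **Block D at the good auxiliary levels, gate proved for EVERY place over `q`.** -/
theorem s36GeomGate_of_K0Q_good_forall
    (hsqA : ∀ (P : ValuationSubring Qb) (N0 q : ℕ) [NeZero N0] [NeZero q], q.Prime → q ∣ N0 →
      NormSquareA P N0 q)
    (hsqB : ∀ (P : ValuationSubring Qb) (N0 q : ℕ) [NeZero N0] [NeZero q], q.Prime → q ∣ N0 →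
      NormSquareB P N0 q)
    (h : ∀ (L' : ℕ) [NeZero L'] (lam : ℕ) [Fact lam.Prime] (q : ℕ) [NeZero q], q.Prime → q ≠ lam →
      lam ≠ 2 → GoodAuxLevel L' q →
        ∀ P : ValuationSubring Qb, P.LiesOverPrime q →
          ∃ c C' : ℕ, C' ≠ 0 ∧
            ∀ k : ℕ, c ≤ k →
              K0UnitGateQ (K0 P) (toFN0 P (L' * q)) (normK0A P L' q) (normK0B P L' q)
                (lam ^ k) (lam ^ (k - c)) C') :
    S36GeomGate := by
  refine s36GeomGate_of_K0Q_good hsqA hsqB fun L' _ lam _ q _ hq hqlam hlam2 hgood => ?_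
  obtain ⟨P, hP⟩ := exists_liesOverPrime hq
  exact ⟨P, hP, h L' lam q hq hqlam hlam2 hgood P hP⟩

/-- **THE TOP, final form**: `S36GeomGate` from the geometric gate `K0UnitGateQ` over
`K₀(X₀(L' q))`, `K₀ = ℚ̄^{I_P}`, at every good level `L'` and EVERY place `P ∣ q` — no other
hypothesis (norm squares: helper17 `normSquareA/B`; a place over `q` exists). -/
theorem s36GeomGate_of_K0Q_good_forall_inst
    (h : ∀ (L' : ℕ) [NeZero L'] (lam : ℕ) [Fact lam.Prime] (q : ℕ) [NeZero q], q.Prime → q ≠ lam →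
      lam ≠ 2 → GoodAuxLevel L' q →
        ∀ P : ValuationSubring Qb, P.LiesOverPrime q →
          ∃ c C' : ℕ, C' ≠ 0 ∧
            ∀ k : ℕ, c ≤ k →
              K0UnitGateQ (K0 P) (toFN0 P (L' * q)) (normK0A P L' q) (normK0B P L' q)
                (lam ^ k) (lam ^ (k - c)) C') :
    S36GeomGate :=
  s36GeomGate_of_K0Q_good_forall (fun P N0 q _ _ _ _ => normSquareA P N0 q)
    (fun P N0 q _ _ _ _ => normSquareB P N0 q) h

end Fermat.Agent.GL.Final.GeomGate
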