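/-
GATE-L / TRIPLE-BUILD ⟹ (H4) ARM (helper40): helper46's `H4Arm.h4_arm` at the `TripleSetup`
`S := D.toSetup hv` of `GL/Final/TripleBuild.lean` (route (β)), with the side hypotheses
`heu1' heu2' hB1' hB2' hχ1' hχ2' hconst1 hconst2 hconst3 hconst1' hconst2'` DISCHARGED:
what is left are lifts of the constants to the chart rings (`hc_i`, `hc_j'`).

FIT CHECK of the interface `BuildData.toSetup` ↔ `h4_arm` (compiled).
-/
import Fermat.Agent.GL.Final.TripleBuild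
import Fermat.Agent.GL.Gate.H4Arm

set_option autoImplicit false
set_option linter.unusedSectionVars false

namespace Fermat.Agent.GL.TripleBuild

open Fermat.Agent.GL Fermat.Agent.GL.Chain Fermat.Agent.GL.CompBranch Fermat.Agent.GL.H4OfXi
  Fermat.Agent.GL.H4Producers
open Fermat.Agent.GK.MultiVal

variable {F E k k1 k2 k3 k1' k2' B T T' : Type*} [Field F] [Field E] [Field k]
  [Field k1] [Field k2] [Field k3] [Field k1'] [Field k2'] [CommRing B] [IsDomain B]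
  [Algebra B F] [IsFractionRing B F]
  {L : Type*} [Field L] [Algebra L E] [IsAlgClosed k]
  [Algebra k k1] [Algebra k k2] [Algebra k k3] [Algebra k k1'] [Algebra k k2']
  {B' : Type*} [CommRing B'] [IsDomain B'] [IsIntegrallyClosed B'] [Algebra B' E]
  [IsFractionRing B' E]
  (D : BuildData F E k k1 k2 k3 k1' k2' B B' T T') (hv : D.Hval)

/-- **The (H4) arm at the route-(β) `TripleSetup`.** -/
theorem h4_arm_of_build [Finite T] {m : ℕ} (hm : m ≠ 0) (hrc : KummerMove.RootClosed B F m)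
    -- the vertical valuations of `F`: approximation
    (hW : Incomparable ![D.W1, D.W2, D.W3])
    (hs1 : Function.Surjective D.rd1) (hs2 : Function.Surjective D.rd2)
    (hs3 : Function.Surjective D.rd3)
    -- lifts of the constants to the chart rings
    (hc1 : ∀ a : k, ∃ b : B, D.rho1 b = algebraMap k k1 a ∧ ∀ n, D.χ n b = a)
    (hc2 : ∀ a : k, ∃ b : B, D.rho2 b = algebraMap k k2 a ∧ ∀ n, D.χ n b = a)
    (hc3 : ∀ a : k, ∃ b : B, D.rho3 b = algebraMap k k3 a ∧ ∀ n, D.χ n b = a)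
    (hc1' : ∀ a : k, ∃ b : B', D.rho1' b = algebraMap k k1' a ∧ ∀ n', D.χ' n' b = a)
    (hc2' : ∀ a : k, ∃ b : B', D.rho2' b = algebraMap k k2' a ∧ ∀ n', D.χ' n' b = a)
    -- the vertical valuations of `E` (helper66 shapes)
    {q0 : L}
    (hdA1 : IsDiscAt D.A1 (algebraMap L E q0)) (hdA2 : IsDiscAt D.A2 (algebraMap L E q0))
    (hLval : ∀ c : L, c ≠ 0 → ∃ n : ℤ,
      D.A1.valuation (algebraMap L E c) = D.A1.valuation (algebraMap L E q0) ^ n ∧
      D.A2.valuation (algebraMap L E c) = D.A2.valuation (algebraMap L E q0) ^ n)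
    (hLred1 : ∀ (c : L) (hc : algebraMap L E c ∈ D.A1), ∃ a : k,
      D.rd1' ⟨algebraMap L E c, hc⟩ = algebraMap k k1' a)
    (hLred2 : ∀ (c : L) (hc : algebraMap L E c ∈ D.A2), ∃ a : k,
      D.rd2' ⟨algebraMap L E c, hc⟩ = algebraMap k k2' a)
    -- the nodes of the lower chart ring
    (P' : T' → Ideal B') [hP' : ∀ n', (P' n').IsPrime]
    (hχ'ker : ∀ n' b, D.χ' n' b = 0 ↔ b ∈ P' n')
    -- vertical-unit constants are units of the node rings
    (hLunit : ∀ d : L, D.A1.valuation (algebraMap L E d) = 1 → ∀ n',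
      algebraMap L E d ∈ locRing (E := E) (P' n') ∧
        (algebraMap L E d)⁻¹ ∈ locRing (E := E) (P' n'))
    -- norms of semilocal units (`NormUnit`)
    (hNUa : ∀ c : B, (∀ n, c ∉ D.P n) → ∀ n, ∃ ν : B', ν ∉ P' (D.p1 n) ∧
      D.Nm (algebraMap B F c) = algebraMap B' E ν)
    (hNUb : ∀ c : B, (∀ n, c ∉ D.P n) → ∀ n, ∃ ν : B', ν ∉ P' (D.p2 n) ∧
      D.Nm' (algebraMap B F c) = algebraMap B' E ν)
    {u2 : F} (hu20 : u2 ≠ 0) (hU2 : U2 (D.toSetup hv) u2)
    -- local Kummer data at the triple points (REG + `m ∣ div u2`)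
    (hloc : ∀ n, ∃ g : F, ∃ a s : B, a ∉ D.P n ∧ s ∉ D.P n ∧
      g ^ m * u2 * algebraMap B F s = algebraMap B F a)
    (e₁ : IsCstPow L m (D.Nm u2)) (e₂ : IsCstPow L m (D.Nm' u2)) :
    ∃ f0 : F, f0 ≠ 0 ∧ U3 (D.toSetup hv) m (u2 ^ (D.q ^ 2 - 1) * f0 ^ m) :=
  H4Arm.h4_arm (D.toSetup hv) hm hrc hW hs1 hs2 hs3
    (D.toSetup_hconst1 hv hc1) (D.toSetup_hconst2 hv hc2) (D.toSetup_hconst3 hv hc3)
    (D.toSetup_hconst1' hv hc1') (D.toSetup_hconst2' hv hc2')
    hdA1 hdA2 hLval hLred1 hLred2 P' D.χ' hχ'ker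
    (D.toSetup_heu1' hv) (D.toSetup_heu2' hv) (D.toSetup_hB1' hv) (D.toSetup_hB2' hv)
    (D.toSetup_hχ1' hv) (D.toSetup_hχ2' hv) hLunit hNUa hNUb hu20 hU2 hloc e₁ e₂

end Fermat.Agent.GL.TripleBuild
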