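/-
GATE-L / TRIPLE-INST, route (α) (helper36; helper39 L-INT RULING 2 = 3050, helper31 GRAPH RULING 3
= 3071 (1)(c)): the record `S : H4OfXi.TripleSetup F E k k1 k2 k3 k1' k2' B T T'` of helper46
ASSEMBLED on helper90's branch kit `GL/Frame/BranchPoint.lean`

  `U_i n := locVal ρ_i (χ n) (hval_i n)`,  `e_i n := evalHom ρ_i (χ n) (hk_i n) (hval_i n)`,
  `U_j' n' := locVal ρ_j' (χ' n') (hval_j' n')`, `e_j' n' := evalHom …`

from the chart-level data `ChartData`: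

* the five vertical valuations with their reductions (`W_i rd_i hr_i`, `A_j rd_j' hr_j'`);
* the chart rings `B` (`Algebra B F`), `B'` (`Algebra B' E`) with their reductions
  `ρ_i : B →+* k_i`, `ρ_j' : B' →+* k_j'` (`hρ_i : rd_i ⟨algebraMap B F b, _⟩ = ρ_i b`);
* the triple points `P n = ker (χ n)` on all three components (`hk_i : ρ_i b = 0 → χ n b = 0`),
  the nodes `χ' n'` on both lower components (`hk_j'`);
* the FIVE `hval` families (`locSub ρ_i (χ n)` is a valuation subring: helper35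
  `BranchPoint.hval_of_dedekind`);
* the degeneracy maps on the chart rings `φ1 φ2 : B' →+* B` (`= α, β`), `p1 p2 : T → T'` with
  `χ n ∘ φ_i = χ' (p_i n)`, the six residue embeddings and the six chart-level squares
  `ρ_1 ∘ φ1 = j11 ∘ ρ_1'` … (helper67 `RowsInst`);
* the two norms with the four rows (helper67 `RowsInst`), VERBATIM in `TripleSetup` shape.

`ChartData.toSetup` is the record; its fields `W1 … rd2' Nm Nm' q j11 … P χ p1 p2` are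
DEFINITIONALLY the inputs (`toSetup_W1` … by `rfl`: helper39's (C2) equations of 3023).
Companions in the EXACT binder shapes of helper46 `H4Arm.h4_arm`:
`heu1' heu2' hB1' hB2' hχ1' hχ2'` (node data `B' χ'`), `hconst1 hconst2 hconst3 hconst1' hconst2'`
(from lifts of the constants to the chart rings).
-/
import Mathlib
import Fermat.Agent.GL.Gate.H4OfXi
import Fermat.Agent.GL.Frame.BranchPoint

set_option autoImplicit false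
set_option linter.unusedSectionVars false
set_option linter.unusedVariables false

namespace Fermat.Agent.GL.Final.TripleInst

open Fermat.Agent.GL Fermat.Agent.GL.CompBranch Fermat.Agent.GL.H4OfXi
open Fermat.Agent.GL.BranchPoint

/-- the chart-level data of the triple points (route (α)). -/
structure ChartData (F E k k1 k2 k3 k1' k2' B B' T T' : Type*) [Field F] [Field E] [Field k]
    [Field k1] [Field k2] [Field k3] [Field k1'] [Field k2'] [CommRing B] [Algebra B F]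
    [CommRing B'] [Algebra B' E] where
  W1 : ValuationSubring F
  W2 : ValuationSubring F
  W3 : ValuationSubring F
  A1 : ValuationSubring E
  A2 : ValuationSubring E
  rd1 : W1 →+* k1
  rd2 : W2 →+* k2
  rd3 : W3 →+* k3
  rd1' : A1 →+* k1'
  rd2' : A2 →+* k2'
  hr1 : ∀ z : W1, ¬ IsUnit z → rd1 z = 0
  hr2 : ∀ z : W2, ¬ IsUnit z → rd2 z = 0
  hr3 : ∀ z : W3, ¬ IsUnit z → rd3 z = 0
  hr1' : ∀ z : A1, ¬ IsUnit z → rd1' z = 0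
  hr2' : ∀ z : A2, ¬ IsUnit z → rd2' z = 0
  /-- reductions of the chart rings -/
  ρ1 : B →+* k1
  ρ2 : B →+* k2
  ρ3 : B →+* k3
  ρ1' : B' →+* k1'
  ρ2' : B' →+* k2'
  hρ1 : ∀ b : B, ∃ h : algebraMap B F b ∈ W1, rd1 ⟨algebraMap B F b, h⟩ = ρ1 b
  hρ2 : ∀ b : B, ∃ h : algebraMap B F b ∈ W2, rd2 ⟨algebraMap B F b, h⟩ = ρ2 b
  hρ3 : ∀ b : B, ∃ h : algebraMap B F b ∈ W3, rd3 ⟨algebraMap B F b, h⟩ = ρ3 b
  hρ1' : ∀ b : B', ∃ h : algebraMap B' E b ∈ A1, rd1' ⟨algebraMap B' E b, h⟩ = ρ1' b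
  hρ2' : ∀ b : B', ∃ h : algebraMap B' E b ∈ A2, rd2' ⟨algebraMap B' E b, h⟩ = ρ2' b
  /-- the triple points -/
  P : T → Ideal B
  hmax : ∀ n, (P n).IsMaximal
  hinj : Function.Injective P
  χ : T → (B →+* k)
  hχker : ∀ n b, χ n b = 0 ↔ b ∈ P n
  hχsurj : ∀ n, Function.Surjective (χ n)
  /-- the nodes -/
  χ' : T' → (B' →+* k)
  /-- a triple point lies on the three components, a node on the two -/
  hk1 : ∀ n b, ρ1 b = 0 → χ n b = 0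
  hk2 : ∀ n b, ρ2 b = 0 → χ n b = 0
  hk3 : ∀ n b, ρ3 b = 0 → χ n b = 0
  hk1' : ∀ n' b, ρ1' b = 0 → χ' n' b = 0
  hk2' : ∀ n' b, ρ2' b = 0 → χ' n' b = 0
  /-- the five families of valuation-ring inputs -/
  hval1 : ∀ n (y : k1), y ∈ locSub ρ1 (χ n) ∨ y⁻¹ ∈ locSub ρ1 (χ n)
  hval2 : ∀ n (y : k2), y ∈ locSub ρ2 (χ n) ∨ y⁻¹ ∈ locSub ρ2 (χ n)
  hval3 : ∀ n (y : k3), y ∈ locSub ρ3 (χ n) ∨ y⁻¹ ∈ locSub ρ3 (χ n)
  hval1' : ∀ n' (y : k1'), y ∈ locSub ρ1' (χ' n') ∨ y⁻¹ ∈ locSub ρ1' (χ' n')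
  hval2' : ∀ n' (y : k2'), y ∈ locSub ρ2' (χ' n') ∨ y⁻¹ ∈ locSub ρ2' (χ' n')
  /-- the degeneracy maps -/
  p1 : T → T'
  p2 : T → T'
  φ1 : B' →+* B
  φ2 : B' →+* B
  hφ1 : ∀ n b, χ n (φ1 b) = χ' (p1 n) b
  hφ2 : ∀ n b, χ n (φ2 b) = χ' (p2 n) b
  Nm : F →* E
  Nm' : F →* E
  q : ℕ
  hq : 1 ≤ q
  j11 : k1' →+* k1
  j13 : k1' →+* k3
  j22 : k2' →+* k2
  j11' : k1' →+* k1
  j22' : k2' →+* k2
  j23' : k2' →+* k3
  /-- the six chart-level squares -/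
  s11 : ∀ b, ρ1 (φ1 b) = j11 (ρ1' b)
  s13 : ∀ b, ρ3 (φ1 b) = j13 (ρ1' b)
  s22 : ∀ b, ρ2 (φ1 b) = j22 (ρ2' b)
  s11' : ∀ b, ρ1 (φ2 b) = j11' (ρ1' b)
  s22' : ∀ b, ρ2 (φ2 b) = j22' (ρ2' b)
  s23' : ∀ b, ρ3 (φ2 b) = j23' (ρ2' b)
  /-- the four rows -/
  hπ13 : ∀ (u : F) (h1 : u ∈ W1) (h3 : u ∈ W3), ∃ hN : Nm u ∈ A1, ∃ y1 y3 : k1',
    j11 y1 = rd1 ⟨u, h1⟩ ∧ j13 y3 = rd3 ⟨u, h3⟩ ∧ rd1' ⟨Nm u, hN⟩ = y1 * y3 ^ (q - 1)
  hπ2 : ∀ (u : F) (h2 : u ∈ W2), ∃ hN : Nm u ∈ A2, j22 (rd2' ⟨Nm u, hN⟩) = rd2 ⟨u, h2⟩ ^ q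
  hπ'1 : ∀ (u : F) (h1 : u ∈ W1), ∃ hN : Nm' u ∈ A1,
    j11' (rd1' ⟨Nm' u, hN⟩) = rd1 ⟨u, h1⟩ ^ q
  hπ'23 : ∀ (u : F) (h2 : u ∈ W2) (h3 : u ∈ W3), ∃ hN : Nm' u ∈ A2, ∃ y2 y3 : k2',
    j22' y2 = rd2 ⟨u, h2⟩ ∧ j23' y3 = rd3 ⟨u, h3⟩ ∧ rd2' ⟨Nm' u, hN⟩ = y2 * y3 ^ (q - 1)

section Generic

variable {F κ k B : Type*} [Field F] [Field κ] [Field k] [CommRing B] [Algebra B F]

/-- `hB_i` : the chart ring lies in the composite ring of the branch. -/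
theorem mem_comp_of_chart (W : ValuationSubring F) (rd : W →+* κ)
    (hr : ∀ z : W, ¬ IsUnit z → rd z = 0) (ρ : B →+* κ)
    (hρ : ∀ b : B, ∃ h : algebraMap B F b ∈ W, rd ⟨algebraMap B F b, h⟩ = ρ b)
    (χ : B →+* k) (hval : ∀ y : κ, y ∈ locSub ρ χ ∨ y⁻¹ ∈ locSub ρ χ) (b : B) :
    algebraMap B F b ∈ comp W rd hr (locVal ρ χ hval) := by
  obtain ⟨h, hb⟩ := hρ b
  refine (CompBranch.mem_comp W rd hr _).mpr ⟨h, ?_⟩
  rw [hb]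
  exact map_mem ρ χ b

/-- `hχ_i` : the branch value of the chart ring is the residue character. -/
theorem branch_ev_of_chart (W : ValuationSubring F) (rd : W →+* κ)
    (hr : ∀ z : W, ¬ IsUnit z → rd z = 0) (ρ : B →+* κ)
    (hρ : ∀ b : B, ∃ h : algebraMap B F b ∈ W, rd ⟨algebraMap B F b, h⟩ = ρ b)
    (χ : B →+* k) (hk : ∀ b, ρ b = 0 → χ b = 0)
    (hval : ∀ y : κ, y ∈ locSub ρ χ ∨ y⁻¹ ∈ locSub ρ χ) (b : B) :
    (branch W rd hr (locVal ρ χ hval) (evalHom ρ χ hk hval)).ev (algebraMap B F b) = χ b := by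
  obtain ⟨h, hb⟩ := hρ b
  have hU : rd ⟨algebraMap B F b, h⟩ ∈ locVal ρ χ hval := by
    rw [hb]; exact map_mem ρ χ b
  rw [branch_ev W rd hr (locVal ρ χ hval) (evalHom ρ χ hk hval) h hU, evalHom_apply]
  show ev ρ χ (rd ⟨algebraMap B F b, h⟩) = χ b
  rw [hb, ev_map hk]

/-- `hconst_i` : constants at the branch. -/
theorem const_of_chart [Algebra k κ] (ρ : B →+* κ) (χ : B →+* k) (hk : ∀ b, ρ b = 0 → χ b = 0)
    (hval : ∀ y : κ, y ∈ locSub ρ χ ∨ y⁻¹ ∈ locSub ρ χ)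
    (hc : ∀ a : k, ∃ b : B, ρ b = algebraMap k κ a ∧ χ b = a) (a : k) :
    ∃ ha : algebraMap k κ a ∈ locVal ρ χ hval,
      evalHom ρ χ hk hval ⟨algebraMap k κ a, ha⟩ = a := by
  obtain ⟨b, hb, hχb⟩ := hc a
  have ha : algebraMap k κ a ∈ locVal ρ χ hval := by
    rw [← hb]; exact map_mem ρ χ b
  refine ⟨ha, ?_⟩
  rw [evalHom_apply]
  show ev ρ χ (algebraMap k κ a) = a
  rw [← hb, ev_map hk, hχb]

end Generic

section Build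

variable {F E k k1 k2 k3 k1' k2' B B' T T' : Type*} [Field F] [Field E] [Field k]
  [Field k1] [Field k2] [Field k3] [Field k1'] [Field k2'] [CommRing B] [Algebra B F]
  [CommRing B'] [Algebra B' E]
  (D : ChartData F E k k1 k2 k3 k1' k2' B B' T T')

/-- **the triple-point record from chart-level data.** -/
noncomputable def ChartData.toSetup : TripleSetup F E k k1 k2 k3 k1' k2' B T T' where
  W1 := D.W1
  W2 := D.W2
  W3 := D.W3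
  A1 := D.A1
  A2 := D.A2
  rd1 := D.rd1
  rd2 := D.rd2
  rd3 := D.rd3
  rd1' := D.rd1'
  rd2' := D.rd2'
  hr1 := D.hr1
  hr2 := D.hr2
  hr3 := D.hr3
  hr1' := D.hr1'
  hr2' := D.hr2'
  U1 := fun n => locVal D.ρ1 (D.χ n) (D.hval1 n)
  U2 := fun n => locVal D.ρ2 (D.χ n) (D.hval2 n)
  U3 := fun n => locVal D.ρ3 (D.χ n) (D.hval3 n)
  e1 := fun n => evalHom D.ρ1 (D.χ n) (D.hk1 n) (D.hval1 n)
  e2 := fun n => evalHom D.ρ2 (D.χ n) (D.hk2 n) (D.hval2 n)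
  e3 := fun n => evalHom D.ρ3 (D.χ n) (D.hk3 n) (D.hval3 n)
  U1' := fun n' => locVal D.ρ1' (D.χ' n') (D.hval1' n')
  U2' := fun n' => locVal D.ρ2' (D.χ' n') (D.hval2' n')
  e1' := fun n' => evalHom D.ρ1' (D.χ' n') (D.hk1' n') (D.hval1' n')
  e2' := fun n' => evalHom D.ρ2' (D.χ' n') (D.hk2' n') (D.hval2' n')
  heu1 := fun n y hy h => inv_mem_of_ev_ne_zero (D.hk1 n) hy h
  heu2 := fun n y hy h => inv_mem_of_ev_ne_zero (D.hk2 n) hy h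
  heu3 := fun n y hy h => inv_mem_of_ev_ne_zero (D.hk3 n) hy h
  p1 := D.p1
  p2 := D.p2
  Nm := D.Nm
  Nm' := D.Nm'
  q := D.q
  hq := D.hq
  j11 := D.j11
  j13 := D.j13
  j22 := D.j22
  j11' := D.j11'
  j22' := D.j22'
  j23' := D.j23'
  hπ13 := D.hπ13
  hπ2 := D.hπ2
  hπ'1 := D.hπ'1
  hπ'23 := D.hπ'23
  c11 := fun n y => mem_iff_map_mem D.φ1 D.j11 D.s11 (D.hφ1 n) (D.hk1 n) (D.hk1' _)
    (D.hval1' _) y
  c11e := fun n y hy hy' => ev_map_hom D.φ1 D.j11 D.s11 (D.hφ1 n) (D.hk1 n) (D.hk1' _) hy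
  c13 := fun n y => mem_iff_map_mem D.φ1 D.j13 D.s13 (D.hφ1 n) (D.hk3 n) (D.hk1' _)
    (D.hval1' _) y
  c13e := fun n y hy hy' => ev_map_hom D.φ1 D.j13 D.s13 (D.hφ1 n) (D.hk3 n) (D.hk1' _) hy
  c22 := fun n y => mem_iff_map_mem D.φ1 D.j22 D.s22 (D.hφ1 n) (D.hk2 n) (D.hk2' _)
    (D.hval2' _) y
  c22e := fun n y hy hy' => ev_map_hom D.φ1 D.j22 D.s22 (D.hφ1 n) (D.hk2 n) (D.hk2' _) hy
  c11' := fun n y => mem_iff_map_mem D.φ2 D.j11' D.s11' (D.hφ2 n) (D.hk1 n) (D.hk1' _)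
    (D.hval1' _) y
  c11e' := fun n y hy hy' => ev_map_hom D.φ2 D.j11' D.s11' (D.hφ2 n) (D.hk1 n) (D.hk1' _) hy
  c22' := fun n y => mem_iff_map_mem D.φ2 D.j22' D.s22' (D.hφ2 n) (D.hk2 n) (D.hk2' _)
    (D.hval2' _) y
  c22e' := fun n y hy hy' => ev_map_hom D.φ2 D.j22' D.s22' (D.hφ2 n) (D.hk2 n) (D.hk2' _) hy
  c23' := fun n y => mem_iff_map_mem D.φ2 D.j23' D.s23' (D.hφ2 n) (D.hk3 n) (D.hk2' _)
    (D.hval2' _) y
  c23e' := fun n y hy hy' => ev_map_hom D.φ2 D.j23' D.s23' (D.hφ2 n) (D.hk3 n) (D.hk2' _) hy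
  P := D.P
  hmax := D.hmax
  hinj := D.hinj
  χ := D.χ
  hχker := D.hχker
  hχsurj := D.hχsurj
  hB1 := fun n b => mem_comp_of_chart D.W1 D.rd1 D.hr1 D.ρ1 D.hρ1 (D.χ n) (D.hval1 n) b
  hB2 := fun n b => mem_comp_of_chart D.W2 D.rd2 D.hr2 D.ρ2 D.hρ2 (D.χ n) (D.hval2 n) b
  hB3 := fun n b => mem_comp_of_chart D.W3 D.rd3 D.hr3 D.ρ3 D.hρ3 (D.χ n) (D.hval3 n) b
  hχ1 := fun n b =>
    branch_ev_of_chart D.W1 D.rd1 D.hr1 D.ρ1 D.hρ1 (D.χ n) (D.hk1 n) (D.hval1 n) b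
  hχ2 := fun n b =>
    branch_ev_of_chart D.W2 D.rd2 D.hr2 D.ρ2 D.hρ2 (D.χ n) (D.hk2 n) (D.hval2 n) b
  hχ3 := fun n b =>
    branch_ev_of_chart D.W3 D.rd3 D.hr3 D.ρ3 D.hρ3 (D.χ n) (D.hk3 n) (D.hval3 n) b

/-! ### the (C2) equations of helper39 3023 hold by `rfl` -/

theorem toSetup_W1 : D.toSetup.W1 = D.W1 := rfl
theorem toSetup_W2 : D.toSetup.W2 = D.W2 := rfl
theorem toSetup_W3 : D.toSetup.W3 = D.W3 := rfl
theorem toSetup_A1 : D.toSetup.A1 = D.A1 := rfl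
theorem toSetup_A2 : D.toSetup.A2 = D.A2 := rfl
theorem toSetup_rd1 : D.toSetup.rd1 = D.rd1 := rfl
theorem toSetup_rd2 : D.toSetup.rd2 = D.rd2 := rfl
theorem toSetup_rd3 : D.toSetup.rd3 = D.rd3 := rfl
theorem toSetup_rd1' : D.toSetup.rd1' = D.rd1' := rfl
theorem toSetup_rd2' : D.toSetup.rd2' = D.rd2' := rfl
theorem toSetup_Nm (x : F) : D.toSetup.Nm x = D.Nm x := rfl
theorem toSetup_Nm' (x : F) : D.toSetup.Nm' x = D.Nm' x := rfl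
theorem toSetup_q : D.toSetup.q = D.q := rfl
theorem toSetup_P (n : T) : D.toSetup.P n = D.P n := rfl
theorem toSetup_χ (n : T) : D.toSetup.χ n = D.χ n := rfl
theorem toSetup_p1 (n : T) : D.toSetup.p1 n = D.p1 n := rfl
theorem toSetup_p2 (n : T) : D.toSetup.p2 n = D.p2 n := rfl

/-! ### companions in the binder shapes of `H4Arm.h4_arm` -/

theorem toSetup_heu1' : ∀ n' (y : k1') (hy : y ∈ D.toSetup.U1' n'),
    D.toSetup.e1' n' ⟨y, hy⟩ ≠ 0 → y⁻¹ ∈ D.toSetup.U1' n' :=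
  fun n' y hy h => inv_mem_of_ev_ne_zero (D.hk1' n') hy h

theorem toSetup_heu2' : ∀ n' (y : k2') (hy : y ∈ D.toSetup.U2' n'),
    D.toSetup.e2' n' ⟨y, hy⟩ ≠ 0 → y⁻¹ ∈ D.toSetup.U2' n' :=
  fun n' y hy h => inv_mem_of_ev_ne_zero (D.hk2' n') hy h

theorem toSetup_hB1' : ∀ n' (b : B'), algebraMap B' E b ∈
    comp D.toSetup.A1 D.toSetup.rd1' D.toSetup.hr1' (D.toSetup.U1' n') :=
  fun n' b => mem_comp_of_chart D.A1 D.rd1' D.hr1' D.ρ1' D.hρ1' (D.χ' n') (D.hval1' n') b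

theorem toSetup_hB2' : ∀ n' (b : B'), algebraMap B' E b ∈
    comp D.toSetup.A2 D.toSetup.rd2' D.toSetup.hr2' (D.toSetup.U2' n') :=
  fun n' b => mem_comp_of_chart D.A2 D.rd2' D.hr2' D.ρ2' D.hρ2' (D.χ' n') (D.hval2' n') b

theorem toSetup_hχ1' : ∀ n' (b : B'),
    (branch D.toSetup.A1 D.toSetup.rd1' D.toSetup.hr1' (D.toSetup.U1' n')
      (D.toSetup.e1' n')).ev (algebraMap B' E b) = D.χ' n' b :=
  fun n' b =>
    branch_ev_of_chart D.A1 D.rd1' D.hr1' D.ρ1' D.hρ1' (D.χ' n') (D.hk1' n') (D.hval1' n') b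

theorem toSetup_hχ2' : ∀ n' (b : B'),
    (branch D.toSetup.A2 D.toSetup.rd2' D.toSetup.hr2' (D.toSetup.U2' n')
      (D.toSetup.e2' n')).ev (algebraMap B' E b) = D.χ' n' b :=
  fun n' b =>
    branch_ev_of_chart D.A2 D.rd2' D.hr2' D.ρ2' D.hρ2' (D.χ' n') (D.hk2' n') (D.hval2' n') b

section Const

variable [Algebra k k1] [Algebra k k2] [Algebra k k3] [Algebra k k1'] [Algebra k k2']

theorem toSetup_hconst1
    (hc : ∀ a : k, ∃ b : B, D.ρ1 b = algebraMap k k1 a ∧ ∀ n, D.χ n b = a) :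
    ∀ n (a : k), ∃ ha : algebraMap k k1 a ∈ D.toSetup.U1 n,
      D.toSetup.e1 n ⟨algebraMap k k1 a, ha⟩ = a := fun n a =>
  const_of_chart D.ρ1 (D.χ n) (D.hk1 n) (D.hval1 n)
    (fun a => (hc a).imp fun b hb => ⟨hb.1, hb.2 n⟩) a

theorem toSetup_hconst2
    (hc : ∀ a : k, ∃ b : B, D.ρ2 b = algebraMap k k2 a ∧ ∀ n, D.χ n b = a) :
    ∀ n (a : k), ∃ ha : algebraMap k k2 a ∈ D.toSetup.U2 n,
      D.toSetup.e2 n ⟨algebraMap k k2 a, ha⟩ = a := fun n a =>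
  const_of_chart D.ρ2 (D.χ n) (D.hk2 n) (D.hval2 n)
    (fun a => (hc a).imp fun b hb => ⟨hb.1, hb.2 n⟩) a

theorem toSetup_hconst3
    (hc : ∀ a : k, ∃ b : B, D.ρ3 b = algebraMap k k3 a ∧ ∀ n, D.χ n b = a) :
    ∀ n (a : k), ∃ ha : algebraMap k k3 a ∈ D.toSetup.U3 n,
      D.toSetup.e3 n ⟨algebraMap k k3 a, ha⟩ = a := fun n a =>
  const_of_chart D.ρ3 (D.χ n) (D.hk3 n) (D.hval3 n)
    (fun a => (hc a).imp fun b hb => ⟨hb.1, hb.2 n⟩) a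

theorem toSetup_hconst1'
    (hc : ∀ a : k, ∃ b : B', D.ρ1' b = algebraMap k k1' a ∧ ∀ n', D.χ' n' b = a) :
    ∀ n' (a : k), ∃ ha : algebraMap k k1' a ∈ D.toSetup.U1' n',
      D.toSetup.e1' n' ⟨algebraMap k k1' a, ha⟩ = a := fun n' a =>
  const_of_chart D.ρ1' (D.χ' n') (D.hk1' n') (D.hval1' n')
    (fun a => (hc a).imp fun b hb => ⟨hb.1, hb.2 n'⟩) a

theorem toSetup_hconst2'
    (hc : ∀ a : k, ∃ b : B', D.ρ2' b = algebraMap k k2' a ∧ ∀ n', D.χ' n' b = a) :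
    ∀ n' (a : k), ∃ ha : algebraMap k k2' a ∈ D.toSetup.U2' n',
      D.toSetup.e2' n' ⟨algebraMap k k2' a, ha⟩ = a := fun n' a =>
  const_of_chart D.ρ2' (D.χ' n') (D.hk2' n') (D.hval2' n')
    (fun a => (hc a).imp fun b hb => ⟨hb.1, hb.2 n'⟩) a

end Const

end Build

end Fermat.Agent.GL.Final.TripleInst
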