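/-
GATE-L / TRIPLE-BUILD ↔ TRIPLE-INST adapter (helper40): ONE concrete term feeds both routes.

* `BuildData.toChartData` : helper40's `BuildData` (route (β), `GL/Final/TripleBuild.lean`) + its two
  lower `Hval` + the THREE upper `hval` families ⟹ helper36's `ChartData` (route (α),
  `GL/Final/TripleInst.lean`).
* `ChartData.toBuildData` : conversely, helper36's `ChartData` FORGETTING the three upper `hval`
  families ⟹ `BuildData`, with `ChartData.hvalBuild : D.toBuildData.Hval`.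

So the concrete owner may construct either structure; route (β) never uses `hval1 hval2 hval3`.
-/
import Fermat.Agent.GL.Final.TripleBuild
import Fermat.Agent.GL.Final.TripleInst

set_option autoImplicit false
set_option linter.unusedSectionVars false

namespace Fermat.Agent.GL.TripleBuild

open Fermat.Agent.GL Fermat.Agent.GL.CompBranch Fermat.Agent.GL.H4OfXi
open Fermat.Agent.GL.BranchPoint Fermat.Agent.GL.Final.TripleInst

variable {F E k k1 k2 k3 k1' k2' B B' T T' : Type*} [Field F] [Field E] [Field k]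
  [Field k1] [Field k2] [Field k3] [Field k1'] [Field k2'] [CommRing B] [Algebra B F]
  [CommRing B'] [Algebra B' E]

/-- route (β) data + the three upper `hval` families ⟹ route (α) data. -/
def BuildData.toChartData (D : BuildData F E k k1 k2 k3 k1' k2' B B' T T') (hv : D.Hval)
    (hval1 : ∀ n (y : k1), y ∈ locSub D.rho1 (D.χ n) ∨ y⁻¹ ∈ locSub D.rho1 (D.χ n))
    (hval2 : ∀ n (y : k2), y ∈ locSub D.rho2 (D.χ n) ∨ y⁻¹ ∈ locSub D.rho2 (D.χ n))
    (hval3 : ∀ n (y : k3), y ∈ locSub D.rho3 (D.χ n) ∨ y⁻¹ ∈ locSub D.rho3 (D.χ n)) :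
    ChartData F E k k1 k2 k3 k1' k2' B B' T T' where
  W1 := D.W1
  W2 := D.W2
  W3 := D.W3
  A1 := D.A1
  A2 := D.A2
  rd1 := D.rd1
  rd2 := D.rd2
  rd3 := D.rd3
  rd1' := D.rd1'
  rd2' := D.rd2'
  hr1 := D.hr1
  hr2 := D.hr2
  hr3 := D.hr3
  hr1' := D.hr1'
  hr2' := D.hr2'
  ρ1 := D.rho1
  ρ2 := D.rho2
  ρ3 := D.rho3
  ρ1' := D.rho1'
  ρ2' := D.rho2'
  hρ1 := fun b => ⟨D.hBW1 b, rfl⟩
  hρ2 := fun b => ⟨D.hBW2 b, rfl⟩
  hρ3 := fun b => ⟨D.hBW3 b, rfl⟩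
  hρ1' := fun b => ⟨D.hBA1 b, rfl⟩
  hρ2' := fun b => ⟨D.hBA2 b, rfl⟩
  P := D.P
  hmax := D.hmax
  hinj := D.hinj
  χ := D.χ
  hχker := D.hχker
  hχsurj := D.hχsurj
  χ' := D.χ'
  hk1 := D.hker1
  hk2 := D.hker2
  hk3 := D.hker3
  hk1' := D.hker1'
  hk2' := D.hker2'
  hval1 := hval1
  hval2 := hval2
  hval3 := hval3
  hval1' := hv.h1
  hval2' := hv.h2
  p1 := D.p1
  p2 := D.p2
  φ1 := D.φ1
  φ2 := D.φ2
  hφ1 := D.hχ1
  hφ2 := D.hχ2
  Nm := D.Nm
  Nm' := D.Nm'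
  q := D.q
  hq := D.hq
  j11 := D.j11
  j13 := D.j13
  j22 := D.j22
  j11' := D.j11'
  j22' := D.j22'
  j23' := D.j23'
  s11 := D.rho11
  s13 := D.rho13
  s22 := D.rho22
  s11' := D.rho11'
  s22' := D.rho22'
  s23' := D.rho23'
  hπ13 := D.hπ13
  hπ2 := D.hπ2
  hπ'1 := D.hπ'1
  hπ'23 := D.hπ'23

end Fermat.Agent.GL.TripleBuild

namespace Fermat.Agent.GL.Final.TripleInst

open Fermat.Agent.GL Fermat.Agent.GL.CompBranch Fermat.Agent.GL.H4OfXi
open Fermat.Agent.GL.BranchPoint Fermat.Agent.GL.TripleBuild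

variable {F E k k1 k2 k3 k1' k2' B B' T T' : Type*} [Field F] [Field E] [Field k]
  [Field k1] [Field k2] [Field k3] [Field k1'] [Field k2'] [CommRing B] [Algebra B F]
  [CommRing B'] [Algebra B' E]
  (D : ChartData F E k k1 k2 k3 k1' k2' B B' T T')

theorem ChartData.rd1_eq (b : B) : D.rd1 ⟨algebraMap B F b, (D.hρ1 b).choose⟩ = D.ρ1 b :=
  (D.hρ1 b).choose_spec
theorem ChartData.rd2_eq (b : B) : D.rd2 ⟨algebraMap B F b, (D.hρ2 b).choose⟩ = D.ρ2 b :=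
  (D.hρ2 b).choose_spec
theorem ChartData.rd3_eq (b : B) : D.rd3 ⟨algebraMap B F b, (D.hρ3 b).choose⟩ = D.ρ3 b :=
  (D.hρ3 b).choose_spec
theorem ChartData.rd1'_eq (b : B') : D.rd1' ⟨algebraMap B' E b, (D.hρ1' b).choose⟩ = D.ρ1' b :=
  (D.hρ1' b).choose_spec
theorem ChartData.rd2'_eq (b : B') : D.rd2' ⟨algebraMap B' E b, (D.hρ2' b).choose⟩ = D.ρ2' b :=
  (D.hρ2' b).choose_spec

/-- route (α) data, forgetting the three upper `hval` families ⟹ route (β) data. -/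
def ChartData.toBuildData : BuildData F E k k1 k2 k3 k1' k2' B B' T T' where
  W1 := D.W1
  W2 := D.W2
  W3 := D.W3
  A1 := D.A1
  A2 := D.A2
  rd1 := D.rd1
  rd2 := D.rd2
  rd3 := D.rd3
  rd1' := D.rd1'
  rd2' := D.rd2'
  hr1 := D.hr1
  hr2 := D.hr2
  hr3 := D.hr3
  hr1' := D.hr1'
  hr2' := D.hr2'
  p1 := D.p1
  p2 := D.p2
  Nm := D.Nm
  Nm' := D.Nm'
  q := D.q
  hq := D.hq
  j11 := D.j11
  j13 := D.j13
  j22 := D.j22
  j11' := D.j11'
  j22' := D.j22'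
  j23' := D.j23'
  hπ13 := D.hπ13
  hπ2 := D.hπ2
  hπ'1 := D.hπ'1
  hπ'23 := D.hπ'23
  hBW1 := fun b => (D.hρ1 b).choose
  hBW2 := fun b => (D.hρ2 b).choose
  hBW3 := fun b => (D.hρ3 b).choose
  hBA1 := fun b => (D.hρ1' b).choose
  hBA2 := fun b => (D.hρ2' b).choose
  P := D.P
  hmax := D.hmax
  hinj := D.hinj
  χ := D.χ
  hχker := D.hχker
  hχsurj := D.hχsurj
  χ' := D.χ'
  hker1 := fun n b h => D.hk1 n b (by rw [← D.rd1_eq b]; exact h)
  hker2 := fun n b h => D.hk2 n b (by rw [← D.rd2_eq b]; exact h)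
  hker3 := fun n b h => D.hk3 n b (by rw [← D.rd3_eq b]; exact h)
  hker1' := fun n' b h => D.hk1' n' b (by rw [← D.rd1'_eq b]; exact h)
  hker2' := fun n' b h => D.hk2' n' b (by rw [← D.rd2'_eq b]; exact h)
  φ1 := D.φ1
  φ2 := D.φ2
  hρ11 := fun b => by rw [D.rd1_eq, D.rd1'_eq]; exact D.s11 b
  hρ13 := fun b => by rw [D.rd3_eq, D.rd1'_eq]; exact D.s13 b
  hρ22 := fun b => by rw [D.rd2_eq, D.rd2'_eq]; exact D.s22 b
  hρ11' := fun b => by rw [D.rd1_eq, D.rd1'_eq]; exact D.s11' b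
  hρ22' := fun b => by rw [D.rd2_eq, D.rd2'_eq]; exact D.s22' b
  hρ23' := fun b => by rw [D.rd3_eq, D.rd2'_eq]; exact D.s23' b
  hχ1 := D.hφ1
  hχ2 := D.hφ2

theorem ChartData.toBuildData_rho1' : D.toBuildData.rho1' = D.ρ1' :=
  RingHom.ext fun b => D.rd1'_eq b

theorem ChartData.toBuildData_rho2' : D.toBuildData.rho2' = D.ρ2' :=
  RingHom.ext fun b => D.rd2'_eq b

/-- the two lower `hval` of `ChartData` are the `Hval` of its `BuildData`. -/
theorem ChartData.hvalBuild : D.toBuildData.Hval where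
  h1 := fun n' y => by
    rw [D.toBuildData_rho1']
    exact D.hval1' n' y
  h2 := fun n' y => by
    rw [D.toBuildData_rho2']
    exact D.hval2' n' y

end Fermat.Agent.GL.Final.TripleInst
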