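/-
GATE-L / TRIPLE-INST-K0, generic part (helper36): the Frobenius-type membership `hφ2s` of
`TripleBuildPoints.buildOfPoints` over `K₀`, for ANY chart package `(B, B', t, t', φ2)` over `R0 A`

  `hBW1` (chart ring inside `R_{w₁}`), `hφ2 : algebraMap B F (φ2 b) = betaK0 (algebraMap B' E b)`,
  `hφ2R` (`φ2` over `R0 A`), `ht : algebraMap B F t = jC (M' q q) K₀`,
  `ht' : algebraMap B' E t' = jC (M' q) K₀`,

from the Kronecker congruence `β j' ≡ j ^ q` at `w₁` (helper18 `kron_w1_jC`), helper30 `SsFrob`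
and `hker1` (the points lie on the component `C₁`):

* `natCast_mem_ptIdeal` : `(q : B) ∈ ptIdeal n` (generic; `res (q : R0) = 0`);
* `kron_chart` : `red₁ (φ2 t' - t ^ q) = 0`;
* `hφ2s_of_kron` : `φ2 (s(t')) ∈ ptIdeal n` for every point `n`.
-/
import Fermat.Agent.GL.Final.RowsSquares
import Fermat.Agent.GL.Final.TripleBuildPoints
import Fermat.Agent.GL.Table.KroneckerK0
import Fermat.Agent.GL.Val.OrthK0

set_option autoImplicit false
set_option linter.unusedSectionVars false
set_option linter.unusedVariables false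
set_option linter.style.haveILetI false

noncomputable section

open Polynomial IsLocalRing ModularCurve

namespace Fermat.Agent.GL.Final.TripleFrobMem

open Fermat.Agent.GJ.J1 Fermat.Agent.GK.Val.GaussBase
open Fermat.Agent.GL.Val.GaussK0 Fermat.Agent.GL.Table.K0 Fermat.Agent.GK.AL
open Fermat.Agent.Common_helper32
open Fermat.Agent.GL.Final.RowsInst Fermat.Agent.GL.Final.TriplePoints
open Fermat.Agent.GL.Final.TripleBuildPoints Fermat.Agent.GL.Val.DegBase

/-- `(q : B) ∈ n` at every point over `m0 = ker res`, if `res (q : R0) = 0`. -/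
theorem natCast_mem_ptIdeal {R0 k B : Type*} [CommRing R0] [Field k] [CommRing B] [Algebra R0 B]
    (res : R0 →+* k) (q : ℕ) [CharP k q] {t : B} {s : R0[X]}
    (n : PtType (RingHom.ker res) t s) : ((q : ℕ) : B) ∈ ptIdeal n := by
  have h : ((q : ℕ) : R0) ∈ RingHom.ker res := by
    rw [RingHom.mem_ker, map_natCast, CharP.cast_eq_zero]
  have := algebraMap_mem_ptIdeal n h
  rwa [map_natCast] at this

variable (A : ValuationSubring Qb) {M' q : ℕ} [NeZero q] [NeZero M']
  (hq : q.Prime) (hA : (q : Qb) ∈ A.nonunits)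

variable {B B' : Type*} [CommRing B]
  [Algebra B (modularFunctionFieldFullC (K0 A) (M' * q * q))]
  [CommRing B'] [Algebra B' (modularFunctionFieldFullC (K0 A) (M' * q))]
  [Algebra (R0 A) B] [Algebra (R0 A) B']
  (t : B) (t' : B') (s : (R0 A)[X])

include hq hA in
/-- the Kronecker congruence `β j' ≡ j ^ q` at `w₁`, in chart form. -/
theorem kron_chart
    (hBW1 : ∀ b : B, algebraMap B (modularFunctionFieldFullC (K0 A) (M' * q * q)) b ∈
      (R1 A M' q).Rw)
    (φ2 : B' →+* B)
    (hφ2 : ∀ b : B', algebraMap B (modularFunctionFieldFullC (K0 A) (M' * q * q)) (φ2 b) =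
      betaK0 A (M' * q) q (algebraMap B' (modularFunctionFieldFullC (K0 A) (M' * q)) b))
    (ht : algebraMap B (modularFunctionFieldFullC (K0 A) (M' * q * q)) t =
      jC (M' * q * q) (K0 A))
    (ht' : algebraMap B' (modularFunctionFieldFullC (K0 A) (M' * q)) t' = jC (M' * q) (K0 A)) :
    (R1 A M' q).red ⟨algebraMap B _ (φ2 t' - t ^ q), hBW1 _⟩ = 0 := by
  have hmem : algebraMap B (modularFunctionFieldFullC (K0 A) (M' * q * q)) (φ2 t' - t ^ q) ∈
      (RwK0 A (M' * q * q)).nonunits := by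
    rw [map_sub, map_pow, hφ2, ht, ht']
    exact Fermat.Agent.GL.Table.KroneckerK0.kron_w1_jC A hq hA
  exact ((R1 A M' q).red_eq_zero_iff _).2
    (ValuationSubring.mem_nonunits_iff_exists_mem_maximalIdeal.mp hmem).2

include hq hA in
/-- **`hφ2s` of `buildOfPoints`**: `φ2 (s(t')) ∈ n` at every supersingular point `n` (a point of the
component `C₁`), from the Kronecker congruence `β j' ≡ j ^ q` at `w₁`. -/
theorem hφ2s_of_kron [Fact q.Prime] [CharP (ResidueField (R0 A)) q]
    (hs : s.map (residue (R0 A)) = Fermat.Agent.GL.SmallQ.ssPolyAll q (ResidueField (R0 A)))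
    (hBW1 : ∀ b : B, algebraMap B (modularFunctionFieldFullC (K0 A) (M' * q * q)) b ∈
      (R1 A M' q).Rw)
    (φ2 : B' →+* B)
    (hφ2 : ∀ b : B', algebraMap B (modularFunctionFieldFullC (K0 A) (M' * q * q)) (φ2 b) =
      betaK0 A (M' * q) q (algebraMap B' (modularFunctionFieldFullC (K0 A) (M' * q)) b))
    (hφ2R : ∀ r, φ2 (algebraMap (R0 A) B' r) = algebraMap (R0 A) B r)
    (ht : algebraMap B (modularFunctionFieldFullC (K0 A) (M' * q * q)) t =
      jC (M' * q * q) (K0 A))
    (ht' : algebraMap B' (modularFunctionFieldFullC (K0 A) (M' * q)) t' = jC (M' * q) (K0 A))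
    (hker1 : ∀ (n : PtType (RingHom.ker (residue (R0 A))) t s) (b : B),
      (R1 A M' q).red ⟨algebraMap B _ b, hBW1 b⟩ = 0 → b ∈ ptIdeal n)
    (n : PtType (RingHom.ker (residue (R0 A))) t s) : φ2 (aeval t' s) ∈ ptIdeal n := by
  haveI : (ptIdeal n).IsPrime := (ptIdeal_isMaximal n).isPrime
  exact aeval_map_mem_of_frob φ2 hφ2R q (residue (R0 A)) s hs (ptIdeal n)
    (natCast_mem_ptIdeal (residue (R0 A)) q n)
    (fun r hr => algebraMap_mem_ptIdeal n ((RingHom.mem_ker).2 hr))
    (hker1 n _ (kron_chart A hq hA t t' hBW1 φ2 hφ2 ht ht')) (aeval_mem_ptIdeal n)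

end Fermat.Agent.GL.Final.TripleFrobMem
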