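import Fermat.Agent.GL.Final.TypeIIIInstK0Thm
import Fermat.Agent.GL.Gate.TripleTransport
import Fermat.Agent.GL.Frame.ClassifyInst
import Fermat.Agent.GL.Final.TriplePoints

/-!
# GATE-L / the `hIII` binder of `H5TypeI.hallj_typed` / `H5Typed.h5_typed` over `K₀` (helper29)

`TypeIIIInstK0Thm.hIII_K0_thm` in the EXACT binder shape of helper11's `hallj_typed`:

  `∀ u, u ≠ 0 → U3 S m u → ∀ 𝔫 maximal, qB ∈ 𝔫 → s ∈ 𝔫 → (∀ p ∈ vert, p.1 ≤ 𝔫) → Q 𝔫 →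
     ∃ g ∈ ⊤, g ^ m * u ∈ Bf ∧ LocAt (V1 F) Bf ⊤ vert 𝔫 g`

for a `TripleSetup S` over ANY chart ring `B` identified with the frame by `e : B ≃+* ↥Bf`
(`TripleTransport.transport`; `e := RingEquiv.subringCongr _` / `RingEquiv.refl _`, `he := rfl` for
`B = ↥(BK0 A N)`, `Bf = chartRing (R0 A) (jC N (K0 A))`).

* `hclass_of_dich` : the classification hypothesis `hclass` of `hIII_K0_thm` from helper47's
  dichotomy `hdich` (`ClassifyInst.ss_of_two_vert`) + `hT` (every supersingular point of the frame is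
  a triple point `S.P n`);
* **`hIII_hall_K0`** : the binder.
* `exists_pt_of_mem` : `hT` for `T := TriplePoints.PtType m0 t s₀`, `S.P := ptIdeal` (helper36).
-/

set_option autoImplicit false
set_option linter.unusedSectionVars false

noncomputable section

namespace Fermat.Agent.GL.Final.TypeIIIHallK0

open HahnSeries ModularCurve IsLocalRing
open Fermat.Agent.S24 Fermat.Agent.S24_helper62 Fermat.Agent.S24_helper82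
open Fermat.Agent.GJ.J1 Fermat.Agent.GJ.J1.Val Fermat.Agent.GJ.HN Fermat.Agent.GK.AL
open Fermat.Agent.GK.QS Fermat.Agent.GK.FrobGlue Fermat.Agent.GL.AL Fermat.Agent.GL.W3
open Fermat.Agent.GL.CuspVal Fermat.Agent.GL.OldTriples Fermat.Agent.GL.OldTriplesK0
open Fermat.Agent.GL.Val.GaussK0 Fermat.Agent.GL.Val.SecondK0 Fermat.Agent.GL.Val.SecondK0Hall
open Fermat.Agent.GL.Val.ThirdK0 Fermat.Agent.GL.Val.CuspK0 Fermat.Agent.GL.Table.K0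
open Fermat.Agent.GL.RedInC Fermat.Agent.GL.RedInCThm
open Fermat.Agent.GL.H4OfXi Fermat.Agent.GL.LocGlue Fermat.Agent.GL.Frame.HeightOne
open Fermat.Agent.GL.TypeIIIOfSetup Fermat.Agent.GL.TripleTransport

/-! ### abstract part -/

section Abstract

variable {F : Type*} [Field F] {Bf : Subring F} [IsFractionRing Bf F]
  [IsNoetherianRing Bf] [IsIntegrallyClosed Bf]

/-- the classification hypothesis (two distinct vertical primes through `𝔫` ⟹ `𝔫` is a triple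
point) from helper47's dichotomy and the surjectivity `hT` of the triple points onto the
supersingular points. -/
theorem hclass_of_dich {T : Type*} (P : T → Ideal Bf) (vert : Finset (HtOne Bf))
    (f : Fin 3 → HtOne Bf) (hf : ∀ p, p ∈ vert ↔ ∃ i, f i = p)
    {qB : Bf} (hqv : ∀ j ∈ vert, qB ∈ j.1) (s : Bf) (Q : Ideal Bf → Prop)
    (hdich : ∀ 𝔫 : Ideal Bf, 𝔫.IsMaximal → qB ∈ 𝔫 →
      (s ∈ 𝔫 ∧ (f 0).1 ≤ 𝔫 ∧ (f 1).1 ≤ 𝔫 ∧ (f 2).1 ≤ 𝔫 ∧ Q 𝔫) ∨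
      (s ∉ 𝔫 ∧ ¬ ((f 0).1 ≤ 𝔫 ∧ (f 1).1 ≤ 𝔫) ∧ ¬ ((f 1).1 ≤ 𝔫 ∧ (f 2).1 ≤ 𝔫) ∧
        ¬ ((f 0).1 ≤ 𝔫 ∧ (f 2).1 ≤ 𝔫)))
    (hT : ∀ 𝔫 : Ideal Bf, 𝔫.IsMaximal → qB ∈ 𝔫 → s ∈ 𝔫 → (∀ p ∈ vert, p.1 ≤ 𝔫) → Q 𝔫 →
      ∃ n : T, 𝔫 = P n) :
    ∀ 𝔫 : Ideal Bf, 𝔫.IsMaximal → ∀ i ∈ vert, ∀ j ∈ vert, i ≠ j → i.1 ≤ 𝔫 → j.1 ≤ 𝔫 →
      ∃ n : T, 𝔫 = P n := by
  intro 𝔫 h𝔫 i hi j hj hij hi𝔫 hj𝔫
  have hq𝔫 : qB ∈ 𝔫 := hi𝔫 (hqv i hi)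
  obtain ⟨hs, hall, hQ⟩ := Fermat.Agent.GL.Frame.ClassifyInst.ss_of_two_vert vert f hf 𝔫 s (Q 𝔫)
    (hdich 𝔫 h𝔫 hq𝔫) i j hi hj hij hi𝔫 hj𝔫
  exact hT 𝔫 h𝔫 hq𝔫 hs hall hQ

end Abstract

/-! ### `hT` for helper36's point type -/

/-- a maximal ideal over `m0` containing `s₀(t)` IS a point of `PtType m0 t s₀`. -/
theorem exists_pt_of_mem {R0 B : Type*} [CommRing R0] [CommRing B] [Algebra R0 B]
    (m0 : Ideal R0) (t : B) (s₀ : Polynomial R0) (I : Ideal B) (hI : I.IsMaximal)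
    (hm0 : ∀ r ∈ m0, algebraMap R0 B r ∈ I) (hs : Polynomial.aeval t s₀ ∈ I) :
    ∃ n : Fermat.Agent.GL.Final.TriplePoints.PtType m0 t s₀,
      I = Fermat.Agent.GL.Final.TriplePoints.ptIdeal n :=
  ⟨⟨I, hI, hm0, hs⟩, rfl⟩

/-! ### the binder over `K₀` -/

variable (M' : ℕ) [NeZero M'] (q : ℕ) [hqF : Fact q.Prime] [NeZero q]
variable (A : ValuationSubring Kbar) (hQ : HallDvd (q ^ 2) (M' * q * q))
variable (hqM : ¬ q ∣ M') (hA : A.LiesOverPrime q)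

local notation "kA" => ResidueField A
local notation "k₀" => ResidueField (R0 A)
local notation "FK0" => modularFunctionFieldFullC (K0 A)

section Main

variable {E k1' k2' B T T' : Type*} [Field E] [Field k1'] [Field k2'] [CommRing B]
  [Algebra B (modularFunctionFieldFullC (K0 A) (M' * q * q))]
  {Bf : Subring (modularFunctionFieldFullC (K0 A) (M' * q * q))}
  [IsFractionRing Bf (modularFunctionFieldFullC (K0 A) (M' * q * q))]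
  [IsNoetherianRing Bf] [IsIntegrallyClosed Bf]

set_option synthInstance.maxHeartbeats 400000 in
set_option maxHeartbeats 1600000 in
variable {M' q A hQ} in
include hqM in
/-- **the `hIII` binder of helper11 `H5TypeI.hallj_typed` / `H5Typed.h5_typed` VERBATIM over `K₀`**
(`U3 := H4OfXi.U3 S m`), for a `TripleSetup` over any chart ring `B ≃ Bf`. -/
theorem hIII_hall_K0 (h2 : q = 2 → 3 ∣ M') (h3 : q = 3 → 2 ∣ M')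
    (hBf : ∀ x : FK0 (M' * q * q), x ∈ Bf ↔ x ∈ B3K0 M' q A hQ)
    (S : TripleSetup (FK0 (M' * q * q)) E k₀ (FresK0 A (M' * q * q)) (FresK0 A (M' * q * q))
      (Fres3K0 A (M' * q * q) q hqF.out hA) k1' k2' B T T')
    (e : B ≃+* Bf)
    (he : ∀ b : B, ((e b : Bf) : FK0 (M' * q * q)) = algebraMap B (FK0 (M' * q * q)) b)
    (hW1 : ∀ x : FK0 (M' * q * q), x ∈ S.W1 ↔ x ∈ RwK0 A (M' * q * q))
    (hrd1 : ∀ (x : FK0 (M' * q * q)) (h : x ∈ S.W1) (h' : x ∈ RwK0 A (M' * q * q)),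
      S.rd1 ⟨x, h⟩ = (redDataK0 A (M' * q * q)).red ⟨x, h'⟩)
    (hW2 : ∀ x : FK0 (M' * q * q), x ∈ S.W2 ↔ x ∈ (redData2QK0 A (M' * q * q) hQ).Rw)
    (hrd2 : ∀ (x : FK0 (M' * q * q)) (h : x ∈ S.W2)
      (h' : x ∈ (redData2QK0 A (M' * q * q) hQ).Rw),
      S.rd2 ⟨x, h⟩ = (redData2QK0 A (M' * q * q) hQ).red ⟨x, h'⟩)
    (hW3 : ∀ x : FK0 (M' * q * q), x ∈ S.W3 ↔ x ∈ Rw3K0 A (M' * q * q) q)
    (hrd3 : ∀ (x : FK0 (M' * q * q)) (h : x ∈ S.W3) (h' : x ∈ Rw3K0 A (M' * q * q) q),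
      S.rd3 ⟨x, h⟩ = (redData3K0 A (M' * q * q) q hqF.out hA).red ⟨x, h'⟩)
    (hχ0 : ∀ n (a : R0 A) (b : B),
      algebraMap B (FK0 (M' * q * q)) b = algebraMap (K0 A) (FK0 (M' * q * q)) (a : K0 A) →
        S.χ n b = residue (R0 A) a)
    {m : ℕ} (hm : (m : k₀) ≠ 0)
    (vert : Finset (HtOne Bf)) {ι : Type*} (W : ι → ValuationSubring (FK0 (M' * q * q)))
    (hW : ∀ i, W i = S.W1 ∨ W i = S.W2 ∨ W i = S.W3)
    (hvert : ∀ p ∈ vert, ∃ i, (V1 (FK0 (M' * q * q)) p : ValuationSubring (FK0 (M' * q * q))) = W i)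
    (f : Fin 3 → HtOne Bf) (hf : ∀ p, p ∈ vert ↔ ∃ i, f i = p) (hinj : Function.Injective f)
    {qB : Bf} (hqv : ∀ j ∈ vert, qB ∈ j.1) (s : Bf) (Q : Ideal Bf → Prop)
    (hdich : ∀ 𝔫 : Ideal Bf, 𝔫.IsMaximal → qB ∈ 𝔫 →
      (s ∈ 𝔫 ∧ (f 0).1 ≤ 𝔫 ∧ (f 1).1 ≤ 𝔫 ∧ (f 2).1 ≤ 𝔫 ∧ Q 𝔫) ∨
      (s ∉ 𝔫 ∧ ¬ ((f 0).1 ≤ 𝔫 ∧ (f 1).1 ≤ 𝔫) ∧ ¬ ((f 1).1 ≤ 𝔫 ∧ (f 2).1 ≤ 𝔫) ∧
        ¬ ((f 0).1 ≤ 𝔫 ∧ (f 2).1 ≤ 𝔫)))
    (hT : ∀ 𝔫 : Ideal Bf, 𝔫.IsMaximal → qB ∈ 𝔫 → s ∈ 𝔫 → (∀ p ∈ vert, p.1 ≤ 𝔫) → Q 𝔫 →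
      ∃ n : T, ∀ b : B, b ∈ S.P n ↔ e b ∈ 𝔫) :
    ∀ u : FK0 (M' * q * q), u ≠ 0 → U3 S m u →
      ∀ 𝔫 : Ideal Bf, 𝔫.IsMaximal → qB ∈ 𝔫 → s ∈ 𝔫 → (∀ p ∈ vert, p.1 ≤ 𝔫) → Q 𝔫 →
        ∃ g ∈ (⊤ : Subring (FK0 (M' * q * q))), g ^ m * u ∈ Bf ∧
          LocAt (V1 (B := Bf) (FK0 (M' * q * q))) Bf ⊤ vert 𝔫 g := by
  intro u _ hU 𝔫 h𝔫 _ _ hall _
  have he' : ∀ b : B, algebraMap Bf (FK0 (M' * q * q)) (e b) =
      algebraMap B (FK0 (M' * q * q)) b := he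
  have hU' : U3 (transport S e he') m u := U3_transport S e he' hU
  have hclass : ∀ 𝔫 : Ideal Bf, 𝔫.IsMaximal → ∀ i ∈ vert, ∀ j ∈ vert, i ≠ j → i.1 ≤ 𝔫 → j.1 ≤ 𝔫 →
      ∃ n : T, 𝔫 = (transport S e he').P n := by
    refine hclass_of_dich (transport S e he').P vert f hf hqv s Q hdich ?_
    intro 𝔫 h𝔫 hq𝔫 hs hall hQ'
    obtain ⟨n, hn⟩ := hT 𝔫 h𝔫 hq𝔫 hs hall hQ'
    refine ⟨n, Ideal.ext fun b' => ?_⟩
    rw [mem_transport_P, hn, e.apply_symm_apply]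
  refine Fermat.Agent.GL.Final.TypeIIIInstK0Thm.hIII_K0_thm hqM hA h2 h3 hBf (transport S e he') hW1 hrd1 hW2 hrd2 hW3 hrd3 ?_ hm vert W
    hW hvert hclass hU' 𝔫 h𝔫 (f 0) ((hf _).2 ⟨0, rfl⟩) (f 1) ((hf _).2 ⟨1, rfl⟩)
    (hinj.ne (by decide)) (hall _ ((hf _).2 ⟨0, rfl⟩)) (hall _ ((hf _).2 ⟨1, rfl⟩))
  intro n a
  rw [transport_χ]
  refine hχ0 n a _ ?_
  rw [← he, e.apply_symm_apply]

open Fermat.Agent.GL.Final.TriplePoints in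
set_option synthInstance.maxHeartbeats 400000 in
set_option maxHeartbeats 1600000 in
variable {M' q A hQ} in
include hqM in
/-- **the same binder for helper36's point type**: `T := PtType (ker (residue R₀)) t s₀`,
`S.P = ptIdeal`, `S.χ n` restricted to the constants `= residue` (`chi_algebraMap`) — both ties are
`rfl` / one lemma for `(buildOfPoints …).toSetup`.  `hχ0` and `hT` are DISCHARGED; left: `hs`, the
comparison of helper47's supersingular element `s` of the frame with `s₀(t)`. -/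
theorem hIII_hall_K0_pts (h2 : q = 2 → 3 ∣ M') (h3 : q = 3 → 2 ∣ M')
    (hBf : ∀ x : FK0 (M' * q * q), x ∈ Bf ↔ x ∈ B3K0 M' q A hQ)
    [Algebra (R0 A) B]
    (htower : ∀ r : R0 A, algebraMap B (FK0 (M' * q * q)) (algebraMap (R0 A) B r) =
      algebraMap (K0 A) (FK0 (M' * q * q)) (r : K0 A))
    (t : B) (s₀ : Polynomial (R0 A))
    (S : TripleSetup (FK0 (M' * q * q)) E k₀ (FresK0 A (M' * q * q)) (FresK0 A (M' * q * q))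
      (Fres3K0 A (M' * q * q) q hqF.out hA) k1' k2' B
      (PtType (RingHom.ker (residue (R0 A))) t s₀) T')
    (hP : ∀ n, S.P n = ptIdeal n)
    (hχR : ∀ n (r : R0 A), S.χ n (algebraMap (R0 A) B r) = residue (R0 A) r)
    (e : B ≃+* Bf)
    (he : ∀ b : B, ((e b : Bf) : FK0 (M' * q * q)) = algebraMap B (FK0 (M' * q * q)) b)
    (hW1 : ∀ x : FK0 (M' * q * q), x ∈ S.W1 ↔ x ∈ RwK0 A (M' * q * q))
    (hrd1 : ∀ (x : FK0 (M' * q * q)) (h : x ∈ S.W1) (h' : x ∈ RwK0 A (M' * q * q)),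
      S.rd1 ⟨x, h⟩ = (redDataK0 A (M' * q * q)).red ⟨x, h'⟩)
    (hW2 : ∀ x : FK0 (M' * q * q), x ∈ S.W2 ↔ x ∈ (redData2QK0 A (M' * q * q) hQ).Rw)
    (hrd2 : ∀ (x : FK0 (M' * q * q)) (h : x ∈ S.W2)
      (h' : x ∈ (redData2QK0 A (M' * q * q) hQ).Rw),
      S.rd2 ⟨x, h⟩ = (redData2QK0 A (M' * q * q) hQ).red ⟨x, h'⟩)
    (hW3 : ∀ x : FK0 (M' * q * q), x ∈ S.W3 ↔ x ∈ Rw3K0 A (M' * q * q) q)
    (hrd3 : ∀ (x : FK0 (M' * q * q)) (h : x ∈ S.W3) (h' : x ∈ Rw3K0 A (M' * q * q) q),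
      S.rd3 ⟨x, h⟩ = (redData3K0 A (M' * q * q) q hqF.out hA).red ⟨x, h'⟩)
    {m : ℕ} (hm : (m : k₀) ≠ 0)
    (vert : Finset (HtOne Bf)) {ι : Type*} (W : ι → ValuationSubring (FK0 (M' * q * q)))
    (hW : ∀ i, W i = S.W1 ∨ W i = S.W2 ∨ W i = S.W3)
    (hvert : ∀ p ∈ vert, ∃ i, (V1 (FK0 (M' * q * q)) p : ValuationSubring (FK0 (M' * q * q))) = W i)
    (f : Fin 3 → HtOne Bf) (hf : ∀ p, p ∈ vert ↔ ∃ i, f i = p) (hinj : Function.Injective f)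
    {qB : Bf} (hqB : (qB : FK0 (M' * q * q)) = ((q : ℕ) : FK0 (M' * q * q)))
    (hqv : ∀ j ∈ vert, qB ∈ j.1) (s : Bf) (Q : Ideal Bf → Prop)
    (hdich : ∀ 𝔫 : Ideal Bf, 𝔫.IsMaximal → qB ∈ 𝔫 →
      (s ∈ 𝔫 ∧ (f 0).1 ≤ 𝔫 ∧ (f 1).1 ≤ 𝔫 ∧ (f 2).1 ≤ 𝔫 ∧ Q 𝔫) ∨
      (s ∉ 𝔫 ∧ ¬ ((f 0).1 ≤ 𝔫 ∧ (f 1).1 ≤ 𝔫) ∧ ¬ ((f 1).1 ≤ 𝔫 ∧ (f 2).1 ≤ 𝔫) ∧
        ¬ ((f 0).1 ≤ 𝔫 ∧ (f 2).1 ≤ 𝔫)))
    (hs : ∀ 𝔫 : Ideal Bf, 𝔫.IsMaximal → qB ∈ 𝔫 → s ∈ 𝔫 → e (Polynomial.aeval t s₀) ∈ 𝔫) :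
    ∀ u : FK0 (M' * q * q), u ≠ 0 → U3 S m u →
      ∀ 𝔫 : Ideal Bf, 𝔫.IsMaximal → qB ∈ 𝔫 → s ∈ 𝔫 → (∀ p ∈ vert, p.1 ≤ 𝔫) → Q 𝔫 →
        ∃ g ∈ (⊤ : Subring (FK0 (M' * q * q))), g ^ m * u ∈ Bf ∧
          LocAt (V1 (B := Bf) (FK0 (M' * q * q))) Bf ⊤ vert 𝔫 g := by
  have hinjB : Function.Injective (algebraMap B (FK0 (M' * q * q))) := by
    intro b b' hbb
    apply e.injective
    apply Subtype.ext
    rw [he, he, hbb]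
  have hq0 : ((q0 A q : R0 A) : K0 A) = ((q : ℕ) : K0 A) := by
    apply (ι0 A).injective
    rw [ι0_q0, map_natCast]
  have heq0 : e (algebraMap (R0 A) B (q0 A q)) = qB := by
    apply Subtype.ext
    rw [he, htower, hq0, map_natCast, hqB]
  refine hIII_hall_K0 hqM hA h2 h3 hBf S e he hW1 hrd1 hW2 hrd2 hW3 hrd3 ?_ hm vert W hW hvert f hf
    hinj hqv s Q hdich ?_
  · intro n a b hb
    have : b = algebraMap (R0 A) B a := hinjB (by rw [hb, htower])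
    rw [this, hχR]
  · intro 𝔫 h𝔫 hq𝔫 hs𝔫 _ _
    have hmaxc : (𝔫.comap (e : B →+* Bf)).IsMaximal :=
      Ideal.comap_isMaximal_of_surjective (e : B →+* Bf) e.surjective
    have hm0 : ∀ r ∈ RingHom.ker (residue (R0 A)),
        algebraMap (R0 A) B r ∈ 𝔫.comap (e : B →+* Bf) := by
      intro r hr
      have hnu : ¬ IsUnit r := by
        intro hu
        have h0 : residue (R0 A) r = 0 := hr
        exact (hu.map (residue (R0 A))).ne_zero h0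
      obtain ⟨c, rfl⟩ := exists_eq_q0_mul A hqF.out hA r hnu
      show e (algebraMap (R0 A) B (q0 A q * c)) ∈ 𝔫
      rw [map_mul, map_mul, heq0]
      exact 𝔫.mul_mem_right _ hq𝔫
    refine ⟨⟨𝔫.comap (e : B →+* Bf), hmaxc, hm0, hs 𝔫 h𝔫 hq𝔫 hs𝔫⟩, fun b => ?_⟩
    exact (Ideal.ext_iff.1 (hP _) b).trans Iff.rfl

end Main

end Fermat.Agent.GL.Final.TypeIIIHallK0
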