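import Fermat.Agent.GL.Fibre.TypeIIIOfSetupChi
import Fermat.Agent.GL.Fibre.OldTriplesK0
import Fermat.Agent.GL.Fibre.CRingFin

/-!
# GATE-L / the type-III contract at the `j`-frame over `K₀` (helper29)

`q ∤ M'`, `N = M' q q`, `A | q`, `F0 = K₀(X₀(N))`, `Bf` the `j`-frame over `R₀` (`= B3K0`),
`S : H4OfXi.TripleSetup F0 E k … ↥Bf T T'` with `k = ResidueField A`, `C = CRing M' A`,
`Ψ = psiC M' q A`.

**`hIII_K0`** : the `hIII` binder of `LocDispatch.exists_locAt_all` /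
`JFrameDispatch.hall_of_dispatch` VERBATIM from `H4OfXi.U3 S m u`: `hIII_of_setup_series` with the
old triples (`OldTriplesK0.old0K0 …`), the constants, the root-closedness of `CRing` and the three
instances DISCHARGED.  What is left = the ties of `S` to the concrete reductions (`tie_i`, `hres_i`,
`hχR0`, `hBW_i`), helper15's `RedInC` (`hRed_i`), the frame facts (`vert`, `hvert`) and the
classification (`hclass`).
-/

set_option autoImplicit false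
set_option linter.unusedSectionVars false

noncomputable section

namespace Fermat.Agent.GL.Final.TypeIIIInstK0

open HahnSeries ModularCurve IsLocalRing
open Fermat.Agent.S24 Fermat.Agent.S24_helper62 Fermat.Agent.S24_helper82
open Fermat.Agent.GJ.J1 Fermat.Agent.GJ.J1.Val Fermat.Agent.GJ.HN Fermat.Agent.GK.AL
open Fermat.Agent.GK.QS Fermat.Agent.GK.FrobGlue Fermat.Agent.GL.AL Fermat.Agent.GL.W3
open Fermat.Agent.GL.CuspVal Fermat.Agent.GL.OldTriples Fermat.Agent.GL.OldTriplesK0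
open Fermat.Agent.GL.Val.GaussK0
open Fermat.Agent.GL.H4OfXi Fermat.Agent.GL.LocGlue Fermat.Agent.GL.Frame.HeightOne
open Fermat.Agent.GL.TypeIIIOfSetup

variable (M' : ℕ) [NeZero M'] (q : ℕ) [hqF : Fact q.Prime] [NeZero q]
variable (A : ValuationSubring Kbar) (hQ : HallDvd (q ^ 2) (M' * q * q))
variable (hqM : ¬ q ∣ M') (hA : A.LiesOverPrime q)

local notation "kA" => ResidueField A
local notation "FK0" => modularFunctionFieldFullC (K0 A)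

/-- root-closedness of `cVal (CRing M' A)` inside the image of `FresBar M' A`. -/
theorem root_cVal {m : ℕ} (hm : m ≠ 0) (y : FresBar M' A)
    (h : (y : LaurentSeries kA) ^ m ∈ (cVal M' A).toRingHom.range) :
    (y : LaurentSeries kA) ∈ (cVal M' A).toRingHom.range := by
  obtain ⟨c, hc⟩ := h
  have h1 : y ^ m = ((c : CRing M' A) : FresBar M' A) := by
    apply Subtype.ext
    exact hc.symm
  have h2 : y ^ m ∈ CRing M' A := by rw [h1]; exact c.2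
  have h3 : y ∈ CRing M' A := Fermat.Agent.GL.CRingFin.mem_CRing_of_pow_mem M' A hm h2
  exact ⟨⟨y, h3⟩, rfl⟩

/-- the same after `Q ↦ Q^N`. -/
theorem root_cVal3 {m : ℕ} (hm : m ≠ 0) (y : FresBar M' A)
    (h : (qExpand kA (M' * q * q) (y : LaurentSeries kA)) ^ m ∈ (cVal3 M' q A).range) :
    qExpand kA (M' * q * q) (y : LaurentSeries kA) ∈ (cVal3 M' q A).range := by
  obtain ⟨c, hc⟩ := h
  rw [cVal3_apply, ← map_pow] at hc
  have h0 : cVal M' A c = (y : LaurentSeries kA) ^ m := (qExpand kA (M' * q * q)).injective hc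
  obtain ⟨c', hc'⟩ := root_cVal M' A hm y ⟨c, h0⟩
  refine ⟨c', ?_⟩
  rw [cVal3_apply]
  exact congrArg _ hc'

theorem cVal3_injective : Function.Injective (cVal3 M' q A) := by
  intro x y h
  rw [cVal3_apply, cVal3_apply] at h
  exact cVal_injective M' A ((qExpand kA (M' * q * q)).injective h)

section Main

variable {E k1 k2 k3 k1' k2' T T' : Type*} [Field E]
  [Field k1] [Field k2] [Field k3] [Field k1'] [Field k2']
  {Bf : Subring (modularFunctionFieldFullC (K0 A) (M' * q * q))}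
  [IsFractionRing Bf (modularFunctionFieldFullC (K0 A) (M' * q * q))]
  [IsNoetherianRing Bf] [IsIntegrallyClosed Bf]

set_option synthInstance.maxHeartbeats 400000 in
set_option maxHeartbeats 1600000 in
variable {M' q A hQ} in
include hqM hA in
/-- **the type-III contract on the `j`-frame over `K₀`.** -/
theorem hIII_K0 (h2 : q = 2 → 3 ∣ M') (h3 : q = 3 → 2 ∣ M')
    (hBf : ∀ x : FK0 (M' * q * q), x ∈ Bf ↔ x ∈ B3K0 M' q A hQ)
    (S : TripleSetup (FK0 (M' * q * q)) E kA k1 k2 k3 k1' k2' Bf T T')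
    (hBW1 : ∀ b : Bf, (b : FK0 (M' * q * q)) ∈ S.W1)
    (hBW2 : ∀ b : Bf, (b : FK0 (M' * q * q)) ∈ S.W2)
    (hBW3 : ∀ b : Bf, (b : FK0 (M' * q * q)) ∈ S.W3)
    (θ1 : k1 →+* LaurentSeries kA) (θ2 : k2 →+* LaurentSeries kA) (θ3 : k3 →+* LaurentSeries kA)
    (tie1 : ∀ b : Bf, θ1 (S.rd1 ⟨(b : FK0 (M' * q * q)), hBW1 b⟩) =
      rdK1 M' q A hQ ⟨(b : FK0 (M' * q * q)), (hBf (b : FK0 (M' * q * q))).1 b.2⟩)
    (tie2 : ∀ b : Bf, θ2 (S.rd2 ⟨(b : FK0 (M' * q * q)), hBW2 b⟩) =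
      rdK2 M' q A hQ ⟨(b : FK0 (M' * q * q)), (hBf (b : FK0 (M' * q * q))).1 b.2⟩)
    (tie3 : ∀ b : Bf, θ3 (S.rd3 ⟨(b : FK0 (M' * q * q)), hBW3 b⟩) =
      rdK3 M' q A hQ ⟨(b : FK0 (M' * q * q)), (hBf (b : FK0 (M' * q * q))).1 b.2⟩)
    (hχR0 : ∀ n (a : R0 A),
      S.χ n ⟨algebraMap (K0 A) (FK0 (M' * q * q)) (a : K0 A),
        (hBf (algebraMap (K0 A) (FK0 (M' * q * q)) (a : K0 A))).2
          (algebraMap_mem_B3K0 M' q A hQ a)⟩ =
        residue A ⟨ι0 A (a : K0 A), (mem_R0_iff A _).1 a.2⟩)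
    (hRed1 : ∀ x0 : B3K0 M' q A hQ, rdK1 M' q A hQ x0 ∈ (cVal M' A).toRingHom.range)
    (hRed2 : ∀ x0 : B3K0 M' q A hQ, rdK2 M' q A hQ x0 ∈ (cVal M' A).toRingHom.range)
    (hRed3 : ∀ x0 : B3K0 M' q A hQ, rdK3 M' q A hQ x0 ∈ (cVal3 M' q A).range)
    (hres1 : ∀ z : S.W1, ∃ y : FresBar M' A, θ1 (S.rd1 z) = (y : LaurentSeries kA))
    (hres2 : ∀ z : S.W2, ∃ y : FresBar M' A, θ2 (S.rd2 z) = (y : LaurentSeries kA))
    (hres3 : ∀ z : S.W3, ∃ y : FresBar M' A,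
      θ3 (S.rd3 z) = qExpand kA (M' * q * q) (y : LaurentSeries kA))
    {m : ℕ} (hm : (m : kA) ≠ 0)
    (vert : Finset (HtOne Bf)) {ι : Type*} (W : ι → ValuationSubring (FK0 (M' * q * q)))
    (hW : ∀ i, W i = S.W1 ∨ W i = S.W2 ∨ W i = S.W3)
    (hvert : ∀ p ∈ vert, ∃ i, V1 (FK0 (M' * q * q)) p = W i)
    (hclass : ∀ 𝔫 : Ideal Bf, 𝔫.IsMaximal → ∀ i ∈ vert, ∀ j ∈ vert, i ≠ j → i.1 ≤ 𝔫 → j.1 ≤ 𝔫 →
      ∃ n : T, 𝔫 = S.P n)
    {u : FK0 (M' * q * q)} (hU3 : Fermat.Agent.GL.H4OfXi.U3 S m u) :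
    ∀ 𝔫 : Ideal Bf, 𝔫.IsMaximal → ∀ i ∈ vert, ∀ j ∈ vert, i ≠ j → i.1 ≤ 𝔫 → j.1 ≤ 𝔫 →
      ∃ g ∈ (⊤ : Subring (FK0 (M' * q * q))), g ^ m * u ∈ Bf ∧
        LocAt (V1 (B := Bf) (FK0 (M' * q * q))) Bf ⊤ vert 𝔫 g := by
  have hm0 : m ≠ 0 := by
    rintro rfl
    exact hm Nat.cast_zero
  have : IsAlgClosed kA := Fermat.Agent.GJ.ResidueAlgClosed.isAlgClosed_residueField A
  have : Algebra.FiniteType kA (CRing M' A) := Fermat.Agent.GL.CRingFin.finiteType_CRing M' q A hA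
  have : Module.Finite kA (CRing M' A ⧸ fixIdeal (psiC M' q A hqM hA) ^ 2) :=
    Fermat.Agent.GL.CRingFin.finite_quotient_fixIdeal_pow M' q A hqM hA 2
  -- lifting an element of `B3K0` to the frame
  have hlift : ∀ (x0 : B3K0 M' q A hQ) (r1 r2 r3 : LaurentSeries kA),
      rdK1 M' q A hQ x0 = r1 → rdK2 M' q A hQ x0 = r2 → rdK3 M' q A hQ x0 = r3 →
      ∃ (b : Bf) (h1 : (b : FK0 (M' * q * q)) ∈ S.W1) (h2 : (b : FK0 (M' * q * q)) ∈ S.W2)
        (h3 : (b : FK0 (M' * q * q)) ∈ S.W3), (b : FK0 (M' * q * q)) = x0 ∧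
        θ1 (S.rd1 ⟨b, h1⟩) = r1 ∧ θ2 (S.rd2 ⟨b, h2⟩) = r2 ∧ θ3 (S.rd3 ⟨b, h3⟩) = r3 := by
    intro x0 r1 r2 r3 e1 e2 e3
    let b : Bf := ⟨(x0 : FK0 (M' * q * q)), (hBf (x0 : FK0 (M' * q * q))).2 x0.2⟩
    exact ⟨b, hBW1 b, hBW2 b, hBW3 b, rfl, (tie1 b).trans e1, (tie2 b).trans e2,
      (tie3 b).trans e3⟩
  refine hIII_of_setup_series S (psiC M' q A hqM hA) θ1 θ2 θ3 (cVal M' A).toRingHom
    (cVal M' A).toRingHom (cVal3 M' q A) (cVal_injective M' A) (cVal_injective M' A)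
    (cVal3_injective M' q A) ?_ ?_ ?_ ?_ ?_ ?_ ?_ hm ?_ ?_ ?_ vert W hW hvert hclass hU3
  · intro b h
    rw [show (⟨(b : FK0 (M' * q * q)), h⟩ : S.W1) = ⟨(b : FK0 (M' * q * q)), hBW1 b⟩ from rfl, tie1 b]
    exact hRed1 _
  · intro b h
    rw [show (⟨(b : FK0 (M' * q * q)), h⟩ : S.W2) = ⟨(b : FK0 (M' * q * q)), hBW2 b⟩ from rfl, tie2 b]
    exact hRed2 _
  · intro b h
    rw [show (⟨(b : FK0 (M' * q * q)), h⟩ : S.W3) = ⟨(b : FK0 (M' * q * q)), hBW3 b⟩ from rfl, tie3 b]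
    exact hRed3 _
  · intro c
    obtain ⟨x0, e1, e2, e3⟩ := old0K0 M' q A hQ hqM hA h2 h3 c
    obtain ⟨b, h1, h2', h3', -, f1, f2, f3⟩ := hlift x0 _ _ _ e1 e2 e3
    exact ⟨b, h1, h2', h3', f1, f2, f3⟩
  · intro c
    obtain ⟨x0, e1, e2, e3⟩ := old1K0 M' q A hQ hqM hA h2 h3 c
    obtain ⟨b, h1, h2', h3', -, f1, f2, f3⟩ := hlift x0 _ _ _ e1 e2 e3
    exact ⟨b, h1, h2', h3', f1, f2, f3⟩
  · intro c
    obtain ⟨x0, e1, e2, e3⟩ := old2K0 M' q A hQ hqM hA h2 h3 c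
    obtain ⟨b, h1, h2', h3', -, f1, f2, f3⟩ := hlift x0 _ _ _ e1 e2 e3
    exact ⟨b, h1, h2', h3', f1, f2, f3⟩
  · intro a
    obtain ⟨a0, ha0⟩ := exists_R0_residue_eq q A hA a
    obtain ⟨b, h1, h2', h3', hb, f1, f2, f3⟩ :=
      hlift ⟨_, algebraMap_mem_B3K0 M' q A hQ a0⟩ _ _ _ (rdK1_algebraMap M' q A hQ a0)
        (rdK2_algebraMap M' q A hQ a0) (rdK3_algebraMap M' q A hQ a0)
    refine ⟨b, h1, h2', h3', fun n => ?_, ?_, ?_, ?_⟩
    · rw [← ha0, ← hχR0 n a0]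
      exact congrArg (S.χ n) (Subtype.ext hb)
    · rw [f1, ha0]
      exact ((cVal M' A).commutes a).symm
    · rw [f2, ha0]
      exact ((cVal M' A).commutes a).symm
    · rw [f3, ha0, cVal3_apply, (cVal M' A).commutes, algebraMap_laurentSeries_eq_single,
        qExpand_single, mul_zero]
  · intro z hz
    obtain ⟨y, hy⟩ := hres1 z
    rw [hy] at hz ⊢
    exact root_cVal M' A hm0 y hz
  · intro z hz
    obtain ⟨y, hy⟩ := hres2 z
    rw [hy] at hz ⊢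
    exact root_cVal M' A hm0 y hz
  · intro z hz
    obtain ⟨y, hy⟩ := hres3 z
    rw [hy] at hz ⊢
    exact root_cVal3 M' q A hm0 y hz

end Main

end Fermat.Agent.GL.Final.TypeIIIInstK0
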