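import Fermat.Agent.GL.Final.TypeIIIInstK0
import Fermat.Agent.GL.Fibre.TypeIIIOfSetupEquiv

/-!
# GATE-L / the type-III contract at the `j`-frame over `K₀`, values in ANY field `k ≃ kA` (helper29)

`TypeIIIInstK0.hIII_K0` for a `TripleSetup` whose evaluations take values in a field `k` with a
ring isomorphism `σ : k ≃+* ResidueField A` (e.g. `k = ResidueField (R0 A)`, `σ = resEquivK0 A`):
**`hIII_K0_equiv`**.  Same hypotheses; `hχR0` reads `σ (S.χ n a) = residue A a`.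
-/

set_option autoImplicit false
set_option linter.unusedSectionVars false

noncomputable section

namespace Fermat.Agent.GL.Final.TypeIIIInstK0Equiv

open Fermat.Agent.GL.Final.TypeIIIInstK0

open HahnSeries ModularCurve IsLocalRing
open Fermat.Agent.S24 Fermat.Agent.S24_helper62 Fermat.Agent.S24_helper82
open Fermat.Agent.GJ.J1 Fermat.Agent.GJ.J1.Val Fermat.Agent.GJ.HN Fermat.Agent.GK.AL
open Fermat.Agent.GK.QS Fermat.Agent.GK.FrobGlue Fermat.Agent.GL.AL Fermat.Agent.GL.W3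
open Fermat.Agent.GL.CuspVal Fermat.Agent.GL.OldTriples Fermat.Agent.GL.OldTriplesK0
open Fermat.Agent.GL.Val.GaussK0
open Fermat.Agent.GL.H4OfXi Fermat.Agent.GL.LocGlue Fermat.Agent.GL.Frame.HeightOne
open Fermat.Agent.GL.TypeIIIOfSetup

variable (M' : ℕ) [NeZero M'] (q : ℕ) [hqF : Fact q.Prime] [NeZero q]
variable (A : ValuationSubring Kbar) (hQ : HallDvd (q ^ 2) (M' * q * q))
variable (hqM : ¬ q ∣ M') (hA : A.LiesOverPrime q)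

local notation "kA" => ResidueField A
local notation "FK0" => modularFunctionFieldFullC (K0 A)

section Main

variable {E k k1 k2 k3 k1' k2' T T' : Type*} [Field E] [Field k] [IsAlgClosed k]
  [Field k1] [Field k2] [Field k3] [Field k1'] [Field k2']
  {Bf : Subring (modularFunctionFieldFullC (K0 A) (M' * q * q))}
  [IsFractionRing Bf (modularFunctionFieldFullC (K0 A) (M' * q * q))]
  [IsNoetherianRing Bf] [IsIntegrallyClosed Bf]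

set_option synthInstance.maxHeartbeats 400000 in
set_option maxHeartbeats 1600000 in
variable {M' q A hQ} in
include hqM hA in
/-- **the type-III contract on the `j`-frame over `K₀`.** -/
theorem hIII_K0_equiv (σ : k ≃+* kA) (h2 : q = 2 → 3 ∣ M') (h3 : q = 3 → 2 ∣ M')
    (hBf : ∀ x : FK0 (M' * q * q), x ∈ Bf ↔ x ∈ B3K0 M' q A hQ)
    (S : TripleSetup (FK0 (M' * q * q)) E k k1 k2 k3 k1' k2' Bf T T')
    (hBW1 : ∀ b : Bf, (b : FK0 (M' * q * q)) ∈ S.W1)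
    (hBW2 : ∀ b : Bf, (b : FK0 (M' * q * q)) ∈ S.W2)
    (hBW3 : ∀ b : Bf, (b : FK0 (M' * q * q)) ∈ S.W3)
    (θ1 : k1 →+* LaurentSeries kA) (θ2 : k2 →+* LaurentSeries kA) (θ3 : k3 →+* LaurentSeries kA)
    (tie1 : ∀ b : Bf, θ1 (S.rd1 ⟨(b : FK0 (M' * q * q)), hBW1 b⟩) =
      rdK1 M' q A hQ ⟨(b : FK0 (M' * q * q)), (hBf (b : FK0 (M' * q * q))).1 b.2⟩)
    (tie2 : ∀ b : Bf, θ2 (S.rd2 ⟨(b : FK0 (M' * q * q)), hBW2 b⟩) =
      rdK2 M' q A hQ ⟨(b : FK0 (M' * q * q)), (hBf (b : FK0 (M' * q * q))).1 b.2⟩)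
    (tie3 : ∀ b : Bf, θ3 (S.rd3 ⟨(b : FK0 (M' * q * q)), hBW3 b⟩) =
      rdK3 M' q A hQ ⟨(b : FK0 (M' * q * q)), (hBf (b : FK0 (M' * q * q))).1 b.2⟩)
    (hχR0 : ∀ n (a : R0 A),
      σ (S.χ n ⟨algebraMap (K0 A) (FK0 (M' * q * q)) (a : K0 A),
        (hBf (algebraMap (K0 A) (FK0 (M' * q * q)) (a : K0 A))).2
          (algebraMap_mem_B3K0 M' q A hQ a)⟩) =
        residue A ⟨ι0 A (a : K0 A), (mem_R0_iff A _).1 a.2⟩)
    (hRed1 : ∀ x0 : B3K0 M' q A hQ, rdK1 M' q A hQ x0 ∈ (cVal M' A).toRingHom.range)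
    (hRed2 : ∀ x0 : B3K0 M' q A hQ, rdK2 M' q A hQ x0 ∈ (cVal M' A).toRingHom.range)
    (hRed3 : ∀ x0 : B3K0 M' q A hQ, rdK3 M' q A hQ x0 ∈ (cVal3 M' q A).range)
    (hres1 : ∀ z : S.W1, ∃ y : FresBar M' A, θ1 (S.rd1 z) = (y : LaurentSeries kA))
    (hres2 : ∀ z : S.W2, ∃ y : FresBar M' A, θ2 (S.rd2 z) = (y : LaurentSeries kA))
    (hres3 : ∀ z : S.W3, ∃ y : FresBar M' A,
      θ3 (S.rd3 z) = qExpand kA (M' * q * q) (y : LaurentSeries kA))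
    {m : ℕ} (hm : (m : k) ≠ 0)
    (vert : Finset (HtOne Bf)) {ι : Type*} (W : ι → ValuationSubring (FK0 (M' * q * q)))
    (hW : ∀ i, W i = S.W1 ∨ W i = S.W2 ∨ W i = S.W3)
    (hvert : ∀ p ∈ vert, ∃ i, V1 (FK0 (M' * q * q)) p = W i)
    (hclass : ∀ 𝔫 : Ideal Bf, 𝔫.IsMaximal → ∀ i ∈ vert, ∀ j ∈ vert, i ≠ j → i.1 ≤ 𝔫 → j.1 ≤ 𝔫 →
      ∃ n : T, 𝔫 = S.P n)
    {u : FK0 (M' * q * q)} (hU3 : Fermat.Agent.GL.H4OfXi.U3 S m u) :
    ∀ 𝔫 : Ideal Bf, 𝔫.IsMaximal → ∀ i ∈ vert, ∀ j ∈ vert, i ≠ j → i.1 ≤ 𝔫 → j.1 ≤ 𝔫 →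
      ∃ g ∈ (⊤ : Subring (FK0 (M' * q * q))), g ^ m * u ∈ Bf ∧
        LocAt (V1 (B := Bf) (FK0 (M' * q * q))) Bf ⊤ vert 𝔫 g := by
  have hm0 : m ≠ 0 := by
    rintro rfl
    exact hm Nat.cast_zero
  have : Algebra.FiniteType kA (CRing M' A) := Fermat.Agent.GL.CRingFin.finiteType_CRing M' q A hA
  have : Module.Finite kA (CRing M' A ⧸ fixIdeal (psiC M' q A hqM hA) ^ 2) :=
    Fermat.Agent.GL.CRingFin.finite_quotient_fixIdeal_pow M' q A hqM hA 2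
  -- lifting an element of `B3K0` to the frame
  have hlift : ∀ (x0 : B3K0 M' q A hQ) (r1 r2 r3 : LaurentSeries kA),
      rdK1 M' q A hQ x0 = r1 → rdK2 M' q A hQ x0 = r2 → rdK3 M' q A hQ x0 = r3 →
      ∃ (b : Bf) (h1 : (b : FK0 (M' * q * q)) ∈ S.W1) (h2 : (b : FK0 (M' * q * q)) ∈ S.W2)
        (h3 : (b : FK0 (M' * q * q)) ∈ S.W3), (b : FK0 (M' * q * q)) = x0 ∧
        θ1 (S.rd1 ⟨b, h1⟩) = r1 ∧ θ2 (S.rd2 ⟨b, h2⟩) = r2 ∧ θ3 (S.rd3 ⟨b, h3⟩) = r3 := by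
    intro x0 r1 r2 r3 e1 e2 e3
    let b : Bf := ⟨(x0 : FK0 (M' * q * q)), (hBf (x0 : FK0 (M' * q * q))).2 x0.2⟩
    exact ⟨b, hBW1 b, hBW2 b, hBW3 b, rfl, (tie1 b).trans e1, (tie2 b).trans e2,
      (tie3 b).trans e3⟩
  refine hIII_of_setup_series_equiv S σ (psiC M' q A hqM hA) θ1 θ2 θ3 (cVal M' A).toRingHom
    (cVal M' A).toRingHom (cVal3 M' q A) (cVal_injective M' A) (cVal_injective M' A)
    (cVal3_injective M' q A) ?_ ?_ ?_ ?_ ?_ ?_ ?_ hm ?_ ?_ ?_ vert W hW hvert hclass hU3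
  · intro b h
    rw [show (⟨(b : FK0 (M' * q * q)), h⟩ : S.W1) = ⟨(b : FK0 (M' * q * q)), hBW1 b⟩ from rfl, tie1 b]
    exact hRed1 _
  · intro b h
    rw [show (⟨(b : FK0 (M' * q * q)), h⟩ : S.W2) = ⟨(b : FK0 (M' * q * q)), hBW2 b⟩ from rfl, tie2 b]
    exact hRed2 _
  · intro b h
    rw [show (⟨(b : FK0 (M' * q * q)), h⟩ : S.W3) = ⟨(b : FK0 (M' * q * q)), hBW3 b⟩ from rfl, tie3 b]
    exact hRed3 _
  · intro c
    obtain ⟨x0, e1, e2, e3⟩ := old0K0 M' q A hQ hqM hA h2 h3 c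
    obtain ⟨b, h1, h2', h3', -, f1, f2, f3⟩ := hlift x0 _ _ _ e1 e2 e3
    exact ⟨b, h1, h2', h3', f1, f2, f3⟩
  · intro c
    obtain ⟨x0, e1, e2, e3⟩ := old1K0 M' q A hQ hqM hA h2 h3 c
    obtain ⟨b, h1, h2', h3', -, f1, f2, f3⟩ := hlift x0 _ _ _ e1 e2 e3
    exact ⟨b, h1, h2', h3', f1, f2, f3⟩
  · intro c
    obtain ⟨x0, e1, e2, e3⟩ := old2K0 M' q A hQ hqM hA h2 h3 c
    obtain ⟨b, h1, h2', h3', -, f1, f2, f3⟩ := hlift x0 _ _ _ e1 e2 e3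
    exact ⟨b, h1, h2', h3', f1, f2, f3⟩
  · intro a
    obtain ⟨a0, ha0⟩ := exists_R0_residue_eq q A hA (σ a)
    obtain ⟨b, h1, h2', h3', hb, f1, f2, f3⟩ :=
      hlift ⟨_, algebraMap_mem_B3K0 M' q A hQ a0⟩ _ _ _ (rdK1_algebraMap M' q A hQ a0)
        (rdK2_algebraMap M' q A hQ a0) (rdK3_algebraMap M' q A hQ a0)
    refine ⟨b, h1, h2', h3', fun n => ?_, ?_, ?_, ?_⟩
    · apply σ.injective
      rw [← ha0, ← hχR0 n a0]
      exact congrArg (fun z => σ (S.χ n z)) (Subtype.ext hb)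
    · rw [f1, ha0]
      exact ((cVal M' A).commutes (σ a)).symm
    · rw [f2, ha0]
      exact ((cVal M' A).commutes (σ a)).symm
    · rw [f3, ha0, cVal3_apply, (cVal M' A).commutes, algebraMap_laurentSeries_eq_single,
        qExpand_single, mul_zero]
  · intro z hz
    obtain ⟨y, hy⟩ := hres1 z
    rw [hy] at hz ⊢
    exact root_cVal M' A hm0 y hz
  · intro z hz
    obtain ⟨y, hy⟩ := hres2 z
    rw [hy] at hz ⊢
    exact root_cVal M' A hm0 y hz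
  · intro z hz
    obtain ⟨y, hy⟩ := hres3 z
    rw [hy] at hz ⊢
    exact root_cVal3 M' q A hm0 y hz

end Main

end Fermat.Agent.GL.Final.TypeIIIInstK0Equiv
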