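import Fermat.Agent.GL.Final.TypeIIIInstK0Equiv
import Fermat.Agent.GL.Fibre.RedInCThm

/-!
# GATE-L / the type-III contract at the `j`-frame over `K₀`, canonical reductions (helper29)

`TypeIIIInstK0Equiv.hIII_K0_equiv` at a `TripleSetup` whose residue fields and reductions are the
canonical ones of the `K₀`-stack (helper26/helper45/helper67 `RowsInst`):

  `k = k₀ = ResidueField (R0 A)`,  `k₁ = k₂ = FresK0 A N`,  `k₃ = Fres3K0 A N q`,
  `S.rd₁ = (redDataK0 A N).red`, `S.rd₂ = (redData2QK0 A N hQ).red`, `S.rd₃ = (redData3K0 A N q).red`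
  (`N = M' q q`), the ties being stated pointwise (`hW_i`, `hrd_i` — `Iff.rfl` / `rfl` for a literal
  setup).

DISCHARGED here: `θ_i := coeffMap (resMapK0 A) ∘ coe`, the three compatibilities
`θ_i ∘ S.rd_i = rhoK_i` (`coe_red1K0`, `coe_red2QK0`, `coeffMap_resMapK0_coe_red`), helper15's
`RedInCThm` (`hRed_i`, `hres_i`), `σ := resEquivK0 A`, `IsAlgClosed k₀`.

LEFT: the frame (`Bf = B3K0`, `vert`, `hvert`), the residue characters on the constants (`hχR0`),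
the classification (`hclass`).
-/

set_option autoImplicit false
set_option linter.unusedSectionVars false

noncomputable section

namespace Fermat.Agent.GL.Final.TypeIIIInstK0Thm

open HahnSeries ModularCurve IsLocalRing
open Fermat.Agent.S24 Fermat.Agent.S24_helper62 Fermat.Agent.S24_helper82
open Fermat.Agent.GJ.J1 Fermat.Agent.GJ.J1.Val Fermat.Agent.GJ.HN Fermat.Agent.GK.AL
open Fermat.Agent.GK.QS Fermat.Agent.GK.FrobGlue Fermat.Agent.GL.AL Fermat.Agent.GL.W3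
open Fermat.Agent.GL.CuspVal Fermat.Agent.GL.OldTriples Fermat.Agent.GL.OldTriplesK0
open Fermat.Agent.GL.Val.GaussK0 Fermat.Agent.GL.Val.SecondK0 Fermat.Agent.GL.Val.SecondK0Hall
open Fermat.Agent.GL.Val.ThirdK0 Fermat.Agent.GL.Val.CuspK0 Fermat.Agent.GL.Table.K0
open Fermat.Agent.GL.RedInC Fermat.Agent.GL.RedInCThm
open Fermat.Agent.GL.H4OfXi Fermat.Agent.GL.LocGlue Fermat.Agent.GL.Frame.HeightOne
open Fermat.Agent.GL.TypeIIIOfSetup

variable (M' : ℕ) [NeZero M'] (q : ℕ) [hqF : Fact q.Prime] [NeZero q]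
variable (A : ValuationSubring Kbar) (hQ : HallDvd (q ^ 2) (M' * q * q))
variable (hqM : ¬ q ∣ M') (hA : A.LiesOverPrime q)

local notation "kA" => ResidueField A
local notation "k₀" => ResidueField (R0 A)
local notation "FK0" => modularFunctionFieldFullC (K0 A)

/-- `θ₁ = θ₂ : FresK0 A N → k((t))`. -/
def theta12 : FresK0 A (M' * q * q) →+* LaurentSeries kA :=
  (coeffMap (resMapK0 A)).comp (SubringClass.subtype (FresK0 A (M' * q * q)))

/-- `θ₃ : Fres3K0 A N q → k((t))`. -/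
def theta3 : Fres3K0 A (M' * q * q) q hqF.out hA →+* LaurentSeries kA :=
  (coeffMap (resMapK0 A)).comp (SubringClass.subtype (Fres3K0 A (M' * q * q) q hqF.out hA))

/-- `θ₁ ∘ red₁ = rhoK1`. -/
theorem theta12_red1 (x : RwK0 A (M' * q * q)) :
    theta12 M' q A ((redDataK0 A (M' * q * q)).red x) = rhoK1 M' q A x := by
  rw [rhoK1_apply]
  exact (coe_red1K0 A (M' * q * q) x.1 x.2 ((mem_Rw1K0_iff A (M' * q * q) x.1).1 x.2)).symm

/-- `θ₂ ∘ red₂ = rhoK2`. -/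
theorem theta12_red2 (x : (redData2QK0 A (M' * q * q) hQ).Rw) :
    theta12 M' q A ((redData2QK0 A (M' * q * q) hQ).red x) = rhoK2 M' q A hQ x := by
  rw [rhoK2_apply]
  exact (coe_red2QK0 A (M' * q * q) hQ x.1 x.2
    ((mem_Rw2QK0_iff A (M' * q * q) hQ x.1).1 x.2)).symm

set_option synthInstance.maxHeartbeats 400000 in
/-- `θ₃ ∘ red₃ = rhoK3`. -/
theorem theta3_red3 (x : Rw3K0 A (M' * q * q) q) :
    theta3 M' q A hA ((redData3K0 A (M' * q * q) q hqF.out hA).red x) = rhoK3 M' q A x := by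
  have hx' : toFN0 A (M' * q * q) x.1 ∈
      (redDataCusp (M' * q * q) A (cusp3 (M' * q * q) q)).Rw := x.2
  have h := coeffMap_resMapK0_coe_red A (M' * q * q) (cusp3 (M' * q * q) q) hqF.out hA x.1 x.2 hx'
  exact h

section Main

variable {E k1' k2' T T' : Type*} [Field E] [Field k1'] [Field k2']
  {Bf : Subring (modularFunctionFieldFullC (K0 A) (M' * q * q))}
  [IsFractionRing Bf (modularFunctionFieldFullC (K0 A) (M' * q * q))]
  [IsNoetherianRing Bf] [IsIntegrallyClosed Bf]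

set_option synthInstance.maxHeartbeats 400000 in
set_option maxHeartbeats 1600000 in
variable {M' q A hQ} in
include hqM in
/-- **the type-III contract on the `j`-frame over `K₀`, canonical reductions.** -/
theorem hIII_K0_thm (h2 : q = 2 → 3 ∣ M') (h3 : q = 3 → 2 ∣ M')
    (hBf : ∀ x : FK0 (M' * q * q), x ∈ Bf ↔ x ∈ B3K0 M' q A hQ)
    (S : TripleSetup (FK0 (M' * q * q)) E k₀ (FresK0 A (M' * q * q)) (FresK0 A (M' * q * q))
      (Fres3K0 A (M' * q * q) q hqF.out hA) k1' k2' Bf T T')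
    (hW1 : ∀ x : FK0 (M' * q * q), x ∈ S.W1 ↔ x ∈ RwK0 A (M' * q * q))
    (hrd1 : ∀ (x : FK0 (M' * q * q)) (h : x ∈ S.W1) (h' : x ∈ RwK0 A (M' * q * q)),
      S.rd1 ⟨x, h⟩ = (redDataK0 A (M' * q * q)).red ⟨x, h'⟩)
    (hW2 : ∀ x : FK0 (M' * q * q), x ∈ S.W2 ↔ x ∈ (redData2QK0 A (M' * q * q) hQ).Rw)
    (hrd2 : ∀ (x : FK0 (M' * q * q)) (h : x ∈ S.W2)
      (h' : x ∈ (redData2QK0 A (M' * q * q) hQ).Rw),
      S.rd2 ⟨x, h⟩ = (redData2QK0 A (M' * q * q) hQ).red ⟨x, h'⟩)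
    (hW3 : ∀ x : FK0 (M' * q * q), x ∈ S.W3 ↔ x ∈ Rw3K0 A (M' * q * q) q)
    (hrd3 : ∀ (x : FK0 (M' * q * q)) (h : x ∈ S.W3) (h' : x ∈ Rw3K0 A (M' * q * q) q),
      S.rd3 ⟨x, h⟩ = (redData3K0 A (M' * q * q) q hqF.out hA).red ⟨x, h'⟩)
    (hχR0 : ∀ n (a : R0 A),
      S.χ n ⟨algebraMap (K0 A) (FK0 (M' * q * q)) (a : K0 A),
        (hBf (algebraMap (K0 A) (FK0 (M' * q * q)) (a : K0 A))).2
          (algebraMap_mem_B3K0 M' q A hQ a)⟩ = residue (R0 A) a)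
    {m : ℕ} (hm : (m : k₀) ≠ 0)
    (vert : Finset (HtOne Bf)) {ι : Type*} (W : ι → ValuationSubring (FK0 (M' * q * q)))
    (hW : ∀ i, W i = S.W1 ∨ W i = S.W2 ∨ W i = S.W3)
    (hvert : ∀ p ∈ vert, ∃ i, (V1 (FK0 (M' * q * q)) p : ValuationSubring (FK0 (M' * q * q))) = W i)
    (hclass : ∀ 𝔫 : Ideal Bf, 𝔫.IsMaximal → ∀ i ∈ vert, ∀ j ∈ vert, i ≠ j → i.1 ≤ 𝔫 → j.1 ≤ 𝔫 →
      ∃ n : T, 𝔫 = S.P n)
    {u : FK0 (M' * q * q)} (hU3 : Fermat.Agent.GL.H4OfXi.U3 S m u) :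
    ∀ 𝔫 : Ideal Bf, 𝔫.IsMaximal → ∀ i ∈ vert, ∀ j ∈ vert, i ≠ j → i.1 ≤ 𝔫 → j.1 ≤ 𝔫 →
      ∃ g ∈ (⊤ : Subring (FK0 (M' * q * q))), g ^ m * u ∈ Bf ∧
        LocAt (V1 (B := Bf) (FK0 (M' * q * q))) Bf ⊤ vert 𝔫 g := by
  have : IsAlgClosed k₀ :=
    Fermat.Agent.GL.Val.CuspK0.isAlgClosed_residueField_R0 A hqF.out hA
  -- membership of the frame in the three valuation rings
  have hB1 : ∀ b : Bf, (b : FK0 (M' * q * q)) ∈ RwK0 A (M' * q * q) := fun b =>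
    (mem_B3K0_iff.1 ((hBf _).1 b.2)).2.1
  have hB2 : ∀ b : Bf, (b : FK0 (M' * q * q)) ∈ (redData2QK0 A (M' * q * q) hQ).Rw := fun b =>
    (mem_B3K0_iff.1 ((hBf _).1 b.2)).2.2.1
  have hB3 : ∀ b : Bf, (b : FK0 (M' * q * q)) ∈ Rw3K0 A (M' * q * q) q := fun b =>
    (mem_B3K0_iff.1 ((hBf _).1 b.2)).2.2.2
  -- the ties on the whole valuation rings
  have t1 : ∀ z : S.W1, theta12 M' q A (S.rd1 z) =
      rhoK1 M' q A ⟨(z : FK0 (M' * q * q)), (hW1 _).1 z.2⟩ := by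
    intro z
    rw [show z = ⟨(z : FK0 (M' * q * q)), z.2⟩ from rfl, hrd1 _ z.2 ((hW1 _).1 z.2)]
    exact theta12_red1 M' q A _
  have t2 : ∀ z : S.W2, theta12 M' q A (S.rd2 z) =
      rhoK2 M' q A hQ ⟨(z : FK0 (M' * q * q)), (hW2 _).1 z.2⟩ := by
    intro z
    rw [show z = ⟨(z : FK0 (M' * q * q)), z.2⟩ from rfl, hrd2 _ z.2 ((hW2 _).1 z.2)]
    exact theta12_red2 M' q A hQ _
  have t3 : ∀ z : S.W3, theta3 M' q A hA (S.rd3 z) =
      rhoK3 M' q A ⟨(z : FK0 (M' * q * q)), (hW3 _).1 z.2⟩ := by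
    intro z
    rw [show z = ⟨(z : FK0 (M' * q * q)), z.2⟩ from rfl, hrd3 _ z.2 ((hW3 _).1 z.2)]
    exact theta3_red3 M' q A hA _
  refine Fermat.Agent.GL.Final.TypeIIIInstK0Equiv.hIII_K0_equiv hqM hA
    (resEquivK0 A hqF.out hA) h2 h3 hBf S
    (fun b => (hW1 _).2 (hB1 b)) (fun b => (hW2 _).2 (hB2 b)) (fun b => (hW3 _).2 (hB3 b))
    (theta12 M' q A) (theta12 M' q A) (theta3 M' q A hA) ?_ ?_ ?_ ?_
    (rdK1_mem_range M' q A hQ hqM hA) (rdK2_mem_range M' q A hQ hqM hA)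
    (rdK3_mem_range M' q A hQ hqM hA) ?_ ?_ ?_ hm vert W hW hvert hclass hU3
  · intro b
    exact t1 ⟨(b : FK0 (M' * q * q)), (hW1 _).2 (hB1 b)⟩
  · intro b
    exact t2 ⟨(b : FK0 (M' * q * q)), (hW2 _).2 (hB2 b)⟩
  · intro b
    exact t3 ⟨(b : FK0 (M' * q * q)), (hW3 _).2 (hB3 b)⟩
  · intro n a
    rw [hχR0 n a]
    exact Fermat.Agent.GK.Val.BaseChange.resMap_residue (ι0 A) (R0 A) A (hA0 A) a
  · intro z
    exact ⟨redF1U M' q A hqM hA ⟨_, (hW1 _).1 z.2⟩, (t1 z).trans (coe_redF1U M' q A hqM hA _).symm⟩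
  · intro z
    exact ⟨redF2U M' q A hQ hqM hA ⟨_, (hW2 _).1 z.2⟩,
      (t2 z).trans (coe_redF2U M' q A hQ hqM hA _).symm⟩
  · intro z
    exact ⟨redF3U M' q A hqM hA ⟨_, (hW3 _).1 z.2⟩,
      (t3 z).trans (qExpand_redF3U M' q A hqM hA _).symm⟩

end Main

end Fermat.Agent.GL.Final.TypeIIIInstK0Thm
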