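import Fermat.Agent.GL.Final.TypeIIIHallK0
import Fermat.Agent.GL.Final.BuildInstPts

/-!
# GATE-L / the type-III producer `hIII` at the concrete `setupK0Of` (helper29)

`TypeIIIHallK0.hIII_hall_K0_pts` at `S := BuildInstPts.setupK0Of A hq hqM hA s H hv` (helper40), on
the frame `chartRing (R0 A) (jC (M' q q) (K0 A))` (`= BK0 A (M' q q)`, `e := RingEquiv.refl`):
the six ties, `hP`, `hχR`, `htower`, `hBf` (helper15 `b3K0_eq_chartRing`), `hm` (from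
`Nat.Coprime m q`) are DISCHARGED.

**`hIII_setupK0Of`** = the `hIII` argument of helper11 `H5TypeI.hallj_typed` VERBATIM
(`U3 := H4OfXi.U3 (setupK0Of …) m`).  Left: the frame data `vert W hW hvert f hf hinj hqB hqv`, the
dichotomy `s' Q hdich` (helper47 `ClassifyK0Full.dichotomy_frame`) — the arguments ALREADY passed to
`hallj_typed` — and `hs : s' ∈ 𝔫 → s(j) ∈ 𝔫`.
-/

set_option autoImplicit false
set_option linter.unusedSectionVars false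

noncomputable section

namespace Fermat.Agent.GL.Final.TypeIIISetupK0

open Polynomial HahnSeries ModularCurve IsLocalRing
open Fermat.Agent.GJ.J1
open Fermat.Agent.GL.Frame.Inst
open Fermat.Agent.GL.H4OfXi Fermat.Agent.GL.TripleBuild Fermat.Agent.GL.BuildInst
open Fermat.Agent.GL.BuildInstPts
open Fermat.Agent.GL.Final.TriplePoints Fermat.Agent.GL.Final.TripleBuildPoints
open Fermat.Agent.GL.Final.RowsInst
open Fermat.Agent.GL.Val.GaussK0 Fermat.Agent.GL.Val.SecondK0 Fermat.Agent.GL.Val.SecondK0Hall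
open Fermat.Agent.GL.Val.ThirdK0 Fermat.Agent.GL.Val.CuspK0 Fermat.Agent.GL.Val.DegBase
open Fermat.Agent.GL.Val.OrthK0
open Fermat.Agent.GL.LocGlue Fermat.Agent.GL.Frame.HeightOne
open Fermat.Agent.Common_helper32

attribute [local instance 2000] instAlgR0FullC instAlgBK0FullC instAlgR0BK0

variable (A : ValuationSubring Qb) {M' : ℕ} [NeZero M'] {q : ℕ} [NeZero q]

local notation "k₀" => ResidueField (R0 A)
local notation "F₀" => modularFunctionFieldFullC (K0 A) (M' * q * q)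
local notation "res₀" => residue (R0 A)

/-- `(m : k₀) ≠ 0` for `m` prime to `q`. -/
theorem natCast_ne_zero_of_coprime (hq : q.Prime) (hA : (q : Qb) ∈ A.nonunits) {m : ℕ}
    (hcop : Nat.Coprime m q) : (m : k₀) ≠ 0 := by
  have : CharP k₀ q := charP_k0 A hq hA
  intro h0
  have hdvd : q ∣ m := (CharP.cast_eq_zero_iff k₀ q m).1 h0
  have h1 : q ∣ 1 := by
    have := Nat.dvd_gcd hdvd (dvd_refl q)
    rwa [hcop] at this
  exact hq.one_lt.ne' (Nat.dvd_one.1 h1)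

local notation "Bj" => chartRing (R0 A) (jC (M' * q * q) (K0 A))

set_option synthInstance.maxHeartbeats 400000 in
set_option maxHeartbeats 1600000 in
/-- **the `hIII` argument of helper11 `H5TypeI.hallj_typed` at the concrete `setupK0Of`** on the
frame `B_j = chartRing (R0 A) (jC (M' q q) (K0 A))`. -/
theorem hIII_setupK0Of (hq : q.Prime) (hqM : ¬ q ∣ M') (hA : (q : Qb) ∈ A.nonunits)
    (h2 : q = 2 → 3 ∣ M') (h3 : q = 3 → 2 ∣ M')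
    (s : (R0 A)[X]) (H : SsPts A hq hqM hA s) (hv : (buildK0 A hq hqM hA s H).Hval)
    [IsFractionRing Bj F₀] [IsNoetherianRing Bj] [IsIntegrallyClosed Bj]
    {m : ℕ} (hcop : Nat.Coprime m q)
    (vert : Finset (HtOne Bj)) {ι : Type*} (W : ι → ValuationSubring F₀)
    (hW : ∀ i, W i = RwK0 A (M' * q * q) ∨
      W i = (redData2QK0 A (M' * q * q) (Fermat.Agent.GL.AL.hallDvd_sq M' hq hqM)).Rw ∨
      W i = Rw3K0 A (M' * q * q) q)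
    (hvert : ∀ p ∈ vert, ∃ i, (V1 F₀ p : ValuationSubring F₀) = W i)
    (f : Fin 3 → HtOne Bj) (hf : ∀ p, p ∈ vert ↔ ∃ i, f i = p) (hinj : Function.Injective f)
    {qB : Bj} (hqB : (qB : F₀) = ((q : ℕ) : F₀))
    (hqv : ∀ j ∈ vert, qB ∈ j.1) (s' : Bj) (Q : Ideal Bj → Prop)
    (hdich : ∀ 𝔫 : Ideal Bj, 𝔫.IsMaximal → qB ∈ 𝔫 →
      (s' ∈ 𝔫 ∧ (f 0).1 ≤ 𝔫 ∧ (f 1).1 ≤ 𝔫 ∧ (f 2).1 ≤ 𝔫 ∧ Q 𝔫) ∨
      (s' ∉ 𝔫 ∧ ¬ ((f 0).1 ≤ 𝔫 ∧ (f 1).1 ≤ 𝔫) ∧ ¬ ((f 1).1 ≤ 𝔫 ∧ (f 2).1 ≤ 𝔫) ∧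
        ¬ ((f 0).1 ≤ 𝔫 ∧ (f 2).1 ≤ 𝔫)))
    (hs : ∀ 𝔫 : Ideal Bj, 𝔫.IsMaximal → qB ∈ 𝔫 → s' ∈ 𝔫 →
      (aeval (jB A (M' * q * q)) s : BK0 A (M' * q * q)) ∈ 𝔫) :
    ∀ u : F₀, u ≠ 0 → U3 (setupK0Of A hq hqM hA s H hv) m u →
      ∀ 𝔫 : Ideal Bj, 𝔫.IsMaximal → qB ∈ 𝔫 → s' ∈ 𝔫 → (∀ p ∈ vert, p.1 ≤ 𝔫) → Q 𝔫 →
        ∃ g ∈ (⊤ : Subring F₀), g ^ m * u ∈ Bj ∧ LocAt (V1 (B := Bj) F₀) Bj ⊤ vert 𝔫 g := by
  have : Fact q.Prime := ⟨hq⟩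
  have hQ : Fermat.Agent.GL.AL.HallDvd (q ^ 2) (M' * q * q) :=
    Fermat.Agent.GL.AL.hallDvd_sq M' hq hqM
  have hBf : ∀ x : F₀, x ∈ Bj ↔ x ∈ Fermat.Agent.GL.OldTriplesK0.B3K0 M' q A hQ := fun x => by
    rw [Fermat.Agent.GL.RedInCThm.b3K0_eq_chartRing M' q A hQ hqM hA]
  exact Fermat.Agent.GL.Final.TypeIIIHallK0.hIII_hall_K0_pts (hQ := hQ)
    (B := BK0 A (M' * q * q)) hqM hA h2 h3 hBf
    (fun r => rfl) (jB A (M' * q * q)) s (setupK0Of A hq hqM hA s H hv) (fun n => rfl)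
    (buildK0_χ_algebraMap A hq hqM hA s H) (RingEquiv.refl _) (fun b => rfl)
    (fun x => Iff.rfl) (fun x h h' => rfl) (fun x => Iff.rfl) (fun x h h' => rfl)
    (fun x => Iff.rfl) (fun x h h' => rfl) (natCast_ne_zero_of_coprime A hq hA hcop)
    vert W hW hvert f hf hinj hqB hqv s' Q hdich hs

/-! ### the frame `chartRing (R0 A) (jK0 A N)` of helper56 `h5K0_of_hall` / helper11 `hallj_K0_of_typed` -/

local notation "Bk" => chartRing (R0 A) (jK0 A (M' * q * q))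

/-- `RingEquiv.subringCongr` is the identity on elements (GENERIC subrings: for the concrete pair
`BK0 A N`, `chartRing (R0 A) (jK0 A N)` a direct `rfl` sends the kernel into comparing `jK0` with
`jC`). -/
theorem coe_subringCongr {F : Type*} [Ring F] {S T : Subring F} (h : S = T) (b : S) :
    ((RingEquiv.subringCongr h b : T) : F) = (b : F) := rfl

/-- the identification `BK0 A N ≃ chartRing (R0 A) (jK0 A N)` (identity on elements). -/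
def eK0 (N : ℕ) [NeZero N] : BK0 A N ≃+* chartRing (R0 A) (jK0 A N) :=
  RingEquiv.subringCongr (BK0_eq_chartRing_jK0 A N)

theorem coe_eK0 (N : ℕ) [NeZero N] (b : BK0 A N) :
    ((eK0 A N b : chartRing (R0 A) (jK0 A N)) : modularFunctionFieldFullC (K0 A) N) =
      (b : modularFunctionFieldFullC (K0 A) N) :=
  coe_subringCongr (BK0_eq_chartRing_jK0 A N) b

/-- `s(j)` in the chart ring, read in the function field. -/
theorem coe_aeval_jB (N : ℕ) [NeZero N] (s : (R0 A)[X]) :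
    ((aeval (jB A N) s : BK0 A N) : modularFunctionFieldFullC (K0 A) N) =
      s.eval₂ ((algebraMap (K0 A) (modularFunctionFieldFullC (K0 A) N)).comp (R0 A).subtype)
        (jC N (K0 A)) := by
  rw [aeval_def]
  exact Polynomial.hom_eval₂ s (algebraMap (R0 A) (BK0 A N)) (BK0 A N).subtype (jB A N)

set_option synthInstance.maxHeartbeats 400000 in
set_option maxHeartbeats 1600000 in
/-- **the `hIII` conjunct of the typed data `H` of helper11 `H5HalljK0.hallj_K0_of_typed`** at the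
concrete `setupK0Of`, on the frame `chartRing (R0 A) (jK0 A (M' q q))` (`vert := vertFinset hqB`,
`qB := baseB j₀ (q0 A q)`, `f hf1 hf2 hinj` = the frame parametrisation handed over by `H`). -/
theorem hIII_setupK0Of_jK0 (hq : q.Prime) (hqM : ¬ q ∣ M') (hA : (q : Qb) ∈ A.nonunits)
    (h2 : q = 2 → 3 ∣ M') (h3 : q = 3 → 2 ∣ M')
    (s : (R0 A)[X]) (H : SsPts A hq hqM hA s) (hv : (buildK0 A hq hqM hA s H).Hval)
    [IsFractionRing Bk F₀] [IsNoetherianRing Bk] [IsIntegrallyClosed Bk]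
    {m : ℕ} (hcop : Nat.Coprime m q)
    (vert : Finset (HtOne Bk)) (f : Fin 3 → HtOne Bk)
    (hf1 : ∀ i, (V1 F₀ (f i) : ValuationSubring F₀) =
      Fermat.Agent.GL.Val.L1eAsmK0.W3 A (Fermat.Agent.GL.AL.hallDvd_sq M' hq hqM) i)
    (hf2 : ∀ p, p ∈ vert ↔ ∃ i, f i = p) (hinj : Function.Injective f)
    {qB : Bk} (hqB : (qB : F₀) = ((q : ℕ) : F₀))
    (hqv : ∀ j ∈ vert, qB ∈ j.1) (s' : Bk) (Q : Ideal Bk → Prop)
    (hdich : ∀ 𝔫 : Ideal Bk, 𝔫.IsMaximal → qB ∈ 𝔫 →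
      (s' ∈ 𝔫 ∧ (f 0).1 ≤ 𝔫 ∧ (f 1).1 ≤ 𝔫 ∧ (f 2).1 ≤ 𝔫 ∧ Q 𝔫) ∨
      (s' ∉ 𝔫 ∧ ¬ ((f 0).1 ≤ 𝔫 ∧ (f 1).1 ≤ 𝔫) ∧ ¬ ((f 1).1 ≤ 𝔫 ∧ (f 2).1 ≤ 𝔫) ∧
        ¬ ((f 0).1 ≤ 𝔫 ∧ (f 2).1 ≤ 𝔫)))
    (hs : ∀ 𝔫 : Ideal Bk, 𝔫.IsMaximal → qB ∈ 𝔫 → s' ∈ 𝔫 →
      eK0 A (M' * q * q) (aeval (jB A (M' * q * q)) s) ∈ 𝔫) :
    ∀ u : F₀, u ≠ 0 → U3 (setupK0Of A hq hqM hA s H hv) m u →
      ∀ 𝔫 : Ideal Bk, 𝔫.IsMaximal → qB ∈ 𝔫 → s' ∈ 𝔫 → (∀ p ∈ vert, p.1 ≤ 𝔫) → Q 𝔫 →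
        ∃ g ∈ (⊤ : Subring F₀), g ^ m * u ∈ Bk ∧ LocAt (V1 (B := Bk) F₀) Bk ⊤ vert 𝔫 g := by
  have : Fact q.Prime := ⟨hq⟩
  have hQ : Fermat.Agent.GL.AL.HallDvd (q ^ 2) (M' * q * q) :=
    Fermat.Agent.GL.AL.hallDvd_sq M' hq hqM
  have hBf : ∀ x : F₀, x ∈ Bk ↔ x ∈ Fermat.Agent.GL.OldTriplesK0.B3K0 M' q A hQ := fun x => by
    rw [Fermat.Agent.GL.RedInCThm.b3K0_eq_chartRing M' q A hQ hqM hA, jK0_eq_jC]
  have hW : ∀ i : Fin 3,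
      Fermat.Agent.GL.Val.L1eAsmK0.W3 A hQ i = (setupK0Of A hq hqM hA s H hv).W1 ∨
      Fermat.Agent.GL.Val.L1eAsmK0.W3 A hQ i = (setupK0Of A hq hqM hA s H hv).W2 ∨
      Fermat.Agent.GL.Val.L1eAsmK0.W3 A hQ i = (setupK0Of A hq hqM hA s H hv).W3 := by
    intro i
    fin_cases i
    · exact Or.inl rfl
    · exact Or.inr (Or.inl rfl)
    · exact Or.inr (Or.inr rfl)
  have hvert : ∀ p ∈ vert, ∃ i, (V1 F₀ p : ValuationSubring F₀) =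
      Fermat.Agent.GL.Val.L1eAsmK0.W3 A hQ i := by
    intro p hp
    obtain ⟨i, rfl⟩ := (hf2 p).1 hp
    exact ⟨i, hf1 i⟩
  exact Fermat.Agent.GL.Final.TypeIIIHallK0.hIII_hall_K0_pts (hQ := hQ)
    (B := BK0 A (M' * q * q)) hqM hA h2 h3 hBf
    (fun r => rfl) (jB A (M' * q * q)) s (setupK0Of A hq hqM hA s H hv) (fun n => rfl)
    (buildK0_χ_algebraMap A hq hqM hA s H) (eK0 A (M' * q * q))
    (fun b => (coe_eK0 A (M' * q * q) b).trans rfl)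
    (fun x => Iff.rfl) (fun x h h' => rfl) (fun x => Iff.rfl) (fun x h h' => rfl)
    (fun x => Iff.rfl) (fun x h h' => rfl) (natCast_ne_zero_of_coprime A hq hA hcop)
    vert (Fermat.Agent.GL.Val.L1eAsmK0.W3 A hQ) hW hvert f hf2 hinj hqB hqv s' Q hdich hs

/-- the comparison hypothesis `hs` when the supersingular element of the frame IS `s(j)`. -/
theorem hs_of_coe_eq (s : (R0 A)[X]) {s' : Bk}
    (h : (s' : F₀) =
      s.eval₂ ((algebraMap (K0 A) F₀).comp (R0 A).subtype) (jC (M' * q * q) (K0 A)))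
    (𝔫 : Ideal Bk) (hs' : s' ∈ 𝔫) :
    eK0 A (M' * q * q) (aeval (jB A (M' * q * q)) s) ∈ 𝔫 := by
  have : eK0 A (M' * q * q) (aeval (jB A (M' * q * q)) s) = s' := by
    apply Subtype.ext
    rw [coe_eK0, coe_aeval_jB, h]
  rw [this]
  exact hs'

open Fermat.Agent.GL.AL Fermat.Agent.GL.Val.L1eAsmK0 in
set_option synthInstance.maxHeartbeats 400000 in
set_option maxHeartbeats 6400000 in
/-- **the 4th conjunct (`hIII`) of the typed data `H` of helper11 `H5HalljK0.hallj_K0_of_typed`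
VERBATIM** at `S := setupK0Of A hq hqM hA s₀ H hv` (PLUG-TESTED against that binder): `hqB f hf1
hf2 hinj` are the data handed over by `H`, `s Q hdich` the dichotomy chosen for the first conjunct
(helper47 `dichotomy_frame`), `hs` the identification `s = s₀(j)` in the function field. -/
theorem hIII_conj_K0 (hq : q.Prime) (hqM : ¬ q ∣ M') (hA : A.LiesOverPrime q)
    (hQ : HallDvd (q ^ 2) (M' * q * q)) (h2 : q = 2 → 3 ∣ M') (h3 : q = 3 → 2 ∣ M')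
    (s0 : (R0 A)[X]) (H : SsPts A hq hqM hA s0) (hv : (buildK0 A hq hqM hA s0 H).Hval)
    {m1 : ℕ} (hcop : Nat.Coprime m1 q)
    [IsFractionRing Bk F₀] [IsNoetherianRing Bk] [IsIntegrallyClosed Bk]
    (hqB : baseB (jK0 A (M' * q * q)) (q0 A q) ≠ 0)
    (f : Fin 3 → HtOne Bk) (hf1 : ∀ i, V1 F₀ (f i) = W3 A hQ i)
    (hf2 : ∀ p, p ∈ vertFinset hqB ↔ ∃ i, f i = p) (hinj : Function.Injective f)
    (s : Bk) (Q : Ideal Bk → Prop)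
    (hdich : ∀ 𝔫 : Ideal Bk, 𝔫.IsMaximal → baseB (jK0 A (M' * q * q)) (q0 A q) ∈ 𝔫 →
      (s ∈ 𝔫 ∧ (f 0).1 ≤ 𝔫 ∧ (f 1).1 ≤ 𝔫 ∧ (f 2).1 ≤ 𝔫 ∧ Q 𝔫) ∨
      (s ∉ 𝔫 ∧ ¬ ((f 0).1 ≤ 𝔫 ∧ (f 1).1 ≤ 𝔫) ∧ ¬ ((f 1).1 ≤ 𝔫 ∧ (f 2).1 ≤ 𝔫) ∧
        ¬ ((f 0).1 ≤ 𝔫 ∧ (f 2).1 ≤ 𝔫)))
    (hs : (s : F₀) =
      s0.eval₂ ((algebraMap (K0 A) F₀).comp (R0 A).subtype) (jC (M' * q * q) (K0 A))) :
    ∀ u : F₀, u ≠ 0 → U3 (setupK0Of A hq hqM hA s0 H hv) m1 u →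
      ∀ 𝔫 : Ideal Bk, 𝔫.IsMaximal → baseB (jK0 A (M' * q * q)) (q0 A q) ∈ 𝔫 → s ∈ 𝔫 →
        (∀ p ∈ vertFinset hqB, p.1 ≤ 𝔫) → Q 𝔫 →
        ∃ g ∈ (⊤ : Subring F₀), g ^ m1 * u ∈ Bk ∧
          LocAt (V1 (B := Bk) F₀) Bk ⊤ (vertFinset hqB) 𝔫 g := by
  refine hIII_setupK0Of_jK0 A hq hqM hA h2 h3 s0 H hv hcop (vertFinset hqB) f hf1 hf2 hinj ?_
    (fun p hp => (mem_vertFinset hqB p).1 hp) s Q hdich
    (fun 𝔫 _ _ hs' => hs_of_coe_eq A s0 hs 𝔫 hs')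
  have : ((baseB (jK0 A (M' * q * q)) (q0 A q) : Bk) : F₀) =
      algebraMap (K0 A) F₀ ((q0 A q : R0 A) : K0 A) := rfl
  rw [this, q0_coe_eq_natCast, map_natCast]

end Fermat.Agent.GL.Final.TypeIIISetupK0
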